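import Fermat.Agent.Flat.GoodModel

/-!
# Coordinates, reduction of ideals, affine and good ideals

Ideals of the fibres of a good model are recorded by their intersections with the spaces of
bounded pole order, in the coordinates of the pole-order basis. An ideal is affine at a place if
reduction preserves its codimension, good if it has no small elements. This is the language of
the regular families of ideals used for the group law.
-/

noncomputable section

namespace Fermat.Agent.Flat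

open scoped TensorProduct
open Module

local notation "Qbar" => AlgebraicClosure ℚ

namespace GoodModel

variable {ℓ : ℕ} [Fact ℓ.Prime] (C : GoodModel ℓ)

/-- Indices of the basis elements of degree at most `n`. -/
abbrev Idx (n : ℕ) : Type := {s : C.S // (s : ℕ) ≤ n}

instance finite_idx (n : ℕ) : Finite (C.Idx n) :=
  Finite.of_injective (β := Set.Iic n) (fun s => ⟨(s.1 : ℕ), s.2⟩) fun _ _ h =>
    Subtype.ext (Subtype.ext (congrArg Subtype.val h :))

instance fintype_idx (n : ℕ) : Fintype (C.Idx n) := Fintype.ofFinite _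

instance decidableEq_idx (n : ℕ) : DecidableEq (C.Idx n) := Classical.decEq _

variable (K : Type) [Field K] [Algebra (Zl ℓ) K]

/-- The coordinates of degree at most `n`. -/
def vec (n : ℕ) : C.R K →ₗ[K] (C.Idx n → K) :=
  LinearMap.pi fun s => (Finsupp.lapply s.1).comp (C.bK K).repr.toLinearMap

theorem vec_apply (n : ℕ) (x : C.R K) (s : C.Idx n) : C.vec K n x s = (C.bK K).repr x s.1 := rfl

/-- The element with given coordinates. -/
def unvec (n : ℕ) : (C.Idx n → K) →ₗ[K] C.R K :=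
  Fintype.linearCombination K fun s => C.bK K s.1

theorem vec_unvec (n : ℕ) (a : C.Idx n → K) : C.vec K n (C.unvec K n a) = a := by
  funext s
  rw [vec_apply, unvec, Fintype.linearCombination_apply, map_sum, Finsupp.finsetSum_apply,
    Finset.sum_eq_single s]
  · simp
  · intro t _ hts
    rw [map_smul, Finsupp.smul_apply, Basis.repr_self,
      Finsupp.single_eq_of_ne (fun h => hts (Subtype.ext h).symm), smul_zero]
  · exact fun h => absurd (Finset.mem_univ s) h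

variable [C.Fib K]

omit [C.Fib K] in
theorem unvec_mem_Lb (n : ℕ) (a : C.Idx n → K) : C.unvec K n a ∈ C.Lb K n := by
  rw [unvec, Fintype.linearCombination_apply]
  exact Submodule.sum_mem _ fun s _ =>
    Submodule.smul_mem _ _ (Submodule.subset_span ⟨s.1, s.2, rfl⟩)

theorem unvec_mem (n : ℕ) (a : C.Idx n → K) : C.unvec K n a ∈ (C.P K).L n :=
  C.Lb_le K n (C.unvec_mem_Lb K n a)

omit [C.Fib K] in
theorem vec_injOn_Lb {n : ℕ} {x : C.R K} (hx : x ∈ C.Lb K n) (h : C.vec K n x = 0) : x = 0 := by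
  refine (C.bK K).repr.injective (Finsupp.ext fun s => ?_)
  rw [map_zero, Finsupp.zero_apply]
  rcases le_or_gt (s : ℕ) n with hle | hlt
  · exact congrFun h ⟨s, hle⟩
  · exact C.mem_Lb.mp hx s hlt

omit [C.Fib K] in
theorem unvec_vec_Lb {n : ℕ} {x : C.R K} (hx : x ∈ C.Lb K n) :
    C.unvec K n (C.vec K n x) = x := by
  refine sub_eq_zero.mp (C.vec_injOn_Lb K (Submodule.sub_mem _ (C.unvec_mem_Lb K n _) hx) ?_)
  rw [map_sub, vec_unvec, sub_self]

theorem vec_injOn {n : ℕ} (hn : 2 * C.g ≤ n + 1) {x : C.R K} (hx : x ∈ (C.P K).L n)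
    (h : C.vec K n x = 0) : x = 0 :=
  C.vec_injOn_Lb K (C.L_eq K hn ▸ hx) h

theorem unvec_vec {n : ℕ} (hn : 2 * C.g ≤ n + 1) {x : C.R K} (hx : x ∈ (C.P K).L n) :
    C.unvec K n (C.vec K n x) = x :=
  C.unvec_vec_Lb K (C.L_eq K hn ▸ hx)

omit [C.Fib K] in
theorem finrank_map_vec {n : ℕ} {W : Submodule K (C.R K)} (hW : W ≤ C.Lb K n) :
    finrank K (W.map (C.vec K n)) = finrank K W := by
  refine ((LinearEquiv.ofInjective ((C.vec K n).comp W.subtype) ?_).trans
    (LinearEquiv.ofEq _ _ ?_)).finrank_eq.symm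
  · rw [← LinearMap.ker_eq_bot, Submodule.eq_bot_iff]
    exact fun x hx => Subtype.ext (C.vec_injOn_Lb K (hW x.2) hx)
  · rw [LinearMap.range_comp, Submodule.range_subtype]

/-- `I ∩ L n` in coordinates. -/
def vLI (I : Ideal (C.R K)) (n : ℕ) : Submodule K (C.Idx n → K) :=
  ((C.P K).LI I n).map (C.vec K n)

theorem finrank_vLI (I : Ideal (C.R K)) {n : ℕ} (hn : 2 * C.g ≤ n + 1) :
    finrank K (C.vLI K I n) = finrank K ((C.P K).LI I n) :=
  C.finrank_map_vec K (inf_le_right.trans (C.L_eq K hn).le)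

theorem finrank_vLI₀ (I : Ideal (C.R Qbar)) (n : ℕ) :
    finrank Qbar (C.vLI Qbar I n) = finrank Qbar ((C.P Qbar).LI I n) :=
  C.finrank_map_vec Qbar (inf_le_right.trans (C.L_generic n).le)

theorem finrank_vLI_le (I : Ideal (C.R K)) (n : ℕ) :
    finrank K (C.vLI K I n) ≤ finrank K ((C.P K).LI I n) :=
  Submodule.finrank_map_le _ _

theorem unvec_vec₀ {n : ℕ} {x : C.R Qbar} (hx : x ∈ (C.P Qbar).L n) :
    C.unvec Qbar n (C.vec Qbar n x) = x :=
  C.unvec_vec_Lb Qbar (C.L_generic n ▸ hx)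

theorem mem_vLI_of {I : Ideal (C.R K)} {n : ℕ} {a : C.Idx n → K} (h : C.unvec K n a ∈ I) :
    a ∈ C.vLI K I n :=
  ⟨C.unvec K n a, ⟨h, C.unvec_mem K n a⟩, C.vec_unvec K n a⟩

theorem mem_vLI {I : Ideal (C.R Qbar)} {n : ℕ} {a : C.Idx n → Qbar} :
    a ∈ C.vLI Qbar I n ↔ C.unvec Qbar n a ∈ I := by
  refine ⟨?_, C.mem_vLI_of Qbar⟩
  rintro ⟨x, ⟨hx, hxn⟩, rfl⟩
  rw [C.unvec_vec₀ hxn]
  exact hx

theorem card_idx {n : ℕ} (h : 3 * C.g ≤ n + 1) : Fintype.card (C.Idx n) + C.g = n + 1 := by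
  have h0 : (⊤ : Ideal (C.R Qbar)) ≠ ⊥ :=
    fun h => (C.P Qbar).b.ne_zero ⟨0, C.zero_mem⟩ ((Submodule.mem_bot _).mp (h ▸ Submodule.mem_top))
  have h1 := (C.P Qbar).finrank_LI h0 (n := n) (by
    rw [PoleBasis.codim_top, zero_add]; exact h)
  rw [PoleBasis.codim_top, add_zero] at h1
  rw [← C.finrank_vLI₀] at h1
  have h2 : C.vLI Qbar ⊤ n = ⊤ := eq_top_iff.mpr fun a _ => C.mem_vLI.mpr trivial
  rw [h2, finrank_top, Module.finrank_fintype_fun_eq_card] at h1
  exact h1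

variable {C} {K}

theorem isInt_unvec {v : Pl ℓ} {n : ℕ} {a : C.Idx n → Qbar} (h : ∀ s, a s ∈ v.A) :
    IsInt v (C.unvec Qbar n a) := by
  intro s
  by_cases hs : (s : ℕ) ≤ n
  · have := congrFun (C.vec_unvec Qbar n a) ⟨s, hs⟩
    rw [vec_apply] at this
    rw [this]; exact h _
  · have := (C.P Qbar).mem_L.mp (C.unvec_mem Qbar n a) s (not_le.mp hs)
    rw [(C.P Qbar).coef_of_mem s.2] at this
    rw [show (C.bK Qbar).repr (C.unvec Qbar n a) s = 0 from this]
    exact v.A.zero_mem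

theorem vec_redR (v : Pl ℓ) (n : ℕ) (x : C.R Qbar) :
    C.vec v.k n (redR v x) = fun s => red v.A (C.vec Qbar n x s) :=
  funext fun s => repr_redR x s.1

/-- Reduction in coordinates lands in the reduction of the ideal. -/
theorem redSub_vLI_le (v : Pl ℓ) (I : Ideal (C.R Qbar)) (n : ℕ) :
    redSub v.A (C.vLI Qbar I n) ≤ C.vLI v.k (redI v I) n := by
  refine Submodule.span_le.mpr ?_
  rintro _ ⟨a, ⟨ha, hint⟩, rfl⟩
  have hx : C.unvec Qbar n a ∈ I := C.mem_vLI.mp ha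
  refine ⟨redR v (C.unvec Qbar n a), ⟨mem_redI hx (isInt_unvec hint),
    redR_mem_L (C.unvec_mem Qbar n a)⟩, ?_⟩
  rw [vec_redR, vec_unvec]

theorem finrank_LI_le_red (v : Pl ℓ) (I : Ideal (C.R Qbar)) {n : ℕ} (hn : 2 * C.g ≤ n + 1) :
    finrank Qbar ((C.P Qbar).LI I n) ≤ finrank v.k ((C.P v.k).LI (redI v I) n) := by
  rw [← C.finrank_vLI₀, ← C.finrank_vLI v.k _ hn, ← finrank_redSub (A := v.A)]
  exact Submodule.finrank_mono (redSub_vLI_le v I n)

theorem redI_ne_bot (v : Pl ℓ) {I : Ideal (C.R Qbar)} (hI : I ≠ ⊥) : redI v I ≠ ⊥ := by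
  intro h
  have h1 := (C.P Qbar).le_finrank_LI hI (3 * C.g + (C.P Qbar).codim I)
  have h2 := finrank_LI_le_red v I (n := 3 * C.g + (C.P Qbar).codim I) (by omega)
  have h3 : finrank v.k ((C.P v.k).LI (redI v I) (3 * C.g + (C.P Qbar).codim I)) = 0 := by
    rw [h, Submodule.finrank_eq_zero, Submodule.eq_bot_iff]
    exact fun x hx => hx.1
  have : (C.P Qbar).g = C.g := rfl
  omega

/-- Reduction does not increase the codimension. -/
theorem codim_redI_le (v : Pl ℓ) {I : Ideal (C.R Qbar)} (hI : I ≠ ⊥) :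
    (C.P v.k).codim (redI v I) ≤ (C.P Qbar).codim I := by
  set n := (C.P Qbar).codim I + (C.P v.k).codim (redI v I) + 3 * C.g
  have hg : (C.P Qbar).g = C.g := rfl
  have hg' := C.P_g v.k
  have h1 := (C.P Qbar).finrank_LI hI (n := n) (by omega)
  have h2 := (C.P v.k).finrank_LI (redI_ne_bot v hI) (n := n) (by omega)
  have h3 := finrank_LI_le_red v I (n := n) (by omega)
  omega

/-- The reduction does not lose points (none goes to infinity). -/
def AFF (v : Pl ℓ) (I : Ideal (C.R Qbar)) : Prop :=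
  I ≠ ⊥ ∧ (C.P v.k).codim (redI v I) = (C.P Qbar).codim I

theorem AFF.redSub_vLI {v : Pl ℓ} {I : Ideal (C.R Qbar)} (h : AFF v I) {n : ℕ}
    (hn : (C.P Qbar).codim I + 3 * C.g ≤ n + 1) :
    redSub v.A (C.vLI Qbar I n) = C.vLI v.k (redI v I) n := by
  refine Submodule.eq_of_le_of_finrank_eq (redSub_vLI_le v I n) ?_
  rw [finrank_redSub, C.finrank_vLI₀, C.finrank_vLI v.k _ (by omega)]
  have hg : (C.P Qbar).g = C.g := rfl
  have hg' := C.P_g v.k
  have h1 := (C.P Qbar).finrank_LI h.1 (n := n) (by omega)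
  have h2 := (C.P v.k).finrank_LI (redI_ne_bot v h.1) (n := n) (by have := h.2; omega)
  have := h.2
  omega

theorem exists_scale (v : Pl ℓ) {x : C.R Qbar} (hx : x ≠ 0) :
    ∃ c : Qbar, c ≠ 0 ∧ IsInt v (c⁻¹ • x) ∧ redR v (c⁻¹ • x) ≠ 0 := by
  have hsupp : ((C.bK Qbar).repr x).support.Nonempty := by
    rw [Finsupp.support_nonempty_iff]
    exact fun h => hx ((C.bK Qbar).repr.map_eq_zero_iff.mp h)
  obtain ⟨s₀, hs₀, hmax⟩ := Finset.exists_max_image _
    (fun s => v.A.valuation ((C.bK Qbar).repr x s)) hsupp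
  set c := (C.bK Qbar).repr x s₀
  have hc : c ≠ 0 := Finsupp.mem_support_iff.mp hs₀
  have hr : ∀ s, (C.bK Qbar).repr (c⁻¹ • x) s = c⁻¹ * (C.bK Qbar).repr x s := fun s => by
    rw [map_smul, Finsupp.smul_apply, smul_eq_mul]
  refine ⟨c, hc, fun s => ?_, fun h => ?_⟩
  · rw [hr]
    by_cases hs : s ∈ ((C.bK Qbar).repr x).support
    · refine v.A.mem_of_valuation_le_one _ ?_
      rw [map_mul, map_inv₀, inv_mul_le_iff₀ (pos_iff_ne_zero.mpr (by simpa using hc)), mul_one]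
      exact hmax s hs
    · rw [Finsupp.notMem_support_iff.mp hs, mul_zero]; exact v.A.zero_mem
  · have := repr_redR (v := v) (c⁻¹ • x) s₀
    rw [h, map_zero, Finsupp.zero_apply, hr, inv_mul_cancel₀ hc, red_one] at this
    exact zero_ne_one this

/-- The reduction of a principal ideal with a primitive generator. -/
theorem redI_span_singleton {v : Pl ℓ} {f : C.R Qbar} (hf : IsInt v f) (hf0 : redR v f ≠ 0) :
    redI v (Ideal.span {f}) = Ideal.span {redR v f} := by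
  refine le_antisymm ?_ ((Ideal.span_singleton_le_iff_mem _).mpr
    (mem_redI (Ideal.mem_span_singleton_self f) hf))
  rintro _ ⟨y, hy, hyi, rfl⟩
  obtain ⟨x, rfl⟩ := Ideal.mem_span_singleton'.mp hy
  suffices IsInt v x by
    rw [redR_mul this hf]
    exact Ideal.mul_mem_left _ _ (Ideal.mem_span_singleton_self _)
  by_cases hx : x = 0
  · exact hx ▸ IsInt.zero
  obtain ⟨c, hc, hci, hcr⟩ := exists_scale v hx
  have := (C.P v.k).noZeroDivisors
  have hne : redR v (c⁻¹ • x * f) ≠ 0 := by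
    rw [redR_mul hci hf]; exact mul_ne_zero hcr hf0
  obtain ⟨s, hs⟩ : ∃ s, red v.A ((C.bK Qbar).repr (c⁻¹ • x * f) s) ≠ 0 := by
    by_contra h
    push Not at h
    refine hne ((C.bK v.k).repr.injective (Finsupp.ext fun s => ?_))
    rw [repr_redR, map_zero, Finsupp.zero_apply, h]
  have hu := (red_ne_zero_iff ((hci.mul hf) s)).mp hs
  have hcA : c ∈ v.A := by
    refine v.A.mem_of_valuation_le_one _ ?_
    have h1 : (C.bK Qbar).repr (x * f) s = c * (C.bK Qbar).repr (c⁻¹ • x * f) s := by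
      rw [smul_mul_assoc, map_smul, Finsupp.smul_apply, smul_eq_mul, mul_inv_cancel_left₀ hc]
    have h2 := (v.A.valuation_le_one_iff _).mpr (hyi s)
    rwa [h1, map_mul, hu, mul_one] at h2
  intro t
  have : (C.bK Qbar).repr x t = c * (C.bK Qbar).repr (c⁻¹ • x) t := by
    rw [map_smul, Finsupp.smul_apply, smul_eq_mul, mul_inv_cancel_left₀ hc]
  rw [this]
  exact v.A.mul_mem _ _ hcA (hci t)

theorem aff_span_singleton {v : Pl ℓ} {f : C.R Qbar} (hf : IsInt v f) (hf0 : redR v f ≠ 0)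
    (hdeg : (C.P v.k).deg (redR v f) = (C.P Qbar).deg f) : AFF v (Ideal.span {f}) := by
  have hfne : f ≠ 0 := fun h => hf0 (by rw [h, redR_zero])
  refine ⟨by simpa using hfne, ?_⟩
  rw [redI_span_singleton hf hf0, (C.P v.k).codim_span_singleton hf0,
    (C.P Qbar).codim_span_singleton hfne, hdeg]

/-- An affine ideal has an element of every large degree whose reduction has that degree. -/
theorem AFF.exists_element {v : Pl ℓ} {I : Ideal (C.R Qbar)} (h : AFF v I) {n : ℕ}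
    (hn : (C.P Qbar).codim I + 3 * C.g ≤ n) :
    ∃ f ∈ I, IsInt v f ∧ redR v f ≠ 0 ∧ (C.P v.k).deg (redR v f) = n ∧
      (C.P Qbar).deg f = n := by
  have hg' := C.P_g v.k
  obtain ⟨y, hy, hy0, hyd⟩ := (C.P v.k).mem_idegs.mp
    ((C.P v.k).mem_idegs_of_le (redI_ne_bot v h.1) (n := n) (by have := h.2; omega))
  have hnS : n ∈ C.S := C.mem_S (by omega)
  have hred := h.redSub_vLI (n := n) (by omega)
  have hymem : C.vec v.k n y ∈ redSub v.A (C.vLI Qbar I n) :=
    hred ▸ ⟨y, ⟨hy, (C.P v.k).deg_le_iff.mp hyd.le⟩, rfl⟩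
  let top : C.Idx n := ⟨⟨n, hnS⟩, le_rfl⟩
  obtain ⟨a, ha, hai, hatop⟩ : ∃ a, a ∈ C.vLI Qbar I n ∧ (∀ i, a i ∈ v.A) ∧
      red v.A (a top) ≠ 0 := by
    by_contra hne
    push Not at hne
    have hker : redSub v.A (C.vLI Qbar I n) ≤ LinearMap.ker (LinearMap.proj top) := by
      refine Submodule.span_le.mpr ?_
      rintro _ ⟨a, ⟨ha, hai⟩, rfl⟩
      exact hne a ha hai
    exact C.repr_deg_ne_zero (n := n) (by omega) hy0 hyd (hker hymem)
  have hf : C.unvec Qbar n a ∈ I := C.mem_vLI.mp ha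
  have hcoef : (C.bK Qbar).repr (C.unvec Qbar n a) top.1 = a top :=
    congrFun (C.vec_unvec Qbar n a) top
  have hr : (C.bK v.k).repr (redR v (C.unvec Qbar n a)) top.1 ≠ 0 := by
    rw [repr_redR, hcoef]; exact hatop
  refine ⟨_, hf, isInt_unvec hai, fun h0 => hr (by rw [h0, map_zero, Finsupp.zero_apply]), ?_, ?_⟩
  · exact (C.deg_eq_of_repr (by omega) (redR_mem_L (C.unvec_mem Qbar n a)) hr).2
  · refine (C.deg_eq_of_repr (by omega) (C.unvec_mem Qbar n a) ?_).2
    show (C.bK Qbar).repr (C.unvec Qbar n a) top.1 ≠ 0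
    rw [hcoef]
    exact fun h0 => hatop (by rw [h0, red_zero])

theorem exists_complement {K : Type} [Field K] [Algebra (Zl ℓ) K] [IsDedekindDomain (C.R K)]
    {I : Ideal (C.R K)} {f : C.R K} (hf : f ∈ I) : ∃ Y, Ideal.span {f} = I * Y :=
  Ideal.dvd_iff_le.mpr ((Ideal.span_singleton_le_iff_mem I).mpr hf)

/-- Products of ideals are affine exactly when the factors are. -/
theorem aff_mul_iff {v : Pl ℓ} {I J : Ideal (C.R Qbar)} (hI : I ≠ ⊥) (hJ : J ≠ ⊥) :
    AFF v (I * J) ↔ AFF v I ∧ AFF v J := by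
  have hIJ : I * J ≠ ⊥ := mul_ne_zero hI hJ
  have h1 : (C.P v.k).codim (redI v (I * J)) ≤ (C.P v.k).codim (redI v I * redI v J) :=
    (C.P v.k).codim_antitone (mul_ne_zero (redI_ne_bot v hI) (redI_ne_bot v hJ)) (redI_mul_le I J)
  rw [(C.P v.k).codim_mul (redI_ne_bot v hI) (redI_ne_bot v hJ)] at h1
  have h2 := codim_redI_le v hI
  have h3 := codim_redI_le v hJ
  have h4 := codim_redI_le v hIJ
  have h5 := (C.P Qbar).codim_mul hI hJ
  constructor
  · intro h
    have h6 := h.2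
    exact ⟨⟨hI, by omega⟩, ⟨hJ, by omega⟩⟩
  · rintro ⟨⟨-, e1⟩, ⟨-, e2⟩⟩
    refine ⟨hIJ, ?_⟩
    obtain ⟨f, hf, hfi, hfr, hfd, hfd'⟩ := AFF.exists_element ⟨hI, e1⟩ le_rfl
    obtain ⟨g, hg, hgi, hgr, hgd, hgd'⟩ := AFF.exists_element ⟨hJ, e2⟩ le_rfl
    have hf0 : f ≠ 0 := fun h0 => hfr (by rw [h0, redR_zero])
    have hg0 : g ≠ 0 := fun h0 => hgr (by rw [h0, redR_zero])
    have := (C.P v.k).noZeroDivisors
    have := (C.P Qbar).noZeroDivisors
    have hfg : AFF v (Ideal.span {f * g}) := by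
      refine aff_span_singleton (hfi.mul hgi) (redR_mul hfi hgi ▸ mul_ne_zero hfr hgr) ?_
      rw [redR_mul hfi hgi, (C.P v.k).deg_mul hfr hgr, (C.P Qbar).deg_mul hf0 hg0, hfd, hgd,
        hfd', hgd']
    obtain ⟨Y, hY⟩ := exists_complement (Ideal.mul_mem_mul hf hg)
    have hY0 : Y ≠ ⊥ := fun h0 => hfg.1 (by rw [hY, h0, Ideal.mul_bot])
    have h7 : (C.P v.k).codim (redI v (Ideal.span {f * g})) ≤
        (C.P v.k).codim (redI v (I * J) * redI v Y) :=
      (C.P v.k).codim_antitone (mul_ne_zero (redI_ne_bot v hIJ) (redI_ne_bot v hY0))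
        (hY ▸ redI_mul_le (I * J) Y)
    rw [(C.P v.k).codim_mul (redI_ne_bot v hIJ) (redI_ne_bot v hY0), hfg.2, hY,
      (C.P Qbar).codim_mul hIJ hY0] at h7
    have := codim_redI_le v hY0
    omega

/-- Reduction of affine ideals is multiplicative. -/
theorem AFF.redI_mul {v : Pl ℓ} {I J : Ideal (C.R Qbar)} (hI : AFF v I) (hJ : AFF v J) :
    redI v (I * J) = redI v I * redI v J := by
  have h := (aff_mul_iff hI.1 hJ.1).mpr ⟨hI, hJ⟩
  refine ((C.P v.k).eq_of_le_of_codim_le (mul_ne_zero (redI_ne_bot v hI.1) (redI_ne_bot v hJ.1))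
    (redI_mul_le I J) ?_).symm
  rw [(C.P v.k).codim_mul (redI_ne_bot v hI.1) (redI_ne_bot v hJ.1), h.2, hI.2, hJ.2,
    (C.P Qbar).codim_mul hI.1 hJ.1]

theorem aff_top (v : Pl ℓ) : AFF v (⊤ : Ideal (C.R Qbar)) ∧ redI v (⊤ : Ideal (C.R Qbar)) = ⊤ := by
  have := (C.P Qbar).nontrivial
  have h : redI v (⊤ : Ideal (C.R Qbar)) = ⊤ := by
    refine eq_top_iff.mpr fun y _ => ?_
    obtain ⟨x, hx, rfl⟩ := exists_lift (v := v) y
    exact mem_redI trivial hx
  refine ⟨⟨top_ne_bot, ?_⟩, h⟩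
  rw [h, (C.P v.k).codim_top, (C.P Qbar).codim_top]

end GoodModel

namespace PoleBasis

variable {K R : Type*} [Field K] [CommRing R] [Algebra K R] (P : PoleBasis K R)

/-- The class of `Y` contributes no function of pole order below the generic one. -/
def GOOD (Y : Ideal R) : Prop := ∀ d ∈ P.idegs Y, P.codim Y + P.g ≤ d

theorem GOOD.finrank_LI {Y : Ideal R} (hY : Y ≠ ⊥) (h : P.GOOD Y) :
    finrank K (P.LI Y (P.codim Y + P.g)) = 1 := by
  have hsub : Set.Iio (P.codim Y + P.g) ⊆ (P.idegs Y)ᶜ := fun d hd hd' =>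
    absurd hd (not_lt.mpr (h d hd'))
  have heq : Set.Iio (P.codim Y + P.g) = (P.idegs Y)ᶜ := by
    refine Set.eq_of_subset_of_ncard_le hsub ?_ (P.finite_compl_idegs hY)
    rw [P.ncard_compl_idegs hY, ← Nat.card_coe_set_eq]
    simp [add_comm]
  have e : P.idegs Y ∩ Set.Iic (P.codim Y + P.g) = {P.codim Y + P.g} := by
    ext d
    constructor
    · rintro ⟨h1, h2⟩; exact le_antisymm h2 (h d h1)
    · rintro rfl
      refine ⟨?_, Set.mem_Iic.mpr le_rfl⟩
      by_contra hn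
      have h3 : P.codim Y + P.g ∈ Set.Iio (P.codim Y + P.g) := heq.symm ▸ hn
      exact lt_irrefl (P.codim Y + P.g) (Set.mem_Iio.mp h3)
  rw [P.finrank_LI_eq_ncard, e, Set.ncard_singleton]

theorem GOOD.deg_eq {Y : Ideal R} (h : P.GOOD Y) {x : R} (hx : x ∈ Y) (hx0 : x ≠ 0)
    (hd : P.deg x ≤ P.codim Y + P.g) : P.deg x = P.codim Y + P.g :=
  le_antisymm hd (h _ ⟨x, hx, hx0, rfl⟩)

/-- `GOOD` only depends on the ideal class. -/
theorem GOOD.of_mul_eq [IsAlgClosed K] [IsDedekindDomain R] {Y Y' : Ideal R} {x y : R}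
    (hx : x ≠ 0) (hy : y ≠ 0) (hY : Y ≠ ⊥) (hY' : Y' ≠ ⊥)
    (he : Ideal.span {x} * Y = Ideal.span {y} * Y') (h : P.GOOD Y) : P.GOOD Y' := by
  have := P.noZeroDivisors
  have hsx : Ideal.span {x} ≠ ⊥ := by simpa using hx
  have hsy : Ideal.span {y} ≠ ⊥ := by simpa using hy
  have hc : P.deg x + P.codim Y = P.deg y + P.codim Y' := by
    rw [← P.codim_span_singleton hx, ← P.codim_span_singleton hy, ← P.codim_mul hsx hY,
      ← P.codim_mul hsy hY', he]
  rintro _ ⟨z, hz, hz0, rfl⟩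
  have : y * z ∈ Ideal.span {x} * Y :=
    he ▸ Ideal.mul_mem_mul (Ideal.mem_span_singleton_self y) hz
  obtain ⟨w, hw, hwe⟩ := Ideal.mem_span_singleton_mul.mp this
  have hw0 : w ≠ 0 := fun h0 => mul_ne_zero hy hz0 (by rw [← hwe, h0, mul_zero])
  have h1 := congrArg P.deg hwe
  rw [P.deg_mul hx hw0, P.deg_mul hy hz0] at h1
  have := h _ ⟨w, hw, hw0, rfl⟩
  omega

end PoleBasis

namespace GoodModel

variable {ℓ : ℕ} [Fact ℓ.Prime] {C : GoodModel ℓ}

theorem AFF.good_of_red {v : Pl ℓ} {Y : Ideal (C.R Qbar)} (hY : AFF v Y)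
    (h : (C.P v.k).GOOD (redI v Y)) : (C.P Qbar).GOOD Y := by
  rintro _ ⟨x, hx, hx0, rfl⟩
  obtain ⟨c, hc, hci, hcr⟩ := exists_scale v hx0
  have h1 := h _ ⟨redR v (c⁻¹ • x), mem_redI (Submodule.smul_of_tower_mem Y c⁻¹ hx) hci, hcr, rfl⟩
  have h2 : (C.P v.k).deg (redR v (c⁻¹ • x)) ≤ (C.P Qbar).deg x :=
    (C.P v.k).deg_le_iff.mpr
      (redR_mem_L (Submodule.smul_mem _ _ ((C.P Qbar).mem_L_deg x)))
  have := hY.2
  exact le_trans (le_of_eq (by rw [this, C.P_g v.k]; rfl)) (h1.trans h2)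

/-- Any complement of the reduction of `I` is good. -/
def GoodInv (v : Pl ℓ) (I : Ideal (C.R Qbar)) : Prop :=
  ∀ Y : Ideal (C.R v.k), Y ≠ ⊥ → ∀ f : C.R v.k, f ≠ 0 → redI v I * Y = Ideal.span {f} →
    (C.P v.k).GOOD Y

/-- One good complement makes all complements good. -/
theorem GoodInv.of_one {v : Pl ℓ} {I : Ideal (C.R Qbar)} (hI : I ≠ ⊥) {Y : Ideal (C.R v.k)}
    (hY : Y ≠ ⊥) {f : C.R v.k} (hf : f ≠ 0) (he : redI v I * Y = Ideal.span {f})
    (h : (C.P v.k).GOOD Y) : GoodInv v I := by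
  intro Y' hY' f' hf' he'
  refine PoleBasis.GOOD.of_mul_eq _ hf' hf hY hY' ?_ h
  refine mul_left_cancel₀ (redI_ne_bot v hI) ?_
  rw [mul_left_comm, he, mul_left_comm, he', mul_comm]

end GoodModel

end Fermat.Agent.Flat
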