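import Mathlib.RingTheory.UniqueFactorizationDomain.Basic
import Fermat.Agent.Flat.Coords

/-!
# Galois transport of fibres, reductions and conditions on ideals

Conjugating a place transports fibres, reductions, codimensions and the affine and good
conditions, so conditions at one place over `ℓ` hold at all of them.
-/

noncomputable section

namespace Fermat.Agent.Flat

open scoped TensorProduct Pointwise
open Module

local notation "Qbar" => AlgebraicClosure ℚ
local notation "Gal0" => (AlgebraicClosure ℚ ≃ₐ[ℚ] AlgebraicClosure ℚ)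

namespace PoleBasis

variable {K R K' R' : Type*} [Field K] [CommRing R] [Algebra K R] [Field K'] [CommRing R']
  [Algebra K' R'] [IsAlgClosed K] [IsAlgClosed K'] [IsDedekindDomain R] [IsDedekindDomain R']

/-- The codimension only depends on the ring. -/
theorem codim_map_ringEquiv (P : PoleBasis K R) (P' : PoleBasis K' R') (e : R ≃+* R') {I : Ideal R}
    (hI : I ≠ ⊥) : P'.codim (I.map (e : R →+* R')) = P.codim I := by
  have hne : ∀ J : Ideal R, J ≠ ⊥ → J.map (e : R →+* R') ≠ ⊥ := fun J hJ h =>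
    hJ ((Ideal.map_eq_bot_iff_of_injective e.injective).mp h)
  induction I using UniqueFactorizationMonoid.induction_on_prime with
  | h₁ => exact absurd rfl hI
  | h₂ J hu =>
    rw [Ideal.isUnit_iff.mp hu, Ideal.map_top, codim_top, codim_top]
  | h₃ J Q hJ0 hQ ih =>
    have hmax : Q.IsMaximal := (Ideal.isPrime_of_prime hQ).isMaximal hQ.ne_zero
    have hmax' : (Q.map (e : R →+* R')).IsMaximal :=
      Ideal.map_isMaximal_of_equiv e (p := Q) (hp := hmax)
    rw [mul_comm Q J, Ideal.map_mul, P'.codim_mul_maximal (hne J hJ0) hmax' (hne Q hQ.ne_zero),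
      P.codim_mul_maximal hJ0 hmax hQ.ne_zero, ih hJ0]

end PoleBasis

variable {ℓ : ℕ} [Fact ℓ.Prime]

/-- `σ` as a map of `ℤ_(ℓ)`-algebras. -/
def galZl (σ : Gal0) : Qbar ≃ₐ[Zl ℓ] Qbar := σ.restrictScalars (Zl ℓ)

omit [Fact (Nat.Prime ℓ)] in
@[simp] theorem galZl_apply (σ : Gal0) (x : Qbar) : galZl (ℓ := ℓ) σ x = σ x := rfl

namespace Pl

/-- The conjugate place. -/
def smul (σ : Gal0) (v : Pl ℓ) : Pl ℓ := ⟨σ • v.A, Gal.liesOverPrime_smul σ v.over⟩

omit [Fact (Nat.Prime ℓ)] in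
theorem mem_smul {σ : Gal0} {v : Pl ℓ} {x : Qbar} : σ x ∈ (smul σ v).A ↔ x ∈ v.A := by
  show σ x ∈ σ • v.A ↔ _
  rw [Gal.mem_smul_iff]
  exact iff_of_eq (congrArg (· ∈ v.A) (σ.symm_apply_apply x))

theorem exists_smul_eq (v w : Pl ℓ) : ∃ σ : Gal0, smul σ v = w := by
  obtain ⟨σ, hσ⟩ := Gal.exists_smul_eq (Fact.out : ℓ.Prime) v.over w.over
  refine ⟨σ, ?_⟩
  obtain ⟨A, hA⟩ := w
  simp only [smul, mk.injEq]
  exact hσ

/-- `σ` on valuation rings. -/
def galO (σ : Gal0) (v : Pl ℓ) : v.O ≃ₐ[Zl ℓ] (smul σ v).O where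
  toFun x := ⟨σ x, mem_smul.mpr x.2⟩
  invFun y := ⟨σ.symm y, mem_smul.mp (by rw [σ.apply_symm_apply]; exact y.2)⟩
  left_inv x := Subtype.ext (σ.symm_apply_apply _)
  right_inv y := Subtype.ext (σ.apply_symm_apply _)
  map_mul' x y := Subtype.ext (map_mul σ (x : Qbar) (y : Qbar))
  map_add' x y := Subtype.ext (map_add σ (x : Qbar) (y : Qbar))
  commutes' z := Subtype.ext ((galZl (ℓ := ℓ) σ).commutes z)

/-- `σ` on residue fields. -/
def galK (σ : Gal0) (v : Pl ℓ) : v.k ≃ₐ[Zl ℓ] (smul σ v).k :=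
  { IsLocalRing.ResidueField.mapEquiv (galO σ v).toRingEquiv with
    commutes' := fun z => by
      show IsLocalRing.ResidueField.mapEquiv (galO σ v).toRingEquiv
        (IsLocalRing.residue v.O (algebraMap (Zl ℓ) v.O z)) = _
      rw [IsLocalRing.ResidueField.mapEquiv_apply, IsLocalRing.ResidueField.map_residue]
      exact congrArg (IsLocalRing.residue (smul σ v).O) ((galO σ v).commutes z) }

theorem galK_red (σ : Gal0) (v : Pl ℓ) (x : Qbar) :
    galK σ v (red v.A x) = red (smul σ v).A (σ x) := by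
  by_cases hx : x ∈ v.A
  · rw [red_of_mem hx, red_of_mem (mem_smul.mpr hx)]
    show IsLocalRing.ResidueField.mapEquiv (galO σ v).toRingEquiv
      (IsLocalRing.residue v.O ⟨x, hx⟩) = _
    rw [IsLocalRing.ResidueField.mapEquiv_apply, IsLocalRing.ResidueField.map_residue]
    rfl
  · have h1 : red v.A x = 0 := by classical simp [red, dif_neg hx]
    have h2 : red (smul σ v).A (σ x) = 0 := by
      classical simp [red, dif_neg (mt mem_smul.mp hx)]
    rw [h1, h2, map_zero]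

end Pl

namespace GoodModel

variable {C : GoodModel ℓ}

section Chg

variable {K K' : Type} [Field K] [Algebra (Zl ℓ) K] [Field K'] [Algebra (Zl ℓ) K']

variable (C) in
/-- Base change along an isomorphism of coefficient fields. -/
def chgE (e : K ≃ₐ[Zl ℓ] K') : C.R K ≃ₐ[Zl ℓ] C.R K' :=
  Algebra.TensorProduct.congr e AlgEquiv.refl

theorem repr_chgE (e : K ≃ₐ[Zl ℓ] K') (x : C.R K) (s : C.S) :
    (C.bK K').repr (C.chgE e x) s = e ((C.bK K).repr x s) :=
  repr_chg e.toAlgHom x s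

theorem chgE_mem_Lb (e : K ≃ₐ[Zl ℓ] K') {n : ℕ} {x : C.R K} :
    C.chgE e x ∈ C.Lb K' n ↔ x ∈ C.Lb K n := by
  rw [C.mem_Lb, C.mem_Lb]
  simp only [repr_chgE, map_eq_zero_iff _ e.injective]

variable [C.Fib K] [C.Fib K']

theorem map_chgE_codim [IsAlgClosed K] [IsAlgClosed K'] [IsDedekindDomain (C.R K)]
    [IsDedekindDomain (C.R K')] (e : K ≃ₐ[Zl ℓ] K') {I : Ideal (C.R K)} (hI : I ≠ ⊥) :
    (C.P K').codim (I.map (C.chgE e).toRingEquiv.toRingHom) = (C.P K).codim I :=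
  (C.P K).codim_map_ringEquiv (C.P K') (C.chgE e).toRingEquiv hI

theorem good_map_chgE [IsAlgClosed K] [IsAlgClosed K'] [IsDedekindDomain (C.R K)]
    [IsDedekindDomain (C.R K')] (e : K ≃ₐ[Zl ℓ] K') {Y : Ideal (C.R K)} (hY : Y ≠ ⊥)
    (hc : C.g ≤ (C.P K).codim Y) (h : (C.P K).GOOD Y) :
    (C.P K').GOOD (Y.map (C.chgE e).toRingEquiv.toRingHom) := by
  rintro _ ⟨x, hx, hx0, rfl⟩
  rw [map_chgE_codim e hY, C.P_g]
  obtain ⟨y, hy, hyx⟩ := (Ideal.mem_map_iff_of_surjective _ (C.chgE e).surjective).mp hx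
  subst hyx
  by_contra hlt
  rw [not_le] at hlt
  have hy0 : y ≠ 0 := fun h0 => hx0 (by rw [h0, map_zero])
  have hL : C.chgE e y ∈ (C.P K').L ((C.P K).codim Y + C.g - 1) :=
    (C.P K').deg_le_iff.mp (by
      have : (C.P K').deg (C.chgE e y) < (C.P K).codim Y + C.g := hlt
      omega)
  rw [C.L_eq K' (by omega), chgE_mem_Lb] at hL
  have h2 : (C.P K).deg y ≤ (C.P K).codim Y + C.g - 1 :=
    (C.P K).deg_le_iff.mpr (C.Lb_le K _ hL)
  have h3 := h _ ⟨y, hy, hy0, rfl⟩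
  rw [C.P_g] at h3
  omega

end Chg

variable (C) in
/-- Galois on the generic fibre. -/
def galR (σ : Gal0) : C.R Qbar ≃ₐ[Zl ℓ] C.R Qbar := C.chgE (galZl σ)

variable (C) in
/-- Galois on ideals of the generic fibre. -/
def galI (σ : Gal0) (I : Ideal (C.R Qbar)) : Ideal (C.R Qbar) :=
  I.map (C.galR σ).toRingEquiv.toRingHom

theorem mem_galI {σ : Gal0} {I : Ideal (C.R Qbar)} {x : C.R Qbar} :
    x ∈ C.galI σ I ↔ ∃ y ∈ I, C.galR σ y = x :=
  Ideal.mem_map_iff_of_surjective _ (C.galR σ).surjective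

theorem galI_ne_bot {σ : Gal0} {I : Ideal (C.R Qbar)} (hI : I ≠ ⊥) : C.galI σ I ≠ ⊥ := fun h =>
  hI ((Ideal.map_eq_bot_iff_of_injective (C.galR σ).injective).mp h)

theorem galI_mul (σ : Gal0) (I J : Ideal (C.R Qbar)) :
    C.galI σ (I * J) = C.galI σ I * C.galI σ J :=
  Ideal.map_mul _ _ _

theorem galI_span (σ : Gal0) (x : C.R Qbar) :
    C.galI σ (Ideal.span {x}) = Ideal.span {C.galR σ x} := by
  rw [galI, Ideal.map_span, Set.image_singleton]
  rfl

theorem isInt_galR {σ : Gal0} {v : Pl ℓ} {x : C.R Qbar} :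
    IsInt (Pl.smul σ v) (C.galR σ x) ↔ IsInt v x := by
  refine forall_congr' fun s => ?_
  rw [galR, repr_chgE, galZl_apply, Pl.mem_smul]

theorem redR_galR (σ : Gal0) (v : Pl ℓ) (x : C.R Qbar) :
    redR (Pl.smul σ v) (C.galR σ x) = C.chgE (Pl.galK σ v) (redR v x) :=
  (C.bK _).repr.injective (Finsupp.ext fun s => by
    rw [repr_redR, galR, repr_chgE, repr_chgE, repr_redR, Pl.galK_red]
    rfl)

theorem redI_galI (σ : Gal0) (v : Pl ℓ) (I : Ideal (C.R Qbar)) :
    redI (Pl.smul σ v) (C.galI σ I) =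
      (redI v I).map (C.chgE (Pl.galK σ v)).toRingEquiv.toRingHom := by
  ext y
  rw [Ideal.mem_map_iff_of_surjective (C.chgE (Pl.galK σ v)).toRingEquiv.toRingHom
    (C.chgE (Pl.galK σ v)).surjective]
  constructor
  · rintro ⟨x, hx, hxi, rfl⟩
    obtain ⟨z, hz, rfl⟩ := mem_galI.mp hx
    exact ⟨redR v z, mem_redI hz (isInt_galR.mp hxi), (redR_galR σ v z).symm⟩
  · rintro ⟨_, ⟨z, hz, hzi, rfl⟩, rfl⟩
    exact ⟨C.galR σ z, mem_galI.mpr ⟨z, hz, rfl⟩, isInt_galR.mpr hzi, redR_galR σ v z⟩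

theorem codim_galI (σ : Gal0) {I : Ideal (C.R Qbar)} (hI : I ≠ ⊥) :
    (C.P Qbar).codim (C.galI σ I) = (C.P Qbar).codim I :=
  map_chgE_codim (galZl σ) hI

theorem AFF.galI {v : Pl ℓ} {I : Ideal (C.R Qbar)} (h : AFF v I) (σ : Gal0) :
    AFF (Pl.smul σ v) (C.galI σ I) := by
  refine ⟨galI_ne_bot h.1, ?_⟩
  rw [redI_galI, map_chgE_codim _ (redI_ne_bot v h.1), h.2, codim_galI σ h.1]

end GoodModel

end Fermat.Agent.Flat
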