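import Fermat.Agent.Flat.Model

/-!
# Closure properties of finite flat models: submodules, quotients, finite products

Finite flat models pass to Galois-stable submodules, equivariant quotients and finite products
and powers. Used to deduce flatness of the representation of a Hecke datum from that of the
torsion of `J₀(N)`.
-/

noncomputable section

namespace Fermat.Agent.Flat

open scoped TensorProduct

local notation "Qbar" => AlgebraicClosure ℚ
local notation "Gal0" => (AlgebraicClosure ℚ ≃ₐ[ℚ] AlgebraicClosure ℚ)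

variable {ℓ : ℕ}

theorem prodAlg_induction {S T : Type*} {H : Subalgebra (Zl ℓ) (S → Qbar)}
    {H' : Subalgebra (Zl ℓ) (T → Qbar)} {C : (S × T → Qbar) → Prop} {G : S × T → Qbar}
    (hG : G ∈ prodAlg H H') (h0 : C 0) (hadd : ∀ F F', C F → C F' → C (F + F'))
    (hmul : ∀ f ∈ H, ∀ g ∈ H', C fun p => f p.1 * g p.2) : C G := by
  obtain ⟨t, rfl⟩ := hG
  show C (pairHom H.val H'.val t)
  induction t using TensorProduct.induction_on with
  | zero => rw [map_zero]; exact h0
  | tmul a b =>
    rw [show pairHom H.val H'.val (a ⊗ₜ b) = fun p => (a : S → Qbar) p.1 * (b : T → Qbar) p.2 from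
      funext fun p => pairHom_tmul H.val H'.val a b p]
    exact hmul _ a.2 _ b.2
  | add a b ha hb => rw [map_add]; exact hadd _ _ ha hb

theorem swap_mem_prodAlg {S T : Type*} {H : Subalgebra (Zl ℓ) (S → Qbar)}
    {H' : Subalgebra (Zl ℓ) (T → Qbar)} {G : S × T → Qbar} (hG : G ∈ prodAlg H H') :
    (fun p : T × S => G (p.2, p.1)) ∈ prodAlg H' H := by
  refine prodAlg_induction (C := fun F => (fun p : T × S => F (p.2, p.1)) ∈ prodAlg H' H) hG
    (prodAlg H' H).zero_mem (fun F F' h h' => (prodAlg H' H).add_mem h h') fun f hf g hg => ?_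
  simpa [mul_comm] using mul_mem_prodAlg hg hf

theorem pullback_mem_prodAlg {S T S' T' : Type*} {H : Subalgebra (Zl ℓ) (S → Qbar)}
    {H' : Subalgebra (Zl ℓ) (T → Qbar)} {K : Subalgebra (Zl ℓ) (S' → Qbar)}
    {K' : Subalgebra (Zl ℓ) (T' → Qbar)} (u : S' → S) (v : T' → T)
    (hu : ∀ f ∈ H, (fun s => f (u s)) ∈ K) (hv : ∀ f ∈ H', (fun t => f (v t)) ∈ K')
    {G : S × T → Qbar} (hG : G ∈ prodAlg H H') :
    (fun p : S' × T' => G (u p.1, v p.2)) ∈ prodAlg K K' :=
  prodAlg_induction (C := fun F => (fun p : S' × T' => F (u p.1, v p.2)) ∈ prodAlg K K') hG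
    (prodAlg K K').zero_mem (fun _ _ h h' => (prodAlg K K').add_mem h h')
    fun _ hf _ hg => mul_mem_prodAlg (hu _ hf) (hv _ hg)

variable [hℓ : Fact ℓ.Prime]

/-- A member of `H ⊗ H'` which is constant on the fibres of `π` in the first variable descends. -/
theorem descend_mem_prodAlg {S T Q : Type*} [Finite T] {actT : Gal0 → T → T}
    {H : Subalgebra (Zl ℓ) (S → Qbar)} {H' : Subalgebra (Zl ℓ) (T → Qbar)}
    (heq : ∀ f ∈ H', IsEquiv actT f) (hint : ∀ f ∈ H', ∀ t, IsIntegral (Zl ℓ) (f t))
    (π : S → Q) (sec : Q → S) (hsec : ∀ q, π (sec q) = q) {G : S × T → Qbar}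
    (hG : G ∈ prodAlg H H') (hconst : ∀ a a' t, π a = π a' → G (a, t) = G (a', t)) :
    (fun p : Q × T => G (sec p.1, p.2)) ∈ prodAlg (H.comap (pullback π)) H' := by
  classical
  obtain ⟨t, rfl⟩ := hG
  obtain ⟨ι, b, hb⟩ := qindep_val H' heq hint
  set c := TensorProduct.equivFinsuppOfBasisRight b t
  have ht : ∀ p, pairHom H.val H'.val t p =
      ∑ i ∈ c.support, (c i : S → Qbar) p.1 * (b i : T → Qbar) p.2 := by
    intro p
    conv_lhs => rw [← TensorProduct.equivFinsuppOfBasisRight b |>.symm_apply_apply t,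
      TensorProduct.equivFinsuppOfBasisRight_symm_apply]
    simp only [Finsupp.sum, map_sum, Finset.sum_apply]
    exact Finset.sum_congr rfl fun i _ => pairHom_tmul H.val H'.val _ _ p
  have hinv : ∀ i ∈ c.support, ∀ a a', π a = π a' →
      (c i : S → Qbar) a = (c i : S → Qbar) a' := by
    intro i hi a a' h
    refine sub_eq_zero.mp (linearIndependent_iff'.mp hb c.support
      (fun i => (c i : S → Qbar) a - (c i : S → Qbar) a') (funext fun u => ?_) i hi)
    simp only [Finset.sum_apply, Pi.smul_apply, smul_eq_mul, Pi.zero_apply, sub_mul,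
      Finset.sum_sub_distrib, Subalgebra.coe_val]
    rw [sub_eq_zero]
    exact (ht (a, u)).symm.trans ((hconst a a' u h).trans (ht (a', u)))
  have e : (fun p : Q × T => pairHom H.val H'.val t (sec p.1, p.2)) =
      ∑ i ∈ c.support, fun p => (c i : S → Qbar) (sec p.1) * (b i : T → Qbar) p.2 := by
    funext p
    rw [ht, Finset.sum_apply]
  show (fun p : Q × T => pairHom H.val H'.val t (sec p.1, p.2)) ∈ _
  rw [e]
  refine (prodAlg _ _).sum_mem fun i hi =>
    mul_mem_prodAlg (f := fun q => (c i : S → Qbar) (sec q)) ?_ (b i).2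
  show pullback (ℓ := ℓ) π (fun q => (c i : S → Qbar) (sec q)) ∈ H
  rw [show pullback (ℓ := ℓ) π (fun q => (c i : S → Qbar) (sec q)) = (c i : S → Qbar) from
    funext fun a => hinv i hi _ _ (hsec (π a))]
  exact (c i).2

variable {M N : Type} [AddCommGroup M] [AddCommGroup N] {act : Gal0 → M → M}
  {act' : Gal0 → N → N}

omit hℓ in
theorem HasFlatModel.exists_modelAlg (h : HasFlatModel ℓ M act) :
    ∃ H : Subalgebra (Zl ℓ) (M → Qbar), IsModelAlg ℓ M act H := by
  obtain ⟨H, iR, iH, hfin, -, -, e, hadd, hσ⟩ := h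
  let Φ : H →ₐ[Zl ℓ] (M → Qbar) := AlgHom.pi fun m => (e.symm m).ofConv
  have hΦ : ∀ (x : H) (m : M), Φ x m = (e.symm m).ofConv x := fun _ _ => rfl
  have hmem : ∀ x : H, Φ x ∈ Φ.range := fun x => ⟨x, rfl⟩
  refine ⟨Φ.range, ⟨?_, ?_, ?_, ?_⟩⟩
  · rintro _ ⟨x, rfl⟩ σ m
    have hm := hσ σ (e.symm m)
      (WithConv.toConv (((σ : Qbar →ₐ[ℚ] Qbar).restrictScalars (Zl ℓ)).comp (e.symm m).ofConv))
      fun _ => rfl
    rw [Equiv.apply_symm_apply] at hm
    show (e.symm (act σ m)).ofConv x = σ ((e.symm m).ofConv x)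
    rw [← hm, Equiv.symm_apply_apply]
    rfl
  · rintro _ ⟨x, rfl⟩ m
    exact (Algebra.IsIntegral.isIntegral (R := Zl ℓ) x).map (e.symm m).ofConv
  · intro a b hab
    refine e.symm.injective (WithConv.ext (AlgHom.ext fun x => ?_))
    exact hab (Φ x) (hmem x)
  · rintro _ ⟨x, rfl⟩
    refine ⟨Algebra.TensorProduct.map Φ.rangeRestrict Φ.rangeRestrict (Coalgebra.comul x),
      funext fun p => ?_⟩
    have h1 : e.symm (p.1 + p.2) = e.symm p.1 * e.symm p.2 := by
      rw [Equiv.symm_apply_eq, hadd, Equiv.apply_symm_apply, Equiv.apply_symm_apply]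
    show pairHom _ _ _ p = (e.symm (p.1 + p.2)).ofConv x
    rw [h1, AlgHom.convMul_apply]
    induction Coalgebra.comul (R := Zl ℓ) x using TensorProduct.induction_on with
    | zero => simp
    | tmul u v =>
      rw [Algebra.TensorProduct.map_tmul, pairHom_tmul, Algebra.TensorProduct.lift_tmul]
      rfl
    | add u v hu hv => simp only [map_add, Pi.add_apply, hu, hv]

namespace IsModelAlg

variable [Finite M] {H : Subalgebra (Zl ℓ) (M → Qbar)}

omit hℓ in
theorem act_bijective (hH : IsModelAlg ℓ M act H) (σ : Gal0) : Function.Bijective (act σ) := by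
  refine Finite.injective_iff_bijective.mp fun a b h => hH.separates a b fun f hf => ?_
  exact σ.injective (by rw [← hH.equiv f hf σ a, ← hH.equiv f hf σ b, h])

/-- An equivariant function is, up to a nonzero integer factor, in the model ring. -/
theorem exists_smul_mem (hH : IsModelAlg ℓ M act H) {F : M → Qbar} (hF : IsEquiv act F) :
    ∃ d : ℤ, d ≠ 0 ∧ d • F ∈ H := by
  classical
  obtain ⟨ι, b, hb⟩ := hH.qindep
  have : Finite ι := hb.finite
  let := Fintype.ofFinite ι
  obtain ⟨a, ha⟩ := (Submodule.mem_span_range_iff_exists_fun Qbar).mp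
    (hH.top_le_span_basis b (Submodule.mem_top (x := F)))
  have ha' : (fun s => ∑ i, a i * (b i : M → Qbar) s) = F := by
    rw [← ha]; funext s; simp
  choose q hq using fun i => exists_rat_coeff (v := fun i => (b i : M → Qbar))
    (fun i => hH.equiv _ (b i).2) hb (ha'.symm ▸ hF) i
  refine ⟨∏ i, ((q i).den : ℤ), Finset.prod_ne_zero_iff.mpr fun i _ => by simp, ?_⟩
  have e : (∏ i, ((q i).den : ℤ)) • F =
      ∑ i, ((q i).num * ∏ j ∈ Finset.univ.erase i, ((q j).den : ℤ)) • (b i : M → Qbar) := by
    rw [← ha', zsmul_eq_mul]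
    funext s
    simp only [Pi.mul_apply, Pi.intCast_apply, Finset.mul_sum, Finset.sum_apply, zsmul_eq_mul]
    refine Finset.sum_congr rfl fun i _ => ?_
    rw [← hq i, ← Finset.prod_erase_mul _ _ (Finset.mem_univ i)]
    push_cast
    rw [eq_ratCast, Rat.cast_def]
    have hden : ((q i).den : Qbar) ≠ 0 := by simp
    field_simp
  rw [e]
  exact H.sum_mem fun i _ => H.toSubring.zsmul_mem (b i).2 _

omit hℓ [Finite M] in
/-- Restriction along an injective equivariant map `N → M` preserves model algebras. -/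
theorem sub (hH : IsModelAlg ℓ M act H) (j : N →+ M) (hj : Function.Injective j)
    (hcomp : ∀ σ n, j (act' σ n) = act σ (j n)) :
    IsModelAlg ℓ N act' (H.map (pullback j)) := by
  refine ⟨?_, ?_, ?_, ?_⟩
  · rintro _ ⟨f, hf, rfl⟩ σ n
    show f (j (act' σ n)) = σ (f (j n))
    rw [hcomp, hH.equiv f hf]
  · rintro _ ⟨f, hf, rfl⟩ n
    exact hH.integral f hf (j n)
  · exact fun a b hab => hj (hH.separates _ _ fun f hf => hab _ ⟨f, hf, rfl⟩)
  · rintro _ ⟨f, hf, rfl⟩
    have := pullback_mem_prodAlg (K := H.map (pullback j)) (K' := H.map (pullback j)) j j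
      (fun g hg => ⟨g, hg, rfl⟩) (fun g hg => ⟨g, hg, rfl⟩) (hH.add_mem f hf)
    simpa using this

/-- Pullback along a surjective equivariant map `M → N` preserves model algebras. -/
theorem quot (hH : IsModelAlg ℓ M act H) (π : M →+ N) (hπ : Function.Surjective π)
    (hcomp : ∀ σ m, π (act σ m) = act' σ (π m)) :
    IsModelAlg ℓ N act' (H.comap (pullback π)) := by
  classical
  have : Finite N := Finite.of_surjective π hπ
  let := Fintype.ofFinite M
  have heq : ∀ f ∈ H.comap (pullback π), IsEquiv act' f := by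
    intro f hf σ n
    obtain ⟨m, rfl⟩ := hπ n
    rw [← hcomp]
    exact hH.equiv _ hf σ m
  have hint : ∀ f ∈ H.comap (pullback π), ∀ n, IsIntegral (Zl ℓ) (f n) := by
    intro f hf n
    obtain ⟨m, rfl⟩ := hπ n
    exact hH.integral _ hf m
  refine ⟨heq, hint, ?_, ?_⟩
  · intro q q' hqq
    by_contra hne
    let P : (M → Qbar) →ₗ[Qbar] Qbar :=
      ∑ m ∈ Finset.univ.filter (fun m => π m = q), LinearMap.proj m -
      ∑ m ∈ Finset.univ.filter (fun m => π m = q'), LinearMap.proj m
    have hP0 : ∀ h ∈ H, P h = 0 := by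
      intro h hh
      set F : M → Qbar := fun a => ∑ m ∈ Finset.univ.filter (fun m => π m = π a), h m
      have hF : IsEquiv act F := by
        intro σ a
        simp only [F, map_sum]
        refine (Finset.sum_bij (fun m _ => act σ m) ?_ ?_ ?_ ?_).symm
        · intro m hm
          simp only [Finset.mem_filter, Finset.mem_univ, true_and] at hm ⊢
          rw [hcomp, hm, hcomp]
        · exact fun a₁ _ a₂ _ h12 => (hH.act_bijective σ).1 h12
        · intro m hm
          obtain ⟨m', rfl⟩ := (hH.act_bijective σ).2 m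
          refine ⟨m', ?_, rfl⟩
          simp only [Finset.mem_filter, Finset.mem_univ, true_and] at hm ⊢
          rw [hcomp, hcomp] at hm
          have hinj : Function.Injective (act' σ) := by
            refine Finite.injective_iff_surjective.mpr fun y => ?_
            obtain ⟨x, rfl⟩ := hπ y
            obtain ⟨x', rfl⟩ := (hH.act_bijective σ).2 x
            exact ⟨π x', (hcomp σ x').symm⟩
          exact hinj hm
        · exact fun m _ => (hH.equiv h hh σ m).symm
      obtain ⟨d, hd, hdF⟩ := hH.exists_smul_mem hF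
      set G : N → Qbar := fun n => ∑ m ∈ Finset.univ.filter (fun m => π m = n), h m
      have hG : d • G ∈ H.comap (pullback π) := by
        show pullback (ℓ := ℓ) π (d • G) ∈ H
        rwa [show pullback (ℓ := ℓ) π (d • G) = d • F from funext fun a => rfl]
      have := hqq _ hG
      simp only [Pi.smul_apply, zsmul_eq_mul, G] at this
      have hd' : (d : Qbar) ≠ 0 := by simp [hd]
      simp only [P, LinearMap.sub_apply, LinearMap.sum_apply, LinearMap.proj_apply]
      rw [mul_left_cancel₀ hd' this, sub_self]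
    have hP : P = 0 := LinearMap.ext_on hH.span_eq_top fun h hh => by simp [hP0 h hh]
    obtain ⟨m, hm⟩ := hπ q
    have := LinearMap.congr_fun hP (Pi.single m 1)
    simp [P, Pi.single_apply, hm, hne, Finset.sum_ite_eq'] at this
  · intro f hf
    set sec := Function.surjInv hπ
    have hsec : ∀ q, π (sec q) = q := Function.surjInv_eq hπ
    have h0 : (fun p : M × M => f (π p.1 + π p.2)) ∈ prodAlg H H := by
      simpa using hH.add_mem _ hf
    have h1 : (fun p : N × M => f (p.1 + π p.2)) ∈ prodAlg (H.comap (pullback π)) H := by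
      have := descend_mem_prodAlg (actT := act) hH.equiv hH.integral π sec hsec h0
        (fun a a' t h => by simp only [h])
      simpa [hsec] using this
    have h2 := descend_mem_prodAlg (actT := act') heq hint π sec hsec (swap_mem_prodAlg h1)
      (fun a a' t h => by simp only [h])
    simpa [hsec] using swap_mem_prodAlg h2

omit hℓ [Finite M] in
/-- Two model algebras give one for the product `M × N`. -/
theorem prod {H' : Subalgebra (Zl ℓ) (N → Qbar)} (hH : IsModelAlg ℓ M act H)
    (hH' : IsModelAlg ℓ N act' H') :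
    IsModelAlg ℓ (M × N) (fun σ p => (act σ p.1, act' σ p.2)) (prodAlg H H') := by
  refine ⟨?_, ?_, ?_, ?_⟩
  · intro F hF
    refine prodAlg_induction (C := IsEquiv fun σ p => (act σ p.1, act' σ p.2)) hF
      (fun σ p => by simp) (fun _ _ h h' => h.add h') ?_
    intro f hf g hg σ p
    simp [hH.equiv f hf σ p.1, hH'.equiv g hg σ p.2]
  · intro F hF
    refine prodAlg_induction (C := fun F => ∀ p, IsIntegral (Zl ℓ) (F p)) hF
      (fun p => isIntegral_zero) (fun _ _ h h' p => (h p).add (h' p)) ?_
    exact fun f hf g hg p => (hH.integral f hf _).mul (hH'.integral g hg _)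
  · intro a b hab
    refine Prod.ext (hH.separates _ _ fun f hf => ?_) (hH'.separates _ _ fun g hg => ?_)
    · simpa using hab _ (mul_mem_prodAlg hf H'.one_mem)
    · simpa using hab _ (mul_mem_prodAlg H.one_mem hg)
  · intro F hF
    set P := prodAlg H H'
    refine prodAlg_induction
      (C := fun F => (fun p : (M × N) × (M × N) => F (p.1 + p.2)) ∈ prodAlg P P) hF
      (prodAlg P P).zero_mem (fun _ _ h h' => (prodAlg P P).add_mem h h') ?_
    intro f hf g hg
    have hu := pullback_mem_prodAlg (K := P) (K' := P) Prod.fst Prod.fst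
      (fun u hu => by simpa using mul_mem_prodAlg hu H'.one_mem)
      (fun u hu => by simpa using mul_mem_prodAlg hu H'.one_mem) (hH.add_mem f hf)
    have hv := pullback_mem_prodAlg (K := P) (K' := P) Prod.snd Prod.snd
      (fun u hu => by simpa using mul_mem_prodAlg H.one_mem hu)
      (fun u hu => by simpa using mul_mem_prodAlg H.one_mem hu) (hH'.add_mem g hg)
    exact (prodAlg P P).mul_mem hu hv

end IsModelAlg

/-- Finite flat models pass to submodules. -/
theorem HasFlatModel.sub [Finite M] (h : HasFlatModel ℓ M act) (j : N →+ M)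
    (hj : Function.Injective j) (hcomp : ∀ σ n, j (act' σ n) = act σ (j n))
    (hact : ∀ σ, act' σ 0 = 0) : HasFlatModel ℓ N act' := by
  obtain ⟨H, hH⟩ := h.exists_modelAlg
  have : Finite N := Finite.of_injective j hj
  exact (hH.sub j hj hcomp).hasFlatModel hact

/-- Finite flat models pass to quotients. -/
theorem HasFlatModel.quot [Finite M] (h : HasFlatModel ℓ M act) (π : M →+ N)
    (hπ : Function.Surjective π) (hcomp : ∀ σ m, π (act σ m) = act' σ (π m))
    (hact : ∀ σ, act σ 0 = 0) : HasFlatModel ℓ N act' := by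
  obtain ⟨H, hH⟩ := h.exists_modelAlg
  have : Finite N := Finite.of_surjective π hπ
  exact (hH.quot π hπ hcomp).hasFlatModel fun σ => by rw [← map_zero π, ← hcomp, hact]

/-- Finite flat models pass to products. -/
theorem HasFlatModel.prod [Finite M] [Finite N] (h : HasFlatModel ℓ M act)
    (h' : HasFlatModel ℓ N act') (hact : ∀ σ, act σ 0 = 0) (hact' : ∀ σ, act' σ 0 = 0) :
    HasFlatModel ℓ (M × N) (fun σ p => (act σ p.1, act' σ p.2)) := by
  obtain ⟨H, hH⟩ := h.exists_modelAlg
  obtain ⟨H', hH'⟩ := h'.exists_modelAlg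
  exact (hH.prod hH').hasFlatModel fun σ => Prod.ext (hact σ) (hact' σ)

/-- The trivial module. -/
theorem HasFlatModel.of_subsingleton [Subsingleton M] : HasFlatModel ℓ M act := by
  refine IsModelAlg.hasFlatModel (H := ⊥) ⟨?_, ?_, fun a b _ => Subsingleton.elim a b, ?_⟩
    fun σ => Subsingleton.elim _ _
  · intro f hf
    obtain ⟨z, rfl⟩ := Algebra.mem_bot.mp hf
    exact isEquiv_algebraMap act z
  · intro f hf m
    obtain ⟨z, rfl⟩ := Algebra.mem_bot.mp hf
    exact isIntegral_algebraMap
  · intro f hf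
    obtain ⟨z, rfl⟩ := Algebra.mem_bot.mp hf
    exact (prodAlg ⊥ ⊥).algebraMap_mem z

/-- A finite power of a module with a flat model has one. -/
theorem HasFlatModel.pow [Finite M] (h : HasFlatModel ℓ M act) (hact : ∀ σ, act σ 0 = 0) (r : ℕ) :
    HasFlatModel ℓ (Fin r → M) (fun σ v i => act σ (v i)) := by
  induction r with
  | zero => exact HasFlatModel.of_subsingleton
  | succ r ih =>
    refine (h.prod ih hact fun σ => funext fun _ => hact σ).quot
      (N := Fin (r + 1) → M) (act' := fun σ v i => act σ (v i))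
      { toFun := fun p => Fin.cons p.1 p.2
        map_zero' := funext fun i => by cases i using Fin.cases <;> simp
        map_add' := fun p q => funext fun i => by cases i using Fin.cases <;> simp }
      (fun v => ⟨(v 0, Fin.tail v), Fin.cons_self_tail v⟩) ?_ ?_
    · intro σ p
      funext i
      cases i using Fin.cases <;> simp
    · exact fun σ => Prod.ext (hact σ) (funext fun _ => hact σ)

end Fermat.Agent.Flat
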