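import Fermat.Agent.Flat.ModularClass
import Fermat.Agent.Igusa.SmoothCharts
import Fermat.Agent.Red.GenusLift

/-!
# `J₀(N)[ℓ^k]` has a finite flat model at `ℓ ∤ N`

For `ℓ ∤ N` the torsion `J₀(N)[ℓᵏ]` is the group of `ℚ̄`-points of a finite flat commutative
Hopf algebra over `ℤ_(ℓ)`. This proves the milestone S19 and feeds S32.
-/

noncomputable section

namespace Fermat.Agent.Flat.Mdl

open ModularCurve AlgebraicCurve

variable {N : ℕ} [NeZero N] {ℓ : ℕ} [Fact ℓ.Prime]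

/-- The genus of `X₀(N)` does not drop modulo `ℓ ∤ N`. -/
theorem genusLe (hℓN : ¬ ℓ ∣ N) (v : Pl ℓ) : GenusLe N v := by
  refine Red.genus_le_of_normality v.A hℓN v.over ?_
  let : Algebra ↥(GaloisRep.ratLocalizedAt ℓ) (IsLocalRing.ResidueField v.A) :=
    ((IsLocalRing.residue v.A).comp (Red.toA v.A v.over)).toAlgebra
  have := Red.isAlgClosed_residueField v.A
  have := Red.charP_residueField v.A v.over
  exact ⟨fun hw hi => Igusa.mem_span_redSet_fin hℓN hw hi,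
    fun hw hi => Igusa.mem_span_redSet_inf hℓN hw hi⟩

/-- `J₀(N)[ℓ^k]` has a finite flat model at `ℓ ∤ N`. -/
theorem hasFlatModel_JZero_torsion (hℓN : ¬ ℓ ∣ N) (k : ℕ) :
    HasFlatModel ℓ ↥(Submodule.torsionBy ℤ (JZero N) ((ℓ : ℤ) ^ k))
      fun σ x => ⟨σ • (x : JZero N), smul_mem_torsionBy σ x.2⟩ :=
  hasFlatModel_torsion hℓN (genusLe hℓN) k

end Fermat.Agent.Flat.Mdl
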