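import Fermat.Agent.Attach.Unramified

/-!
# Relations on `J₀(N)[p^m]` hold for the Galois representation of a Hecke datum, modulo `𝔪^n`

A linear relation with Hecke coefficients among the Galois operators on `J₀(N)[pᵐ]`, for `m`
large, holds for the representation of a Hecke datum modulo `𝔪ⁿ`, because traces of the latter
are Hecke elements. Used to prove flatness at `p ∤ N`.
-/

noncomputable section

open Polynomial

namespace Fermat.Agent.Flat.Datum

open Fermat.Agent.Attach

local notation "Qbar" => AlgebraicClosure ℚ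
local notation "GQ" => (AlgebraicClosure ℚ ≃ₐ[ℚ] AlgebraicClosure ℚ)

/-- Matrices with perfect trace Gram matrix do not all commute. -/
theorem exists_commutator_trace_ne_zero {R : Type*} [CommRing R] [Nontrivial R]
    (m : Fin 4 → Matrix (Fin 2) (Fin 2) R)
    (hm : IsUnit (Matrix.of fun i j => (m i * m j).trace).det) :
    ∃ i j l, ((m i * m j - m j * m i) * m l).trace ≠ 0 := by
  by_contra h
  simp only [not_exists, not_not] at h
  have h1 : ∀ i j, m i * m j - m j * m i = 0 := fun i j =>
    eq_zero_of_trace_mul_eq_zero m hm _ fun l => by rw [Matrix.trace_mul_comm, h]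
  have h2 : ∀ (l : Fin 4) (Y : Matrix (Fin 2) (Fin 2) R), m l * Y - Y * m l = 0 := fun l Y =>
    eq_zero_of_trace_mul_eq_zero m hm _ fun i => by
      rw [mul_sub, Matrix.trace_sub, ← mul_assoc, ← mul_assoc, Matrix.trace_mul_cycle (m i) Y,
        ← Matrix.trace_sub, ← sub_mul, h1, zero_mul, Matrix.trace_zero]
  have h3 : ∀ Y Z : Matrix (Fin 2) (Fin 2) R, Y * Z - Z * Y = 0 := fun Y Z =>
    eq_zero_of_trace_mul_eq_zero m hm _ fun l => by
      rw [mul_sub, Matrix.trace_sub, ← mul_assoc, ← mul_assoc, Matrix.trace_mul_cycle (m l) Z,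
        ← Matrix.trace_sub, ← sub_mul, h2, zero_mul, Matrix.trace_zero]
  have := congrFun (congrFun (h3 !![0, 1; 0, 0] !![0, 0; 1, 0]) 0) 0
  simp at this

/-- `A`-combinations of the values of `r`. -/
def comb {A R G : Type*} [Semiring A] [Ring R] (φ : A →+* R) (r : G → R) : (G →₀ A) →+ R :=
  Finsupp.liftAddHom fun g => (AddMonoidHom.mulRight (r g)).comp φ.toAddMonoidHom

theorem comb_single {A R G : Type*} [Semiring A] [Ring R] (φ : A →+* R) (r : G → R) (g : G)
    (a : A) : comb φ r (Finsupp.single g a) = φ a * r g :=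
  Finsupp.liftAddHom_apply_single _ g a

theorem comb_mapDomain_left {A R G : Type*} [Semiring A] [Ring R] [Monoid G] (φ : A →+* R)
    (r : G →* R) (h : G) (hc : ∀ a, Commute (r h) (φ a)) (f : G →₀ A) :
    comb φ r (f.mapDomain (h * ·)) = r h * comb φ r f := by
  induction f using Finsupp.induction_linear with
  | zero => rw [Finsupp.mapDomain_zero, map_zero, mul_zero]
  | add f f' e e' => rw [Finsupp.mapDomain_add, map_add, map_add, e, e', mul_add]
  | single g a =>
    rw [Finsupp.mapDomain_single, comb_single, comb_single, map_mul, ← mul_assoc, ← mul_assoc,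
      (hc a).eq]

theorem comb_add_comb {A R G : Type*} [Ring A] [Ring R] (φ : A →+* R) (r r' : G → R)
    (b : G → A) (h : ∀ g, r g + r' g = φ (b g)) (x : G →₀ A) :
    comb φ r x + comb φ r' x = φ (comb (RingHom.id A) b x) := by
  induction x using Finsupp.induction_linear with
  | zero => simp only [map_zero, add_zero]
  | add x y ex ey => rw [map_add, map_add, map_add, map_add, ← ex, ← ey]; abel
  | single g a =>
    rw [comb_single, comb_single, ← mul_add, comb_single, RingHom.id_apply, map_mul, h]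

theorem comb_twist_mapDomain {A R G k : Type*} [Semiring A] [CommSemiring k] [Ring R]
    [Algebra k R] [Group G] (φ : A →+* R) (χ : G →* k) (r : G →* R) (h : G) (x : G →₀ A) :
    comb φ (fun g => χ g • r g⁻¹) (x.mapDomain (h * ·)) =
      χ h • (comb φ (fun g => χ g • r g⁻¹) x * r h⁻¹) := by
  induction x using Finsupp.induction_linear with
  | zero => simp only [Finsupp.mapDomain_zero, map_zero, zero_mul, smul_zero]
  | add x y ex ey => rw [Finsupp.mapDomain_add, map_add, map_add, ex, ey, add_mul, smul_add]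
  | single g a =>
    rw [Finsupp.mapDomain_single, comb_single, comb_single, mul_inv_rev, map_mul r, map_mul χ,
      mul_smul_comm, mul_smul_comm, smul_mul_assoc, smul_smul, mul_assoc]

/-- The trace of a combination is congruent to the combination of the approximate traces. -/
theorem trace_comb_sub_mem {A B G : Type*} [Ring A] [CommRing B] (φ : A →+* B)
    (r : G → Matrix (Fin 2) (Fin 2) B) (b : G → A) (𝔞 : Ideal B)
    (h : ∀ g, (r g).trace - φ (b g) ∈ 𝔞) (x : G →₀ A) :
    (comb ((Matrix.scalar (Fin 2)).comp φ) r x).trace - φ (comb (RingHom.id A) b x) ∈ 𝔞 := by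
  induction x using Finsupp.induction_linear with
  | zero => simp only [map_zero, Matrix.trace_zero, sub_zero]; exact 𝔞.zero_mem
  | add x y ex ey =>
    rw [map_add, map_add, map_add, Matrix.trace_add, add_sub_add_comm]
    exact 𝔞.add_mem ex ey
  | single g a =>
    rw [comb_single, comb_single, RingHom.id_apply, map_mul, RingHom.comp_apply,
      Matrix.scalar_apply, ← Matrix.smul_eq_diagonal_mul, Matrix.trace_smul, smul_eq_mul,
      ← mul_sub]
    exact Ideal.mul_mem_left _ _ (h g)

variable {p : ℕ} {N : ℕ} [NeZero N] {S : Finset ℕ}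
  {𝒪 : Type} [CommRing 𝒪] [IsDomain 𝒪] [IsDiscreteValuationRing 𝒪]
  {T : Type} [CommRing T] [IsLocalRing T] [Algebra 𝒪 T]
  [IsLocalHom (algebraMap 𝒪 T)]
  [Fact p.Prime] (Ins : JacobianInputs N p)
  (hp𝒪 : (p : 𝒪) ∈ IsLocalRing.maximalIdeal 𝒪) (hpS : p ∈ S)
  (hNS : ∀ q : ℕ, q.Prime → q ∣ N → q ∈ (↑S : Set ℕ))
  (H : HeckeRep N (↑S : Set ℕ) 𝒪 T)

include hp𝒪 hpS in
/-- A relation on `J₀(N)[p^m]` holds for `ρ` modulo `𝔪^n`. -/
theorem exists_ker_le (n : ℕ) :
    ∃ m : ℕ, ∀ f : GQ →₀ CuspForm.heckeAlgebra N 2 (↑S : Set ℕ),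
      comb (Ins.model.matS hNS m) (Ins.model.rep m) f = 0 → ∀ i j,
        comb ((Matrix.scalar (Fin 2)).comp H.π) (repMatrix H.ρ) f i j ∈
          IsLocalRing.maximalIdeal T ^ n := by
  classical
  obtain ⟨m, hsat, hkey⟩ := exists_trace_level Ins hp𝒪 hpS hNS H n
  refine ⟨m, fun f hf => ?_⟩
  choose b hb hbt using hkey
  set M := Ins.model
  set R := repMatrix H.ρ
  set 𝔞 := IsLocalRing.maximalIdeal T ^ n
  set mS := M.matS hNS m
  have hcomm : ∀ (σ : GQ) (a : CuspForm.heckeAlgebra N 2 (↑S : Set ℕ)),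
      Commute (M.rep m σ) (mS a) := fun σ a => M.rep_commute Ins.galois m σ _
  let β : (GQ →₀ CuspForm.heckeAlgebra N 2 (↑S : Set ℕ)) →+
      CuspForm.heckeAlgebra N 2 (↑S : Set ℕ) := comb (RingHom.id _) b
  let starR : GQ → Matrix (Fin M.rk) (Fin M.rk) (ZMod (p ^ m)) :=
    fun g => cyc p m g • M.rep m g⁻¹
  -- `f + f* = β f`
  have hsum : ∀ x, comb mS (M.rep m) x + comb mS starR x = mS (β x) :=
    comb_add_comb mS _ _ b hb
  have hstar : ∀ k x, comb mS starR (x.mapDomain (k * ·)) =
      cyc p m k • (comb mS starR x * M.rep m k⁻¹) :=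
    comb_twist_mapDomain mS (cyc p m) (M.rep m)
  have htau : ∀ x, (comb ((Matrix.scalar (Fin 2)).comp H.π) R x).trace - H.π (β x) ∈ 𝔞 :=
    trace_comb_sub_mem H.π R b 𝔞 hbt
  -- the Hecke element of a relation vanishes
  have hβ : ∀ x, comb mS (M.rep m) x = 0 → H.π (β x) ∈ 𝔞 := by
    intro x hx
    set u := β x
    have hxs : comb mS starR x = mS u := by rw [← hsum, hx, zero_add]
    have hc : ∀ g h, mS u * M.rep m g * M.rep m h = mS u * M.rep m h * M.rep m g := by
      intro g h
      have h1 := hstar g⁻¹ x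
      rw [hxs, inv_inv] at h1
      have h2 := hsum (x.mapDomain (g⁻¹ * ·))
      rw [comb_mapDomain_left mS (M.rep m) g⁻¹ (hcomm g⁻¹) x, hx, mul_zero, zero_add, h1] at h2
      have h3 : mS u * M.rep m g = cyc p m g • mS (β (x.mapDomain (g⁻¹ * ·))) := by
        rw [← h2, smul_smul, ← map_mul, mul_inv_cancel, map_one, one_smul]
      rw [h3, smul_mul_assoc, ← (hcomm h _).eq, ← mul_smul_comm, ← h3, ← mul_assoc,
        (hcomm h u).eq, mul_assoc]
    obtain ⟨g', hg'⟩ := repMatrix_hasTraceBasis H.ρ H.residual_absIrr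
    obtain ⟨i, j, l, hne⟩ := exists_commutator_trace_ne_zero
      (fun a => (IsLocalRing.residue T).mapMatrix (R (g' a))) (by
        have := hg'.map (IsLocalRing.residue T)
        rw [RingHom.map_det] at this
        convert this using 2
        ext a c
        rw [RingHom.mapMatrix_apply, Matrix.map_apply, Matrix.of_apply, Matrix.of_apply,
          ← map_mul, RingHom.mapMatrix_apply, ← AddMonoidHom.map_trace])
    set g := g' i
    set h := g' j
    set k := g' l
    have e1 : mS u * M.rep m (g * h * k) = mS u * M.rep m (h * g * k) := by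
      simp only [map_mul (M.rep m), ← mul_assoc]
      rw [hc g h]
    have e2 : mS u * M.rep m (g * h * k)⁻¹ = mS u * M.rep m (h * g * k)⁻¹ := by
      simp only [mul_inv_rev, map_mul (M.rep m), ← mul_assoc]
      rw [← (hcomm k⁻¹ u).eq]
      simp only [mul_assoc]
      rw [← mul_assoc (mS u), hc h⁻¹ g⁻¹, mul_assoc]
    have e3 : cyc p m (g * h * k) = cyc p m (h * g * k) := by
      rw [map_mul, map_mul, map_mul, map_mul, mul_comm (cyc p m g)]
    have hz : mS (u * (b (g * h * k) - b (h * g * k))) = 0 := by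
      rw [map_mul, map_sub, ← hb, ← hb, mul_sub, mul_add, mul_add, mul_smul_comm, mul_smul_comm,
        e1, e2, e3, sub_self]
    have hunit : IsUnit ((R (g * h * k)).trace - (R (h * g * k)).trace) := by
      refine (IsLocalRing.residue_ne_zero_iff_isUnit _).mp fun h0 => hne ?_
      rw [← h0, map_sub, sub_mul, Matrix.trace_sub, AddMonoidHom.map_trace,
        AddMonoidHom.map_trace, map_mul R, map_mul R, map_mul R, map_mul R]
      simp only [← RingHom.mapMatrix_apply, map_mul]
    obtain ⟨w, hw⟩ := hunit.exists_left_inv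
    have hmem : H.π u * ((R (g * h * k)).trace - (R (h * g * k)).trace) ∈ 𝔞 := by
      have h1 := hsat _ hz
      rw [map_mul, map_sub] at h1
      have h2 : H.π u * ((R (g * h * k)).trace - (R (h * g * k)).trace) =
          H.π u * (H.π (b (g * h * k)) - H.π (b (h * g * k))) +
            H.π u * (((R (g * h * k)).trace - H.π (b (g * h * k))) -
              ((R (h * g * k)).trace - H.π (b (h * g * k)))) := by ring
      rw [h2]
      exact 𝔞.add_mem h1 (Ideal.mul_mem_left _ _ (𝔞.sub_mem (hbt _) (hbt _)))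
    have := Ideal.mul_mem_left 𝔞 w hmem
    rwa [mul_left_comm, hw, mul_one] at this
  -- all trace pairings with a relation vanish
  obtain ⟨g', hg'⟩ := repMatrix_hasTraceBasis H.ρ H.residual_absIrr
  set q := Ideal.Quotient.mk 𝔞
  set Z := comb ((Matrix.scalar (Fin 2)).comp H.π) R f with hZ
  have hzero : q.mapMatrix Z = 0 := by
    refine eq_zero_of_trace_mul_eq_zero (fun a => q.mapMatrix (R (g' a))) ?_ _ fun a => ?_
    · have := hg'.map q
      rw [RingHom.map_det] at this
      convert this using 2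
      ext a c
      rw [RingHom.mapMatrix_apply, Matrix.map_apply, Matrix.of_apply, Matrix.of_apply,
        ← map_mul, RingHom.mapMatrix_apply, ← AddMonoidHom.map_trace]
    · have hf' : comb mS (M.rep m) (f.mapDomain (g' a * ·)) = 0 := by
        rw [comb_mapDomain_left mS (M.rep m) (g' a) (hcomm (g' a)) f, hf, mul_zero]
      rw [← map_mul, RingHom.mapMatrix_apply, ← AddMonoidHom.map_trace]
      refine Ideal.Quotient.eq_zero_iff_mem.mpr ?_
      have hcs : ∀ t, Commute (R (g' a)) (((Matrix.scalar (Fin 2)).comp H.π) t) := fun t =>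
        (Matrix.scalar_commute _ (Commute.all _) _).symm
      rw [← comb_mapDomain_left ((Matrix.scalar (Fin 2)).comp H.π) R (g' a) hcs f]
      simpa using 𝔞.add_mem (htau (f.mapDomain (g' a * ·))) (hβ _ hf')
  intro i j
  exact Ideal.Quotient.eq_zero_iff_mem.mp (congrFun (congrFun hzero i) j)

end Fermat.Agent.Flat.Datum
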