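import Mathlib.LinearAlgebra.TensorProduct.Quotient
import Mathlib.RingTheory.Artinian.Module
import Fermat.Prelude.Def_GaloisRep_Flat
import Fermat.Agent.Flat.Closure
import Fermat.Agent.Flat.ModularTorsion
import Fermat.Agent.Flat.TraceKer

/-!
# The representation of a Hecke datum is flat at `p ∤ N`

The representation `ρ` of a Hecke datum of level `N` is flat at a prime `p ∤ N`: each of its
levels is a quotient of a submodule of a power of `J₀(N)[pᵐ]`, which has a finite flat model.
This is the input of the milestone S32.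
-/

noncomputable section

namespace Fermat.Agent.Flat.Datum

open Fermat.Agent.Attach ModularCurve
open scoped TensorProduct

local notation "GQ" => (AlgebraicClosure ℚ ≃ₐ[ℚ] AlgebraicClosure ℚ)

variable {p : ℕ} [Fact p.Prime] {N : ℕ} [NeZero N]

/-- `J₀(N)[p^m]`, as column vectors over `ℤ / p^m`, has a finite flat model. -/
theorem hasFlatModel_vec (M : TorsionModel N p) (hpN : ¬ p ∣ N) (m : ℕ) :
    HasFlatModel p (Fin M.rk → ZMod (p ^ m)) fun σ w => (M.rep m σ).mulVec w := by
  have : NeZero p := ⟨(Fact.out : p.Prime).ne_zero⟩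
  have := Mdl.finite_torsionBy_pow (N := N) p m
  let lift : (Fin M.rk → ZMod (p ^ m)) → Fin M.rk → ℤ := fun w i => ((w i).cast : ℤ)
  have hlift : ∀ w, M.redVec m (lift w) = w := fun w => funext fun i => ZMod.intCast_zmod_cast (w i)
  have hred : ∀ a b, M.redVec m (a + b) = M.redVec m a + M.redVec m b := fun a b =>
    funext fun i => Int.cast_add _ _
  have hmem : ∀ v, M.pt m v ∈ Submodule.torsionBy ℤ (JZero N) ((p : ℤ) ^ m) := fun v => by
    rw [Submodule.mem_torsionBy_iff, ← Nat.cast_pow, natCast_zsmul]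
    exact M.pt_torsion m v
  refine (Mdl.hasFlatModel_JZero_torsion hpN m).sub
    { toFun := fun w => ⟨M.pt m (lift w), hmem _⟩
      map_zero' := Subtype.ext (by
        show M.pt m (lift 0) = 0
        rw [← map_zero (M.pt m), M.pt_eq_iff, hlift]
        exact funext fun i => (Int.cast_zero).symm)
      map_add' := fun a b => Subtype.ext (by
        show M.pt m (lift (a + b)) = M.pt m (lift a) + M.pt m (lift b)
        rw [← map_add, M.pt_eq_iff, hred, hlift, hlift, hlift]) }
    (fun a b h => ?_) (fun σ w => Subtype.ext ?_) fun σ => Matrix.mulVec_zero _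
  · have h1 : M.pt m (lift a) = M.pt m (lift b) := congrArg Subtype.val h
    rwa [M.pt_eq_iff, hlift, hlift] at h1
  · show M.pt m (lift ((M.rep m σ).mulVec w)) = σ • M.pt m (lift w)
    rw [M.galMat_spec, M.pt_eq_iff, hlift, M.redVec_mulVec, hlift]
    rfl

/-- Matrices over `ℤ / p^m` under left multiplication by the torsion representation have a
finite flat model. -/
theorem hasFlatModel_mat (M : TorsionModel N p) (hpN : ¬ p ∣ N) (m : ℕ) :
    HasFlatModel p (Matrix (Fin M.rk) (Fin M.rk) (ZMod (p ^ m))) fun σ y => M.rep m σ * y := by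
  have : NeZero p := ⟨(Fact.out : p.Prime).ne_zero⟩
  refine ((hasFlatModel_vec M hpN m).pow (fun σ => Matrix.mulVec_zero _) M.rk).sub
    { toFun := fun y j i => y i j
      map_zero' := rfl
      map_add' := fun _ _ => rfl }
    (fun a b h => ?_) (fun σ y => rfl) fun σ => mul_zero _
  ext i j
  exact congrFun (congrFun h j) i

variable {S : Finset ℕ}
  {𝒪 : Type} [CommRing 𝒪] [IsDomain 𝒪] [IsDiscreteValuationRing 𝒪]
  {T : Type} [CommRing T] [IsLocalRing T] [IsNoetherianRing T]
  [Algebra 𝒪 T] [IsLocalHom (algebraMap 𝒪 T)]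

omit [IsNoetherianRing T] in
theorem finite_residueField [Finite (IsLocalRing.ResidueField 𝒪)]
    (H : HeckeRep N (↑S : Set ℕ) 𝒪 T) :
    Finite (IsLocalRing.ResidueField T) := by
  refine Finite.of_surjective (IsLocalRing.ResidueField.map (algebraMap 𝒪 T)) fun y => ?_
  obtain ⟨x, rfl⟩ := H.residue_surjective y
  exact ⟨IsLocalRing.residue 𝒪 x, IsLocalRing.ResidueField.map_residue _ x⟩

omit [Fact p.Prime] in
theorem exists_pow_le (I : Ideal T) [Finite (T ⧸ I)] :
    ∃ n : ℕ, IsLocalRing.maximalIdeal T ^ n ≤ I := by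
  rcases eq_or_ne I ⊤ with rfl | hI
  · exact ⟨0, le_top⟩
  refine Ideal.exists_pow_le_of_le_radical_of_fg ?_ (IsNoetherian.noetherian _)
  rw [Ideal.radical_eq_sInf]
  refine le_sInf fun J ⟨hIJ, hJ⟩ => le_of_eq ?_
  have : Finite (T ⧸ J) := Finite.of_surjective (Ideal.Quotient.factor hIJ)
    (Ideal.Quotient.factor_surjective hIJ)
  have : IsDomain (T ⧸ J) := Ideal.Quotient.isDomain J
  exact (IsLocalRing.eq_maximalIdeal
    (Ideal.Quotient.maximal_of_isField J (Finite.isField_of_domain (T ⧸ J)))).symm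

variable (H : HeckeRep N (↑S : Set ℕ) 𝒪 T) (I : Ideal T)

/-- The Galois action on the level `V ⧸ I • V`. -/
def levelHom : GQ →* Module.End T (H.ρ.V ⧸ (I • (⊤ : Submodule T H.ρ.V))) where
  toFun := H.ρ.levelAction I
  map_one' := Submodule.linearMap_qext _ (LinearMap.ext fun v =>
    congrArg (Submodule.mkQ _) (LinearMap.congr_fun (map_one H.ρ.ρ) v))
  map_mul' σ τ := Submodule.linearMap_qext _ (LinearMap.ext fun v =>
    congrArg (Submodule.mkQ _) (LinearMap.congr_fun (map_mul H.ρ.ρ σ τ) v))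

/-- Combinations of the Galois action with Hecke coefficients, acting on a level. -/
def levelComb : (GQ →₀ CuspForm.heckeAlgebra N 2 (↑S : Set ℕ)) →+
    Module.End T (H.ρ.V ⧸ (I • (⊤ : Submodule T H.ρ.V))) :=
  comb ((algebraMap T (Module.End T (H.ρ.V ⧸ (I • (⊤ : Submodule T H.ρ.V))))).comp H.π)
    (levelHom H I)

omit [IsDomain 𝒪] [IsDiscreteValuationRing 𝒪] [IsNoetherianRing T]
  [IsLocalHom (algebraMap 𝒪 T)] in
/-- A combination which vanishes modulo `I` in matrices acts as zero on the level of `I`. -/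
theorem levelComb_eq_zero {f : GQ →₀ CuspForm.heckeAlgebra N 2 (↑S : Set ℕ)}
    (hf : ∀ i j, comb ((Matrix.scalar (Fin 2)).comp H.π) (repMatrix H.ρ) f i j ∈ I) :
    levelComb H I f = 0 := by
  classical
  set b := Gal.basisTwo H.ρ.finrank_eq
  set Z := comb ((algebraMap T (Module.End T H.ρ.V)).comp H.π) H.ρ.ρ f with hZ
  have h1 : ∀ x, ∀ v : H.ρ.V, levelComb H I x (Submodule.mkQ _ v) =
      Submodule.mkQ _ (comb ((algebraMap T (Module.End T H.ρ.V)).comp H.π) H.ρ.ρ x v) := by
    intro x v
    induction x using Finsupp.induction_linear with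
    | zero => simp only [map_zero, LinearMap.zero_apply]
    | add x y ex ey => simp only [map_add, LinearMap.add_apply, ex, ey]
    | single g a => rw [levelComb, comb_single, comb_single]; rfl
  have h2 : ∀ x, LinearMap.toMatrixAlgEquiv b
      (comb ((algebraMap T (Module.End T H.ρ.V)).comp H.π) H.ρ.ρ x) =
        comb ((Matrix.scalar (Fin 2)).comp H.π) (repMatrix H.ρ) x := by
    intro x
    induction x using Finsupp.induction_linear with
    | zero => simp only [map_zero]
    | add x y ex ey => simp only [map_add, ex, ey]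
    | single g a =>
      rw [comb_single, comb_single, map_mul, RingHom.comp_apply, AlgEquiv.commutes]
      rfl
  refine Submodule.linearMap_qext _ (LinearMap.ext fun v => ?_)
  show levelComb H I f (Submodule.mkQ _ v) = 0
  rw [h1, ← hZ, Submodule.mkQ_apply, Submodule.Quotient.mk_eq_zero]
  have e : b.equivFun (Z v) = (LinearMap.toMatrixAlgEquiv b Z).mulVec (b.equivFun v) :=
    (LinearMap.toMatrix_mulVec_repr b b Z v).symm
  rw [← b.sum_equivFun (Z v), e, hZ, h2]
  exact Submodule.sum_mem _ fun i _ => Submodule.smul_mem_smul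
    (by
      rw [Matrix.mulVec, dotProduct]
      exact Ideal.sum_mem _ fun j _ => Ideal.mul_mem_right _ _ (hf i j))
    Submodule.mem_top

/-- Each level of the representation of a Hecke datum has a finite flat model at `p ∤ N`. -/
theorem hasFlatModel_level (Ins : JacobianInputs N p)
    (hp𝒪 : (p : 𝒪) ∈ IsLocalRing.maximalIdeal 𝒪) (hpS : p ∈ S) (hpN : ¬ p ∣ N)
    (hNS : ∀ q : ℕ, q.Prime → q ∣ N → q ∈ (↑S : Set ℕ)) [Finite (T ⧸ I)] :
    HasFlatModel p (H.ρ.V ⧸ (I • (⊤ : Submodule T H.ρ.V)))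
      fun σ v => H.ρ.levelAction I σ v := by
  classical
  have : NeZero p := ⟨(Fact.out : p.Prime).ne_zero⟩
  have : Finite ((T ⧸ I) ⊗[T] H.ρ.V) := Module.finite_of_finite (T ⧸ I)
  have hQfin : Finite (H.ρ.V ⧸ (I • (⊤ : Submodule T H.ρ.V))) :=
    Finite.of_equiv _ (TensorProduct.quotTensorEquivQuotSMul H.ρ.V I).toEquiv
  obtain ⟨n, hn⟩ := exists_pow_le I
  obtain ⟨m, hm⟩ := exists_ker_le Ins hp𝒪 hpS hNS H n
  set M := Ins.model
  set Φ := comb (M.matS hNS m) (M.rep m)
  have hcomm : ∀ (σ : GQ) (a : CuspForm.heckeAlgebra N 2 (↑S : Set ℕ)),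
      Commute (M.rep m σ) (M.matS hNS m a) := fun σ a => M.rep_commute Ins.galois m σ _
  have hlevelc : ∀ (σ : GQ) (a : CuspForm.heckeAlgebra N 2 (↑S : Set ℕ)),
      Commute (levelHom H I σ) (((algebraMap T (Module.End T
        (H.ρ.V ⧸ (I • (⊤ : Submodule T H.ρ.V))))).comp H.π) a) := fun σ a =>
    (Algebra.commutes (H.π a) (levelHom H I σ)).symm
  -- the range of `A[G]` in the endomorphisms of the `p^m`-torsion
  have hact : ∀ (σ : GQ) (y : Φ.range), M.rep m σ * (y : Matrix _ _ (ZMod (p ^ m))) ∈ Φ.range := by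
    rintro σ ⟨_, f, rfl⟩
    exact ⟨f.mapDomain (σ * ·), comb_mapDomain_left _ (M.rep m) σ (hcomm σ) f⟩
  have hE : HasFlatModel p Φ.range fun σ y => ⟨M.rep m σ * y.1, hact σ y⟩ :=
    (hasFlatModel_mat M hpN m).sub Φ.range.subtype Subtype.val_injective (fun _ _ => rfl)
      fun σ => Subtype.ext (mul_zero _)
  -- the action of this range on the level
  choose c hc using fun y : Φ.range => y.2
  have hwd : ∀ (y : Φ.range) f, Φ f = y.1 → levelComb H I f = levelComb H I (c y) :=
      fun y f hf => by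
    rw [← sub_eq_zero, ← map_sub]
    exact levelComb_eq_zero H I fun i j => hn (hm _ (by rw [map_sub, hf, hc, sub_self]) i j)
  let Ψ : Φ.range →+ Module.End T (H.ρ.V ⧸ (I • (⊤ : Submodule T H.ρ.V))) :=
    AddMonoidHom.mk' (fun y => levelComb H I (c y)) fun y z => by
      rw [← map_add]
      exact (hwd _ _ (by rw [map_add, hc, hc]; rfl)).symm
  obtain ⟨r, ⟨e⟩⟩ := Finite.exists_equiv_fin (H.ρ.V ⧸ (I • (⊤ : Submodule T H.ρ.V)))
  have hE0 : ∀ σ : GQ, (⟨M.rep m σ * (0 : Φ.range).1, hact σ 0⟩ : Φ.range) = 0 := fun σ =>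
    Subtype.ext (mul_zero _)
  refine (hE.pow hE0 r).quot
    (AddMonoidHom.mk' (fun y => ∑ i, Ψ (y i) (e.symm i)) fun y z => by
      simp only [Pi.add_apply, map_add, LinearMap.add_apply, Finset.sum_add_distrib])
    (fun v => ?_) (fun σ y => ?_) fun σ => funext fun _ => hE0 σ
  · let one : Φ.range := ⟨1, Finsupp.single 1 1, by
      show Φ _ = 1
      rw [comb_single, map_one, map_one, mul_one]⟩
    have hone : Ψ one = 1 := by
      show levelComb H I (c one) = 1
      rw [← hwd one (Finsupp.single 1 1) (by rw [comb_single, map_one, map_one, mul_one])]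
      rw [levelComb, comb_single, map_one, map_one, mul_one]
    refine ⟨Pi.single (e v) one, ?_⟩
    rw [AddMonoidHom.mk'_apply, Finset.sum_eq_single (e v)]
    · rw [Pi.single_eq_same, hone, e.symm_apply_apply, Module.End.one_apply]
    · intro i _ hi
      rw [Pi.single_eq_of_ne hi, map_zero, LinearMap.zero_apply]
    · exact fun h => absurd (Finset.mem_univ _) h
  · simp only [AddMonoidHom.mk'_apply, map_sum]
    refine Finset.sum_congr rfl fun i _ => ?_
    show levelComb H I (c _) (e.symm i) = levelHom H I σ (levelComb H I (c (y i)) (e.symm i))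
    rw [← hwd _ ((c (y i)).mapDomain (σ * ·))
      ((comb_mapDomain_left _ (M.rep m) σ (hcomm σ) _).trans (by rw [hc])), levelComb,
      comb_mapDomain_left _ (levelHom H I) σ (hlevelc σ), Module.End.mul_apply]

/-- The representation of a Hecke datum of level `N` is flat at `p ∤ N`. -/
theorem isFlatAt_of_inputs [Finite (IsLocalRing.ResidueField 𝒪)] (Ins : JacobianInputs N p)
    (hp𝒪 : (p : 𝒪) ∈ IsLocalRing.maximalIdeal 𝒪) (hpS : p ∈ S) (hpN : ¬ p ∣ N)
    (hNS : ∀ q : ℕ, q.Prime → q ∣ N → q ∈ (↑S : Set ℕ)) :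
    H.ρ.IsFlatAt p :=
  ⟨finite_residueField H, fun I _ => hasFlatModel_level H I Ins hp𝒪 hpS hpN hNS⟩

end Fermat.Agent.Flat.Datum
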