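import Mathlib.FieldTheory.IsAlgClosed.AlgebraicClosure
import Mathlib.RingTheory.DedekindDomain.Dvr
import Mathlib.RingTheory.Int.Basic
import Mathlib.RingTheory.Localization.AtPrime.Basic
import Mathlib.RingTheory.Localization.Integral
import Mathlib.RingTheory.Valuation.LocalSubring
import Fermat.Prelude.Def_FLTPrelim_Ramification
import Fermat.Prelude.Def_GaloisRep_Flat

/-!
# `ℤ` localized at `ℓ` inside `ℚ`, and the places of `ℚ̄` over `ℓ`

Integrality over `ℤ_(ℓ)` of an algebraic number is tested at the valuation rings of `ℚ̄` over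
`ℓ`. This is the base of the construction of finite flat models as rings of functions.
-/

noncomputable section

namespace Fermat.Agent.Flat

local notation "Qbar" => AlgebraicClosure ℚ

/-- `ℤ_(ℓ)`. -/
abbrev Zl (ℓ : ℕ) : Type := ↥(GaloisRep.ratLocalizedAt ℓ)

variable {ℓ : ℕ} [hℓ : Fact ℓ.Prime]

theorem not_dvd_den (x : Zl ℓ) : ¬ ℓ ∣ (x : ℚ).den :=
  (hℓ.out.coprime_iff_not_dvd).mp (Nat.Coprime.symm x.2)

theorem span_natCast_isPrime : (Ideal.span {(ℓ : ℤ)}).IsPrime :=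
  (Ideal.span_singleton_prime (by exact_mod_cast hℓ.out.ne_zero)).mpr
    (Nat.prime_iff_prime_int.mp hℓ.out)

attribute [instance] span_natCast_isPrime

instance isLocalization_Zl : IsLocalization.AtPrime (Zl ℓ) (Ideal.span {(ℓ : ℤ)}) := by
  rw [IsLocalization.AtPrime, isLocalization_iff]
  refine ⟨?_, ?_, ?_⟩
  · rintro ⟨m, hm⟩
    have hm' : ¬ (ℓ : ℤ) ∣ m := fun h => hm (Ideal.mem_span_singleton.mpr h)
    have hm0 : m ≠ 0 := fun h => hm' (h ▸ dvd_zero _)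
    have hmem : ((m : ℚ)⁻¹) ∈ GaloisRep.ratLocalizedAt ℓ := by
      show ((m : ℚ)⁻¹).den.Coprime ℓ
      rw [Rat.inv_intCast_den, if_neg hm0]
      exact (hℓ.out.coprime_iff_not_dvd.mpr (fun h => hm' (Int.natCast_dvd.mpr h))).symm
    refine isUnit_iff_exists_inv.mpr ⟨⟨_, hmem⟩, Subtype.ext ?_⟩
    simp [hm0]
  · intro z
    refine ⟨((z : ℚ).num, ⟨((z : ℚ).den : ℤ), ?_⟩), Subtype.ext ?_⟩
    · intro h
      exact not_dvd_den z (Int.natCast_dvd_natCast.mp (Ideal.mem_span_singleton.mp h))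
    · simp
  · intro x y h
    refine ⟨1, ?_⟩
    have := congrArg Subtype.val h
    simpa using this

instance isDVR_Zl : IsDiscreteValuationRing (Zl ℓ) :=
  IsLocalization.AtPrime.isDiscreteValuationRing_of_dedekind_domain ℤ
    (P := Ideal.span {(ℓ : ℤ)}) (by simp [hℓ.out.ne_zero]) (Zl ℓ)

instance isFractionRing_Zl : IsFractionRing (Zl ℓ) ℚ :=
  IsFractionRing.isFractionRing_of_isDomain_of_isLocalization
    (Ideal.span {(ℓ : ℤ)}).primeCompl (Zl ℓ) ℚ

theorem maximalIdeal_eq_span : IsLocalRing.maximalIdeal (Zl ℓ) = Ideal.span {(ℓ : Zl ℓ)} := by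
  rw [← IsLocalization.AtPrime.map_eq_maximalIdeal (Ideal.span {(ℓ : ℤ)}) (Zl ℓ),
    Ideal.map_span, Set.image_singleton]
  simp

theorem natCast_mem_maximalIdeal : (ℓ : Zl ℓ) ∈ IsLocalRing.maximalIdeal (Zl ℓ) :=
  maximalIdeal_eq_span (ℓ := ℓ) ▸ Ideal.mem_span_singleton_self _

/-- A valuation ring of `ℚ̄` over `ℓ` contains `ℤ_(ℓ)`. -/
theorem algebraMap_mem_of_liesOverPrime {A : ValuationSubring Qbar} (hA : A.LiesOverPrime ℓ)
    (x : Zl ℓ) : algebraMap (Zl ℓ) Qbar x ∈ A := by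
  have hd : ¬ ℓ ∣ (x : ℚ).den := not_dvd_den x
  have hx : algebraMap (Zl ℓ) Qbar x = ((x : ℚ).num : Qbar) / ((x : ℚ).den : Qbar) := by
    rw [IsScalarTower.algebraMap_apply (Zl ℓ) ℚ Qbar]
    conv_lhs => rw [show algebraMap (Zl ℓ) ℚ x = (x : ℚ) from rfl, ← Rat.num_div_den (x : ℚ)]
    simp
  rw [hx, div_eq_mul_inv]
  refine A.mul_mem _ _ (intCast_mem A _) ?_
  by_contra hinv
  have hden0 : ((x : ℚ).den : Qbar) ≠ 0 := by simp
  have h1 : ((x : ℚ).den : Qbar) ∈ A.nonunits := A.mem_nonunits_iff_or.mpr (Or.inr hinv)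
  obtain ⟨a, b, hab⟩ : ∃ a b : ℤ, a * (x : ℚ).den + b * ℓ = 1 :=
    ((Nat.Coprime.symm ((hℓ.out.coprime_iff_not_dvd).mpr hd)).isCoprime)
  have hsum : (1 : Qbar) = (a : Qbar) * ((x : ℚ).den : Qbar) + (b : Qbar) * (ℓ : Qbar) := by
    have := congrArg (fun z : ℤ => (z : Qbar)) hab
    push_cast at this
    exact this.symm
  obtain ⟨hu, hu'⟩ := A.mem_nonunits_iff_exists_mem_maximalIdeal.mp h1
  obtain ⟨hw, hw'⟩ := A.mem_nonunits_iff_exists_mem_maximalIdeal.mp hA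
  have e : (1 : A) = (a : A) * ⟨_, hu⟩ + (b : A) * ⟨_, hw⟩ := by
    apply Subtype.ext
    push_cast
    exact hsum
  have : (1 : A) ∈ IsLocalRing.maximalIdeal A := by
    rw [e]
    exact add_mem (Ideal.mul_mem_left _ _ hu') (Ideal.mul_mem_left _ _ hw')
  exact (IsLocalRing.maximalIdeal.isMaximal A).ne_top ((Ideal.eq_top_iff_one _).mpr this)

theorem mem_of_isIntegral {A : ValuationSubring Qbar} (hA : A.LiesOverPrime ℓ) {x : Qbar}
    (hx : IsIntegral (Zl ℓ) x) : x ∈ A := by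
  let f : Zl ℓ →+* A := (algebraMap (Zl ℓ) Qbar).codRestrict A.toSubring
    (algebraMap_mem_of_liesOverPrime hA)
  obtain ⟨P, hP, hev⟩ := hx
  have h : IsIntegral A x := ⟨P.map f, hP.map f, by rw [Polynomial.eval₂_map]; exact hev⟩
  obtain ⟨y, hy⟩ := IsIntegrallyClosed.isIntegral_iff.mp h
  exact hy ▸ y.2

/-- Integrality over `ℤ_(ℓ)` is tested at the places over `ℓ`. -/
theorem isIntegral_of_forall_mem {x : Qbar}
    (h : ∀ A : ValuationSubring Qbar, A.LiesOverPrime ℓ → x ∈ A) : IsIntegral (Zl ℓ) x := by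
  let B : Subring Qbar := (integralClosure (Zl ℓ) Qbar).toSubring
  have hB : IsIntegrallyClosedIn B Qbar := by
    rw [Subring.isIntegrallyClosedIn_iff]
    intro y hy
    exact isIntegral_trans (A := integralClosure (Zl ℓ) Qbar) y hy
  by_contra hx
  obtain ⟨V, hBV, hxV⟩ := Subring.exists_le_valuationSubring_of_isIntegrallyClosedIn
    (R := B) (x := x) hx
  by_cases hV : (ℓ : Qbar) ∈ V.nonunits
  · exact hxV (h V hV)
  · apply hxV
    have hinv : ((ℓ : Qbar))⁻¹ ∈ V := by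
      by_contra hc
      exact hV (V.mem_nonunits_iff_or.mpr (Or.inr hc))
    have hZl : ∀ z : Zl ℓ, algebraMap (Zl ℓ) Qbar z ∈ V := fun z =>
      hBV (isIntegral_algebraMap : IsIntegral (Zl ℓ) (algebraMap (Zl ℓ) Qbar z))
    have hQ : ∀ q : ℚ, algebraMap ℚ Qbar q ∈ V := by
      intro q
      obtain ⟨a, b, hb, rfl⟩ := IsFractionRing.div_surjective (Zl ℓ) (K := ℚ) q
      obtain ⟨n, u, rfl⟩ := IsDiscreteValuationRing.eq_unit_mul_pow_irreducible
        (nonZeroDivisors.ne_zero hb)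
        ((IsDiscreteValuationRing.irreducible_iff_uniformizer (R := Zl ℓ) (ℓ : Zl ℓ)).mpr
          (maximalIdeal_eq_span))
      have hu : algebraMap (Zl ℓ) ℚ (u : Zl ℓ) * algebraMap (Zl ℓ) ℚ (↑u⁻¹ : Zl ℓ) = 1 := by
        rw [← map_mul, Units.mul_inv, map_one]
      have e : algebraMap (Zl ℓ) ℚ a / algebraMap (Zl ℓ) ℚ ((u : Zl ℓ) * (ℓ : Zl ℓ) ^ n) =
          algebraMap (Zl ℓ) ℚ (a * (↑u⁻¹ : Zl ℓ)) * ((ℓ : ℚ)⁻¹) ^ n := by
        rw [map_mul, map_mul, map_pow, map_natCast, inv_pow,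
          ← eq_inv_of_mul_eq_one_right hu |>.symm]
        field_simp
      rw [e, map_mul, map_pow, map_inv₀, map_natCast, ← IsScalarTower.algebraMap_apply]
      exact V.mul_mem _ _ (hZl _) (pow_mem hinv n)
    obtain ⟨P, hP, hev⟩ : IsIntegral ℚ x :=
      ((AlgebraicClosure.isAlgebraic ℚ).isAlgebraic x).isIntegral
    let f : ℚ →+* V := (algebraMap ℚ Qbar).codRestrict V.toSubring hQ
    have hi : IsIntegral V x := ⟨P.map f, hP.map f, by rw [Polynomial.eval₂_map]; exact hev⟩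
    obtain ⟨y, hy⟩ := IsIntegrallyClosed.isIntegral_iff.mp hi
    exact hy ▸ y.2

/-- A rational number which is integral over `ℤ_(ℓ)` in `ℚ̄` lies in `ℤ_(ℓ)`. -/
theorem exists_eq_of_isIntegral {q : ℚ} (hq : IsIntegral (Zl ℓ) (algebraMap ℚ Qbar q)) :
    ∃ z : Zl ℓ, (z : ℚ) = q := by
  have : IsIntegral (Zl ℓ) q :=
    (isIntegral_algebraMap_iff (FaithfulSMul.algebraMap_injective ℚ Qbar)).mp hq
  exact IsIntegrallyClosed.isIntegral_iff.mp this

end Fermat.Agent.Flat
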