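import Mathlib.RingTheory.PowerSeries.Ideal
import Fermat.Prelude.Def_ModularCurve_X0ModL
import Fermat.Agent.FF.Modular
import Fermat.Agent.Flat.Base
import Fermat.Agent.Igusa.PrimeLevel
import Fermat.Agent.MF.Descent

/-!
# Rational functions on `X₀(N)` regular off the poles of `j` have bounded denominators

A rational function on `X₀(N)` with poles only over `j = ∞` has a `q`-expansion with bounded
denominators at `ℓ`. Used to show that the integral lattice spans the rational functions on the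
generic fibre of the good model.
-/

noncomputable section

namespace Fermat.Agent.Flat.Desc

open ModularCurve Polynomial

local notation "Qbar" => AlgebraicClosure ℚ

variable {N ℓ : ℕ} [NeZero N] [Fact ℓ.Prime]

omit [NeZero N] in
theorem mem_full_of_coeffMap_mem {L : Type*} [Field L] [Algebra ℚ L] {Y : LaurentSeries ℚ}
    (h : coeffMap (algebraMap ℚ L) Y ∈ modularFunctionFieldFullC L N) :
    Y ∈ modularFunctionFieldFull N := by
  rw [← modularFunctionFieldFullC_rat, modularFunctionFieldFullC]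
  refine MF.mem_adjoin_of_coeffMap_mem (K := L) ?_
  rwa [MF.coeffMap_image_divisorExpansions]

variable (ℓ) in
/-- Integral series inside rational ones. -/
abbrev toQ : LaurentSeries (Zl ℓ) →+* LaurentSeries ℚ := coeffMap (algebraMap (Zl ℓ) ℚ)

omit [Fact (Nat.Prime ℓ)] in
theorem toQ_injective : Function.Injective (toQ ℓ) :=
  MF.coeffMap_injective Subtype.val_injective

instance isIntegrallyClosed_laurent : IsIntegrallyClosed (LaurentSeries (Zl ℓ)) :=
  isIntegrallyClosed_of_isLocalization (R := PowerSeries (Zl ℓ)) (LaurentSeries (Zl ℓ))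
    (Submonoid.powers (PowerSeries.X : PowerSeries (Zl ℓ)))
    (powers_le_nonZeroDivisors_of_noZeroDivisors PowerSeries.X_ne_zero)

variable (ℓ) in
/-- Series with bounded denominators. -/
def bdd : Subalgebra ℚ (LaurentSeries ℚ) where
  carrier := {Y | ∃ c : Zl ℓ, c ≠ 0 ∧ toQ ℓ (HahnSeries.C c) * Y ∈ (toQ ℓ).range}
  mul_mem' := by
    rintro a b ⟨c, hc, x, hx⟩ ⟨d, hd, y, hy⟩
    refine ⟨c * d, mul_ne_zero hc hd, x * y, ?_⟩
    rw [map_mul, hx, hy, map_mul, map_mul]; ring
  one_mem' := ⟨1, one_ne_zero, 1, by simp⟩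
  add_mem' := by
    rintro a b ⟨c, hc, x, hx⟩ ⟨d, hd, y, hy⟩
    refine ⟨c * d, mul_ne_zero hc hd, HahnSeries.C d * x + HahnSeries.C c * y, ?_⟩
    rw [map_add, map_mul, map_mul, hx, hy, map_mul, map_mul]; ring
  zero_mem' := ⟨1, one_ne_zero, 0, by simp⟩
  algebraMap_mem' q := by
    obtain ⟨a, b, hb, rfl⟩ := IsFractionRing.div_surjective (Zl ℓ) (K := ℚ) q
    refine ⟨b, nonZeroDivisors.ne_zero hb, HahnSeries.C a, ?_⟩
    rw [algebraMap_laurentSeries_eq_single, HahnSeries.C_apply, HahnSeries.C_apply,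
      coeffMap_single, coeffMap_single, HahnSeries.single_mul_single, zero_add]
    congr 1
    have : algebraMap (Zl ℓ) ℚ b ≠ 0 :=
      fun h => nonZeroDivisors.ne_zero hb (Subtype.ext h)
    field_simp

omit [NeZero N] in
theorem divisorExpansions_subset : divisorExpansionsC ℚ N ⊆ bdd ℓ := by
  rintro _ ⟨d, hd, -, rfl⟩
  refine ⟨1, one_ne_zero, qExpand (Zl ℓ) d (jqModC (Zl ℓ)), ?_⟩
  rw [map_one, map_one, one_mul, coeffMap_qExpand, coeffMap_jqModC]

omit [NeZero N] in
/-- A rational function is a quotient of two series with coefficients in `ℤ_(ℓ)`. -/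
theorem exists_fraction {Y : LaurentSeries ℚ} (h : Y ∈ modularFunctionFieldFull N) :
    ∃ a b : LaurentSeries (Zl ℓ), toQ ℓ b ≠ 0 ∧ Y = toQ ℓ a / toQ ℓ b := by
  rw [← modularFunctionFieldFullC_rat, modularFunctionFieldFullC,
    IntermediateField.mem_adjoin_iff_div] at h
  obtain ⟨a, ha, b, hb, rfl⟩ := h
  obtain ⟨c, hc, x, hx⟩ := Algebra.adjoin_le (divisorExpansions_subset (ℓ := ℓ)) ha
  obtain ⟨d, hd, y, hy⟩ := Algebra.adjoin_le (divisorExpansions_subset (ℓ := ℓ)) hb
  have hC : ∀ c : Zl ℓ, c ≠ 0 → toQ ℓ (HahnSeries.C c) ≠ 0 := fun c hc h =>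
    hc (HahnSeries.C_injective
      (toQ_injective (h.trans (map_zero _).symm) |>.trans (map_zero _).symm))
  rcases eq_or_ne b 0 with rfl | hb0
  · exact ⟨0, 1, by simp, by simp⟩
  refine ⟨x * HahnSeries.C d, y * HahnSeries.C c, ?_, ?_⟩
  · rw [map_mul, hy]
    exact mul_ne_zero (mul_ne_zero (hC d hd) hb0) (hC c hc)
  · rw [map_mul, map_mul, hx, hy]
    have := hC c hc
    have := hC d hd
    field_simp

/-- A rational function integral over `L[j]` is integral over `ℚ[j]`. -/
theorem exists_relation {L : Type*} [Field L] [Algebra ℚ L] {Y : LaurentSeries ℚ}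
    (h : IsIntegral (Algebra.adjoin L {jqModC L}) (coeffMap (algebraMap ℚ L) Y)) :
    ∃ P : Polynomial (Polynomial ℚ), P.Monic ∧
      P.eval₂ (aeval (jqModC ℚ)).toRingHom Y = 0 := by
  classical
  set φ := coeffMap (algebraMap ℚ L)
  obtain ⟨p, hp, hroot⟩ := h
  have hc : ∀ i, ∃ r : Polynomial L,
      aeval (jqModC L) r = (p.coeff i : LaurentSeries L) := fun i =>
    (Algebra.adjoin_singleton_eq_range_aeval L (jqModC L)).le (p.coeff i).2
  choose r hr using hc
  set d := p.natDegree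
  obtain ⟨D, hD⟩ : ∃ D : ℕ, ∀ i < d, (r i).natDegree < D :=
    ⟨(∑ i ∈ Finset.range d, (r i).natDegree) + 1, fun i hi => Nat.lt_succ_of_le
      (Finset.single_le_sum (f := fun i => (r i).natDegree) (fun _ _ => Nat.zero_le _)
        (Finset.mem_range.mpr hi))⟩
  have hrel : φ (Y ^ d) + ∑ i ∈ Finset.range d, ∑ m ∈ Finset.range D,
      algebraMap L (LaurentSeries L) ((r i).coeff m) * φ (jqModC ℚ ^ m * Y ^ i) = 0 := by
    rw [eval₂_eq_sum_range, Finset.sum_range_succ] at hroot
    rw [show (algebraMap (Algebra.adjoin L {jqModC L}) (LaurentSeries L)) (p.coeff d) = 1 by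
      rw [hp.coeff_natDegree, map_one], one_mul, add_comm] at hroot
    rw [← hroot, map_pow]
    congr 1
    refine Finset.sum_congr rfl fun i hi => ?_
    rw [show (algebraMap (Algebra.adjoin L {jqModC L}) (LaurentSeries L)) (p.coeff i) =
      aeval (jqModC L) (r i) from (hr i).symm,
      aeval_eq_sum_range' (hD i (Finset.mem_range.mp hi)), Finset.sum_mul]
    refine Finset.sum_congr rfl fun m _ => ?_
    rw [map_mul, map_pow, map_pow, coeffMap_jqModC, Algebra.smul_def]
    ring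
  obtain ⟨π, hπ⟩ : ∃ π : L →ₗ[ℚ] ℚ, π 1 = 1 := by
    obtain ⟨π, hπ⟩ := Module.Projective.exists_dual_ne_zero ℚ (one_ne_zero (α := L))
    exact ⟨(π 1)⁻¹ • π, by simp [hπ]⟩
  set s : Finset (Unit ⊕ ℕ × ℕ) :=
    Finset.disjSum Finset.univ (Finset.range d ×ˢ Finset.range D)
  have hd := MF.linear_relation_descend s
    (Sum.elim (fun _ => (1 : L)) (fun im => (r im.1).coeff im.2))
    (Sum.elim (fun _ => Y ^ d) (fun im => jqModC ℚ ^ im.2 * Y ^ im.1)) (by
      rw [Finset.sum_disjSum]
      simp only [Sum.elim_inl, Sum.elim_inr, Finset.univ_unique, Finset.sum_singleton, map_one,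
        one_mul, Finset.sum_product]
      exact hrel) π
  rw [Finset.sum_disjSum] at hd
  simp only [Sum.elim_inl, Sum.elim_inr, Finset.univ_unique, Finset.sum_singleton, hπ, map_one,
    one_mul, Finset.sum_product] at hd
  refine ⟨X ^ d + ∑ i ∈ Finset.range d,
    C (∑ m ∈ Finset.range D, Polynomial.C (π ((r i).coeff m)) * X ^ m) * X ^ i, ?_, ?_⟩
  · refine monic_X_pow_add ((Polynomial.degree_sum_le _ _).trans_lt ?_)
    refine (Finset.sup_lt_iff (WithBot.bot_lt_coe d)).mpr fun i hi => ?_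
    exact (degree_C_mul_X_pow_le i _).trans_lt (WithBot.coe_lt_coe.mpr (Finset.mem_range.mp hi))
  · rw [eval₂_add, eval₂_X_pow, eval₂_finsetSum, ← hd]
    congr 1
    refine Finset.sum_congr rfl fun i _ => ?_
    rw [eval₂_mul, eval₂_C, eval₂_X_pow, map_sum, Finset.sum_mul]
    refine Finset.sum_congr rfl fun m _ => ?_
    rw [AlgHom.toRingHom_eq_coe, RingHom.coe_coe, map_mul, map_pow, aeval_C, aeval_X]
    ring

/-- A rational polynomial has a nonzero multiple with coefficients in `ℤ_(ℓ)`. -/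
theorem exists_C_mul_eq_map {r : Polynomial ℚ} :
    ∃ c : Zl ℓ, c ≠ 0 ∧ ∃ r' : Polynomial (Zl ℓ),
      r'.map (algebraMap (Zl ℓ) ℚ) = Polynomial.C (algebraMap (Zl ℓ) ℚ c) * r := by
  obtain ⟨c, hc⟩ := IsLocalization.exist_integer_multiples_of_finite (nonZeroDivisors (Zl ℓ))
    (fun i : Fin (r.natDegree + 1) => r.coeff i)
  refine ⟨c, nonZeroDivisors.ne_zero c.2, ?_⟩
  refine (mem_lifts _).mp ((lifts_iff_coeff_lifts _).mpr fun i => ?_)
  rw [Polynomial.coeff_C_mul]
  by_cases hi : i < r.natDegree + 1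
  · obtain ⟨z, hz⟩ := hc ⟨i, hi⟩
    exact ⟨z, by rw [hz, Algebra.smul_def]⟩
  · rw [Polynomial.coeff_eq_zero_of_natDegree_lt (by omega), mul_zero]
    exact ⟨0, map_zero _⟩

omit [NeZero N] in
/-- A rational function integral over the polynomials in `j` has bounded denominators at `ℓ`. -/
theorem mem_bdd_of_isIntegral {L : Type*} [Field L] [Algebra ℚ L] {Y : LaurentSeries ℚ}
    (hY : Y ∈ modularFunctionFieldFull N)
    (h : IsIntegral (Algebra.adjoin L {jqModC L}) (coeffMap (algebraMap ℚ L) Y)) :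
    Y ∈ bdd ℓ := by
  classical
  obtain ⟨P, hP, hroot⟩ := exists_relation h
  choose c hc0 r hr using fun i => exists_C_mul_eq_map (ℓ := ℓ) (r := P.coeff i)
  set d := P.natDegree
  set t : Zl ℓ := ∏ i ∈ Finset.range d, c i
  have ht : t ≠ 0 := Finset.prod_ne_zero_iff.mpr fun i _ => hc0 i
  set u := toQ ℓ (HahnSeries.C t)
  set ev : Polynomial (Zl ℓ) →+* LaurentSeries (Zl ℓ) :=
    eval₂RingHom HahnSeries.C (jqModC (Zl ℓ)) with hev
  have hevQ : ∀ q : Polynomial (Zl ℓ),
      toQ ℓ (ev q) = aeval (jqModC ℚ) (q.map (algebraMap (Zl ℓ) ℚ)) := by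
    intro q
    rw [aeval_def, eval₂_map, hev, coe_eval₂RingHom, Polynomial.hom_eval₂, coeffMap_jqModC]
    congr 1
    ext z : 1
    rw [RingHom.comp_apply, RingHom.comp_apply, algebraMap_laurentSeries_eq_single,
      HahnSeries.C_apply, coeffMap_single]
  -- the coefficient in degree `i` of the scaled equation
  let a : ℕ → LaurentSeries (Zl ℓ) := fun i =>
    HahnSeries.C (t ^ (d - i - 1) * ∏ m ∈ (Finset.range d).erase i, c m) * ev (r i)
  have ha : ∀ i < d, toQ ℓ (a i) = u ^ (d - i) * aeval (jqModC ℚ) (P.coeff i) := by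
    intro i hi
    have e : t ^ (d - i - 1) * (∏ m ∈ (Finset.range d).erase i, c m) * c i = t ^ (d - i) := by
      rw [mul_assoc, Finset.prod_erase_mul _ _ (Finset.mem_range.mpr hi), ← pow_succ]
      congr 1
      omega
    have hC : ∀ z : Zl ℓ, toQ ℓ (HahnSeries.C z) =
        algebraMap ℚ (LaurentSeries ℚ) (algebraMap (Zl ℓ) ℚ z) := fun z => by
      rw [HahnSeries.C_apply, coeffMap_single, algebraMap_laurentSeries_eq_single]
    simp only [a, map_mul, hevQ, hr, aeval_C]
    rw [← map_pow, ← map_pow, ← e, map_mul, map_mul, map_mul, map_mul]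
    simp only [hC]
    ring
  obtain ⟨A, B, hB, hAB⟩ := exists_fraction (ℓ := ℓ) hY
  set Q : Polynomial (LaurentSeries (Zl ℓ)) := X ^ d + ∑ i ∈ Finset.range d, C (a i) * X ^ i
  have hQ : Q.Monic := by
    refine monic_X_pow_add ((Polynomial.degree_sum_le _ _).trans_lt ?_)
    refine (Finset.sup_lt_iff (WithBot.bot_lt_coe d)).mpr fun i hi => ?_
    exact (degree_C_mul_X_pow_le i _).trans_lt (WithBot.coe_lt_coe.mpr (Finset.mem_range.mp hi))
  have hz : Q.eval₂ (toQ ℓ) (u * Y) = 0 := by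
    rw [eval₂_eq_sum_range, Finset.sum_range_succ, hP.coeff_natDegree, map_one, one_mul] at hroot
    rw [eval₂_add, eval₂_X_pow, eval₂_finsetSum,
      Finset.sum_congr rfl (fun i hi => show eval₂ (toQ ℓ) (u * Y) (C (a i) * X ^ i) =
        u ^ d * ((aeval (jqModC ℚ)).toRingHom (P.coeff i) * Y ^ i) by
        have hid := Finset.mem_range.mp hi
        rw [eval₂_mul, eval₂_C, eval₂_X_pow, ha i hid, AlgHom.toRingHom_eq_coe, RingHom.coe_coe,
          mul_pow, show u ^ d = u ^ (d - i) * u ^ i by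
            rw [← pow_add, Nat.sub_add_cancel hid.le]]
        ring),
      ← Finset.mul_sum, mul_pow, ← mul_add, add_comm, hroot, mul_zero]
  have heq : u * Y = toQ ℓ (HahnSeries.C t * A) / toQ ℓ B := by
    rw [hAB, map_mul, mul_div_assoc]
  rw [heq] at hz
  obtain ⟨w, hw⟩ := Igusa.exists_eq_of_integral_div (toQ ℓ) toQ_injective _ _ Q hQ hz
  exact ⟨t, ht, w, hw.trans heq.symm⟩

end Fermat.Agent.Flat.Desc
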