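import Fermat.Agent.Flat.RegCalculus

/-!
# The addition law is regular

If `I₁`, `I₂` and `E` are regular families of ideals and `I₃` is, pointwise, the good affine
ideal of codimension `g` in the class of `I₁ I₂ E`, then `I₃` is regular.

This is the one geometric input needed to make addition of classes a morphism of the finite flat
models built in `Fermat.Agent.Flat.Assembly`.
-/

noncomputable section

namespace Fermat.Agent.Flat

open scoped TensorProduct
open Module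

local notation "Qbar" => AlgebraicClosure ℚ

namespace GoodModel

variable {ℓ : ℕ} [Fact ℓ.Prime] {C : GoodModel ℓ} {S : Type*}
  {K : Subalgebra (Zl ℓ) (S → Qbar)} {v : Pl ℓ} {s : S}

/-- The addition law preserves regularity: if `I₁`, `I₂`, `E` are regular and `I₃` is pointwise
the good ideal of codimension `g` in the class of their product, then `I₃` is regular. -/
theorem regI_addition (hK : ∀ g ∈ K, g s ∈ v.A) {I₁ I₂ E I₃ : S → Ideal (C.R Qbar)} {c₁ c₂ r : ℕ}
    (h₁ : RegI K v s I₁ c₁) (h₂ : RegI K v s I₂ c₂) (hE : RegI K v s E r)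
    (haff : AFF v (I₃ s)) (hgood : GoodInv v (I₃ s))
    (hI₃ : ∀ t, (C.P Qbar).codim (I₃ t) = C.g ∧ I₃ t ≠ ⊥)
    (hclass : ∀ t, ∃ α β : C.R Qbar, α ≠ 0 ∧ β ≠ 0 ∧
      Ideal.span {α} * I₃ t = Ideal.span {β} * (I₁ t * I₂ t * E t)) :
    RegI K v s I₃ C.g := by
  have := (C.P Qbar).noZeroDivisors
  have := (C.P v.k).noZeroDivisors
  set Q : S → Ideal (C.R Qbar) := fun t => I₁ t * I₂ t * E t
  have hQ : RegI K v s Q (c₁ + c₂ + r) := (h₁.mul hK h₂).mul hK hE
  set cQ := c₁ + c₂ + r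
  set N := cQ + 3 * C.g
  obtain ⟨f, hf, e, he, he1, hfQ⟩ := hQ.exists_elt hK (m := N) le_rfl
  set Y := compl Q f
  have hY : RegI K v s Y (N - cQ) := regI_compl hK (hQ N le_rfl) hf (by omega) he he1 hfQ
  set cY := N - cQ with hcY
  obtain ⟨hfi, hfr, hfd, ef, hef, hef1, hft⟩ := hf.at_point hK
  obtain ⟨eY, heY, heY1, hYt⟩ := (hY _ le_rfl).support
  set e₀ := e * ef * eY
  have he₀ : e₀ ∈ Loc K v.A s := mul_mem (mul_mem he hef) heY
  have he₀1 : IsVUnit v.A (e₀ s) := (he1.mul hef1).mul heY1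
  -- `I₃ * Y` is principal
  have hprin : ∀ t, e₀ t ≠ 0 → ∃ h' : C.R Qbar, h' ≠ 0 ∧ I₃ t * Y t = Ideal.span {h'} ∧
      (C.P Qbar).deg h' = C.g + cY := by
    intro t ht
    simp only [e₀, Pi.mul_apply, mul_ne_zero_iff] at ht
    obtain ⟨α, β, hα, hβ, he'⟩ := hclass t
    obtain ⟨hf0, -⟩ := hft t ht.1.2
    have h1 : Ideal.span {α} * (I₃ t * Y t) = Ideal.span {β * f t} := by
      rw [← mul_assoc, he', mul_assoc, mul_compl (hfQ t ht.1.1),
        Ideal.span_singleton_mul_span_singleton]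
    obtain ⟨h', hh0, e1⟩ := exists_eq_span_singleton_of_mul hα (mul_ne_zero hβ hf0) h1
    refine ⟨h', hh0, e1, ?_⟩
    rw [← (C.P Qbar).codim_span_singleton hh0, ← e1,
      (C.P Qbar).codim_mul (hI₃ t).2 (hYt t ht.2).1, (hI₃ t).1, (hYt t ht.2).2]
  -- the reduction of `Y` is good
  have hgoodY : (C.P v.k).GOOD (redI v (Y s)) := by
    obtain ⟨h', hh0, e1, -⟩ := hprin s he₀1.ne_zero
    obtain ⟨b, hb, hbi, hbr⟩ := exists_scale v hh0
    have e2 : Ideal.span {h'} = Ideal.span {b⁻¹ • h'} :=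
      (span_singleton_smul (inv_ne_zero hb) h').symm
    refine hgood _ (redI_ne_bot v (hY _ le_rfl).aff.1) _ hbr ?_
    rw [← AFF.redI_mul haff (hY _ le_rfl).aff, e1, e2, redI_span_singleton hbi hbr]
  have hN : cY + cQ = N := by omega
  obtain ⟨h, hh, e', he', he'1, hht⟩ := exists_small_elt (J := fun _ => ⊤) (Z := Y) (c := cY) hK hf
    (hQ (N + 3 * C.g) (by omega)) (regI_top hK) (by omega) (by omega) he he1
    (fun t ht => by rw [mul_compl (hfQ t ht), Ideal.mul_top]) hgoodY (by omega)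
  obtain ⟨-, -, -, eh, heh, heh1, hhdeg⟩ := hh.at_point hK
  refine regI_div (J := fun _ => ⊤) hK hh (hY (cY + 3 * C.g) le_rfl) (regI_top hK) (by omega)
    (e := e₀ * e' * eh) (mul_mem (mul_mem he₀ he') heh) ((he₀1.mul he'1).mul heh1) fun t ht => ?_
  simp only [Pi.mul_apply, mul_ne_zero_iff] at ht
  obtain ⟨h', hh0, e1, hdeg⟩ := hprin t ht.1.1
  have hmemY : h' ∈ Y t :=
    Ideal.mul_le_left (I := Y t) (J := I₃ t)
      (by rw [mul_comm, e1]; exact Ideal.mem_span_singleton_self h')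
  obtain ⟨a, ha⟩ := (hht t ht.1.2).2 h' hmemY ((C.P Qbar).deg_le_iff.mp (by omega))
  have ha0 : a ≠ 0 := fun h0 => hh0 (by rw [ha, h0, zero_smul])
  have e3 : Ideal.span {h'} = Ideal.span {h t} := by rw [ha, span_singleton_smul ha0]
  rw [mul_comm (Y t), e1, e3, Ideal.mul_top]

end GoodModel

end Fermat.Agent.Flat
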