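import Mathlib.Data.Set.Card
import Mathlib.LinearAlgebra.Dimension.Constructions
import Mathlib.LinearAlgebra.FiniteDimensional.Basic
import Mathlib.LinearAlgebra.Quotient.Basic
import Mathlib.Order.Interval.Set.Nat
import Mathlib.RingTheory.Ideal.Operations

/-!
# Algebras with a pole-order basis

The affine coordinate ring of a curve with one point at infinity: a `K`-basis indexed by a numerical
semigroup with `g` gaps, multiplicative up to lower terms.  Everything about dimensions of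
`I ∩ L n` follows from counting degrees; this replaces Riemann–Roch on the fibres of a good
model.
-/

noncomputable section

namespace Fermat.Agent.Flat

open Module

/-- A pole-order basis. -/
structure PoleBasis (K R : Type*) [Field K] [CommRing R] [Algebra K R] where
  /-- the semigroup of pole orders -/
  S : Set ℕ
  /-- the number of gaps -/
  g : ℕ
  gaps_finite : Sᶜ.Finite
  gaps_card : Sᶜ.ncard = g
  add_mem : ∀ s ∈ S, ∀ t ∈ S, s + t ∈ S
  /-- the basis -/
  b : Basis S K R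
  zero_mem : 0 ∈ S
  b_zero : b ⟨0, zero_mem⟩ = 1
  coef_mul_top : ∀ s t : S, b.repr (b s * b t) ⟨s + t, add_mem _ s.2 _ t.2⟩ ≠ 0
  coef_mul_high : ∀ s t u : S, (s : ℕ) + t < u → b.repr (b s * b t) u = 0

namespace PoleBasis

variable {K R : Type*} [Field K] [CommRing R] [Algebra K R] (P : PoleBasis K R)

/-- The coefficient of degree `n`. -/
def coef (n : ℕ) : R →ₗ[K] K := by
  classical
  exact if h : n ∈ P.S then (Finsupp.lapply ⟨n, h⟩).comp P.b.repr.toLinearMap else 0

theorem coef_of_mem {n : ℕ} (h : n ∈ P.S) (x : R) : P.coef n x = P.b.repr x ⟨n, h⟩ := by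
  classical
  simp [coef, dif_pos h]

theorem coef_of_notMem {n : ℕ} (h : n ∉ P.S) (x : R) : P.coef n x = 0 := by
  classical
  simp [coef, dif_neg h]

theorem eq_zero_of_coef {x : R} (h : ∀ n, P.coef n x = 0) : x = 0 := by
  refine P.b.repr.injective (Finsupp.ext fun s => ?_)
  rw [map_zero, Finsupp.zero_apply, ← P.coef_of_mem s.2]
  exact h s

/-- Functions with pole order at most `n`. -/
def L (n : ℕ) : Submodule K R := ⨅ m : {m : ℕ // n < m}, LinearMap.ker (P.coef m)

theorem mem_L {n : ℕ} {x : R} : x ∈ P.L n ↔ ∀ m, n < m → P.coef m x = 0 := by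
  simp [L, Submodule.mem_iInf, LinearMap.mem_ker]

theorem L_mono {m n : ℕ} (h : m ≤ n) : P.L m ≤ P.L n := fun _ hx =>
  P.mem_L.mpr fun k hk => P.mem_L.mp hx k (h.trans_lt hk)

theorem exists_mem_L (x : R) : ∃ n, x ∈ P.L n := by
  refine ⟨(P.b.repr x).support.sup fun s => (s : ℕ), P.mem_L.mpr fun m hm => ?_⟩
  by_cases h : m ∈ P.S
  · rw [P.coef_of_mem h]
    by_contra hne
    exact absurd (Finset.le_sup (f := fun s : P.S => (s : ℕ))
      (Finsupp.mem_support_iff.mpr hne)) (not_le.mpr hm)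
  · exact P.coef_of_notMem h x

/-- The pole order. -/
def deg (x : R) : ℕ := by
  classical exact Nat.find (P.exists_mem_L x)

theorem mem_L_deg (x : R) : x ∈ P.L (P.deg x) := by
  classical exact Nat.find_spec (P.exists_mem_L x)

theorem deg_le_iff {x : R} {n : ℕ} : P.deg x ≤ n ↔ x ∈ P.L n := by
  classical
  exact ⟨fun h => P.L_mono h (P.mem_L_deg x), fun h => Nat.find_min' _ h⟩

theorem coef_eq_zero_of_deg_lt {x : R} {n : ℕ} (h : P.deg x < n) : P.coef n x = 0 :=
  P.mem_L.mp (P.mem_L_deg x) n h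

theorem coef_deg_ne_zero {x : R} (hx : x ≠ 0) : P.coef (P.deg x) x ≠ 0 := by
  intro h
  rcases Nat.eq_zero_or_pos (P.deg x) with h0 | hpos
  · exact hx (P.eq_zero_of_coef fun n => by
      rcases Nat.eq_zero_or_pos n with rfl | hn
      · rwa [h0] at h
      · exact P.coef_eq_zero_of_deg_lt (h0 ▸ hn))
  · have : x ∈ P.L (P.deg x - 1) := P.mem_L.mpr fun m hm => by
      rcases eq_or_lt_of_le (show P.deg x ≤ m by omega) with rfl | hlt
      · exact h
      · exact P.coef_eq_zero_of_deg_lt hlt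
    have := P.deg_le_iff.mpr this
    omega

theorem deg_mem {x : R} (hx : x ≠ 0) : P.deg x ∈ P.S := by
  by_contra h
  exact P.coef_deg_ne_zero hx (P.coef_of_notMem h x)

theorem deg_eq_of {x : R} {n : ℕ} (h : x ∈ P.L n) (h' : P.coef n x ≠ 0) : P.deg x = n :=
  le_antisymm (P.deg_le_iff.mpr h) (not_lt.mp fun hlt => h' (P.coef_eq_zero_of_deg_lt hlt))

theorem coef_mul_of_le {x y : R} {m n u : ℕ} (hx : x ∈ P.L m) (hy : y ∈ P.L n) (hu : m + n ≤ u) :
    (∀ (hm : m ∈ P.S) (hn : n ∈ P.S), u = m + n →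
      P.coef u (x * y) = P.coef m x * P.coef n y *
        P.b.repr (P.b ⟨m, hm⟩ * P.b ⟨n, hn⟩) ⟨m + n, P.add_mem _ hm _ hn⟩) ∧
    (¬(m ∈ P.S ∧ n ∈ P.S ∧ u = m + n) → P.coef u (x * y) = 0) := by
  classical
  suffices H : (∀ (hm : m ∈ P.S) (hn : n ∈ P.S), u = m + n →
      P.coef u (Finsupp.linearCombination K P.b (P.b.repr x) *
        Finsupp.linearCombination K P.b (P.b.repr y)) = P.coef m x * P.coef n y *
        P.b.repr (P.b ⟨m, hm⟩ * P.b ⟨n, hn⟩) ⟨m + n, P.add_mem _ hm _ hn⟩) ∧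
    (¬(m ∈ P.S ∧ n ∈ P.S ∧ u = m + n) → P.coef u (Finsupp.linearCombination K P.b (P.b.repr x) *
        Finsupp.linearCombination K P.b (P.b.repr y)) = 0) by
    rwa [P.b.linearCombination_repr x, P.b.linearCombination_repr y] at H
  simp only [Finsupp.linearCombination_apply, Finsupp.sum, Finset.sum_mul_sum, map_sum,
    smul_mul_smul_comm, map_smul, smul_eq_mul]
  have key : ∀ s ∈ (P.b.repr x).support, ∀ t ∈ (P.b.repr y).support,
      (u = (s : ℕ) + t → (s : ℕ) = m ∧ (t : ℕ) = n) ∧ (s : ℕ) + t ≤ u := by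
    intro s hs t ht
    have hsm : (s : ℕ) ≤ m := by
      by_contra h
      have := P.mem_L.mp hx s (not_le.mp h)
      rw [P.coef_of_mem s.2] at this
      exact Finsupp.mem_support_iff.mp hs this
    have htn : (t : ℕ) ≤ n := by
      by_contra h
      have := P.mem_L.mp hy t (not_le.mp h)
      rw [P.coef_of_mem t.2] at this
      exact Finsupp.mem_support_iff.mp ht this
    exact ⟨fun h => ⟨by omega, by omega⟩, by omega⟩
  have hz : ∀ s ∈ (P.b.repr x).support, ∀ t ∈ (P.b.repr y).support, u ≠ (s : ℕ) + t →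
      P.coef u (P.b s * P.b t) = 0 := by
    intro s hs t ht hne
    by_cases hS : u ∈ P.S
    · rw [P.coef_of_mem hS]
      exact P.coef_mul_high s t _ (lt_of_le_of_ne (key s hs t ht).2 (Ne.symm hne))
    · exact P.coef_of_notMem hS _
  refine ⟨fun hm hn e => ?_, fun h => ?_⟩
  · subst e
    rw [Finset.sum_eq_single (⟨m, hm⟩ : P.S), Finset.sum_eq_single (⟨n, hn⟩ : P.S)]
    · rw [P.coef_of_mem hm, P.coef_of_mem hn, P.coef_of_mem (P.add_mem _ hm _ hn)]
    · intro t ht hne
      by_cases hs : (⟨m, hm⟩ : P.S) ∈ (P.b.repr x).support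
      · rw [hz _ hs t ht fun e => hne (Subtype.ext ((key _ hs t ht).1 e).2), mul_zero]
      · simp [Finsupp.notMem_support_iff.mp hs]
    · intro ht; simp [Finsupp.notMem_support_iff.mp ht]
    · intro s hs hne
      refine Finset.sum_eq_zero fun t ht => ?_
      rw [hz s hs t ht fun e => hne (Subtype.ext ((key s hs t ht).1 e).1), mul_zero]
    · intro hs
      exact Finset.sum_eq_zero fun t _ => by simp [Finsupp.notMem_support_iff.mp hs]
  · refine Finset.sum_eq_zero fun s hs => Finset.sum_eq_zero fun t ht => ?_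
    rw [hz s hs t ht fun e => h ?_, mul_zero]
    obtain ⟨h1, h2⟩ := (key s hs t ht).1 e
    exact ⟨h1 ▸ s.2, h2 ▸ t.2, by omega⟩

theorem mul_mem_L {x y : R} {m n : ℕ} (hx : x ∈ P.L m) (hy : y ∈ P.L n) :
    x * y ∈ P.L (m + n) :=
  P.mem_L.mpr fun u hu => by
    refine (P.coef_mul_of_le hx hy hu.le).2 ?_
    rintro ⟨-, -, e⟩
    omega

theorem coef_mul_deg {x y : R} (hx : x ≠ 0) (hy : y ≠ 0) :
    P.coef (P.deg x + P.deg y) (x * y) ≠ 0 := by
  rw [(P.coef_mul_of_le (P.mem_L_deg x) (P.mem_L_deg y) le_rfl).1 (P.deg_mem hx) (P.deg_mem hy) rfl]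
  exact mul_ne_zero (mul_ne_zero (P.coef_deg_ne_zero hx) (P.coef_deg_ne_zero hy))
    (P.coef_mul_top ⟨_, P.deg_mem hx⟩ ⟨_, P.deg_mem hy⟩)

theorem deg_mul {x y : R} (hx : x ≠ 0) (hy : y ≠ 0) : P.deg (x * y) = P.deg x + P.deg y :=
  P.deg_eq_of (P.mul_mem_L (P.mem_L_deg x) (P.mem_L_deg y)) (P.coef_mul_deg hx hy)

include P in
theorem noZeroDivisors : NoZeroDivisors R := ⟨fun {x y} h => by
  by_contra hne
  push Not at hne
  exact P.coef_mul_deg hne.1 hne.2 (by rw [h, map_zero])⟩

include P in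
theorem nontrivial : Nontrivial R :=
  ⟨1, 0, fun h => P.b.ne_zero ⟨0, P.zero_mem⟩ (P.b_zero.trans h)⟩

include P in
theorem isDomain : IsDomain R :=
  haveI := P.noZeroDivisors
  haveI := P.nontrivial
  NoZeroDivisors.to_isDomain R

theorem deg_one : P.deg (1 : R) = 0 := by
  refine Nat.le_zero.mp (P.deg_le_iff.mpr (P.mem_L.mpr fun m hm => ?_))
  by_cases h : m ∈ P.S
  · rw [P.coef_of_mem h, ← P.b_zero, Basis.repr_self, Finsupp.single_apply, if_neg]
    intro e
    exact absurd (congrArg Subtype.val e) (Nat.ne_of_lt hm)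
  · exact P.coef_of_notMem h _

theorem deg_b (s : P.S) : P.deg (P.b s) = s := by
  refine P.deg_eq_of (P.mem_L.mpr fun m hm => ?_) ?_
  · by_cases h : m ∈ P.S
    · rw [P.coef_of_mem h, Basis.repr_self, Finsupp.single_apply, if_neg]
      intro e
      exact absurd (congrArg Subtype.val e) (Nat.ne_of_lt hm)
    · exact P.coef_of_notMem h _
  · simp [P.coef_of_mem s.2]

/-- Pigeonhole: every `n ≥ 2 g` is a pole order. -/
theorem mem_of_two_g_le {n : ℕ} (h : 2 * P.g ≤ n) : n ∈ P.S := by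
  classical
  by_contra hn
  have key : ∀ i ∈ Finset.range (n + 1), i ∈ P.gaps_finite.toFinset ∨
      i ∈ P.gaps_finite.toFinset.image (fun j => n - j) := by
    intro i hi
    by_contra hh
    push Not at hh
    obtain ⟨h1, h2⟩ := hh
    rw [Set.Finite.mem_toFinset, Set.mem_compl_iff, not_not] at h1
    have hi' : i ≤ n := Nat.lt_succ_iff.mp (Finset.mem_range.mp hi)
    have h3 : n - i ∈ P.S := by
      by_contra h3
      exact h2 (Finset.mem_image.mpr ⟨n - i, P.gaps_finite.mem_toFinset.mpr h3, by omega⟩)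
    exact hn (by simpa [Nat.add_sub_of_le hi'] using P.add_mem _ h1 _ h3)
  have hc : P.gaps_finite.toFinset.card = P.g := by
    rw [← Set.ncard_eq_toFinset_card _ P.gaps_finite, P.gaps_card]
  have := Finset.card_le_card (s := Finset.range (n + 1))
    (t := P.gaps_finite.toFinset ∪ P.gaps_finite.toFinset.image (fun j => n - j))
    fun i hi => Finset.mem_union.mpr (key i hi)
  have h4 := (Finset.card_union_le P.gaps_finite.toFinset
    (P.gaps_finite.toFinset.image (fun j => n - j))).trans (Nat.add_le_add hc.le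
    (Finset.card_image_le.trans hc.le))
  rw [Finset.card_range] at this
  omega

/-- The pole orders occurring in a subspace. -/
def degs (W : Submodule K R) : Set ℕ := {d | ∃ x ∈ W, x ≠ 0 ∧ P.deg x = d}

theorem degs_subset (W : Submodule K R) : P.degs W ⊆ P.S := by
  rintro _ ⟨x, -, hx, rfl⟩
  exact P.deg_mem hx

theorem degs_mono {W W' : Submodule K R} (h : W ≤ W') : P.degs W ⊆ P.degs W' := by
  rintro _ ⟨x, hx, hx0, rfl⟩
  exact ⟨x, h hx, hx0, rfl⟩

theorem degs_inf_L (W : Submodule K R) (n : ℕ) :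
    P.degs (W ⊓ P.L n) = P.degs W ∩ Set.Iic n := by
  ext d
  constructor
  · rintro ⟨x, ⟨hx, hxn⟩, hx0, rfl⟩
    exact ⟨⟨x, hx, hx0, rfl⟩, P.deg_le_iff.mpr hxn⟩
  · rintro ⟨⟨x, hx, hx0, rfl⟩, hd⟩
    exact ⟨x, ⟨hx, P.deg_le_iff.mp hd⟩, hx0, rfl⟩

/-- Elimination of the top coefficient. -/
theorem exists_sub_deg_lt {x y : R} (hy : y ≠ 0) (hd : P.deg x = P.deg y) :
    ∃ a : K, x - a • y = 0 ∨ P.deg (x - a • y) < P.deg x := by
  refine ⟨P.coef (P.deg x) x / P.coef (P.deg x) y, ?_⟩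
  set z := x - (P.coef (P.deg x) x / P.coef (P.deg x) y) • y
  by_cases hz : z = 0
  · exact Or.inl hz
  refine Or.inr (lt_of_le_of_ne ?_ fun e => ?_)
  · exact P.deg_le_iff.mpr (sub_mem (P.mem_L_deg x) (Submodule.smul_mem _ _
      (hd ▸ P.mem_L_deg y)))
  · apply P.coef_deg_ne_zero hz
    have : P.coef (P.deg x) y ≠ 0 := hd ▸ P.coef_deg_ne_zero hy
    rw [e, map_sub, map_smul, smul_eq_mul, div_mul_cancel₀ _ this, sub_self]

theorem le_of_degs_subset {W W' : Submodule K R} (h : W' ≤ W) (hd : P.degs W ⊆ P.degs W') :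
    W ≤ W' := by
  intro x hx
  induction hn : P.deg x using Nat.strong_induction_on generalizing x with
  | _ n ih =>
    subst hn
    by_cases hx0 : x = 0
    · exact hx0 ▸ W'.zero_mem
    obtain ⟨y, hy, hy0, hyd⟩ := hd ⟨x, hx, hx0, rfl⟩
    obtain ⟨a, ha⟩ := P.exists_sub_deg_lt hy0 hyd.symm
    have hmem : x - a • y ∈ W' := by
      rcases ha with h0 | hlt
      · exact h0 ▸ W'.zero_mem
      · exact ih _ hlt (W.sub_mem hx (W.smul_mem _ (h hy))) rfl
    simpa using W'.add_mem hmem (W'.smul_mem a hy)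

theorem exists_basis (W : Submodule K R) :
    ∃ w : P.degs W → R, (∀ d, w d ∈ W ∧ w d ≠ 0 ∧ P.deg (w d) = d) ∧
      LinearIndependent K w ∧ Submodule.span K (Set.range w) = W := by
  classical
  choose w hw using fun d : P.degs W => (d.2 : ∃ x ∈ W, x ≠ 0 ∧ P.deg x = d)
  refine ⟨w, hw, ?_, ?_⟩
  · rw [linearIndependent_iff']
    intro s a ha
    by_contra hne
    push Not at hne
    obtain ⟨i, hi, hai⟩ := hne
    have hT : (s.filter fun j => a j ≠ 0).Nonempty := ⟨i, Finset.mem_filter.mpr ⟨hi, hai⟩⟩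
    obtain ⟨j, hj, hmax⟩ := Finset.exists_max_image _ (fun j : P.degs W => (j : ℕ)) hT
    rw [Finset.mem_filter] at hj
    have := congrArg (P.coef j) ha
    rw [map_sum, map_zero, Finset.sum_eq_single j, map_smul, smul_eq_mul, mul_eq_zero] at this
    · rcases this with h | h
      · exact hj.2 h
      · have := P.coef_deg_ne_zero (hw j).2.1
        rw [(hw j).2.2] at this
        exact this h
    · intro k hk hkj
      by_cases hak : a k = 0
      · simp [hak]
      rw [map_smul, P.coef_eq_zero_of_deg_lt (x := w k), smul_zero]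
      rw [(hw k).2.2]
      exact lt_of_le_of_ne (hmax k (Finset.mem_filter.mpr ⟨hk, hak⟩))
        fun e => hkj (Subtype.ext e)
    · exact fun h => absurd hj.1 h
  · have hle : Submodule.span K (Set.range w) ≤ W :=
      Submodule.span_le.mpr (by rintro _ ⟨d, rfl⟩; exact (hw d).1)
    refine le_antisymm hle (P.le_of_degs_subset hle fun d hd => ?_)
    exact ⟨w ⟨d, hd⟩, Submodule.subset_span ⟨_, rfl⟩, (hw _).2.1, (hw _).2.2⟩

theorem finrank_eq_ncard (W : Submodule K R) : finrank K W = (P.degs W).ncard := by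
  obtain ⟨w, hw, hli, hspan⟩ := P.exists_basis W
  rw [← Nat.card_coe_set_eq]
  have b := (Basis.span hli).map (LinearEquiv.ofEq _ _ hspan)
  exact Module.finrank_eq_nat_card_basis b

theorem finite_of_degs_finite {W : Submodule K R} (h : (P.degs W).Finite) :
    Module.Finite K W := by
  obtain ⟨w, hw, hli, hspan⟩ := P.exists_basis W
  have := h.to_subtype
  exact Module.Finite.of_basis ((Basis.span hli).map (LinearEquiv.ofEq _ _ hspan))

instance finite_L (n : ℕ) : Module.Finite K (P.L n) := by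
  refine P.finite_of_degs_finite ((Set.finite_Iic n).subset ?_)
  rintro _ ⟨x, hx, -, rfl⟩
  exact P.deg_le_iff.mpr hx

theorem ncard_inter_Iic_add {n : ℕ} (h : 2 * P.g ≤ n + 1) :
    (P.S ∩ Set.Iic n).ncard + P.g = n + 1 := by
  have hsub : P.Sᶜ ⊆ Set.Iic n := fun m hm => by
    by_contra hlt
    exact hm (P.mem_of_two_g_le (by simp only [Set.mem_Iic] at hlt; omega))
  have e : P.S ∩ Set.Iic n = Set.Iic n \ P.Sᶜ := by
    ext m; simp [and_comm]
  rw [e, Set.ncard_sdiff hsub P.gaps_finite, P.gaps_card, Set.ncard_Iic_nat]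
  omega

theorem finrank_L {n : ℕ} (h : 2 * P.g ≤ n + 1) : finrank K (P.L n) + P.g = n + 1 := by
  rw [P.finrank_eq_ncard, ← P.ncard_inter_Iic_add h, show P.L n = (⊤ : Submodule K R) ⊓ P.L n from
    (top_inf_eq _).symm, P.degs_inf_L]
  congr 3
  refine Set.Subset.antisymm (P.degs_subset _) fun s hs => ?_
  exact ⟨P.b ⟨s, hs⟩, trivial, P.b.ne_zero _, P.deg_b _⟩

theorem degs_span_b (T : Set P.S) :
    P.degs (Submodule.span K (P.b '' T)) = (fun s : P.S => (s : ℕ)) '' T := by
  refine Set.Subset.antisymm ?_ ?_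
  · rintro _ ⟨x, hx, hx0, rfl⟩
    by_contra hn
    apply P.coef_deg_ne_zero hx0
    rw [P.coef_of_mem (P.deg_mem hx0)]
    have hsup := P.b.repr_support_subset_of_mem_span T hx
    exact Finsupp.notMem_support_iff.mp fun h => hn ⟨_, hsup h, rfl⟩
  · rintro _ ⟨s, hs, rfl⟩
    exact ⟨P.b s, Submodule.subset_span ⟨s, hs, rfl⟩, P.b.ne_zero s, P.deg_b s⟩

end PoleBasis

end Fermat.Agent.Flat
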