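import Mathlib.FieldTheory.IsAlgClosed.Basic
import Mathlib.LinearAlgebra.Isomorphisms
import Mathlib.RingTheory.DedekindDomain.Ideal.Lemmas
import Fermat.Agent.Flat.PoleBasis

/-!
# Ideals in an algebra with a pole-order basis

The codimension of an ideal is the number of pole orders it misses. Riemann–Roch for large
degree, additivity of the codimension and the Dedekind property follow from counting. Used on
both fibres of a good model.
-/

noncomputable section

namespace Fermat.Agent.Flat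

open Module

/-- A nonzero scalar multiple generates the same principal ideal. -/
theorem span_singleton_smul {F R : Type*} [Field F] [CommRing R] [Algebra F R] {a : F} (ha : a ≠ 0)
    (x : R) : Ideal.span {a • x} = Ideal.span {x} := by
  rw [Algebra.smul_def]
  exact Ideal.span_singleton_mul_left_unit ((Ne.isUnit ha).map (algebraMap F R)) x

/-- In a Dedekind domain, an ideal whose product with a nonzero principal ideal is nonzero and
principal is itself principal. -/
theorem exists_eq_span_singleton_of_mul {R : Type*} [CommRing R] [IsDedekindDomain R] {α β : R}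
    {I : Ideal R} (hα : α ≠ 0) (hβ : β ≠ 0) (h : Ideal.span {α} * I = Ideal.span {β}) :
    ∃ x, x ≠ 0 ∧ I = Ideal.span {x} := by
  obtain ⟨x, -, hx⟩ := Ideal.mem_span_singleton_mul.mp
    (h ▸ Ideal.mem_span_singleton_self β : β ∈ Ideal.span {α} * I)
  refine ⟨x, fun h0 => hβ (by rw [← hx, h0, mul_zero]),
    mul_left_cancel₀ (show (Ideal.span {α} : Ideal R) ≠ ⊥ by simpa using hα) ?_⟩
  rw [h, ← hx, Ideal.span_singleton_mul_span_singleton]

/-- A proper ideal contains no nonzero constant. -/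
theorem eq_zero_of_algebraMap_mem {F R : Type*} [Field F] [CommRing R] [Algebra F R] {I : Ideal R}
    (hI : I ≠ ⊤) {a : F} (ha : algebraMap F R a ∈ I) : a = 0 :=
  of_not_not fun h => hI (Ideal.eq_top_of_isUnit_mem _ ha ((IsUnit.mk0 a h).map (algebraMap F R)))

/-- An element is congruent to at most one constant modulo a proper ideal. -/
theorem eq_of_sub_algebraMap_mem {F R : Type*} [Field F] [CommRing R] [Algebra F R] {I : Ideal R}
    (hI : I ≠ ⊤) {z : R} {a b : F} (ha : z - algebraMap F R a ∈ I)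
    (hb : z - algebraMap F R b ∈ I) : a = b :=
  (sub_eq_zero.mp (eq_zero_of_algebraMap_mem hI (a := b - a) (by
    simpa [map_sub] using I.sub_mem ha hb))).symm

namespace PoleBasis

variable {K R : Type*} [Field K] [CommRing R] [Algebra K R] (P : PoleBasis K R)

/-- Pole orders of an ideal. -/
def idegs (I : Ideal R) : Set ℕ := P.degs (I.restrictScalars K)

/-- The codimension of an ideal, as a number of missing pole orders. -/
def codim (I : Ideal R) : ℕ := (P.S \ P.idegs I).ncard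

/-- `I ∩ L n`. -/
def LI (I : Ideal R) (n : ℕ) : Submodule K R := I.restrictScalars K ⊓ P.L n

theorem mem_LI {I : Ideal R} {n : ℕ} {x : R} : x ∈ P.LI I n ↔ x ∈ I ∧ x ∈ P.L n := Iff.rfl

theorem mem_idegs {I : Ideal R} {d : ℕ} :
    d ∈ P.idegs I ↔ ∃ x ∈ I, x ≠ 0 ∧ P.deg x = d := Iff.rfl

theorem idegs_subset (I : Ideal R) : P.idegs I ⊆ P.S := P.degs_subset _

theorem idegs_mono {I J : Ideal R} (h : I ≤ J) : P.idegs I ⊆ P.idegs J :=
  P.degs_mono fun _ hx => h hx

theorem add_mem_idegs {I : Ideal R} {a s : ℕ} (ha : a ∈ P.idegs I) (hs : s ∈ P.S) :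
    a + s ∈ P.idegs I := by
  have := P.noZeroDivisors
  obtain ⟨x, hx, hx0, rfl⟩ := P.mem_idegs.mp ha
  refine P.mem_idegs.mpr ⟨x * P.b ⟨s, hs⟩, I.mul_mem_right _ hx,
    mul_ne_zero hx0 (P.b.ne_zero _), ?_⟩
  rw [P.deg_mul hx0 (P.b.ne_zero _), P.deg_b]

theorem mem_idegs_of_add_le {I : Ideal R} {a n : ℕ} (ha : a ∈ P.idegs I)
    (h : a + 2 * P.g ≤ n) : n ∈ P.idegs I := by
  have := P.add_mem_idegs ha (P.mem_of_two_g_le (n := n - a) (by omega))
  rwa [Nat.add_sub_of_le (by omega)] at this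

theorem idegs_nonempty {I : Ideal R} (hI : I ≠ ⊥) : (P.idegs I).Nonempty := by
  obtain ⟨x, hx, hx0⟩ := Submodule.exists_mem_ne_zero_of_ne_bot hI
  exact ⟨_, x, hx, hx0, rfl⟩

theorem finite_compl_idegs {I : Ideal R} (hI : I ≠ ⊥) : (P.idegs I)ᶜ.Finite := by
  obtain ⟨a, ha⟩ := P.idegs_nonempty hI
  refine (Set.finite_Iio (a + 2 * P.g)).subset fun n hn => ?_
  by_contra h
  exact hn (P.mem_idegs_of_add_le ha (not_lt.mp fun h' => h h'))

theorem ncard_compl_idegs {I : Ideal R} (hI : I ≠ ⊥) :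
    (P.idegs I)ᶜ.ncard = P.g + P.codim I := by
  have e : (P.idegs I)ᶜ = P.Sᶜ ∪ (P.S \ P.idegs I) := by
    ext n
    have := @idegs_subset K R _ _ _ P I n
    simp only [Set.mem_compl_iff, Set.mem_union, Set.mem_sdiff]
    tauto
  rw [e, Set.ncard_union_eq (Set.disjoint_left.mpr fun n h h' => (Set.mem_compl_iff _ _).mp h h'.1 :
      Disjoint P.Sᶜ (P.S \ P.idegs I)) P.gaps_finite
    ((P.finite_compl_idegs hI).subset fun n hn => hn.2), P.gaps_card]
  rfl

/-- The least pole order in `I` is at most `c(I) + g`. -/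
theorem exists_idegs_le {I : Ideal R} (hI : I ≠ ⊥) : ∃ a ∈ P.idegs I, a ≤ P.codim I + P.g := by
  by_contra h
  push Not at h
  have hsub : Set.Iic (P.codim I + P.g) ⊆ (P.idegs I)ᶜ := fun n hn hn' =>
    absurd (h n hn') (not_lt.mpr hn)
  have := Set.ncard_le_ncard hsub (P.finite_compl_idegs hI)
  rw [P.ncard_compl_idegs hI, Set.ncard_Iic_nat] at this
  omega

theorem mem_idegs_of_le {I : Ideal R} (hI : I ≠ ⊥) {n : ℕ} (h : P.codim I + 3 * P.g ≤ n) :
    n ∈ P.idegs I := by
  obtain ⟨a, ha, hle⟩ := P.exists_idegs_le hI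
  exact P.mem_idegs_of_add_le ha (by omega)

theorem finrank_LI_eq_ncard (I : Ideal R) (n : ℕ) :
    finrank K (P.LI I n) = (P.idegs I ∩ Set.Iic n).ncard := by
  rw [P.finrank_eq_ncard, LI, P.degs_inf_L]
  rfl

instance finite_LI (I : Ideal R) (n : ℕ) : Module.Finite K (P.LI I n) :=
  Submodule.finiteDimensional_of_le (inf_le_right : P.LI I n ≤ P.L n)

theorem ncard_inter_Iic {I : Ideal R} (hI : I ≠ ⊥) (n : ℕ) :
    (P.idegs I ∩ Set.Iic n).ncard + ((P.idegs I)ᶜ ∩ Set.Iic n).ncard = n + 1 := by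
  rw [← Set.ncard_union_eq (Set.disjoint_left.mpr fun m h h' => h'.1 h.1)
    ((Set.finite_Iic n).subset Set.inter_subset_right)
    ((P.finite_compl_idegs hI).subset Set.inter_subset_left), ← Set.union_inter_distrib_right,
    Set.union_compl_self, Set.univ_inter, Set.ncard_Iic_nat]

/-- Riemann's inequality. -/
theorem le_finrank_LI {I : Ideal R} (hI : I ≠ ⊥) (n : ℕ) :
    n + 1 ≤ finrank K (P.LI I n) + (P.g + P.codim I) := by
  rw [P.finrank_LI_eq_ncard, ← P.ncard_inter_Iic hI n]
  refine Nat.add_le_add_left ?_ _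
  rw [← P.ncard_compl_idegs hI]
  exact Set.ncard_le_ncard Set.inter_subset_left (P.finite_compl_idegs hI)

/-- Riemann–Roch for large `n`. -/
theorem finrank_LI {I : Ideal R} (hI : I ≠ ⊥) {n : ℕ} (h : P.codim I + 3 * P.g ≤ n + 1) :
    finrank K (P.LI I n) + (P.g + P.codim I) = n + 1 := by
  rw [P.finrank_LI_eq_ncard, ← P.ncard_compl_idegs hI, ← P.ncard_inter_Iic hI n]
  congr 1
  congr 1
  refine (Set.inter_eq_left.mpr fun m hm => ?_).symm
  by_contra hlt
  exact hm (P.mem_idegs_of_le hI (by simp only [Set.mem_Iic] at hlt; omega))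

/-- `I ∩ L n` generates `I` for large `n`. -/
theorem span_LI {I : Ideal R} (hI : I ≠ ⊥) {n : ℕ} (h : P.codim I + 3 * P.g ≤ n) :
    Ideal.span (P.LI I n : Set R) = I := by
  have hle : Ideal.span (P.LI I n : Set R) ≤ I := Ideal.span_le.mpr fun x hx => hx.1
  refine le_antisymm hle fun x hx => ?_
  obtain ⟨a, ha, hale⟩ := P.exists_idegs_le hI
  have hdeg : P.idegs I ⊆ P.idegs (Ideal.span (P.LI I n : Set R)) := by
    rintro d ⟨y, hy, hy0, rfl⟩
    by_cases hn : P.deg y ≤ n
    · exact ⟨y, Ideal.subset_span ⟨hy, P.deg_le_iff.mp hn⟩, hy0, rfl⟩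
    · obtain ⟨z, hz, hz0, hzd⟩ := ha
      have : a ∈ P.idegs (Ideal.span (P.LI I n : Set R)) :=
        ⟨z, Ideal.subset_span ⟨hz, P.deg_le_iff.mp (by omega)⟩, hz0, hzd⟩
      exact P.mem_idegs_of_add_le this (by omega)
  exact P.le_of_degs_subset (W := I.restrictScalars K)
    (W' := (Ideal.span (P.LI I n : Set R)).restrictScalars K) (fun y hy => hle hy) hdeg hx

theorem codim_antitone {I J : Ideal R} (hI : I ≠ ⊥) (h : I ≤ J) : P.codim J ≤ P.codim I :=
  Set.ncard_le_ncard (Set.sdiff_subset_sdiff_right (P.idegs_mono h))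
    ((P.finite_compl_idegs hI).subset fun _ hn => hn.2)

theorem eq_of_le_of_codim_le {I J : Ideal R} (hI : I ≠ ⊥) (h : I ≤ J)
    (hc : P.codim I ≤ P.codim J) : I = J := by
  refine le_antisymm h fun x hx => ?_
  have e : P.S \ P.idegs J = P.S \ P.idegs I :=
    Set.eq_of_subset_of_ncard_le (Set.sdiff_subset_sdiff_right (P.idegs_mono h)) hc
      ((P.finite_compl_idegs hI).subset fun _ hn => hn.2)
  refine P.le_of_degs_subset (W := J.restrictScalars K) (W' := I.restrictScalars K)
    (fun y hy => h hy) (fun d hd => ?_) hx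
  by_contra hn
  have : d ∈ P.S \ P.idegs J := e ▸ ⟨P.idegs_subset J hd, hn⟩
  exact this.2 hd

theorem idegs_top : P.idegs ⊤ = P.S :=
  Set.Subset.antisymm (P.idegs_subset _) fun s hs =>
    ⟨P.b ⟨s, hs⟩, trivial, P.b.ne_zero _, P.deg_b _⟩

theorem codim_top : P.codim ⊤ = 0 := by
  rw [codim, idegs_top, Set.sdiff_self, Set.ncard_empty]

theorem idegs_span_singleton {f : R} (hf : f ≠ 0) :
    P.idegs (Ideal.span {f}) = (fun s => P.deg f + s) '' P.S := by
  have := P.noZeroDivisors
  refine Set.Subset.antisymm ?_ ?_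
  · rintro _ ⟨x, hx, hx0, rfl⟩
    obtain ⟨y, rfl⟩ := Ideal.mem_span_singleton'.mp hx
    have hy : y ≠ 0 := fun h => hx0 (by rw [h, zero_mul])
    exact ⟨P.deg y, P.deg_mem hy, by rw [P.deg_mul hy hf, add_comm]⟩
  · rintro _ ⟨s, hs, rfl⟩
    exact P.add_mem_idegs ⟨f, Ideal.mem_span_singleton_self f, hf, rfl⟩ hs

theorem codim_span_singleton {f : R} (hf : f ≠ 0) : P.codim (Ideal.span {f}) = P.deg f := by
  have hI : Ideal.span {f} ≠ ⊥ := by simpa using hf
  have h := P.ncard_compl_idegs hI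
  have e : (P.idegs (Ideal.span {f}))ᶜ =
      Set.Iio (P.deg f) ∪ (fun s => P.deg f + s) '' P.Sᶜ := by
    rw [P.idegs_span_singleton hf]
    ext n
    simp only [Set.mem_compl_iff, Set.mem_image, Set.mem_union, Set.mem_Iio]
    constructor
    · intro hn
      by_cases hlt : n < P.deg f
      · exact Or.inl hlt
      · exact Or.inr ⟨n - P.deg f, fun hs => hn ⟨_, hs, by omega⟩, by omega⟩
    · rintro (hlt | ⟨s, hs, rfl⟩) ⟨t, ht, hte⟩
      · omega
      · exact hs (by rwa [show s = t by omega])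
  rw [e, Set.ncard_union_eq (Set.disjoint_left.mpr fun n hn hn' => by
      obtain ⟨s, -, rfl⟩ := hn'; simp at hn) (Set.finite_Iio _) (P.gaps_finite.image _),
    Set.ncard_image_of_injective _ (fun a c hac => by simpa using hac), P.gaps_card] at h
  rw [Set.ncard_Iio_nat] at h
  omega

/-- The quotient has dimension the codimension. -/
theorem finrank_quotient {I : Ideal R} (hI : I ≠ ⊥) :
    Module.Finite K (R ⧸ I.restrictScalars K) ∧
      finrank K (R ⧸ I.restrictScalars K) = P.codim I := by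
  set T : Set P.S := {s | (s : ℕ) ∉ P.idegs I}
  set C := Submodule.span K (P.b '' T)
  have hC : P.degs C = P.S \ P.idegs I := by
    rw [P.degs_span_b]
    ext n
    constructor
    · rintro ⟨s, hs, rfl⟩; exact ⟨s.2, hs⟩
    · rintro ⟨h1, h2⟩; exact ⟨⟨n, h1⟩, h2, rfl⟩
  have hfin : (P.degs C).Finite := hC ▸ (P.finite_compl_idegs hI).subset fun _ hn => hn.2
  have := P.finite_of_degs_finite hfin
  have hcompl : IsCompl (I.restrictScalars K) C := by
    constructor
    · rw [Submodule.disjoint_def]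
      intro x hx hxC
      by_contra hx0
      have : P.deg x ∈ P.degs C := ⟨x, hxC, hx0, rfl⟩
      exact (hC ▸ this : P.deg x ∈ P.S \ P.idegs I).2 ⟨x, hx, hx0, rfl⟩
    · rw [codisjoint_iff, eq_top_iff]
      refine P.le_of_degs_subset le_top fun d hd => ?_
      by_cases h : d ∈ P.idegs I
      · exact P.degs_mono le_sup_left h
      · exact P.degs_mono le_sup_right (hC ▸ ⟨P.degs_subset _ hd, h⟩)
  let e := Submodule.quotientEquivOfIsCompl _ _ hcompl
  refine ⟨Module.Finite.equiv e.symm, ?_⟩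
  rw [e.finrank_eq, P.finrank_eq_ncard, hC]
  rfl

include P in
theorem isNoetherianRing : IsNoetherianRing R := by
  refine ⟨fun I => ?_⟩
  by_cases hI : I = ⊥
  · exact hI ▸ Submodule.fg_bot
  obtain ⟨t, ht⟩ :=
    Submodule.fg_def.mp ((Module.Finite.iff_fg).mp (P.finite_LI I (P.codim I + 3 * P.g)))
  refine Submodule.fg_def.mpr ⟨t, ht.1, ?_⟩
  refine le_antisymm (Submodule.span_le.mpr fun x hx => ?_) ?_
  · exact (ht.2 ▸ Submodule.subset_span hx : x ∈ P.LI I _).1
  · conv_lhs => rw [← P.span_LI hI le_rfl]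
    refine Ideal.span_le.mpr fun x hx => ?_
    rw [← ht.2] at hx
    exact Submodule.span_le_restrictScalars K R t hx

include P in
theorem isMaximal_of_isPrime {I : Ideal R} (hI : I ≠ ⊥) (hp : I.IsPrime) : I.IsMaximal := by
  have := (P.finrank_quotient hI).1
  have : Module.Finite K (R ⧸ I) :=
    Module.Finite.equiv (Submodule.Quotient.restrictScalarsEquiv K I)
  exact Ideal.Quotient.maximal_of_isField _
    (isField_of_isIntegral_of_isField' (R := K) (Field.toIsField K))

include P in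
theorem isDedekindDomain [IsIntegrallyClosed R] : IsDedekindDomain R :=
  haveI := P.isDomain
  haveI := P.isNoetherianRing
  haveI : Ring.DimensionLEOne R := ⟨fun h0 hp => P.isMaximal_of_isPrime h0 hp⟩
  { }

section AlgClosed

variable [IsAlgClosed K]

include P in
theorem exists_const {Q : Ideal R} (hQ : Q.IsMaximal) (hQ0 : Q ≠ ⊥) (x : R) :
    ∃ a : K, x - algebraMap K R a ∈ Q := by
  have := (P.finrank_quotient hQ0).1
  have : Module.Finite K (R ⧸ Q) :=
    Module.Finite.equiv (Submodule.Quotient.restrictScalarsEquiv K Q)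
  let := Ideal.Quotient.field Q
  obtain ⟨a, ha⟩ := (IsAlgClosed.algebraMap_bijective_of_isIntegral (k := K) (K := R ⧸ Q)).2
    (Ideal.Quotient.mk Q x)
  exact ⟨a, Ideal.Quotient.eq.mp ha.symm⟩

theorem codim_mul_maximal [IsDedekindDomain R] {I Q : Ideal R} (hI : I ≠ ⊥) (hQ : Q.IsMaximal)
    (hQ0 : Q ≠ ⊥) : P.codim (I * Q) = P.codim I + 1 := by
  have hIQ : I * Q ≠ ⊥ := mul_ne_zero hI hQ0
  have hlt : I * Q < I := by
    refine lt_of_le_of_ne Ideal.mul_le_left fun e => hQ.ne_top ?_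
    exact mul_left_cancel₀ hI (e.trans (Ideal.mul_top I).symm)
  obtain ⟨a, haI, haQ⟩ := SetLike.exists_of_lt hlt
  have hgen : Ideal.span {a} ⊔ I * Q = I := by
    refine le_antisymm (sup_le ((Ideal.span_singleton_le_iff_mem I).mpr haI) Ideal.mul_le_left) ?_
    obtain ⟨J, hJ⟩ := Ideal.dvd_iff_le.mpr (show Ideal.span {a} ⊔ I * Q ≤ I from
      sup_le ((Ideal.span_singleton_le_iff_mem I).mpr haI) Ideal.mul_le_left)
    have hQJ : Q ≤ J := by
      have h1 : I * Q ≤ I * J := hJ ▸ le_sup_right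
      rw [← Ideal.dvd_iff_le] at h1 ⊢
      exact (mul_dvd_mul_iff_left hI).mp h1
    rcases (eq_or_lt_of_le hQJ).imp_right (hQ.out.2 J) with e | e
    · exfalso
      apply haQ
      have : a ∈ Ideal.span {a} ⊔ I * Q := Submodule.mem_sup_left (Ideal.mem_span_singleton_self a)
      rwa [hJ, ← e] at this
    · rw [hJ, e, Ideal.mul_top]
  obtain ⟨hf, hc⟩ := P.finrank_quotient hIQ
  obtain ⟨-, hc'⟩ := P.finrank_quotient hI
  rw [← hc, ← hc']
  set U := (I * Q).restrictScalars K
  have hmap : (I.restrictScalars K).map U.mkQ = K ∙ U.mkQ a := by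
    refine le_antisymm ?_ ((Submodule.span_singleton_le_iff_mem _ _).mpr ⟨a, haI, rfl⟩)
    rintro _ ⟨x, hx, rfl⟩
    rw [SetLike.mem_coe, Submodule.restrictScalars_mem, ← hgen] at hx
    obtain ⟨u, hu, v, hv, rfl⟩ := Submodule.mem_sup.mp hx
    obtain ⟨r, rfl⟩ := Ideal.mem_span_singleton'.mp hu
    obtain ⟨k, hk⟩ := P.exists_const hQ hQ0 r
    refine Submodule.mem_span_singleton.mpr ⟨k, ?_⟩
    rw [← map_smul, Submodule.mkQ_apply, Submodule.mkQ_apply, Submodule.Quotient.eq]
    rw [Submodule.restrictScalars_mem]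
    have : k • a - (r * a + v) = -((r - algebraMap K R k) * a) - v := by
      rw [Algebra.smul_def]; ring
    rw [this]
    refine sub_mem (neg_mem ?_) hv
    rw [mul_comm I Q]
    exact Ideal.mul_mem_mul hk haI
  have h1 := Submodule.finrank_quotient_add_finrank ((I.restrictScalars K).map U.mkQ)
  have h2 : (U.mkQ a) ≠ 0 := fun h => haQ ((Submodule.Quotient.mk_eq_zero U).mp h)
  have h3 : finrank K ((I.restrictScalars K).map U.mkQ) = 1 := by
    rw [hmap, finrank_span_singleton h2]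
  rw [h3, (Submodule.quotientQuotientEquivQuotient U (I.restrictScalars K)
    (fun x hx => Ideal.mul_le_left hx)).finrank_eq] at h1
  exact h1.symm

/-- The codimension is additive. -/
theorem codim_mul [IsDedekindDomain R] {I J : Ideal R} (hI : I ≠ ⊥) (hJ : J ≠ ⊥) :
    P.codim (I * J) = P.codim I + P.codim J := by
  induction J using UniqueFactorizationMonoid.induction_on_prime generalizing I with
  | h₁ => exact absurd rfl hJ
  | h₂ J hu =>
    rw [Ideal.isUnit_iff.mp hu, Ideal.mul_top, P.codim_top, add_zero]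
  | h₃ J Q hJ0 hQ ih =>
    have hQ0 : Q ≠ ⊥ := hQ.ne_zero
    have hmax : Q.IsMaximal := (Ideal.isPrime_of_prime hQ).isMaximal hQ0
    rw [mul_comm Q J, ← mul_assoc, P.codim_mul_maximal (mul_ne_zero hI hJ0) hmax hQ0,
      P.codim_mul_maximal hJ0 hmax hQ0, ih hI hJ0]
    ring

end AlgClosed

end PoleBasis

end Fermat.Agent.Flat
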