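import Mathlib.RingTheory.IntegralClosure.IntegrallyClosed
import Fermat.Prelude.Def_AlgebraicCurve_BaseChangeGalois
import Fermat.Agent.FF.Duality
import Fermat.Agent.Flat.PoleIdeal

/-!
# The functions regular outside one place, as an algebra with a pole-order basis

For a place `P` of a function field `F / K` of genus `g`, the functions regular away from `P`
form a `PoleBasis`: they have a basis indexed by their pole orders at `P`, and exactly `g` orders
are missing. This supplies the generic and special fibres of the good model of `X₀(N)` minus `∞`.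
-/

noncomputable section

namespace Fermat.Agent.Flat.AC

open AlgebraicCurve Module
open Fermat.Agent.FF

variable {K F : Type*} [Field K] [Field F] [Algebra K F]

/-- The functions without pole outside `P`. -/
def Reg (P : Place K F) : Subalgebra K F where
  carrier := {f | ∀ v, v ≠ P → f ∈ v.toValuationSubring}
  mul_mem' ha hb v hv := mul_mem (ha v hv) (hb v hv)
  one_mem' _ _ := one_mem _
  add_mem' ha hb v hv := add_mem (ha v hv) (hb v hv)
  zero_mem' _ _ := zero_mem _
  algebraMap_mem' c v _ := v.algebraMap_mem' c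

variable {P : Place K F}

theorem mem_Reg {f : F} : f ∈ Reg P ↔ ∀ v, v ≠ P → f ∈ v.toValuationSubring := Iff.rfl

theorem mem_Reg_iff {f : F} : f ∈ Reg P ↔ ∀ v, v ≠ P → 0 ≤ v.ord f := by
  simp only [mem_Reg, mem_iff_ord_nonneg]

variable (P)

instance isIntegrallyClosed_Reg : IsIntegrallyClosed (Reg P) := by
  have key : ∀ x : F, IsIntegral (Reg P) x → x ∈ Reg P := by
    intro x hx v hv
    let φ : Reg P →+* v.toValuationSubring :=
      (Reg P).val.toRingHom.codRestrict v.toValuationSubring.toSubring fun a => a.2 v hv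
    obtain ⟨y, hy⟩ := IsIntegrallyClosed.isIntegral_iff.mp
      (hx.map_of_comp_eq φ (RingHom.id F) (by ext; rfl) : IsIntegral v.toValuationSubring x)
    have : x = (y : F) := hy.symm
    exact this ▸ y.2
  have hinj : Function.Injective (algebraMap (Reg P) F) := Subtype.val_injective
  refine (isIntegrallyClosed_iff (FractionRing (Reg P))).mpr fun {x} hx => ?_
  let φ : FractionRing (Reg P) →+* F := IsFractionRing.lift hinj
  have hφ : ∀ r : Reg P, φ (algebraMap _ _ r) = algebraMap (Reg P) F r :=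
    IsFractionRing.lift_algebraMap hinj
  have hint : IsIntegral (Reg P) (φ x) :=
    hx.map_of_comp_eq (RingHom.id _) φ (RingHom.ext fun r => (hφ r).symm)
  exact ⟨⟨φ x, key _ hint⟩, φ.injective (hφ _)⟩

variable {P}

theorem smul_mem_Reg {g : SemilinearAut K F} (hg : g • P = P) {f : F} :
    g • f ∈ Reg P ↔ f ∈ Reg P := by
  simp only [mem_Reg_iff]
  refine ⟨fun h v hv => ?_, fun h v hv => ?_⟩
  · have := h (g • v) fun e => hv (smul_left_cancel g (e.trans hg.symm))
    rwa [SemilinearAut.ord_smul] at this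
  · have := h (g⁻¹ • v) fun e => hv (by rw [← hg, ← e, smul_inv_smul])
    rw [← SemilinearAut.ord_smul g, smul_inv_smul] at this
    exact this

variable [IsAlgClosed K] [IsFunctionField K F]

/-- The multiples of `P`. -/
def nP (P : Place K F) (n : ℕ) : Divisor K F := Finsupp.single P (n : ℤ)

theorem degree_nP (n : ℕ) : Divisor.degree (nP P n) = n := by
  rw [nP, Divisor.degree_single, place_deg_eq_one]; simp

omit [IsAlgClosed K] [IsFunctionField K F] in
theorem mem_rr_nP {n : ℕ} {f : F} :
    f ∈ riemannRochSpace (nP P n) ↔ f ∈ Reg P ∧ (f = 0 ∨ -(n : ℤ) ≤ P.ord f) := by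
  classical
  rw [mem_riemannRochSpace_iff, mem_Reg_iff]
  refine ⟨fun h => ⟨fun v hv => ?_, ?_⟩, fun ⟨h1, h2⟩ v => ?_⟩
  · have := h v
    rw [nP, Finsupp.single_eq_of_ne hv, neg_zero] at this
    rcases this with rfl | h0
    · simp
    · exact h0
  · have := h P
    rwa [nP, Finsupp.single_eq_same] at this
  · rcases eq_or_ne v P with rfl | hv
    · rwa [nP, Finsupp.single_eq_same]
    · rw [nP, Finsupp.single_eq_of_ne hv, neg_zero]
      exact Or.inr (h1 v hv)

/-- A nonzero regular function has nonpositive order at `P`. -/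
theorem ord_nonpos {f : F} (hf : f ∈ Reg P) : P.ord f ≤ 0 := by
  by_contra h
  rw [not_le] at h
  have h0 : ∀ v : Place K F, 0 ≤ v.ord f := fun v => by
    rcases eq_or_ne v P with rfl | hv
    · exact h.le
    · exact mem_Reg_iff.mp hf v hv
  obtain ⟨c, rfl⟩ := mem_range_of_ord_nonneg h0
  rw [ord_algebraMap] at h
  omega

variable (P) in
/-- The pole orders. -/
def poleSet : Set ℕ := {n | ∃ f ∈ Reg P, f ≠ 0 ∧ P.ord f = -(n : ℤ)}

omit [IsAlgClosed K] [IsFunctionField K F] in
theorem zero_mem_poleSet : 0 ∈ poleSet P := ⟨1, one_mem _, one_ne_zero, by simp⟩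

omit [IsAlgClosed K] [IsFunctionField K F] in
theorem add_mem_poleSet {s t : ℕ} (hs : s ∈ poleSet P) (ht : t ∈ poleSet P) :
    s + t ∈ poleSet P := by
  obtain ⟨f, hf, hf0, hfo⟩ := hs
  obtain ⟨g, hg, hg0, hgo⟩ := ht
  exact ⟨f * g, mul_mem hf hg, mul_ne_zero hf0 hg0, by
    rw [P.ord_mul hf0 hg0, hfo, hgo]; push_cast; ring⟩

omit [IsAlgClosed K] [IsFunctionField K F] in
theorem rr_succ_eq {n : ℕ} (hn : n + 1 ∉ poleSet P) :
    riemannRochSpace (nP P (n + 1)) = riemannRochSpace (nP P n) := by
  ext f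
  rw [mem_rr_nP, mem_rr_nP]
  refine and_congr_right fun hf => ⟨?_, ?_⟩
  · rintro (rfl | h)
    · exact Or.inl rfl
    by_cases hf0 : f = 0
    · exact Or.inl hf0
    refine Or.inr ?_
    have : P.ord f ≠ -((n + 1 : ℕ) : ℤ) := fun e => hn ⟨f, hf, hf0, e⟩
    push_cast at this h ⊢
    omega
  · rintro (rfl | h)
    · exact Or.inl rfl
    · right; push_cast; omega

variable (P)

omit [IsAlgClosed K] [IsFunctionField K F] in
theorem exists_poleFn (s : poleSet P) :
    ∃ f : Reg P, f ≠ 0 ∧ P.ord (f : F) = -((s : ℕ) : ℤ) ∧ ((s : ℕ) = 0 → f = 1) := by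
  by_cases h : (s : ℕ) = 0
  · exact ⟨1, one_ne_zero, by simp [h], fun _ => rfl⟩
  obtain ⟨f, hf, hf0, hord⟩ := s.2
  exact ⟨⟨f, hf⟩, fun e => hf0 (congrArg Subtype.val e), hord, fun e => absurd e h⟩

/-- A regular function of each pole order. -/
def poleFn (s : poleSet P) : Reg P := (exists_poleFn P s).choose

omit [IsAlgClosed K] [IsFunctionField K F] in
theorem poleFn_ne_zero (s : poleSet P) : poleFn P s ≠ 0 := (exists_poleFn P s).choose_spec.1

omit [IsAlgClosed K] [IsFunctionField K F] in
theorem ord_poleFn (s : poleSet P) : P.ord (poleFn P s : F) = -((s : ℕ) : ℤ) :=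
  (exists_poleFn P s).choose_spec.2.1

omit [IsAlgClosed K] [IsFunctionField K F] in
theorem poleFn_zero : poleFn P ⟨0, zero_mem_poleSet⟩ = 1 :=
  (exists_poleFn P _).choose_spec.2.2 rfl

variable {P}

omit [IsAlgClosed K] [IsFunctionField K F] in
theorem sum_smul_mem_nP {s : Finset (poleSet P)} {a : poleSet P → K} {m : ℕ}
    (h : ∀ i ∈ s, a i = 0 ∨ (i : ℕ) ≤ m) :
    ((∑ i ∈ s, a i • poleFn P i : Reg P) : F) ∈ riemannRochSpace (nP P m) := by
  rw [AddSubmonoidClass.coe_finsetSum]
  refine sum_mem fun i hi => ?_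
  rcases h i hi with h0 | hle
  · simp [h0]
  · refine Submodule.smul_mem _ (a i) (mem_rr_nP.mpr ⟨(poleFn P i).2, Or.inr ?_⟩)
    rw [ord_poleFn]
    omega

omit [IsAlgClosed K] [IsFunctionField K F] in
theorem ord_sum_smul {s : Finset (poleSet P)} {a : poleSet P → K} {m : poleSet P} (hm : m ∈ s)
    (ham : a m ≠ 0) (h : ∀ i ∈ s, a i = 0 ∨ (i : ℕ) ≤ m) :
    (∑ i ∈ s, a i • poleFn P i) ≠ 0 ∧
      P.ord ((∑ i ∈ s, a i • poleFn P i : Reg P) : F) = -((m : ℕ) : ℤ) := by
  classical
  set f : F := algebraMap K F (a m) * (poleFn P m : F) with hfdef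
  set g : F := ((∑ i ∈ s.erase m, a i • poleFn P i : Reg P) : F) with hgdef
  have hsplit : ((∑ i ∈ s, a i • poleFn P i : Reg P) : F) = f + g := by
    rw [← Finset.add_sum_erase s _ hm, AddMemClass.coe_add, hgdef, hfdef]
    congr 1
    exact Algebra.smul_def (a m) (poleFn P m : F)
  have hf0 : f ≠ 0 :=
    mul_ne_zero ((map_ne_zero _).mpr ham) fun e => poleFn_ne_zero P m (Subtype.ext e)
  have hford : P.ord f = -((m : ℕ) : ℤ) := by
    rw [hfdef, ord_algebraMap_mul P ham, ord_poleFn]
  have hlt : g = 0 ∨ P.ord f < P.ord g := by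
    rcases Nat.eq_zero_or_pos (m : ℕ) with h0 | hpos
    · left
      rw [hgdef, Finset.sum_eq_zero, ZeroMemClass.coe_zero]
      intro i hi
      rw [Finset.mem_erase] at hi
      rcases h i hi.2 with h1 | h1
      · rw [h1, zero_smul]
      · exact absurd (Subtype.ext (by omega)) hi.1
    · have hg : g ∈ riemannRochSpace (nP P ((m : ℕ) - 1)) := by
        refine sum_smul_mem_nP fun i hi => ?_
        rw [Finset.mem_erase] at hi
        rcases h i hi.2 with h1 | h1
        · exact Or.inl h1
        · right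
          have : (i : ℕ) ≠ m := fun e => hi.1 (Subtype.ext e)
          omega
      rcases (mem_rr_nP.mp hg).2 with h1 | h1
      · exact Or.inl h1
      · right; omega
  refine ⟨fun e => add_ne_zero_of_ord_lt P hf0 hlt ?_, ?_⟩
  · rw [← hsplit, e, ZeroMemClass.coe_zero]
  · rw [hsplit, ord_add_eq_of_lt P hf0 hlt, hford]

omit [IsAlgClosed K] [IsFunctionField K F] in
theorem linearIndependent_poleFn : LinearIndependent K (poleFn P) := by
  classical
  rw [linearIndependent_iff']
  intro s a hsum i hi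
  by_contra hne
  obtain ⟨j, hj, hmax⟩ := Finset.exists_max_image (s.filter fun j => a j ≠ 0)
    (fun j => (j : ℕ)) ⟨i, Finset.mem_filter.mpr ⟨hi, hne⟩⟩
  rw [Finset.mem_filter] at hj
  refine (ord_sum_smul hj.1 hj.2 fun k hk => ?_).1 hsum
  by_cases h : a k = 0
  · exact Or.inl h
  · exact Or.inr (hmax k (Finset.mem_filter.mpr ⟨hk, h⟩))

theorem mem_span_of_ord (f : Reg P) (n : ℕ) (h : (f : F) = 0 ∨ -(n : ℤ) ≤ P.ord (f : F)) :
    f ∈ Submodule.span K (poleFn P '' {s | (s : ℕ) ≤ n}) := by
  induction n generalizing f with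
  | zero =>
    have h0 : ∀ v : Place K F, 0 ≤ v.ord (f : F) := fun v => by
      rcases eq_or_ne v P with rfl | hv
      · rcases h with h | h
        · rw [h, Place.ord_zero]
        · simpa using h
      · exact mem_Reg_iff.mp f.2 v hv
    obtain ⟨c, hc⟩ := mem_range_of_ord_nonneg h0
    have : f = c • poleFn P ⟨0, zero_mem_poleSet⟩ := by
      rw [poleFn_zero]
      refine Subtype.ext (hc.symm.trans ?_)
      rw [SetLike.val_smul, OneMemClass.coe_one, Algebra.smul_def, mul_one]
    rw [this]
    exact Submodule.smul_mem _ c (Submodule.subset_span ⟨_, by simp, rfl⟩)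
  | succ n ih =>
    have hmono : Submodule.span K (poleFn P '' {s | (s : ℕ) ≤ n}) ≤
        Submodule.span K (poleFn P '' {s | (s : ℕ) ≤ n + 1}) :=
      Submodule.span_mono (Set.image_mono fun s (hs : (s : ℕ) ≤ n) => Nat.le_succ_of_le hs)
    by_cases hn : n + 1 ∈ poleSet P
    · obtain ⟨c, hc⟩ := exists_smul_sub_mem P (n := (n : ℤ)) (u := (poleFn P ⟨n + 1, hn⟩ : F))
        (f := (f : F)) (fun e => poleFn_ne_zero P _ (Subtype.ext e))
        (by rw [ord_poleFn]; push_cast; rfl)
        (by rw [mem_poleLe]; push_cast at h; exact h)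
      have hmem : f - c • poleFn P ⟨n + 1, hn⟩ ∈
          Submodule.span K (poleFn P '' {s | (s : ℕ) ≤ n}) :=
        ih _ (by rw [mem_poleLe] at hc; exact hc)
      have := add_mem (hmono hmem) (Submodule.smul_mem _ c
        (Submodule.subset_span (R := K) (s := poleFn P '' {s | (s : ℕ) ≤ n + 1})
          ⟨⟨n + 1, hn⟩, le_refl (n + 1), rfl⟩))
      rwa [sub_add_cancel] at this
    · refine hmono (ih f ?_)
      have : (f : F) ∈ riemannRochSpace (nP P (n + 1)) := mem_rr_nP.mpr ⟨f.2, h⟩
      rw [rr_succ_eq hn] at this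
      exact (mem_rr_nP.mp this).2

variable (P)

/-- The pole-order basis. -/
def poleFnBasis : Basis (poleSet P) K (Reg P) :=
  Basis.mk linearIndependent_poleFn fun f _ =>
    Submodule.span_mono (Set.image_subset_range _ _)
      (mem_span_of_ord f (-P.ord (f : F)).toNat (Or.inr (by omega)))

theorem poleFnBasis_apply (s : poleSet P) : poleFnBasis P s = poleFn P s :=
  Basis.mk_apply _ _ _

theorem repr_eq_zero {f : Reg P} {n : ℕ} (h : (f : F) = 0 ∨ -(n : ℤ) ≤ P.ord (f : F))
    {u : poleSet P} (hu : n < u) : (poleFnBasis P).repr f u = 0 := by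
  have hspan : f ∈ Submodule.span K (poleFnBasis P '' {s | (s : ℕ) ≤ n}) := by
    rw [show (poleFnBasis P '' {s | (s : ℕ) ≤ n}) = poleFn P '' {s | (s : ℕ) ≤ n} from
      Set.image_congr fun s _ => poleFnBasis_apply P s]
    exact mem_span_of_ord f n h
  by_contra hne
  exact absurd ((poleFnBasis P).repr_support_subset_of_mem_span _ hspan
    (Finsupp.mem_support_iff.mpr hne)) (not_le.mpr hu)

theorem rr_eq_span (n : ℕ) : riemannRochSpace (nP P n) =
    (Submodule.span K (poleFn P '' {s | (s : ℕ) ≤ n})).map (Reg P).val.toLinearMap := by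
  refine le_antisymm (fun f hf => ?_) ?_
  · obtain ⟨h1, h2⟩ := mem_rr_nP.mp hf
    exact ⟨⟨f, h1⟩, mem_span_of_ord ⟨f, h1⟩ n h2, rfl⟩
  · rw [Submodule.map_le_iff_le_comap, Submodule.span_le]
    rintro _ ⟨s, hs, rfl⟩
    refine mem_rr_nP.mpr ⟨(poleFn P s).2, Or.inr ?_⟩
    show -(n : ℤ) ≤ P.ord (poleFn P s : F)
    rw [ord_poleFn]
    change (s : ℕ) ≤ n at hs
    omega

theorem ncard_poleSet_inter (n : ℕ) : (poleSet P ∩ Set.Iic n).ncard = ell (nP P n) := by
  have hfin : {s : poleSet P | (s : ℕ) ≤ n}.Finite :=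
    (Set.finite_Iic n).preimage Subtype.val_injective.injOn
  let := hfin.fintype
  rw [ell, rr_eq_span, LinearEquiv.finrank_eq
    (Submodule.equivMapOfInjective (Reg P).val.toLinearMap Subtype.val_injective _).symm,
    Set.image_eq_range,
    finrank_span_eq_card (b := fun x : {s : poleSet P | (s : ℕ) ≤ n} => poleFn P x)
      (linearIndependent_poleFn.comp _ Subtype.val_injective),
    ← Nat.card_eq_fintype_card, Nat.card_coe_set_eq,
    ← Set.ncard_image_of_injective _ (Subtype.val_injective (p := fun m => m ∈ poleSet P))]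
  congr 1
  ext m
  simp [Set.mem_Iic, and_comm]

theorem mem_poleSet_of_le {n : ℕ} (h : 2 * genusFF K F ≤ n) : n ∈ poleSet P := by
  rcases n with - | n
  · exact zero_mem_poleSet
  by_contra hn
  have h1 := ell_eq_of_large_degree (D := nP P (n + 1)) (by rw [degree_nP]; push_cast; omega)
  have h2 := ell_eq_of_large_degree (D := nP P n) (by rw [degree_nP]; omega)
  rw [degree_nP] at h1 h2
  rw [ell, rr_succ_eq hn] at h1
  rw [ell] at h2
  omega

theorem gaps_subset : (poleSet P)ᶜ ⊆ Set.Iic (2 * genusFF K F) := fun n hn => by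
  by_contra h
  exact hn (mem_poleSet_of_le P (le_of_lt (not_le.mp h)))

theorem gaps_card : (poleSet P)ᶜ.ncard = genusFF K F := by
  set g := genusFF K F
  have h1 := ell_eq_of_large_degree (D := nP P (2 * g)) (by rw [degree_nP]; push_cast; omega)
  rw [degree_nP, ← ncard_poleSet_inter] at h1
  have hunion : (poleSet P ∩ Set.Iic (2 * g)) ∪ (poleSet P)ᶜ = Set.Iic (2 * g) := by
    ext n
    refine ⟨?_, fun h => ?_⟩
    · rintro (h | h)
      · exact h.2
      · exact gaps_subset P h
    · by_cases hn : n ∈ poleSet P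
      · exact Or.inl ⟨hn, h⟩
      · exact Or.inr hn
  have h3 := Set.ncard_union_eq (s := poleSet P ∩ Set.Iic (2 * g)) (t := (poleSet P)ᶜ)
    (Set.disjoint_left.mpr fun n h h' => h' h.1) ((Set.finite_Iic _).subset Set.inter_subset_right)
    ((Set.finite_Iic _).subset (gaps_subset P))
  rw [hunion, Set.ncard_Iic_nat] at h3
  push_cast at h1
  omega

/-- The functions regular outside `P` have a pole-order basis. -/
def poleBasis : PoleBasis K (Reg P) where
  S := poleSet P
  g := genusFF K F
  gaps_finite := (Set.finite_Iic _).subset (gaps_subset P)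
  gaps_card := gaps_card P
  add_mem _ hs _ ht := add_mem_poleSet hs ht
  b := poleFnBasis P
  zero_mem := zero_mem_poleSet
  b_zero := by rw [poleFnBasis_apply, poleFn_zero]
  coef_mul_high s t u h := by
    refine repr_eq_zero P (n := (s : ℕ) + t) (Or.inr ?_) h
    rw [poleFnBasis_apply, poleFnBasis_apply, MulMemClass.coe_mul,
      P.ord_mul (fun e => poleFn_ne_zero P s (Subtype.ext e))
        (fun e => poleFn_ne_zero P t (Subtype.ext e)), ord_poleFn, ord_poleFn]
    push_cast; omega
  coef_mul_top s t := by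
    classical
    intro h0
    set x := poleFnBasis P s * poleFnBasis P t with hx
    have hne : (x : F) ≠ 0 := by
      rw [hx, MulMemClass.coe_mul, poleFnBasis_apply, poleFnBasis_apply]
      exact mul_ne_zero (fun e => poleFn_ne_zero P s (Subtype.ext e))
        (fun e => poleFn_ne_zero P t (Subtype.ext e))
    have hord : P.ord (x : F) = -((((s : ℕ) + t : ℕ)) : ℤ) := by
      rw [hx, MulMemClass.coe_mul, poleFnBasis_apply, poleFnBasis_apply,
        P.ord_mul (fun e => poleFn_ne_zero P s (Subtype.ext e))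
          (fun e => poleFn_ne_zero P t (Subtype.ext e)), ord_poleFn, ord_poleFn]
      push_cast; ring
    have hsum := (poleFnBasis P).linearCombination_repr x
    rw [Finsupp.linearCombination_apply, Finsupp.sum] at hsum
    simp only [poleFnBasis_apply] at hsum
    set c := (poleFnBasis P).repr x
    rcases Nat.eq_zero_or_pos ((s : ℕ) + t) with hz | hpos
    · refine hne ?_
      rw [← hsum]
      rw [Finset.sum_eq_zero, ZeroMemClass.coe_zero]
      intro i hi
      exfalso
      refine Finsupp.mem_support_iff.mp hi ?_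
      rcases Nat.eq_zero_or_pos (i : ℕ) with h1 | h1
      · rw [← h0]; congr; exact Subtype.ext (h1.trans hz.symm)
      · exact repr_eq_zero P (n := (s : ℕ) + t) (Or.inr (by rw [hord])) (by omega)
    · have hmem : (x : F) ∈ riemannRochSpace (nP P ((s : ℕ) + t - 1)) := by
        rw [← hsum]
        refine sum_smul_mem_nP fun i hi => ?_
        rcases lt_trichotomy (i : ℕ) ((s : ℕ) + t) with h1 | h1 | h1
        · right; omega
        · left; rw [← h0]; congr; exact Subtype.ext h1
        · exact Or.inl (repr_eq_zero P (n := (s : ℕ) + t) (Or.inr (by rw [hord])) h1)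
      rcases (mem_rr_nP.mp hmem).2 with h1 | h1
      · exact hne h1
      · rw [hord] at h1; omega

variable {P}

theorem deg_poleBasis {f : Reg P} (hf : f ≠ 0) :
    ((poleBasis P).deg f : ℤ) = -P.ord (f : F) := by
  classical
  have hle := ord_nonpos f.2
  obtain ⟨d, hd⟩ : ∃ d : ℕ, (d : ℤ) = -P.ord (f : F) :=
    ⟨(-P.ord (f : F)).toNat, Int.toNat_of_nonneg (by omega)⟩
  have hf' : (f : F) ≠ 0 := fun e => hf (Subtype.ext e)
  have hL : f ∈ (poleBasis P).L d := (poleBasis P).mem_L.mpr fun m hm => by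
    by_cases hS : m ∈ poleSet P
    · rw [(poleBasis P).coef_of_mem hS]
      exact repr_eq_zero P (Or.inr (by omega)) (show d < ((⟨m, hS⟩ : poleSet P) : ℕ) from hm)
    · exact (poleBasis P).coef_of_notMem hS f
  refine le_antisymm (hd ▸ Int.ofNat_le.mpr ((poleBasis P).deg_le_iff.mpr hL)) ?_
  by_contra hlt
  set e := (poleBasis P).deg f
  have he := (poleBasis P).mem_L.mp ((poleBasis P).mem_L_deg f)
  have hsum := (poleFnBasis P).linearCombination_repr f
  rw [Finsupp.linearCombination_apply, Finsupp.sum] at hsum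
  simp only [poleFnBasis_apply] at hsum
  have hmem : (f : F) ∈ riemannRochSpace (nP P e) := by
    rw [← hsum]
    refine sum_smul_mem_nP fun i hi => ?_
    right
    by_contra hgt
    have := he i (not_le.mp hgt)
    rw [(poleBasis P).coef_of_mem i.2] at this
    exact Finsupp.mem_support_iff.mp hi this
  rcases (mem_rr_nP.mp hmem).2 with h1 | h1
  · exact hf' h1
  · omega

theorem mem_L_poleBasis {f : Reg P} {n : ℕ} :
    f ∈ (poleBasis P).L n ↔ (f : F) ∈ riemannRochSpace (nP P n) := by
  rw [← (poleBasis P).deg_le_iff]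
  rcases eq_or_ne f 0 with rfl | hf
  · refine iff_of_true ((poleBasis P).deg_le_iff.mpr (Submodule.zero_mem _)) ?_
    rw [ZeroMemClass.coe_zero]
    exact Submodule.zero_mem _
  · rw [mem_rr_nP]
    have := deg_poleBasis hf
    refine ⟨fun h => ⟨f.2, Or.inr (by omega)⟩, fun ⟨_, h⟩ => ?_⟩
    have := h.resolve_left fun e => hf (Subtype.ext e)
    omega

end Fermat.Agent.Flat.AC
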