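import Fermat.Agent.Flat.AffineCurve

/-!
# Effective divisors off the place and ideals of the affine algebra

Effective divisors avoiding `P` correspond to nonzero ideals of the ring of functions regular
away from `P`, sums to products and linear equivalence to equivalence of ideals. This translates
`J₀(N)` into classes of ideals of the good model.
-/

noncomputable section

namespace Fermat.Agent.Flat.AC

open AlgebraicCurve Module
open Fermat.Agent.FF

variable {K F : Type*} [Field K] [Field F] [Algebra K F] [IsAlgClosed K] [IsFunctionField K F]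
  {P : Place K F}

/-- An effective divisor which does not meet `P`. -/
def Off (P : Place K F) (E : Divisor K F) : Prop := E P = 0 ∧ 0 ≤ E

omit [IsAlgClosed K] [IsFunctionField K F] in
theorem Off.add {E E' : Divisor K F} (h : Off P E) (h' : Off P E') : Off P (E + E') :=
  ⟨by rw [Finsupp.add_apply, h.1, h'.1, add_zero], add_nonneg h.2 h'.2⟩

omit [IsAlgClosed K] [IsFunctionField K F] in
theorem Off.zero : Off P (0 : Divisor K F) := ⟨rfl, le_rfl⟩

omit [IsAlgClosed K] [IsFunctionField K F] in
theorem off_single {v : Place K F} (hv : v ≠ P) : Off P (Finsupp.single v 1 : Divisor K F) := by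
  classical
  exact ⟨Finsupp.single_eq_of_ne (Ne.symm hv), fun w => by
    rw [Finsupp.single_apply]; split_ifs <;> simp⟩

variable (P) in
/-- The functions vanishing along `E`. -/
def divIdeal (E : Divisor K F) : Ideal (Reg P) where
  carrier := {f | ∀ v, v ≠ P → (f : F) ∈ poleLe v (-E v)}
  zero_mem' v _ := (poleLe v (-E v)).zero_mem
  add_mem' ha hb v hv := (poleLe v (-E v)).add_mem (ha v hv) (hb v hv)
  smul_mem' c f hf v hv := by
    have h0 : (c : F) ∈ poleLe v 0 := by
      rw [mem_poleLe]; exact Or.inr (by simpa using mem_Reg_iff.mp c.2 v hv)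
    have := mul_mem_poleLe v h0 (hf v hv)
    rwa [zero_add] at this

omit [IsAlgClosed K] [IsFunctionField K F] in
theorem mem_divIdeal {E : Divisor K F} {f : Reg P} :
    f ∈ divIdeal P E ↔ ∀ v, v ≠ P → (f : F) = 0 ∨ E v ≤ v.ord (f : F) := by
  refine forall₂_congr fun v _ => ?_
  rw [mem_poleLe, neg_neg]

omit [IsAlgClosed K] [IsFunctionField K F] in
theorem mem_divIdeal_of_ne {E : Divisor K F} {f : Reg P} (hf : f ≠ 0) :
    f ∈ divIdeal P E ↔ ∀ v, v ≠ P → E v ≤ v.ord (f : F) := by
  rw [mem_divIdeal]
  refine forall₂_congr fun v _ => ?_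
  exact or_iff_right fun h => hf (Subtype.ext h)

theorem coe_mem_rr_sub {E : Divisor K F} (hE : Off P E) {n : ℕ} {f : Reg P} :
    (f : F) ∈ riemannRochSpace (nP P n - E) ↔
      f ∈ divIdeal P E ∧ f ∈ (poleBasis P).L n := by
  classical
  rw [mem_riemannRochSpace_iff, mem_divIdeal, mem_L_poleBasis, mem_rr_nP]
  refine ⟨fun h => ⟨fun v hv => ?_, f.2, ?_⟩, fun ⟨h1, _, h2⟩ v => ?_⟩
  · have := h v
    rw [Finsupp.sub_apply, nP, Finsupp.single_eq_of_ne hv, zero_sub, neg_neg] at this
    exact this
  · have := h P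
    rw [Finsupp.sub_apply, nP, Finsupp.single_eq_same, hE.1, sub_zero] at this
    exact this
  · rcases eq_or_ne v P with rfl | hv
    · rwa [Finsupp.sub_apply, nP, Finsupp.single_eq_same, hE.1, sub_zero]
    · rw [Finsupp.sub_apply, nP, Finsupp.single_eq_of_ne hv, zero_sub, neg_neg]
      exact h1 v hv

omit [IsAlgClosed K] [IsFunctionField K F] in
theorem mem_Reg_of_mem_rr {E : Divisor K F} (hE : Off P E) {n : ℕ} {f : F}
    (h : f ∈ riemannRochSpace (nP P n - E)) : f ∈ Reg P :=
  (mem_rr_nP.mp (rrSpace_mono (show nP P n - E ≤ nP P n from sub_le_self _ hE.2) h)).1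

theorem map_LI {E : Divisor K F} (hE : Off P E) (n : ℕ) :
    ((poleBasis P).LI (divIdeal P E) n).map (Reg P).val.toLinearMap =
      riemannRochSpace (nP P n - E) := by
  ext f
  refine ⟨?_, fun h => ⟨⟨f, mem_Reg_of_mem_rr hE h⟩, ?_, rfl⟩⟩
  · rintro ⟨x, hx, rfl⟩
    exact (coe_mem_rr_sub hE).mpr hx
  · exact (coe_mem_rr_sub hE (f := ⟨f, mem_Reg_of_mem_rr hE h⟩)).mp h

theorem finrank_LI_divIdeal {E : Divisor K F} (hE : Off P E) (n : ℕ) :
    finrank K ((poleBasis P).LI (divIdeal P E) n) = ell (nP P n - E) := by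
  rw [ell, ← map_LI hE n, LinearEquiv.finrank_eq
    (Submodule.equivMapOfInjective (Reg P).val.toLinearMap Subtype.val_injective _)]

theorem divIdeal_ne_bot {E : Divisor K F} (hE : Off P E) : divIdeal P E ≠ ⊥ := by
  intro h
  obtain ⟨d, hd⟩ : ∃ d : ℕ, (d : ℤ) = Divisor.degree E :=
    ⟨(Divisor.degree E).toNat, Int.toNat_of_nonneg (degree_nonneg hE.2)⟩
  obtain ⟨f, hf0, hf⟩ := exists_ne_zero_mem_of_genusFF_le (D := nP P (d + genusFF K F) - E)
    (by rw [map_sub, degree_nP]; push_cast; omega)
  have hm := ((coe_mem_rr_sub hE (f := ⟨f, mem_Reg_of_mem_rr hE hf⟩)).mp hf).1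
  rw [h, Ideal.mem_bot] at hm
  exact hf0 (congrArg Subtype.val hm)

theorem codim_divIdeal {E : Divisor K F} (hE : Off P E) :
    ((poleBasis P).codim (divIdeal P E) : ℤ) = Divisor.degree E := by
  set n := (poleBasis P).codim (divIdeal P E) + 3 * genusFF K F + (Divisor.degree E).toNat +
    2 * genusFF K F
  have h1 := (poleBasis P).finrank_LI (divIdeal_ne_bot hE) (n := n)
    (by show _ + 3 * genusFF K F ≤ _; omega)
  rw [finrank_LI_divIdeal hE] at h1
  have h2 := ell_eq_of_large_degree (D := nP P n - E) (by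
    rw [map_sub, degree_nP]
    have := degree_nonneg hE.2
    omega)
  rw [map_sub, degree_nP] at h2
  change ell (nP P n - E) + (genusFF K F + _) = _ at h1
  omega

theorem divIdeal_mul {E E' : Divisor K F} (hE : Off P E) (hE' : Off P E') :
    divIdeal P E * divIdeal P E' = divIdeal P (E + E') := by
  have := (poleBasis P).isDedekindDomain
  refine (poleBasis P).eq_of_le_of_codim_le
    (mul_ne_zero (divIdeal_ne_bot hE) (divIdeal_ne_bot hE')) ?_ ?_
  · rw [Ideal.mul_le]
    intro f hf g hg
    rw [mem_divIdeal]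
    intro v hv
    rcases eq_or_ne (f : F) 0 with h0 | hf0
    · exact Or.inl (by rw [MulMemClass.coe_mul, h0, zero_mul])
    rcases eq_or_ne (g : F) 0 with h0 | hg0
    · exact Or.inl (by rw [MulMemClass.coe_mul, h0, mul_zero])
    refine Or.inr ?_
    rw [MulMemClass.coe_mul, v.ord_mul hf0 hg0, Finsupp.add_apply]
    exact add_le_add ((mem_divIdeal.mp hf v hv).resolve_left hf0)
      ((mem_divIdeal.mp hg v hv).resolve_left hg0)
  · have h1 := codim_divIdeal (hE.add hE')
    have h2 := codim_divIdeal hE
    have h3 := codim_divIdeal hE'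
    rw [map_add] at h1
    rw [(poleBasis P).codim_mul (divIdeal_ne_bot hE) (divIdeal_ne_bot hE')]
    omega

variable (P) in
/-- The zeros of a function off `P`. -/
def zerosOff (f : F) : Divisor K F := Finsupp.erase P (divOf f)

theorem zerosOff_apply {f : F} {v : Place K F} (hv : v ≠ P) : zerosOff P f v = v.ord f := by
  rw [zerosOff, Finsupp.erase_ne hv, divOf_apply]

theorem off_zerosOff (f : Reg P) : Off P (zerosOff P (f : F)) := by
  refine ⟨Finsupp.erase_same, fun v => ?_⟩
  rcases eq_or_ne v P with rfl | hv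
  · rw [zerosOff, Finsupp.erase_same]; simp
  · rw [zerosOff_apply hv]; exact mem_Reg_iff.mp f.2 v hv

theorem span_mul_divIdeal {f : Reg P} (hf : f ≠ 0) {E : Divisor K F} (hE : Off P E) :
    Ideal.span {f} * divIdeal P E = divIdeal P (E + zerosOff P (f : F)) := by
  have hf' : (f : F) ≠ 0 := fun h => hf (Subtype.ext h)
  ext x
  rw [Ideal.mem_span_singleton_mul]
  constructor
  · rintro ⟨z, hz, rfl⟩
    rw [mem_divIdeal]
    intro v hv
    rcases eq_or_ne (z : F) 0 with h0 | hz0
    · exact Or.inl (by rw [MulMemClass.coe_mul, h0, mul_zero])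
    refine Or.inr ?_
    rw [MulMemClass.coe_mul, v.ord_mul hf' hz0, Finsupp.add_apply, zerosOff_apply hv]
    linarith [(mem_divIdeal.mp hz v hv).resolve_left hz0]
  · intro hx
    rcases eq_or_ne (x : F) 0 with h0 | hx0
    · exact ⟨0, Ideal.zero_mem _, by rw [mul_zero]; exact (Subtype.ext h0).symm⟩
    have hord : ∀ v, v ≠ P → E v ≤ v.ord ((x : F) / f) := by
      intro v hv
      have := (mem_divIdeal.mp hx v hv).resolve_left hx0
      rw [Finsupp.add_apply, zerosOff_apply hv] at this
      rw [ord_div v hx0 hf']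
      omega
    have hreg : (x : F) / f ∈ Reg P :=
      mem_Reg_iff.mpr fun v hv => (hE.2 v).trans (hord v hv)
    refine ⟨⟨_, hreg⟩, mem_divIdeal.mpr fun v hv => Or.inr (hord v hv), Subtype.ext ?_⟩
    show (f : F) * ((x : F) / f) = x
    field_simp

theorem le_of_divIdeal_le {E E' : Divisor K F} (hE : Off P E) (hE' : Off P E')
    (h : divIdeal P E ≤ divIdeal P E') : E' ≤ E := by
  classical
  intro v
  rcases eq_or_ne v P with rfl | hv
  · rw [hE.1, hE'.1]
  by_contra hlt
  rw [not_le] at hlt
  have hE'' : Off P (E + Finsupp.single v 1) := hE.add (off_single hv)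
  have hle : divIdeal P E ≤ divIdeal P (E + Finsupp.single v 1) := by
    intro f hf
    rw [mem_divIdeal]
    intro w hw
    rcases eq_or_ne (f : F) 0 with h0 | hf0
    · exact Or.inl h0
    refine Or.inr ?_
    rw [Finsupp.add_apply]
    rcases eq_or_ne w v with rfl | hwv
    · rw [Finsupp.single_eq_same]
      have := (mem_divIdeal.mp (h hf) w hw).resolve_left hf0
      omega
    · rw [Finsupp.single_eq_of_ne hwv, add_zero]
      exact (mem_divIdeal.mp hf w hw).resolve_left hf0
  have h1 := (poleBasis P).codim_antitone (divIdeal_ne_bot hE) hle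
  have h2 := codim_divIdeal hE
  have h3 := codim_divIdeal hE''
  rw [map_add, Divisor.degree_single, place_deg_eq_one] at h3
  omega

theorem eq_of_eq_off {D D' : Divisor K F} (h : ∀ v, v ≠ P → D v = D' v)
    (hd : Divisor.degree D = Divisor.degree D') : D = D' := by
  classical
  have e : D - D' = Finsupp.single P ((D - D') P) := by
    ext v
    rcases eq_or_ne v P with rfl | hv
    · rw [Finsupp.single_eq_same]
    · rw [Finsupp.single_eq_of_ne hv, Finsupp.sub_apply, h v hv, sub_self]
  have h0 : (D - D') P = 0 := by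
    have h1 := congrArg Divisor.degree e
    rw [map_sub, hd, sub_self, Divisor.degree_single, place_deg_eq_one, Nat.cast_one, mul_one] at h1
    exact h1.symm
  rw [h0, Finsupp.single_zero, sub_eq_zero] at e
  exact e

/-- The ideals of `E` and `E'` are in the same class. -/
def Lin (E E' : Divisor K F) : Prop :=
  ∃ α β : Reg P, α ≠ 0 ∧ β ≠ 0 ∧
    Ideal.span {α} * divIdeal P E = Ideal.span {β} * divIdeal P E'

variable (P) in
/-- The divisor of degree zero attached to `E`. -/
def norm0 (E : Divisor K F) : Divisor K F := E - Finsupp.single P (Divisor.degree E)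

theorem degree_norm0 (E : Divisor K F) : Divisor.degree (norm0 P E) = 0 := by
  rw [norm0, map_sub, Divisor.degree_single, place_deg_eq_one]; simp

omit [IsAlgClosed K] [IsFunctionField K F] in
theorem norm0_apply {E : Divisor K F} {v : Place K F} (hv : v ≠ P) : norm0 P E v = E v := by
  rw [norm0, Finsupp.sub_apply, Finsupp.single_eq_of_ne hv, sub_zero]

theorem principal_of_lin {E E' : Divisor K F} (hE : Off P E) (hE' : Off P E')
    (h : Lin (P := P) E E') :
    norm0 P E - norm0 P E' ∈ Divisor.principal (K := K) (F := F) := by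
  obtain ⟨α, β, hα, hβ, e⟩ := h
  rw [span_mul_divIdeal hα hE, span_mul_divIdeal hβ hE'] at e
  have e' := le_antisymm
    (le_of_divIdeal_le (hE'.add (off_zerosOff β)) (hE.add (off_zerosOff α)) e.ge)
    (le_of_divIdeal_le (hE.add (off_zerosOff α)) (hE'.add (off_zerosOff β)) e.le)
  have hq : (β : F) / α ≠ 0 :=
    div_ne_zero (fun h => hβ (Subtype.ext h)) fun h => hα (Subtype.ext h)
  have key : norm0 P E - norm0 P E' = divOf ((β : F) / α) := by
    refine eq_of_eq_off (P := P) (fun v hv => ?_) ?_
    · have := congrArg (fun D : Divisor K F => D v) e'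
      simp only [Finsupp.add_apply, zerosOff_apply hv] at this
      rw [Finsupp.sub_apply, norm0_apply hv, norm0_apply hv, divOf_apply,
        ord_div v (fun h => hβ (Subtype.ext h)) fun h => hα (Subtype.ext h)]
      omega
    · rw [map_sub, degree_norm0, degree_norm0, degree_divOf, sub_zero]
  rw [key]
  exact divOf_mem_principal hq

theorem lin_of_principal {E E' : Divisor K F} (hE : Off P E) (hE' : Off P E')
    (h : norm0 P E - norm0 P E' ∈ Divisor.principal (K := K) (F := F)) :
    Lin (P := P) E E' := by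
  classical
  obtain ⟨q, hq, e⟩ := isPrincipal_iff.mp h
  have hord : ∀ v, (norm0 P E - norm0 P E') v = divOf q v := fun v => by rw [e]
  -- a denominator
  set N : Divisor K F := Finsupp.erase P (posDiv (-divOf q))
  have hN : Off P N := ⟨Finsupp.erase_same, fun v => by
    rcases eq_or_ne v P with rfl | hv
    · simp [N]
    · simp [N, Finsupp.erase_ne hv]⟩
  obtain ⟨α, hα, hα0⟩ := Submodule.exists_mem_ne_zero_of_ne_bot (divIdeal_ne_bot hN)
  have hα' : (α : F) ≠ 0 := fun h => hα0 (Subtype.ext h)
  have hreg : (α : F) * q ∈ Reg P := mem_Reg_iff.mpr fun v hv => by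
    have h1 := (mem_divIdeal_of_ne hα0).mp hα v hv
    simp only [N, Finsupp.erase_ne hv, posDiv_apply, Finsupp.neg_apply, divOf_apply] at h1
    rw [v.ord_mul hα' hq]
    omega
  refine ⟨α, ⟨_, hreg⟩, hα0, fun e => mul_ne_zero hα' hq (congrArg Subtype.val e), ?_⟩
  rw [span_mul_divIdeal hα0 hE,
    span_mul_divIdeal (fun e => mul_ne_zero hα' hq (congrArg Subtype.val e)) hE']
  congr 1
  ext v
  rcases eq_or_ne v P with rfl | hv
  · rw [(hE.add (off_zerosOff α)).1, (hE'.add (off_zerosOff ⟨_, hreg⟩)).1]
  · have := hord v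
    rw [Finsupp.sub_apply, norm0_apply hv, norm0_apply hv, divOf_apply] at this
    simp only [Finsupp.add_apply, zerosOff_apply hv]
    rw [v.ord_mul hα' hq]
    omega

variable (P) in
/-- Every class is represented by an effective divisor off `P`. -/
theorem exists_off (D : Divisor K F) (hD : Divisor.degree D = 0) :
    ∃ E, Off P E ∧ D - norm0 P E ∈ Divisor.principal (K := K) (F := F) := by
  obtain ⟨f, hf0, hf⟩ := exists_ne_zero_mem_of_genusFF_le (D := D + nP P (genusFF K F))
    (by rw [map_add, hD, degree_nP, zero_add])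
  have hpos : ∀ v, v ≠ P → 0 ≤ D v + v.ord f := fun v hv => by
    have := (mem_rrSpace_of_ord hf0).mp hf v
    rw [Finsupp.add_apply, nP, Finsupp.single_eq_of_ne hv, add_zero] at this
    omega
  set E : Divisor K F := Finsupp.erase P (D + divOf f)
  refine ⟨E, ⟨Finsupp.erase_same, fun v => ?_⟩, ?_⟩
  · rcases eq_or_ne v P with rfl | hv
    · simp [E]
    · simpa [E, Finsupp.erase_ne hv] using hpos v hv
  · have key : D - norm0 P E = -divOf f := by
      refine eq_of_eq_off (P := P) (fun v hv => ?_) ?_
      · rw [Finsupp.sub_apply, norm0_apply hv, Finsupp.neg_apply]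
        simp [E, Finsupp.erase_ne hv]
      · rw [map_sub, hD, degree_norm0, map_neg, degree_divOf]; simp
    rw [key]
    exact AddSubgroup.neg_mem _ (divOf_mem_principal hf0)

omit [IsAlgClosed K] [IsFunctionField K F] in
theorem off_smul {g : SemilinearAut K F} (hg : g • P = P) {E : Divisor K F} (hE : Off P E) :
    Off P (g • E) := by
  refine ⟨?_, fun v => ?_⟩
  · rw [← hg, SemilinearAut.divisor_smul_apply_smul]; exact hE.1
  · rw [SemilinearAut.divisor_smul_apply]; exact hE.2 _

omit [IsAlgClosed K] [IsFunctionField K F] in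
theorem norm0_smul {g : SemilinearAut K F} (hg : g • P = P) (E : Divisor K F) :
    g • norm0 P E = norm0 P (g • E) := by
  rw [norm0, norm0, smul_sub, SemilinearAut.smul_single, hg, SemilinearAut.degree_smul]

omit [IsAlgClosed K] [IsFunctionField K F] in
theorem smul_mem_divIdeal {g : SemilinearAut K F} (hg : g • P = P) {E : Divisor K F}
    {x y : Reg P} (hxy : (y : F) = g • (x : F)) :
    y ∈ divIdeal P (g • E) ↔ x ∈ divIdeal P E := by
  have hz : (y : F) = 0 ↔ (x : F) = 0 := by rw [hxy]; exact smul_eq_zero_iff_eq g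
  rw [mem_divIdeal, mem_divIdeal]
  refine ⟨fun h v hv => ?_, fun h v hv => ?_⟩
  · have := h (g • v) fun e => hv (smul_left_cancel g (e.trans hg.symm))
    rwa [hz, SemilinearAut.divisor_smul_apply_smul, hxy, SemilinearAut.ord_smul] at this
  · have := h (g⁻¹ • v) fun e => hv (by rw [← hg, ← e, smul_inv_smul])
    rwa [SemilinearAut.divisor_smul_apply, hz, hxy, ← SemilinearAut.ord_smul g (g⁻¹ • v),
      smul_inv_smul] at *

end Fermat.Agent.Flat.AC
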