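import Mathlib.FieldTheory.Galois.Infinite
import Mathlib.LinearAlgebra.LinearIndependent.Lemmas
import Mathlib.LinearAlgebra.Matrix.NonsingularInverse
import Mathlib.LinearAlgebra.Matrix.ToLin
import Mathlib.RingTheory.Localization.Module
import Mathlib.RingTheory.Noetherian.Basic
import Mathlib.RingTheory.TensorProduct.Free
import Fermat.Agent.Flat.Base
import Fermat.Agent.Gal.Basic

/-!
# Galois-equivariant functions on finite sets with values in `ℚ̄`

Descent (linear independence over `ℚ` implies linear independence over `ℚ̄`), finiteness of modules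
of integral-valued equivariant functions, and products of two families. These give the rings of
functions that serve as finite flat models.
-/

noncomputable section

namespace Fermat.Agent.Flat

open scoped TensorProduct

local notation "Qbar" => AlgebraicClosure ℚ
local notation "Gal0" => (AlgebraicClosure ℚ ≃ₐ[ℚ] AlgebraicClosure ℚ)

variable {ℓ : ℕ} {S T : Type*}

/-- `f (σ s) = σ (f s)`. -/
def IsEquiv (act : Gal0 → S → S) (f : S → Qbar) : Prop := ∀ σ s, f (act σ s) = σ (f s)

theorem IsEquiv.add {act : Gal0 → S → S} {f g : S → Qbar} (hf : IsEquiv act f)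
    (hg : IsEquiv act g) : IsEquiv act (f + g) := fun σ s => by simp [hf σ s, hg σ s]

theorem IsEquiv.mul {act : Gal0 → S → S} {f g : S → Qbar} (hf : IsEquiv act f)
    (hg : IsEquiv act g) : IsEquiv act (f * g) := fun σ s => by simp [hf σ s, hg σ s]

theorem isEquiv_algebraMap (act : Gal0 → S → S) (r : Zl ℓ) :
    IsEquiv act (algebraMap (Zl ℓ) (S → Qbar) r) := fun σ s => by
  simp only [Pi.algebraMap_apply]
  rw [IsScalarTower.algebraMap_apply (Zl ℓ) ℚ Qbar, AlgEquiv.commutes]

theorem exists_rat_of_fixed {a : Qbar} (h : ∀ σ : Gal0, σ a = a) :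
    ∃ q : ℚ, algebraMap ℚ Qbar q = a :=
  IntermediateField.mem_bot.mp ((InfiniteGalois.mem_bot_iff_fixed a).mpr h)

/-- A family of equivariant functions linearly independent over `ℚ` is so over `ℚ̄`. -/
theorem linearIndependent_of_rat {ι : Type*} {act : Gal0 → S → S} {v : ι → S → Qbar}
    (hv : ∀ i, IsEquiv act (v i)) (h : LinearIndependent ℚ v) : LinearIndependent Qbar v := by
  classical
  rw [linearIndependent_iff']
  intro s
  induction s using Finset.induction with
  | empty => simp
  | insert i₀ t hi ih =>
    intro g hg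
    have hzero : g i₀ = 0 := by
      by_contra hne
      set a : ι → Qbar := fun i => (g i₀)⁻¹ * g i with ha
      have ha0 : a i₀ = 1 := by simp [ha, hne]
      have hsum : ∀ x, ∑ i ∈ insert i₀ t, a i * v i x = 0 := by
        intro x
        have := congrFun hg x
        simp only [Finset.sum_apply, Pi.smul_apply, smul_eq_mul, Pi.zero_apply] at this
        simp only [ha, mul_assoc, ← Finset.mul_sum, this, mul_zero]
      have hfix : ∀ (σ : Gal0), ∀ i ∈ t, σ (a i) = a i := by
        intro σ i hit
        have h1 : ∀ x, ∑ j ∈ insert i₀ t, σ (a j) * v j (act σ x) = 0 := by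
          intro x
          have := congrArg σ (hsum x)
          simpa [map_sum, ← hv _ σ x] using this
        have h1' : ∀ y, ∑ j ∈ t, (σ (a j) - a j) * v j y = 0 := by
          intro y
          -- `v` is equivariant, so apply `h1` at the preimage of `y`
          have h2 : ∀ y, ∑ j ∈ insert i₀ t, σ (a j) * v j y = 0 := by
            intro y
            have hback : ∀ j, v j (act σ (act σ⁻¹ y)) = v j y := by
              intro j
              rw [hv j σ, hv j σ⁻¹]
              exact AlgEquiv.apply_symm_apply σ _
            simpa [hback] using h1 (act σ⁻¹ y)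
          have := congrArg₂ (· - ·) (h2 y) (hsum y)
          simp only [sub_self, Finset.sum_insert hi, ha0, map_one] at this
          simp only [sub_mul, Finset.sum_sub_distrib]
          linear_combination this
        have := ih (fun j => σ (a j) - a j) (funext fun y => by simpa using h1' y) i hit
        exact sub_eq_zero.mp this
      have hq : ∀ i ∈ insert i₀ t, ∃ q : ℚ, algebraMap ℚ Qbar q = a i := by
        intro i hi'
        refine exists_rat_of_fixed fun σ => ?_
        rcases Finset.mem_insert.mp hi' with rfl | hit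
        · rw [ha0, map_one]
        · exact hfix σ i hit
      choose! q hq using hq
      have hq0 := linearIndependent_iff'.mp h (insert i₀ t) q (funext fun x => by
        simp only [Finset.sum_apply, Pi.smul_apply, Pi.zero_apply]
        refine Eq.trans (Finset.sum_congr rfl fun i hi' => ?_) (hsum x)
        rw [← hq i hi', Algebra.smul_def]) i₀ (Finset.mem_insert_self _ _)
      have h10 := hq i₀ (Finset.mem_insert_self _ _)
      rw [hq0, map_zero, ha0] at h10
      exact zero_ne_one h10
    intro i hi'
    rcases Finset.mem_insert.mp hi' with rfl | hit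
    · exact hzero
    · refine ih g ?_ i hit
      rw [Finset.sum_insert hi, hzero, zero_smul, zero_add] at hg
      exact hg

/-- The same starting from independence over `ℤ_(ℓ)`. -/
theorem linearIndependent_of_Zl [Fact ℓ.Prime] {ι : Type*} {act : Gal0 → S → S}
    {v : ι → S → Qbar} (hv : ∀ i, IsEquiv act (v i)) (h : LinearIndependent (Zl ℓ) v) :
    LinearIndependent Qbar v :=
  linearIndependent_of_rat hv ((LinearIndependent.iff_fractionRing (R := Zl ℓ) (K := ℚ)).mp h)

/-- Coefficients of an equivariant function in an independent equivariant family are rational. -/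
theorem exists_rat_coeff {ι : Type*} [Fintype ι] {act : Gal0 → S → S} {v : ι → S → Qbar}
    (hv : ∀ i, IsEquiv act (v i)) (h : LinearIndependent Qbar v) {a : ι → Qbar}
    (hf : IsEquiv act (fun s => ∑ i, a i * v i s)) (i : ι) :
    ∃ q : ℚ, algebraMap ℚ Qbar q = a i := by
  refine exists_rat_of_fixed fun σ => ?_
  have hzero : ∀ y, ∑ j, (σ (a j) - a j) * v j y = 0 := by
    intro y
    have hback : ∀ j, v j (act σ (act σ⁻¹ y)) = v j y := by
      intro j
      rw [hv j σ, hv j σ⁻¹]
      exact AlgEquiv.apply_symm_apply σ _
    have e := hf σ (act σ⁻¹ y)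
    simp only [hback, map_sum, map_mul, ← hv _ σ] at e
    simp only [sub_mul, Finset.sum_sub_distrib, e, sub_self]
  exact sub_eq_zero.mp (linearIndependent_iff'.mp h Finset.univ (fun j => σ (a j) - a j)
    (funext fun y => by simpa using hzero y) i (Finset.mem_univ i))

/-- The products `v i (s) * w j (t)` of two independent families are independent. -/
theorem linearIndependent_prod {K : Type*} [Field K] {ι κ : Type*} {v : ι → S → K}
    {w : κ → T → K} (hv : LinearIndependent K v) (hw : LinearIndependent K w) :
    LinearIndependent K (fun p : ι × κ => fun x : S × T => v p.1 x.1 * w p.2 x.2) := by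
  classical
  rw [linearIndependent_iff']
  intro s g hg
  set I := s.image Prod.fst
  set J := s.image Prod.snd
  have hs : s ⊆ I ×ˢ J := fun p hp => Finset.mem_product.mpr
    ⟨Finset.mem_image_of_mem _ hp, Finset.mem_image_of_mem _ hp⟩
  set g' : ι × κ → K := fun p => if p ∈ s then g p else 0 with hg'
  have hsum : ∀ x y, ∑ p ∈ I ×ˢ J, g' p * (v p.1 x * w p.2 y) = 0 := by
    intro x y
    rw [← Finset.sum_subset hs (fun p _ hp => by simp [hg', hp])]
    refine Eq.trans ?_ (congrFun hg (x, y))
    simp only [Finset.sum_apply, Pi.smul_apply, smul_eq_mul]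
    exact Finset.sum_congr rfl fun p hp => by simp [hg', hp]
  intro p hp
  have h1 : ∀ y, ∀ i ∈ I, ∑ j ∈ J, g' (i, j) * w j y = 0 := by
    intro y
    refine linearIndependent_iff'.mp hv I _ (funext fun x => ?_)
    simp only [Finset.sum_apply, Pi.smul_apply, smul_eq_mul, Pi.zero_apply]
    rw [← hsum x y, Finset.sum_product]
    refine Finset.sum_congr rfl fun i _ => ?_
    rw [Finset.sum_mul]
    exact Finset.sum_congr rfl fun j _ => by ring
  have := linearIndependent_iff'.mp hw J (fun j => g' (p.1, j))
    (funext fun y => by simpa using h1 y p.1 (Finset.mem_image_of_mem _ hp)) p.2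
    (Finset.mem_image_of_mem _ hp)
  simpa [hg', hp] using this

/-- Integral-valued equivariant functions on a finite set form finite modules. -/
theorem module_finite [Fact ℓ.Prime] [Finite S] {act : Gal0 → S → S}
    (H : Submodule (Zl ℓ) (S → Qbar)) (heq : ∀ f ∈ H, IsEquiv act f)
    (hint : ∀ f ∈ H, ∀ s, IsIntegral (Zl ℓ) (f s)) : Module.Finite (Zl ℓ) H := by
  classical
  obtain ⟨b, hbH, hspan, hli⟩ := exists_linearIndependent ℚ (H : Set (S → Qbar))
  have hli' : LinearIndependent Qbar ((↑) : b → S → Qbar) :=
    linearIndependent_of_rat (fun i => heq _ (hbH i.2)) hli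
  have : Finite b := hli'.finite
  let := Fintype.ofFinite b
  let := Fintype.ofFinite S
  -- a left inverse of the linear map `a ↦ ∑ a i • b i`
  obtain ⟨P, hP⟩ :=
    (Fintype.linearCombination Qbar ((↑) : b → S → Qbar)).exists_leftInverse_of_injective
      (LinearMap.ker_eq_bot.mpr hli'.fintypeLinearCombination_injective)
  let Pc : b → S → Qbar := fun i s => P (Pi.single s 1) i
  obtain ⟨d, hd0, hd⟩ : ∃ d : ℤ, d ≠ 0 ∧ ∀ i s, IsIntegral ℤ ((d : Qbar) * Pc i s) := by
    have hone : ∀ x : Qbar, ∃ d : ℤ, d ≠ 0 ∧ IsIntegral ℤ ((d : Qbar) * x) := by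
      intro x
      have hx : IsAlgebraic ℤ x :=
        (IsFractionRing.isAlgebraic_iff ℤ ℚ Qbar).mpr
          ((AlgebraicClosure.isAlgebraic ℚ).isAlgebraic x)
      obtain ⟨d, hd0, hd⟩ := hx.exists_integral_multiple
      exact ⟨d, hd0, by simpa [zsmul_eq_mul] using hd⟩
    choose dd hdd0 hdd using fun p : b × S => hone (Pc p.1 p.2)
    refine ⟨∏ p, dd p, Finset.prod_ne_zero_iff.mpr fun p _ => hdd0 p, fun i s => ?_⟩
    rw [← Finset.prod_erase_mul _ _ (Finset.mem_univ (i, s)), Int.cast_mul, mul_assoc]
    exact (isIntegral_algebraMap (x := ∏ p ∈ Finset.univ.erase (i, s), dd p)).mul (hdd (i, s))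
  let L : Submodule (Zl ℓ) (S → Qbar) :=
    Submodule.span (Zl ℓ) (Set.range fun i : b => ((d : Qbar)⁻¹) • (i : S → Qbar))
  have hle : H ≤ L := by
    intro f hf
    have hfspan : f ∈ Submodule.span ℚ (Set.range ((↑) : b → S → Qbar)) := by
      rw [Subtype.range_coe, hspan]
      exact Submodule.subset_span hf
    obtain ⟨q, hq⟩ := (Submodule.mem_span_range_iff_exists_fun ℚ).mp hfspan
    set a : b → Qbar := fun i => algebraMap ℚ Qbar (q i)
    have hfa : f = Fintype.linearCombination Qbar ((↑) : b → S → Qbar) a := by
      rw [← hq, Fintype.linearCombination_apply]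
      exact Finset.sum_congr rfl fun i _ => (algebraMap_smul Qbar (q i) (i : S → Qbar)).symm
    have hPa : P f = a := by
      rw [hfa]
      exact LinearMap.congr_fun hP a
    have hint' : ∀ i, ∃ z : Zl ℓ, (z : ℚ) = d * q i := by
      intro i
      refine exists_eq_of_isIntegral ?_
      have e : algebraMap ℚ Qbar (d * q i) = ∑ s, f s * ((d : Qbar) * Pc i s) := by
        rw [map_mul, map_intCast, show algebraMap ℚ Qbar (q i) = a i from rfl, ← hPa]
        conv_lhs => rw [pi_eq_sum_univ f, map_sum, Finset.sum_apply, Finset.mul_sum]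
        refine Finset.sum_congr rfl fun s _ => ?_
        rw [map_smul, Pi.smul_apply, smul_eq_mul,
          show P (fun j => if s = j then 1 else 0) i = Pc i s by
            rw [show (fun j => if s = j then (1 : Qbar) else 0) = Pi.single s 1 from
              funext fun j => by simp [Pi.single_apply, eq_comm]]]
        ring
      rw [e]
      exact IsIntegral.sum _ fun s _ => (hint f hf s).mul ((hd i s).tower_top)
    choose z hz using hint'
    refine (Submodule.mem_span_range_iff_exists_fun (Zl ℓ)).mpr ⟨z, ?_⟩
    rw [← hq]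
    refine Finset.sum_congr rfl fun i _ => funext fun s => ?_
    have hdQ : (d : Qbar) ≠ 0 := by simp [hd0]
    simp only [Pi.smul_apply, smul_eq_mul]
    rw [Algebra.smul_def, Algebra.smul_def, IsScalarTower.algebraMap_apply (Zl ℓ) ℚ Qbar,
      show algebraMap (Zl ℓ) ℚ (z i) = (z i : ℚ) from rfl, hz, map_mul, map_intCast]
    field_simp
  have : Module.Finite (Zl ℓ) L := Module.Finite.span_of_finite _ (Set.finite_range _)
  have : IsNoetherian (Zl ℓ) L := isNoetherian_of_isNoetherianRing_of_finite (Zl ℓ) L
  exact Module.Finite.of_injective (Submodule.inclusion hle) (Submodule.inclusion_injective hle)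

end Fermat.Agent.Flat
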