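import Mathlib.RingTheory.Ideal.GoingUp
import Fermat.Agent.Flat.EquivFun

/-!
# The local rings of a ring of functions at a point and a place

`Loc K A s` consists of the functions `F` with `d * F ∈ K` for some `d ∈ K` whose value at `s` is
a unit at `A`.  Membership in `K` is tested on all these local rings, so regularity of addition
can be checked at one point and one place at a time.
-/

noncomputable section

namespace Fermat.Agent.Flat

local notation "Qbar" => AlgebraicClosure ℚ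

variable {ℓ : ℕ} {S : Type*}

/-- A unit at the place `A`. -/
def IsVUnit (A : ValuationSubring Qbar) (x : Qbar) : Prop := A.valuation x = 1

theorem IsVUnit.mul {A : ValuationSubring Qbar} {x y : Qbar} (hx : IsVUnit A x)
    (hy : IsVUnit A y) : IsVUnit A (x * y) := by
  rw [IsVUnit, map_mul, show A.valuation x = 1 from hx, show A.valuation y = 1 from hy, one_mul]

theorem IsVUnit.ne_zero {A : ValuationSubring Qbar} {x : Qbar} (hx : IsVUnit A x) : x ≠ 0 := by
  rintro rfl
  rw [IsVUnit, map_zero] at hx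
  exact zero_ne_one hx

theorem IsVUnit.mem {A : ValuationSubring Qbar} {x : Qbar} (hx : IsVUnit A x) : x ∈ A :=
  A.mem_of_valuation_le_one x (le_of_eq hx)

theorem IsVUnit.inv {A : ValuationSubring Qbar} {x : Qbar} (hx : IsVUnit A x) :
    IsVUnit A x⁻¹ := by
  rw [IsVUnit, map_inv₀, show A.valuation x = 1 from hx, inv_one]

theorem isVUnit_iff {A : ValuationSubring Qbar} {x : Qbar} :
    IsVUnit A x ↔ x ∈ A ∧ x ∉ A.nonunits := by
  rw [IsVUnit, A.mem_nonunits_iff, ← A.valuation_le_one_iff, not_lt]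
  exact le_antisymm_iff

/-- The local ring of `K` at the point `s` and the place `A`. -/
def Loc (K : Subalgebra (Zl ℓ) (S → Qbar)) (A : ValuationSubring Qbar) (s : S) :
    Subalgebra (Zl ℓ) (S → Qbar) where
  carrier := {F | ∃ d ∈ K, IsVUnit A (d s) ∧ d * F ∈ K}
  mul_mem' := by
    rintro F G ⟨d, hd, hu, hdF⟩ ⟨e, he, hv, heG⟩
    exact ⟨d * e, K.mul_mem hd he, hu.mul hv, by
      rw [mul_mul_mul_comm]; exact K.mul_mem hdF heG⟩
  add_mem' := by
    rintro F G ⟨d, hd, hu, hdF⟩ ⟨e, he, hv, heG⟩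
    exact ⟨d * e, K.mul_mem hd he, hu.mul hv, by
      rw [mul_add, mul_right_comm, mul_assoc d e G]
      exact K.add_mem (K.mul_mem hdF he) (K.mul_mem hd heG)⟩
  algebraMap_mem' z := ⟨1, K.one_mem, by simp [IsVUnit], by
    rw [one_mul]; exact K.algebraMap_mem z⟩

namespace Loc

variable {K : Subalgebra (Zl ℓ) (S → Qbar)} {A : ValuationSubring Qbar} {s : S}

theorem of_mem {F : S → Qbar} (h : F ∈ K) : F ∈ Loc K A s :=
  ⟨1, K.one_mem, by simp [IsVUnit], by rwa [one_mul]⟩

theorem apply_mem (hK : ∀ f ∈ K, f s ∈ A) {F : S → Qbar} (hF : F ∈ Loc K A s) : F s ∈ A := by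
  obtain ⟨d, hd, hu, hdF⟩ := hF
  have e : F s = (d s)⁻¹ * (d * F) s := by
    rw [Pi.mul_apply, inv_mul_cancel_left₀ hu.ne_zero]
  rw [e]
  exact A.mul_mem _ _ hu.inv.mem (hK _ hdF)

theorem inv_mem {F : S → Qbar} (hF : F ∈ Loc K A s) (hu : IsVUnit A (F s)) :
    F⁻¹ ∈ Loc K A s := by
  obtain ⟨d, hd, hd1, hdF⟩ := hF
  refine ⟨(d * F) * (d * F), K.mul_mem hdF hdF, (hd1.mul hu).mul (hd1.mul hu), ?_⟩
  have e : (d * F) * (d * F) * F⁻¹ = (d * F) * d := by
    funext t
    simp only [Pi.mul_apply, Pi.inv_apply]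
    rcases eq_or_ne (F t) 0 with h | h
    · simp [h]
    · field_simp
  rw [e]
  exact K.mul_mem hdF hd

/-- A function agreeing with a member away from the zeros of a unit is a member. -/
theorem congr {F G e : S → Qbar} (hG : G ∈ Loc K A s) (he : e ∈ Loc K A s)
    (hu : IsVUnit A (e s)) (h : ∀ t, e t ≠ 0 → F t = G t) : F ∈ Loc K A s := by
  obtain ⟨d, hd, hd1, hde⟩ := he
  obtain ⟨d', hd', hd'1, hdeG⟩ := (Loc K A s).mul_mem ⟨d, hd, hd1, hde⟩ hG
  refine ⟨d * e * d', K.mul_mem hde hd', (hd1.mul hu).mul hd'1, ?_⟩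
  have e1 : d * e * d' * F = d * (d' * (e * G)) := by
    funext t
    simp only [Pi.mul_apply]
    rcases eq_or_ne (e t) 0 with ht | ht
    · simp [ht]
    · rw [h t ht]; ring
  rw [e1]
  exact K.mul_mem hd hdeG

/-- Membership is local. -/
theorem mem_of_forall [Fact ℓ.Prime] [Finite S] (hint : ∀ f ∈ K, ∀ t, IsIntegral (Zl ℓ) (f t))
    {F : S → Qbar}
    (h : ∀ A : ValuationSubring Qbar, A.LiesOverPrime ℓ → ∀ t, F ∈ Loc K A t) : F ∈ K := by
  classical
  let := Fintype.ofFinite S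
  let J : Ideal K :=
    { carrier := {d : K | (d : S → Qbar) * F ∈ K}
      zero_mem' := by simp
      add_mem' := fun {a b} ha hb => by
        show ((a + b : K) : S → Qbar) * F ∈ K
        rw [Subalgebra.coe_add, add_mul]; exact K.add_mem ha hb
      smul_mem' := fun c {a} ha => by
        show ((c • a : K) : S → Qbar) * F ∈ K
        rw [smul_eq_mul, Subalgebra.coe_mul, mul_assoc]; exact K.mul_mem c.2 ha }
  by_contra hF
  have hJ : J ≠ ⊤ := fun hJ => hF (by simpa [J] using (Ideal.eq_top_iff_one J).mp hJ)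
  obtain ⟨m, hm, hJm⟩ := J.exists_le_maximal hJ
  set ev : S → (K →ₐ[Zl ℓ] Qbar) :=
    fun t => (Pi.evalAlgHom (Zl ℓ) (fun _ : S => Qbar) t).comp K.val
  obtain ⟨t, -, ht⟩ := (hm.isPrime.inf_le' (s := Finset.univ)
      (f := fun t => RingHom.ker (ev t))).mp (by
    intro x hx
    rw [Submodule.mem_finsetInf] at hx
    have : x = 0 := Subtype.ext (funext fun u => hx u (Finset.mem_univ u))
    simp [this])
  let B := (ev t).range
  have hsurj : Function.Surjective (ev t).rangeRestrict := (ev t).rangeRestrict_surjective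
  have hker : RingHom.ker (ev t).rangeRestrict.toRingHom ≤ m := fun x hx =>
    ht (congrArg Subtype.val hx : _)
  have hmB : (m.map (ev t).rangeRestrict.toRingHom).IsMaximal := by
    refine (Ideal.map_eq_top_or_isMaximal_of_surjective _ hsurj hm).resolve_left fun e => ?_
    have := Ideal.comap_map_of_surjective _ hsurj m
    rw [e, Ideal.comap_top, ← RingHom.ker_eq_comap_bot] at this
    exact hm.ne_top (this.trans (sup_eq_left.mpr hker)).symm
  obtain ⟨V, hBV, hmV⟩ := Ideal.image_subset_nonunits_valuationSubring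
    (A := B.toSubring) (m.map (ev t).rangeRestrict.toRingHom) hmB.ne_top
  have : Algebra.IsIntegral (Zl ℓ) B := ⟨fun x => by
    obtain ⟨⟨f, hf⟩, hx⟩ := x.2
    refine (isIntegral_algHom_iff B.val Subtype.val_injective).mp ?_
    show IsIntegral (Zl ℓ) (x : Qbar)
    rw [← hx]
    exact hint f hf t⟩
  have hℓmem : algebraMap (Zl ℓ) B (ℓ : Zl ℓ) ∈ m.map (ev t).rangeRestrict.toRingHom := by
    have h1 : ((m.map (ev t).rangeRestrict.toRingHom).comap (algebraMap (Zl ℓ) B)).IsMaximal :=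
      Ideal.isMaximal_comap_of_isIntegral_of_isMaximal _
    have h2 : (ℓ : Zl ℓ) ∈ (m.map (ev t).rangeRestrict.toRingHom).comap (algebraMap (Zl ℓ) B) := by
      rw [IsLocalRing.eq_maximalIdeal h1]
      exact natCast_mem_maximalIdeal
    exact h2
  have hVℓ : V.LiesOverPrime ℓ := by
    have := hmV ⟨_, hℓmem, rfl⟩
    simpa [ValuationSubring.LiesOverPrime] using this
  obtain ⟨d, hd, hu, hdF⟩ := h V hVℓ t
  have hdm : (⟨d, hd⟩ : K) ∈ m := hJm hdF
  exact (isVUnit_iff.mp hu).2 (hmV ⟨_, Ideal.mem_map_of_mem _ hdm, rfl⟩)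

end Loc

end Fermat.Agent.Flat
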