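import Mathlib.LinearAlgebra.FiniteDimensional.Lemmas
import Mathlib.LinearAlgebra.Matrix.NonsingularInverse
import Mathlib.RingTheory.LocalRing.ResidueField.Basic
import Mathlib.RingTheory.Valuation.ValuationSubring

/-!
# Reduction of subspaces of coordinate spaces at a valuation ring

A subspace of `F^ι` has a pivot basis with integral entries, and its reduction at a valuation
ring of `F` has the same dimension. This is how spaces of functions of bounded pole order are
reduced to the special fibre.
-/

noncomputable section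

namespace Fermat.Agent.Flat

variable {F : Type*} [Field F] (A : ValuationSubring F)

/-- The residue field of a valuation ring. -/
abbrev Res : Type _ := IsLocalRing.ResidueField A

/-- Reduction of an element, `0` outside the valuation ring. -/
def red (x : F) : Res A := by
  classical exact if h : x ∈ A then IsLocalRing.residue A ⟨x, h⟩ else 0

variable {A}

theorem red_of_mem {x : F} (h : x ∈ A) : red A x = IsLocalRing.residue A ⟨x, h⟩ := by
  classical
  simp [red, dif_pos h]

theorem red_coe (x : A) : red A (x : F) = IsLocalRing.residue A x := red_of_mem x.2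

@[simp] theorem red_zero : red A (0 : F) = 0 := by
  rw [red_of_mem A.zero_mem]; exact map_zero _

@[simp] theorem red_one : red A (1 : F) = 1 := by
  rw [red_of_mem A.one_mem]; exact map_one _

theorem red_add {x y : F} (hx : x ∈ A) (hy : y ∈ A) : red A (x + y) = red A x + red A y := by
  rw [red_of_mem hx, red_of_mem hy, red_of_mem (A.add_mem _ _ hx hy), ← map_add]; rfl

theorem red_mul {x y : F} (hx : x ∈ A) (hy : y ∈ A) : red A (x * y) = red A x * red A y := by
  rw [red_of_mem hx, red_of_mem hy, red_of_mem (A.mul_mem _ _ hx hy), ← map_mul]; rfl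

theorem red_neg {x : F} (hx : x ∈ A) : red A (-x) = -red A x := by
  rw [red_of_mem hx, red_of_mem (A.neg_mem _ hx), ← map_neg]; rfl

theorem red_sub {x y : F} (hx : x ∈ A) (hy : y ∈ A) : red A (x - y) = red A x - red A y := by
  rw [sub_eq_add_neg, red_add hx (A.neg_mem _ hy), red_neg hy, sub_eq_add_neg]

theorem sum_mem' {ι : Type*} {s : Finset ι} {f : ι → F} (h : ∀ i ∈ s, f i ∈ A) :
    ∑ i ∈ s, f i ∈ A :=
  A.toSubring.sum_mem h

theorem red_sum {ι : Type*} {s : Finset ι} {f : ι → F} (h : ∀ i ∈ s, f i ∈ A) :
    red A (∑ i ∈ s, f i) = ∑ i ∈ s, red A (f i) := by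
  classical
  induction s using Finset.induction with
  | empty => simp
  | insert a t ha ih =>
    rw [Finset.sum_insert ha, Finset.sum_insert ha,
      red_add (h a (Finset.mem_insert_self _ _))
        (sum_mem' fun i hi => h i (Finset.mem_insert_of_mem hi)),
      ih fun i hi => h i (Finset.mem_insert_of_mem hi)]

theorem red_ne_zero_iff {x : F} (hx : x ∈ A) : red A x ≠ 0 ↔ A.valuation x = 1 := by
  rw [red_of_mem hx, IsLocalRing.residue_ne_zero_iff_isUnit, A.valuation_eq_one_iff ⟨x, hx⟩]

theorem red_eq_zero_iff {x : F} (hx : x ∈ A) : red A x = 0 ↔ x ∈ A.nonunits := by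
  rw [red_of_mem hx, IsLocalRing.residue_eq_zero_iff, ← ValuationSubring.coe_mem_nonunits_iff]

theorem det_mem {n : Type*} [Fintype n] [DecidableEq n] {M : Matrix n n F}
    (h : ∀ i j, M i j ∈ A) : M.det ∈ A ∧ red A M.det = (M.map (red A)).det := by
  let M' : Matrix n n A := fun i j => ⟨M i j, h i j⟩
  have e : M.det = ((M'.det : A) : F) := by
    show M.det = A.subtype M'.det
    rw [RingHom.map_det]; rfl
  refine ⟨e ▸ (M'.det).2, ?_⟩
  rw [e, red_coe, RingHom.map_det]
  congr 1
  ext i j
  exact (red_coe (M' i j)).symm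

variable (A) {ι : Type*} [Fintype ι]

/-- The reduction of a subspace of `F^ι`. -/
def redSub (W : Submodule F (ι → F)) : Submodule (Res A) (ι → Res A) :=
  Submodule.span (Res A)
    ((fun x : ι → F => fun i => red A (x i)) '' {x | x ∈ W ∧ ∀ i, x i ∈ A})

variable {A}

omit [Fintype ι] in
theorem mem_redSub {W : Submodule F (ι → F)} {x : ι → F} (hx : x ∈ W) (hi : ∀ i, x i ∈ A) :
    (fun i => red A (x i)) ∈ redSub A W :=
  Submodule.subset_span ⟨x, ⟨hx, hi⟩, rfl⟩

omit [Fintype ι] in
/-- The reduction of `W` is spanned by the reductions of an integral pivot basis. -/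
theorem redSub_eq_span {W : Submodule F (ι → F)} {k : ℕ} {p : Fin k → ι} {u : Fin k → ι → F}
    [DecidableEq (Fin k)] (hW : W = Submodule.span F (Set.range u)) (hu : ∀ j i, u j i ∈ A)
    (hp : ∀ j l, u j (p l) = if j = l then 1 else 0) :
    redSub A W = Submodule.span (Res A) (Set.range fun j => fun i => red A (u j i)) := by
  refine le_antisymm (Submodule.span_le.mpr ?_) (Submodule.span_le.mpr ?_)
  · rintro _ ⟨x, ⟨hx, hxA⟩, rfl⟩
    rw [hW] at hx
    obtain ⟨a, rfl⟩ := (Submodule.mem_span_range_iff_exists_fun F).mp hx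
    have ha : ∀ l, a l ∈ A := fun l => by
      have := hxA (p l)
      simpa [Finset.sum_apply, hp] using this
    refine (Submodule.mem_span_range_iff_exists_fun _).mpr
      ⟨fun j => red A (a j), funext fun i => ?_⟩
    simp only [Finset.sum_apply, Pi.smul_apply, smul_eq_mul]
    rw [red_sum fun j _ => A.mul_mem _ _ (ha j) (hu j i)]
    exact Finset.sum_congr rfl fun j _ => (red_mul (ha j) (hu j i)).symm
  · rintro _ ⟨j, rfl⟩
    exact mem_redSub (hW ▸ Submodule.subset_span ⟨j, rfl⟩) (hu j)

omit [Fintype ι] in
theorem linearIndependent_pivot {R : Type*} [Ring R] {k : ℕ} {p : Fin k → ι} {u : Fin k → ι → R}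
    (hp : ∀ j l, u j (p l) = if j = l then 1 else 0) : LinearIndependent R u := by
  rw [linearIndependent_iff']
  intro s a ha j hj
  have := congrFun ha (p j)
  simpa [Finset.sum_apply, hp, hj] using this

/-- Every subspace has a pivot basis with integral entries. -/
theorem exists_pivot (W : Submodule F (ι → F)) :
    ∃ (p : Fin (Module.finrank F W) → ι) (u : Fin (Module.finrank F W) → ι → F),
      W = Submodule.span F (Set.range u) ∧ (∀ j i, u j i ∈ A) ∧
      ∀ j l, u j (p l) = if j = l then 1 else 0 := by
  suffices H : ∀ n, ∀ W : Submodule F (ι → F), Module.finrank F W = n →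
      ∃ (p : Fin n → ι) (u : Fin n → ι → F), W = Submodule.span F (Set.range u) ∧
        (∀ j i, u j i ∈ A) ∧ ∀ j l, u j (p l) = if j = l then 1 else 0 from H _ W rfl
  intro n
  induction n with
  | zero =>
    intro W hW
    refine ⟨Fin.elim0, Fin.elim0, ?_, fun j => j.elim0, fun j => j.elim0⟩
    rw [Submodule.finrank_eq_zero.mp hW, Set.range_eq_empty, Submodule.span_empty]
  | succ n ih =>
    intro W hW
    obtain ⟨x, hx, hx0⟩ := Submodule.exists_mem_ne_zero_of_ne_bot (p := W) (fun h => by
      rw [h, finrank_bot] at hW; omega)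
    obtain ⟨q, hq⟩ := Function.ne_iff.mp hx0
    have : Nonempty ι := ⟨q⟩
    obtain ⟨i₀, -, hmax⟩ := Finset.exists_max_image Finset.univ (fun i => A.valuation (x i))
      Finset.univ_nonempty
    have hx₀ : x i₀ ≠ 0 := fun h => hq (by
      have := hmax q (Finset.mem_univ q)
      rw [h, map_zero, le_zero_iff, map_eq_zero] at this
      exact this)
    set y : ι → F := (x i₀)⁻¹ • x
    have hy : ∀ i, y i ∈ A := fun i => by
      refine A.mem_of_valuation_le_one _ ?_
      simp only [y, Pi.smul_apply, smul_eq_mul, map_mul, map_inv₀]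
      rw [inv_mul_le_iff₀ (pos_iff_ne_zero.mpr (by simpa using hx₀)), mul_one]
      exact hmax i (Finset.mem_univ i)
    have hy0 : y i₀ = 1 := by simp [y, hx₀]
    have hyW : y ∈ W := W.smul_mem _ hx
    let f : W →ₗ[F] F := (LinearMap.proj i₀).comp W.subtype
    have hf : Function.Surjective f := fun c => ⟨c • ⟨y, hyW⟩, by simp [f, hy0]⟩
    let W' : Submodule F (ι → F) := (LinearMap.ker f).map W.subtype
    have hW' : Module.finrank F W' = n := by
      rw [Submodule.finrank_map_subtype_eq]
      have := LinearMap.finrank_range_add_finrank_ker f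
      rw [LinearMap.range_eq_top.mpr hf, finrank_top, Module.finrank_self, hW] at this
      omega
    obtain ⟨p, u, hspan, hu, hp⟩ := ih W' hW'
    have huW' : ∀ j, u j ∈ W' := fun j => hspan ▸ Submodule.subset_span ⟨j, rfl⟩
    have hu0 : ∀ j, u j i₀ = 0 := fun j => by
      obtain ⟨w, hw, he⟩ := huW' j
      rw [← he]; exact hw
    have hW'le : W' ≤ W := Submodule.map_subtype_le _ _
    set z : ι → F := y - ∑ j, y (p j) • u j
    have hz0 : z i₀ = 1 := by simp [z, hy0, hu0, Finset.sum_apply]
    have hzp : ∀ l, z (p l) = 0 := fun l => by simp [z, Finset.sum_apply, hp]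
    have hzA : ∀ i, z i ∈ A := fun i => by
      simp only [z, Pi.sub_apply, Finset.sum_apply, Pi.smul_apply, smul_eq_mul]
      exact A.toSubring.sub_mem (hy i)
        (sum_mem' fun j _ => A.mul_mem _ _ (hy _) (hu j i))
    have hzW : z ∈ W := W.sub_mem hyW (W.sum_mem fun j _ => W.smul_mem _ (hW'le (huW' j)))
    refine ⟨Fin.cons i₀ p, Fin.cons z u, le_antisymm ?_ ?_, ?_, ?_⟩
    · intro w hw
      have hmem : w - w i₀ • z ∈ W' := ⟨⟨w - w i₀ • z, W.sub_mem hw (W.smul_mem _ hzW)⟩,
        by simp [f, hz0], rfl⟩
      rw [hspan] at hmem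
      rw [Fin.range_cons, Submodule.span_insert, Submodule.mem_sup]
      exact ⟨w i₀ • z, Submodule.smul_mem _ _ (Submodule.mem_span_singleton_self z), _, hmem,
        add_sub_cancel _ _⟩
    · rw [Submodule.span_le]
      rintro _ ⟨j, rfl⟩
      cases j using Fin.cases with
      | zero => simpa using hzW
      | succ j => simpa using hW'le (huW' j)
    · intro j
      cases j using Fin.cases with
      | zero => simpa using hzA
      | succ j => simpa using hu j
    · intro j l
      cases j using Fin.cases <;> cases l using Fin.cases <;>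
        simp [hz0, hzp, hu0, hp, Fin.succ_ne_zero, (Fin.succ_ne_zero _).symm]

/-- Reduction preserves the dimension of subspaces. -/
theorem finrank_redSub (W : Submodule F (ι → F)) :
    Module.finrank (Res A) (redSub A W) = Module.finrank F W := by
  classical
  obtain ⟨p, u, hW, hu, hp⟩ := exists_pivot (A := A) W
  rw [redSub_eq_span hW hu hp, finrank_span_eq_card
    (linearIndependent_pivot (p := p) fun j l => by rw [hp]; split_ifs <;> simp), Fintype.card_fin]

end Fermat.Agent.Flat
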