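import Mathlib.LinearAlgebra.Matrix.Adjugate
import Mathlib.LinearAlgebra.Matrix.Rank
import Mathlib.LinearAlgebra.Matrix.ToLin
import Fermat.Agent.Flat.Local
import Fermat.Agent.Flat.Reduction

/-!
# Regular families of subspaces

`U : S → Submodule ℚ̄ (ι → ℚ̄)` is regular at a point and a place if it has a pivot basis with
entries in the local ring.  Kernels of matrices over the local ring whose rank does not drop on
reduction are regular. This is the linear algebra behind regular families of ideals.
-/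

noncomputable section

namespace Fermat.Agent.Flat

local notation "Qbar" => AlgebraicClosure ℚ

open Module Matrix

theorem exists_minor {κ : Type*} [Field κ] {ρ ι : Type*} [Fintype ρ] [Fintype ι]
    (M : Matrix ρ ι κ) {k : ℕ} (h : finrank κ (LinearMap.ker M.mulVecLin) ≤ k) :
    ∃ (I : Fin (Fintype.card ι - k) → ρ) (J : Fin (Fintype.card ι - k) → ι),
      Function.Injective J ∧ (M.submatrix I J).det ≠ 0 := by
  classical
  have hrn := LinearMap.finrank_range_add_finrank_ker M.mulVecLin
  rw [Module.finrank_fintype_fun_eq_card, Matrix.range_mulVecLin] at hrn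
  obtain ⟨b, hbsub, hbspan, hbli⟩ := exists_linearIndependent κ (Set.range M.col)
  have : Fintype b := ((Set.finite_range M.col).subset hbsub).fintype
  have hbcard : Fintype.card ι - k ≤ Fintype.card b := by
    have : finrank κ (Submodule.span κ b) = Fintype.card b := by
      have := finrank_span_eq_card hbli
      rwa [Subtype.range_coe] at this
    rw [← hbspan, this] at hrn
    omega
  choose J' hJ' using fun x : b => hbsub x.2
  let e : Fin (Fintype.card ι - k) → b := fun i => (Fintype.equivFin b).symm (Fin.castLE hbcard i)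
  have he : Function.Injective e := fun i i' hi => by simpa [e] using hi
  let J : Fin (Fintype.card ι - k) → ι := J' ∘ e
  have hJinj : Function.Injective J := fun i i' hi => he (Subtype.ext (by
    rw [← hJ' (e i), ← hJ' (e i')]; exact congrArg M.col hi))
  have hcols : LinearIndependent κ (fun i => M.col (J i)) := by
    have : (fun i => M.col (J i)) = (fun x : b => (x : ρ → κ)) ∘ e := funext fun i => hJ' (e i)
    rw [this]
    exact hbli.comp e he
  set N : Matrix ρ (Fin (Fintype.card ι - k)) κ := M.submatrix id J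
  have hN : N.rank = Fintype.card ι - k := by
    rw [Matrix.rank, Matrix.range_mulVecLin,
      show N.col = fun i => M.col (J i) from funext fun i => funext fun r => rfl,
      finrank_span_eq_card hcols, Fintype.card_fin]
  rw [Matrix.rank_eq_finrank_span_row] at hN
  obtain ⟨b', hb'sub, hb'span, hb'li⟩ := exists_linearIndependent κ (Set.range N.row)
  have : Fintype b' := ((Set.finite_range N.row).subset hb'sub).fintype
  have hb'card : Fintype.card b' = Fintype.card ι - k := by
    refine Eq.trans ?_ hN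
    rw [← hb'span]
    have := finrank_span_eq_card hb'li
    rw [Subtype.range_coe] at this
    exact this.symm
  choose I' hI' using fun x : b' => hb'sub x.2
  let e' : Fin (Fintype.card ι - k) → b' :=
    fun i => (Fintype.equivFin b').symm (Fin.cast hb'card.symm i)
  have he' : Function.Injective e' := fun i i' hi => by simpa [e'] using hi
  refine ⟨I' ∘ e', J, hJinj, IsUnit.ne_zero ((Matrix.isUnit_iff_isUnit_det _).mp
    (Matrix.linearIndependent_rows_iff_isUnit.mp ?_))⟩
  have : (M.submatrix (I' ∘ e') J).row = (fun x : b' => (x : _ → κ)) ∘ e' :=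
    funext fun i => hI' (e' i)
  rw [this]
  exact hb'li.comp e' he'

variable {ℓ : ℕ} {S : Type*} {ι : Type*} [Fintype ι]
  (K : Subalgebra (Zl ℓ) (S → Qbar)) (A : ValuationSubring Qbar) (s : S)

/-- A family of subspaces which is regular at `(s, A)` of rank `k`. -/
def IsReg (U : S → Submodule Qbar (ι → Qbar)) (k : ℕ) : Prop :=
  ∃ (p : Fin k → ι) (u : Fin k → ι → S → Qbar) (d : S → Qbar),
    (∀ j i, u j i ∈ Loc K A s) ∧ d ∈ Loc K A s ∧ IsVUnit A (d s) ∧
    (∀ j l t, u j (p l) t = if j = l then 1 else 0) ∧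
    ∀ t, d t ≠ 0 → U t = Submodule.span Qbar (Set.range fun j => fun i => u j i t)

variable {K A s}

/-- The kernel of a matrix over the local ring whose kernel does not grow on reduction. -/
theorem IsReg.of_ker {ρ : Type*} [Fintype ρ] [DecidableEq ι] (hK : ∀ f ∈ K, f s ∈ A)
    {Φ : ρ → ι → S → Qbar} (hΦ : ∀ r i, Φ r i ∈ Loc K A s) {U : S → Submodule Qbar (ι → Qbar)}
    {k : ℕ} (hk : k ≤ Fintype.card ι) {e : S → Qbar} (he : e ∈ Loc K A s)
    (he1 : IsVUnit A (e s))
    (hU : ∀ t, e t ≠ 0 → U t = LinearMap.ker (Matrix.of fun r i => Φ r i t).mulVecLin ∧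
      k ≤ finrank Qbar (U t))
    (hres : finrank (Res A)
      (LinearMap.ker (Matrix.of fun r i => red A (Φ r i s)).mulVecLin) ≤ k) :
    IsReg K A s U k := by
  classical
  obtain ⟨I, J, hJ, hdet⟩ := exists_minor _ hres
  let L := Loc K A s
  let MI : Matrix (Fin (Fintype.card ι - k)) (Fin (Fintype.card ι - k)) L :=
    fun a b => ⟨Φ (I a) (J b), hΦ _ _⟩
  set D : S → Qbar := ((MI.det : L) : S → Qbar) with hD
  have hDmem : D ∈ Loc K A s := (MI.det).2
  let ev : S → (L →ₐ[Zl ℓ] Qbar) :=
    fun t => (Pi.evalAlgHom (Zl ℓ) (fun _ : S => Qbar) t).comp L.val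
  have hDt : ∀ t, D t = (Matrix.of fun a b => Φ (I a) (J b) t).det := fun t => by
    show ev t MI.det = _
    rw [AlgHom.map_det]
    rfl
  have hΦA : ∀ r i, Φ r i s ∈ A := fun r i => Loc.apply_mem hK (hΦ r i)
  have hD1 : IsVUnit A (D s) := by
    obtain ⟨hmem, hred⟩ := det_mem (A := A) (M := Matrix.of fun a b => Φ (I a) (J b) s)
      (fun a b => hΦA _ _)
    rw [hDt]
    exact (red_ne_zero_iff hmem).mp (by rw [hred]; exact hdet)
  -- free coordinates
  obtain ⟨p, hp, hpJ⟩ : ∃ p : Fin k → ι, Function.Injective p ∧ ∀ j a, p j ≠ J a := by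
    have hc : Fintype.card {i // i ∉ Finset.univ.image J} = k := by
      rw [Fintype.card_subtype_compl, Fintype.card_coe,
        Finset.card_image_of_injective _ hJ, Finset.card_univ, Fintype.card_fin]
      omega
    refine ⟨fun j => ((Fintype.equivFinOfCardEq hc).symm j).1,
      Subtype.val_injective.comp (Equiv.injective _), fun j a h => ?_⟩
    exact ((Fintype.equivFinOfCardEq hc).symm j).2
      (Finset.mem_image.mpr ⟨a, Finset.mem_univ a, h.symm⟩)
  have hbij : Function.Bijective (Sum.elim J p) := by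
    refine (Fintype.bijective_iff_injective_and_card _).mpr ⟨hJ.sumElim hp
      (fun a j h => hpJ j a h.symm), ?_⟩
    rw [Fintype.card_sum, Fintype.card_fin, Fintype.card_fin]
    omega
  have hcover : ∀ i, (∃ a, J a = i) ∨ ∃ j, p j = i := by
    intro i
    obtain ⟨x, rfl⟩ := hbij.2 i
    rcases x with a | j
    · exact Or.inl ⟨a, rfl⟩
    · exact Or.inr ⟨j, rfl⟩
  have hDinv : D⁻¹ ∈ Loc K A s := Loc.inv_mem hDmem hD1
  let adj : Matrix (Fin (Fintype.card ι - k)) (Fin (Fintype.card ι - k)) (S → Qbar) :=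
    fun a b => ((MI.adjugate a b : L) : S → Qbar)
  let u : Fin k → ι → S → Qbar := fun j i =>
    if h : ∃ a, J a = i then -(D⁻¹ * ∑ b, adj h.choose b * Φ (I b) (p j))
    else if p j = i then 1 else 0
  have hu : ∀ j i, u j i ∈ Loc K A s := by
    intro j i
    simp only [u]
    split_ifs
    · exact neg_mem (mul_mem hDinv (sum_mem fun b _ => mul_mem (MI.adjugate _ b).2 (hΦ _ _)))
    · exact one_mem _
    · exact zero_mem _
  have huJ : ∀ j a, u j (J a) = -(D⁻¹ * ∑ b, adj a b * Φ (I b) (p j)) := by
    intro j a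
    have h : ∃ a', J a' = J a := ⟨a, rfl⟩
    simp only [u, dif_pos h, hJ h.choose_spec]
  have hup : ∀ j l t, u j (p l) t = if j = l then 1 else 0 := by
    intro j l t
    have h : ¬ ∃ a, J a = p l := fun ⟨a, ha⟩ => hpJ l a ha.symm
    simp only [u, dif_neg h, hp.eq_iff]
    split_ifs <;> rfl
  refine ⟨p, u, e * D, hu, mul_mem he hDmem, he1.mul hD1, hup, fun t ht => ?_⟩
  obtain ⟨het, hDt0⟩ := mul_ne_zero_iff.mp (show e t * D t ≠ 0 from ht)
  obtain ⟨hUt, hdim⟩ := hU t het
  set N : Matrix (Fin (Fintype.card ι - k)) ι Qbar := Matrix.of fun a i => Φ (I a) i t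
  set MJ : Matrix (Fin (Fintype.card ι - k)) (Fin (Fintype.card ι - k)) Qbar :=
    Matrix.of fun a b => Φ (I a) (J b) t
  have hMJ : MJ.det ≠ 0 := by rw [← hDt]; exact hDt0
  have hadj : ∀ a b, adj a b t = MJ.adjugate a b := fun a b => by
    show ev t (MI.adjugate a b) = _
    have := RingHom.map_adjugate (ev t).toRingHom MI
    exact congrFun (congrFun this a) b
  have hle : LinearMap.ker N.mulVecLin ≤
      Submodule.span Qbar (Set.range fun j => fun i => u j i t) := by
    intro x hx
    rw [LinearMap.mem_ker, Matrix.mulVecLin_apply] at hx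
    refine (Submodule.mem_span_range_iff_exists_fun _).mpr ⟨fun j => x (p j), ?_⟩
    set y := x - ∑ j, x (p j) • fun i => u j i t
    have hyp : ∀ l, y (p l) = 0 := fun l => by
      simp [y, Finset.sum_apply, hup]
    have hNu : ∀ j, N *ᵥ (fun i => u j i t) = 0 := by
      intro j
      funext c
      simp only [Matrix.mulVec, dotProduct, Pi.zero_apply, N, Matrix.of_apply]
      rw [← hbij.sum_comp (fun i => Φ (I c) i t * u j i t), Fintype.sum_sum_type]
      simp only [Sum.elim_inl, Sum.elim_inr, hup, mul_ite, mul_one, mul_zero,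
        Finset.sum_ite_eq, Finset.mem_univ, if_true, huJ, Pi.neg_apply, Pi.mul_apply,
        Pi.inv_apply, Finset.sum_apply, hadj, Finset.mul_sum, mul_neg, Finset.sum_neg_distrib]
      rw [Finset.sum_comm]
      have h1 : ∀ b, ∑ a, Φ (I c) (J a) t * ((D t)⁻¹ * (MJ.adjugate a b * Φ (I b) (p j) t)) =
          (if c = b then Φ (I b) (p j) t else 0) := by
        intro b
        have := congrFun (congrFun (Matrix.mul_adjugate MJ) c) b
        simp only [Matrix.mul_apply, Matrix.smul_apply, Matrix.one_apply, smul_eq_mul,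
          MJ, Matrix.of_apply] at this
        rw [show ∑ a, Φ (I c) (J a) t * ((D t)⁻¹ * (MJ.adjugate a b * Φ (I b) (p j) t)) =
          (D t)⁻¹ * Φ (I b) (p j) t * ∑ a, Φ (I c) (J a) t * MJ.adjugate a b by
            rw [Finset.mul_sum]; exact Finset.sum_congr rfl fun a _ => by ring]
        rw [this, hDt]
        split_ifs
        · rw [mul_one, mul_comm, ← mul_assoc, mul_inv_cancel₀ hMJ, one_mul]
        · simp
      simp only [h1, Finset.sum_ite_eq, Finset.mem_univ, if_true, neg_add_cancel]
    have hNy : N *ᵥ y = 0 := by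
      simp only [y, Matrix.mulVec_sub, Matrix.mulVec_sum, Matrix.mulVec_smul, hNu, hx,
        smul_zero, Finset.sum_const_zero, sub_zero]
    have hyJ : (fun a => y (J a)) = 0 := by
      refine (Matrix.eq_zero_of_mulVec_eq_zero hMJ ?_)
      funext c
      have := congrFun hNy c
      simp only [Matrix.mulVec, dotProduct, N, Matrix.of_apply, Pi.zero_apply] at this
      rw [← Finset.sum_subset (Finset.subset_univ (Finset.univ.image J)) (fun i _ hi => by
        rcases hcover i with ⟨a, rfl⟩ | ⟨l, rfl⟩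
        · exact absurd (Finset.mem_image.mpr ⟨a, Finset.mem_univ a, rfl⟩) hi
        · rw [hyp, mul_zero]), Finset.sum_image (fun a _ b _ h => hJ h)] at this
      exact this
    have : y = 0 := funext fun i => by
      rcases hcover i with ⟨a, rfl⟩ | ⟨l, rfl⟩
      · exact congrFun hyJ a
      · exact hyp l
    exact (sub_eq_zero.mp this).symm
  have hUN : U t ≤ LinearMap.ker N.mulVecLin := by
    rw [hUt]
    intro x hx
    rw [LinearMap.mem_ker, Matrix.mulVecLin_apply] at hx ⊢
    funext c
    exact congrFun hx (I c)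
  refine Submodule.eq_of_le_of_finrank_le (hUN.trans hle) ?_
  rw [finrank_span_eq_card (linearIndependent_pivot (p := p) fun j l => hup j l t),
    Fintype.card_fin]
  exact hdim

/-- A regular family is cut out by a matrix over the local ring, also on reduction. -/
theorem IsReg.exists_presentation [DecidableEq ι] (hK : ∀ f ∈ K, f s ∈ A)
    {U : S → Submodule Qbar (ι → Qbar)} {k : ℕ} (h : IsReg K A s U k) :
    ∃ (Φ : ι → ι → S → Qbar) (d : S → Qbar), (∀ r i, Φ r i ∈ Loc K A s) ∧ d ∈ Loc K A s ∧
      IsVUnit A (d s) ∧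
      (∀ t, d t ≠ 0 → U t = LinearMap.ker (Matrix.of fun r i => Φ r i t).mulVecLin) ∧
      LinearMap.ker (Matrix.of fun r i => red A (Φ r i s)).mulVecLin ≤ redSub A (U s) := by
  classical
  obtain ⟨p, u, d, hu, hd, hd1, hp, hU⟩ := h
  refine ⟨fun r i => (if r = i then 1 else 0) - ∑ j, u j r * (if p j = i then 1 else 0), d, ?_, hd,
    hd1, ?_, ?_⟩
  · intro r i
    refine sub_mem ?_ (sum_mem fun j _ => mul_mem (hu j r) ?_)
    · split_ifs; exacts [one_mem _, zero_mem _]
    · split_ifs; exacts [one_mem _, zero_mem _]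
  · intro t ht
    have happ : ∀ (x : ι → Qbar) r, ((Matrix.of fun r i =>
        ((if r = i then (1 : S → Qbar) else 0) -
          ∑ j, u j r * (if p j = i then 1 else 0)) t) *ᵥ x) r =
        x r - ∑ j, x (p j) * u j r t := by
      intro x r
      simp only [Matrix.mulVec, dotProduct, Matrix.of_apply, Pi.sub_apply, Finset.sum_apply,
        Pi.mul_apply, sub_mul, Finset.sum_sub_distrib, Finset.sum_mul, ite_apply, Pi.one_apply,
        Pi.zero_apply, ite_mul, one_mul, zero_mul, Finset.sum_ite_eq, Finset.mem_univ, if_true]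
      rw [Finset.sum_comm]
      congr 1
      refine Finset.sum_congr rfl fun j _ => ?_
      simp only [mul_ite, mul_one, mul_zero, ite_mul, zero_mul, Finset.sum_ite_eq,
        Finset.mem_univ, if_true]
      ring
    rw [hU t ht]
    refine le_antisymm (Submodule.span_le.mpr ?_) fun x hx => ?_
    · rintro _ ⟨l, rfl⟩
      rw [SetLike.mem_coe, LinearMap.mem_ker, Matrix.mulVecLin_apply]
      funext r
      rw [happ]
      simp [hp]
    · rw [LinearMap.mem_ker, Matrix.mulVecLin_apply] at hx
      refine (Submodule.mem_span_range_iff_exists_fun _).mpr ⟨fun j => x (p j), funext fun r => ?_⟩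
      have := congrFun hx r
      rw [happ, Pi.zero_apply, sub_eq_zero] at this
      simpa [Finset.sum_apply] using this.symm
  · have huA : ∀ j i, u j i s ∈ A := fun j i => Loc.apply_mem hK (hu j i)
    rw [redSub_eq_span (hU s hd1.ne_zero) huA (fun j l => hp j l s)]
    intro x hx
    rw [LinearMap.mem_ker, Matrix.mulVecLin_apply] at hx
    refine (Submodule.mem_span_range_iff_exists_fun _).mpr ⟨fun j => x (p j), funext fun r => ?_⟩
    have h1 : ∀ i, red A (((if r = i then (1 : S → Qbar) else 0) -
        ∑ j, u j r * (if p j = i then 1 else 0)) s) =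
        (if r = i then 1 else 0) - ∑ j, red A (u j r s) * (if p j = i then 1 else 0) := by
      intro i
      have hite : ∀ c : Prop, [Decidable c] → (if c then (1 : S → Qbar) else 0) s ∈ A := by
        intro c _; split_ifs; exacts [A.one_mem, A.zero_mem]
      simp only [Pi.sub_apply, Finset.sum_apply, Pi.mul_apply]
      rw [red_sub (hite _) (sum_mem' fun j _ => A.mul_mem _ _ (huA j r) (hite _)),
        red_sum fun j _ => A.mul_mem _ _ (huA j r) (hite _)]
      congr 1
      · split_ifs <;> simp
      · refine Finset.sum_congr rfl fun j _ => ?_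
        split_ifs <;> simp
    have := congrFun hx r
    simp only [Matrix.mulVec, dotProduct, Matrix.of_apply, h1, sub_mul, Finset.sum_sub_distrib,
      Finset.sum_mul, ite_mul, one_mul, zero_mul, Finset.sum_ite_eq, Finset.mem_univ, if_true,
      Pi.zero_apply, sub_eq_zero] at this
    rw [this, Finset.sum_comm, Finset.sum_apply]
    refine Finset.sum_congr rfl fun j _ => ?_
    simp [mul_comm]

/-- Preimages of a regular family under matrices over the local ring. -/
theorem IsReg.preimage {κ Λ : Type*} [Fintype κ] [Fintype Λ] [DecidableEq ι] [DecidableEq κ]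
    (hK : ∀ f ∈ K, f s ∈ A) {T : Λ → κ → ι → S → Qbar} (hT : ∀ l a i, T l a i ∈ Loc K A s)
    {V : S → Submodule Qbar (κ → Qbar)} {m : ℕ} (hV : IsReg K A s V m)
    {U : S → Submodule Qbar (ι → Qbar)} {k : ℕ} (hk : k ≤ Fintype.card ι)
    {e : S → Qbar} (he : e ∈ Loc K A s) (he1 : IsVUnit A (e s))
    (hU : ∀ t, e t ≠ 0 → (∀ x, x ∈ U t ↔ ∀ l, (Matrix.of fun a i => T l a i t) *ᵥ x ∈ V t) ∧
      k ≤ finrank Qbar (U t))
    (hres : finrank (Res A) (⨅ l, (redSub A (V s)).comap
      (Matrix.of fun a i => red A (T l a i s)).mulVecLin : Submodule (Res A) (ι → Res A)) ≤ k) :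
    IsReg K A s U k := by
  classical
  obtain ⟨Φ, d, hΦ, hd, hd1, hker, hkres⟩ := hV.exists_presentation hK
  refine IsReg.of_ker hK (ρ := Λ × κ) (Φ := fun r i => ∑ a, Φ r.2 a * T r.1 a i)
    (fun r i => sum_mem fun a _ => mul_mem (hΦ _ _) (hT _ _ _)) hk (mul_mem he hd) (he1.mul hd1)
    (fun t ht => ?_) (le_trans (Submodule.finrank_mono ?_) hres)
  · obtain ⟨het, hdt⟩ := mul_ne_zero_iff.mp (show e t * d t ≠ 0 from ht)
    refine ⟨?_, (hU t het).2⟩
    ext x
    rw [(hU t het).1, LinearMap.mem_ker, Matrix.mulVecLin_apply, funext_iff, Prod.forall]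
    refine forall_congr' fun l => ?_
    rw [hker t hdt, LinearMap.mem_ker, Matrix.mulVecLin_apply, funext_iff, Matrix.mulVec_mulVec]
    refine forall_congr' fun c => ?_
    simp [Matrix.mulVec, dotProduct, Matrix.mul_apply, Finset.sum_apply]
  · intro x hx
    rw [LinearMap.mem_ker, Matrix.mulVecLin_apply] at hx
    rw [Submodule.mem_iInf]
    intro l
    rw [Submodule.mem_comap, Matrix.mulVecLin_apply]
    refine hkres ?_
    rw [LinearMap.mem_ker, Matrix.mulVecLin_apply, Matrix.mulVec_mulVec]
    funext c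
    have := congrFun hx (l, c)
    simp only [Matrix.mulVec, dotProduct, Matrix.of_apply, Pi.zero_apply] at this ⊢
    rw [← this]
    refine Finset.sum_congr rfl fun i _ => ?_
    simp only [Matrix.mul_apply, Matrix.of_apply, Finset.sum_apply, Pi.mul_apply]
    rw [red_sum fun a _ => A.mul_mem _ _ (Loc.apply_mem hK (hΦ c a)) (Loc.apply_mem hK (hT l a i))]
    congr 1
    exact Finset.sum_congr rfl fun a _ =>
      (red_mul (Loc.apply_mem hK (hΦ c a)) (Loc.apply_mem hK (hT l a i))).symm

/-- The projection onto `W` along `U`, when both reduce to complementary subspaces. -/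
theorem IsReg.exists_projection [DecidableEq ι] (hK : ∀ f ∈ K, f s ∈ A)
    {U W : S → Submodule Qbar (ι → Qbar)} {k k' : ℕ} (hU : IsReg K A s U k)
    (hW : IsReg K A s W k') (hcard : k + k' = Fintype.card ι)
    (hdisj : Disjoint (redSub A (U s)) (redSub A (W s))) :
    ∃ (P : ι → ι → S → Qbar) (d : S → Qbar), (∀ r i, P r i ∈ Loc K A s) ∧ d ∈ Loc K A s ∧
      IsVUnit A (d s) ∧ ∀ t, d t ≠ 0 → IsCompl (U t) (W t) ∧
        ∀ x, (Matrix.of fun r i => P r i t) *ᵥ x ∈ W t ∧
          x - (Matrix.of fun r i => P r i t) *ᵥ x ∈ U t := by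
  classical
  obtain ⟨p, u, du, hu, hdu, hdu1, hp, hUt⟩ := hU
  obtain ⟨q, w, dw, hw, hdw, hdw1, hq, hWt⟩ := hW
  have hc : Fintype.card (Fin k ⊕ Fin k') = Fintype.card ι := by simpa using hcard
  let σ : ι ≃ Fin k ⊕ Fin k' := (Fintype.equivOfCardEq hc).symm
  let L := Loc K A s
  let M : Matrix ι ι L := fun r i => Sum.elim (fun j => (⟨u j r, hu j r⟩ : L))
    (fun j => (⟨w j r, hw j r⟩ : L)) (σ i)
  let E : Matrix ι ι L := Matrix.diagonal fun i => Sum.elim (fun _ => 0) (fun _ => 1) (σ i)
  set D : S → Qbar := ((M.det : L) : S → Qbar) with hD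
  let ev : S → (L →ₐ[Zl ℓ] Qbar) :=
    fun t => (Pi.evalAlgHom (Zl ℓ) (fun _ : S => Qbar) t).comp L.val
  let Mt : S → Matrix ι ι Qbar := fun t => M.map (ev t)
  have hDt : ∀ t, D t = (Mt t).det := fun t => by
    show ev t M.det = _
    rw [AlgHom.map_det]
    rfl
  have hcolU : ∀ t j, (fun r => Mt t r (σ.symm (Sum.inl j))) = fun r => u j r t := by
    intro t j
    funext r
    show ev t (M r (σ.symm (Sum.inl j))) = _
    simp only [M, Equiv.apply_symm_apply, Sum.elim_inl]
    rfl
  have hcolW : ∀ t j, (fun r => Mt t r (σ.symm (Sum.inr j))) = fun r => w j r t := by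
    intro t j
    funext r
    show ev t (M r (σ.symm (Sum.inr j))) = _
    simp only [M, Equiv.apply_symm_apply, Sum.elim_inr]
    rfl
  have huA : ∀ j i, u j i s ∈ A := fun j i => Loc.apply_mem hK (hu j i)
  have hwA : ∀ j i, w j i s ∈ A := fun j i => Loc.apply_mem hK (hw j i)
  have hD1 : IsVUnit A (D s) := by
    have hMA : ∀ r i, Mt s r i ∈ A := by
      intro r i
      show ev s (M r i) ∈ A
      simp only [M]
      rcases σ i with j | j
      · exact huA j r
      · exact hwA j r
    obtain ⟨hmem, hred⟩ := det_mem (A := A) (M := Mt s) hMA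
    rw [hDt]
    refine (red_ne_zero_iff hmem).mp ?_
    rw [hred]
    refine IsUnit.ne_zero ((Matrix.isUnit_iff_isUnit_det _).mp
      (Matrix.linearIndependent_cols_iff_isUnit.mp ?_))
    rw [← linearIndependent_equiv σ.symm]
    have e1 : ((Mt s).map (red A)).col ∘ σ.symm =
        Sum.elim (fun j r => red A (u j r s)) (fun j r => red A (w j r s)) := by
      funext x r
      rcases x with j | j
      · exact congrArg (red A) (congrFun (hcolU s j) r)
      · exact congrArg (red A) (congrFun (hcolW s j) r)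
    rw [e1]
    refine LinearIndependent.sum_type
      (linearIndependent_pivot (p := p) fun j l => by rw [hp]; split_ifs <;> simp)
      (linearIndependent_pivot (p := q) fun j l => by rw [hq]; split_ifs <;> simp) ?_
    rw [← redSub_eq_span (hUt s hdu1.ne_zero) huA (fun j l => hp j l s),
      ← redSub_eq_span (hWt s hdw1.ne_zero) hwA (fun j l => hq j l s)]
    exact hdisj
  have hDmem : D ∈ Loc K A s := (M.det).2
  refine ⟨fun r i => D⁻¹ * (((M * E * M.adjugate) r i : L) : S → Qbar), du * dw * D,
    fun r i => mul_mem (Loc.inv_mem hDmem hD1) ((M * E * M.adjugate) r i).2,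
    mul_mem (mul_mem hdu hdw) hDmem, (hdu1.mul hdw1).mul hD1, fun t ht => ?_⟩
  obtain ⟨hd2, hDt0⟩ := mul_ne_zero_iff.mp (show du t * dw t * D t ≠ 0 from ht)
  obtain ⟨hdut, hdwt⟩ := mul_ne_zero_iff.mp hd2
  have hM0 : (Mt t).det ≠ 0 := hDt t ▸ hDt0
  set e : ι → Qbar := fun i => Sum.elim (fun _ => 0) (fun _ => 1) (σ i)
  have hP : (Matrix.of fun r i => (D⁻¹ * (((M * E * M.adjugate) r i : L) : S → Qbar)) t) =
      Mt t * Matrix.diagonal e * (Mt t)⁻¹ := by
    rw [Matrix.inv_def, Ring.inverse_eq_inv, Matrix.mul_smul]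
    ext r i
    rw [Matrix.of_apply, Matrix.smul_apply, Pi.mul_apply, Pi.inv_apply, hDt, smul_eq_mul]
    congr 1
    have h1 : (M * E * M.adjugate).map (ev t) = Mt t * Matrix.diagonal e * (Mt t).adjugate := by
      rw [Matrix.map_mul, Matrix.map_mul]
      congr 1
      · congr 1
        rw [Matrix.diagonal_map (map_zero _)]
        congr 1
        funext i
        rcases h : σ i with j | j <;> simp [e, h]
      · exact RingHom.map_adjugate (ev t).toRingHom M
    exact congrFun (congrFun h1 r) i
  have hMinj : Function.Injective ((Mt t).mulVec) :=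
    Matrix.mulVec_injective_iff_isUnit.mpr ((Matrix.isUnit_iff_isUnit_det _).mpr hM0.isUnit)
  -- combinations of columns
  have hsplit : ∀ (v : ι → Qbar) (r : ι), (Mt t *ᵥ v) r =
      ∑ j, v (σ.symm (Sum.inl j)) * u j r t + ∑ j, v (σ.symm (Sum.inr j)) * w j r t := by
    intro v r
    rw [Matrix.mulVec, dotProduct, ← σ.symm.sum_comp, Fintype.sum_sum_type]
    congr 1 <;> refine Finset.sum_congr rfl fun j _ => ?_
    · rw [← congrFun (hcolU t j) r]; exact mul_comm _ _
    · rw [← congrFun (hcolW t j) r]; exact mul_comm _ _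
  have hel : ∀ j, e (σ.symm (Sum.inl j)) = 0 := fun j => by simp [e]
  have her : ∀ j, e (σ.symm (Sum.inr j)) = 1 := fun j => by simp [e]
  have hWmem : ∀ a : ι → Qbar, Mt t *ᵥ (Matrix.diagonal e *ᵥ a) ∈ W t := by
    intro a
    rw [hWt t hdwt]
    refine (Submodule.mem_span_range_iff_exists_fun _).mpr
      ⟨fun j => a (σ.symm (Sum.inr j)), funext fun r => ?_⟩
    rw [hsplit]
    simp only [Matrix.mulVec_diagonal, hel, her, zero_mul, one_mul, Finset.sum_const_zero,
      zero_add, Finset.sum_apply, Pi.smul_apply, smul_eq_mul]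
  have hUmem : ∀ a : ι → Qbar, Mt t *ᵥ a - Mt t *ᵥ (Matrix.diagonal e *ᵥ a) ∈ U t := by
    intro a
    rw [hUt t hdut]
    refine (Submodule.mem_span_range_iff_exists_fun _).mpr
      ⟨fun j => a (σ.symm (Sum.inl j)), funext fun r => ?_⟩
    rw [Pi.sub_apply, hsplit, hsplit]
    simp only [Matrix.mulVec_diagonal, hel, her, zero_mul, one_mul, Finset.sum_const_zero,
      zero_add, add_sub_cancel_right, Finset.sum_apply, Pi.smul_apply, smul_eq_mul]
  have hdec : ∀ x, (Mt t * Matrix.diagonal e * (Mt t)⁻¹) *ᵥ x ∈ W t ∧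
      x - (Mt t * Matrix.diagonal e * (Mt t)⁻¹) *ᵥ x ∈ U t := by
    intro x
    rw [← Matrix.mulVec_mulVec, ← Matrix.mulVec_mulVec]
    refine ⟨hWmem _, ?_⟩
    have := hUmem ((Mt t)⁻¹ *ᵥ x)
    rwa [Matrix.mulVec_mulVec, Matrix.mul_nonsing_inv _ hM0.isUnit, Matrix.one_mulVec] at this
  refine ⟨?_, fun x => hP ▸ hdec x⟩
  constructor
  · rw [Submodule.disjoint_def, hUt t hdut, hWt t hdwt]
    intro x hx hx'
    obtain ⟨a, rfl⟩ := (Submodule.mem_span_range_iff_exists_fun _).mp hx
    obtain ⟨b, hb⟩ := (Submodule.mem_span_range_iff_exists_fun _).mp hx'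
    have h0 : (fun i => Sum.elim a (fun j => -b j) (σ i)) = 0 := by
      refine hMinj ?_
      rw [Matrix.mulVec_zero]
      funext r
      rw [hsplit]
      simp only [Equiv.apply_symm_apply, Sum.elim_inl, Sum.elim_inr, neg_mul,
        Finset.sum_neg_distrib, Pi.zero_apply]
      have := congrFun hb r
      simp only [Finset.sum_apply, Pi.smul_apply, smul_eq_mul] at this
      rw [this, add_neg_cancel]
    have ha : a = 0 := funext fun j => by simpa using congrFun h0 (σ.symm (Sum.inl j))
    simp [ha]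
  · rw [codisjoint_iff, eq_top_iff]
    intro x _
    have := hdec x
    exact Submodule.mem_sup.mpr ⟨_, this.2, _, this.1, sub_add_cancel x _⟩

end Fermat.Agent.Flat
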