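import Fermat.Agent.Flat.Points

/-!
# Choice of point sets in general position on the special fibre

Auxiliary good polynomials can be chosen so that, on every special fibre, finitely many given
ideals multiplied by tuples of their points are in general position. This makes the charts
integral.
-/

noncomputable section

namespace Fermat.Agent.Flat

open scoped TensorProduct
open Module Polynomial

local notation "Qbar" => AlgebraicClosure ℚ
local notation "Gal0" => (AlgebraicClosure ℚ ≃ₐ[ℚ] AlgebraicClosure ℚ)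

namespace GoodModel

variable {ℓ : ℕ} [Fact ℓ.Prime] {C : GoodModel ℓ}

/-- The ideal of a tuple of points. -/
def ptIdeal {j : ℕ} (θ : Fin j → C.IPt) : Ideal (C.R Qbar) := ∏ i, (θ i).m

theorem aff_ptIdeal (v : Pl ℓ) {j : ℕ} (θ : Fin j → C.IPt) :
    AFF v (ptIdeal θ) ∧ redI v (ptIdeal θ) = ∏ i, (θ i).mbar v ∧
      (C.P Qbar).codim (ptIdeal θ) = j := by
  induction j with
  | zero =>
    obtain ⟨h1, h2⟩ := aff_top (C := C) v
    refine ⟨?_, ?_, ?_⟩
    · simpa [ptIdeal, Ideal.one_eq_top] using h1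
    · simpa [ptIdeal, Ideal.one_eq_top] using h2
    · simp [ptIdeal, Ideal.one_eq_top, PoleBasis.codim_top]
  | succ j ih =>
    obtain ⟨ha, he, hc⟩ := ih (fun i => θ i.castSucc)
    obtain ⟨hm, hme⟩ := (θ (Fin.last j)).aff v
    have hsplit : ptIdeal θ = ptIdeal (fun i => θ i.castSucc) * (θ (Fin.last j)).m := by
      rw [ptIdeal, Fin.prod_univ_castSucc]; rfl
    refine ⟨hsplit ▸ (aff_mul_iff ha.1 hm.1).mpr ⟨ha, hm⟩, ?_, ?_⟩
    · rw [hsplit, AFF.redI_mul ha hm, he, hme, Fin.prod_univ_castSucc]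
    · have := (IPt.codim_ker (θ (Fin.last j)).gen).2.2
      rw [hsplit, (C.P Qbar).codim_mul ha.1 hm.1, hc]
      exact congrArg (j + ·) this

theorem galI_ptIdeal (σ : Gal0) {j : ℕ} (θ : Fin j → C.IPt) :
    C.galI σ (ptIdeal θ) = ptIdeal fun i => (θ i).act σ := by
  rw [ptIdeal, ptIdeal]
  induction j with
  | zero =>
    simp only [Finset.univ_eq_empty, Finset.prod_empty, Ideal.one_eq_top]
    exact Ideal.map_top _
  | succ j ih =>
    rw [Fin.prod_univ_castSucc, Fin.prod_univ_castSucc, galI_mul, ih fun i => θ i.castSucc,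
      (θ (Fin.last j)).galI_m σ]

/-- Residues of `x` at the zeros of `y`. -/
def zerosX (v : Pl ℓ) (y : C.R v.k) : Set v.k :=
  {α | ∃ Q : Ideal (C.R v.k), Q.IsMaximal ∧ y ∈ Q ∧
    (1 : v.k) ⊗ₜ[Zl ℓ] C.x - algebraMap v.k (C.R v.k) α ∈ Q}

theorem finite_zerosX (v : Pl ℓ) {y : C.R v.k} (hy : y ≠ 0) : (zerosX v y).Finite := by
  classical
  have : Finite {I : Ideal (C.R v.k) // I ∣ Ideal.span {y}} :=
    (UniqueFactorizationMonoid.fintypeSubtypeDvd _ (by simpa using hy)).finite
  refine Set.Finite.subset (Set.finite_iUnion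
    (fun I : {I : Ideal (C.R v.k) // I ∣ Ideal.span {y}} => Set.Subsingleton.finite
      (s := {α : v.k | I.1.IsMaximal ∧
        (1 : v.k) ⊗ₜ[Zl ℓ] C.x - algebraMap v.k (C.R v.k) α ∈ I.1}) ?_)) ?_
  · exact fun a ⟨hI, ha⟩ b ⟨_, hb⟩ => eq_of_sub_algebraMap_mem hI.ne_top ha hb
  · rintro α ⟨Q, hQ, hy', hα⟩
    exact Set.mem_iUnion.mpr
      ⟨⟨Q, Ideal.dvd_iff_le.mpr ((Ideal.span_singleton_le_iff_mem Q).mpr hy')⟩, hQ, hα⟩

theorem IPt.spec_ne_zero (θ : C.IPt) (v : Pl ℓ) {y : C.R v.k}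
    (h : red v.A (θ.val C.x) ∉ zerosX v y) : y ∉ θ.mbar v := by
  intro hy
  refine h ⟨θ.mbar v, (IPt.codim_ker (θ.spec v)).2.1, hy, ?_⟩
  show θ.spec v _ = 0
  rw [map_sub, IPt.spec_tmul, one_mul, AlgHom.commutes]
  exact sub_self _

/-- Point sets such that, added to finitely many divisors, every tuple of points is in general
position on the special fibre. -/
theorem exists_pointSets (v : Pl ℓ) {A : Type*} [Finite A] (X : A → Ideal (C.R v.k))
    (hX : ∀ a, X a ≠ ⊥) :
    ∃ P : Fin (2 * C.g + 1) → (Zl ℓ)[X], (∀ i, IsUnramified (C := C) (P i)) ∧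
      ∀ (a : A) (θ : ∀ i, C.Pts (P i)), (C.P v.k).GOOD (X a * ∏ i, (θ i).1.mbar v) := by
  classical
  have := (C.P v.k).noZeroDivisors
  set r := 2 * C.g + 1
  suffices h : ∀ j ≤ r, ∃ P : Fin j → (Zl ℓ)[X], (∀ i, IsUnramified (C := C) (P i)) ∧
      ∀ (a : A) (θ : ∀ i, C.Pts (P i)), finrank v.k ((C.P v.k).LI (X a * ∏ i, (θ i).1.mbar v)
        ((C.P v.k).codim (X a) + 3 * C.g)) + j ≤ r by
    obtain ⟨P, hP, hdim⟩ := h r le_rfl
    refine ⟨P, hP, fun a θ => ?_⟩
    rintro _ ⟨y, hy, hy0, rfl⟩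
    by_contra hlt
    rw [not_le] at hlt
    have hm : ∀ i, (θ i).1.mbar v ≠ ⊥ := fun i => (IPt.codim_ker ((θ i).1.spec v)).1
    have hcod : (C.P v.k).codim (X a * ∏ i, (θ i).1.mbar v) = (C.P v.k).codim (X a) + r := by
      obtain ⟨ha, he, hc⟩ := aff_ptIdeal v (fun i => (θ i).1)
      rw [← he, (C.P v.k).codim_mul (hX a) (redI_ne_bot v ha.1), ha.2, hc]
    rw [hcod, C.P_g] at hlt
    have hmem : y ∈ (C.P v.k).LI (X a * ∏ i, (θ i).1.mbar v) ((C.P v.k).codim (X a) + 3 * C.g) :=
      ⟨hy, (C.P v.k).deg_le_iff.mp (by omega)⟩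
    have h0 := hdim a θ
    have h1 : finrank v.k ((C.P v.k).LI (X a * ∏ i, (θ i).1.mbar v)
        ((C.P v.k).codim (X a) + 3 * C.g)) = 0 := by omega
    rw [Submodule.finrank_eq_zero] at h1
    rw [h1, Submodule.mem_bot] at hmem
    exact hy0 hmem
  intro j
  induction j with
  | zero =>
    intro _
    refine ⟨fun i => i.elim0, fun i => i.elim0, fun a θ => ?_⟩
    rw [Finset.univ_eq_empty, Finset.prod_empty, mul_one, add_zero]
    have := (C.P v.k).finrank_LI (hX a) (n := (C.P v.k).codim (X a) + 3 * C.g) (by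
      rw [C.P_g]; omega)
    rw [C.P_g] at this
    omega
  | succ j ih =>
    intro hj
    obtain ⟨P, hP, hdim⟩ := ih (by omega)
    have : ∀ i, Finite (C.Pts (P i)) := fun i => Pts.finite (hP i).1.monic
    -- an element of each nonzero space
    have hy : ∀ (p : A × ∀ i, C.Pts (P i)), ∃ y : C.R v.k, y ≠ 0 ∧
        ((C.P v.k).LI (X p.1 * ∏ i, (p.2 i).1.mbar v) ((C.P v.k).codim (X p.1) + 3 * C.g) ≠ ⊥ →
          y ∈ (C.P v.k).LI (X p.1 * ∏ i, (p.2 i).1.mbar v)
            ((C.P v.k).codim (X p.1) + 3 * C.g)) := by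
      intro p
      by_cases hbot : (C.P v.k).LI (X p.1 * ∏ i, (p.2 i).1.mbar v)
          ((C.P v.k).codim (X p.1) + 3 * C.g) = ⊥
      · have := (C.P v.k).nontrivial
        exact ⟨1, one_ne_zero, fun h => absurd hbot h⟩
      · obtain ⟨y, hy, hy0⟩ := Submodule.exists_mem_ne_zero_of_ne_bot hbot
        exact ⟨y, hy0, fun _ => hy⟩
    choose y hy0 hy using hy
    have : Finite (A × ∀ i, C.Pts (P i)) := inferInstance
    have hbad : (C.Ram v ∪ ⋃ p, zerosX v (y p)).Finite :=
      (C.finite_Ram v).union (Set.finite_iUnion fun p => finite_zerosX v (hy0 p))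
    obtain ⟨Q, hQ, hQbad⟩ := exists_goodPoly v _ hbad
    refine ⟨Fin.snoc P Q, fun i => ?_, fun a θ => ?_⟩
    · induction i using Fin.lastCases with
      | last => rw [Fin.snoc_last]; exact isUnramified_of hQ fun α hα => hQbad α (Or.inl hα)
      | cast i => rw [Fin.snoc_castSucc]; exact hP i
    rw [Fin.prod_univ_castSucc, ← mul_assoc]
    let θ' : ∀ i, C.Pts (P i) := fun i =>
      ⟨(θ i.castSucc).1,
        (congrArg (aeval ((θ i.castSucc).1.val C.x))
          (show (Fin.snoc P Q : Fin (j + 1) → (Zl ℓ)[X]) i.castSucc = P i by simp)).symm.trans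
            (θ i.castSucc).2⟩
    set η := θ (Fin.last j)
    have hη : aeval (η.1.val C.x) Q = 0 := by
      exact (congrArg (aeval (η.1.val C.x))
        (show (Fin.snoc P Q : Fin (j + 1) → (Zl ℓ)[X]) (Fin.last j) = Q by simp)).symm.trans η.2
    set L := (C.P v.k).LI (X a * ∏ i, (θ' i).1.mbar v) ((C.P v.k).codim (X a) + 3 * C.g)
    have hle : (C.P v.k).LI ((X a * ∏ i : Fin j, (θ i.castSucc).1.mbar v) * η.1.mbar v)
        ((C.P v.k).codim (X a) + 3 * C.g) ≤ L :=
      fun z hz => ⟨Ideal.mul_le_left hz.1, hz.2⟩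
    have hold : finrank v.k L + j ≤ r := hdim a θ'
    by_cases hbot : L = ⊥
    · have h0 :
          finrank v.k ((C.P v.k).LI ((X a * ∏ i : Fin j, (θ i.castSucc).1.mbar v) * η.1.mbar v)
            ((C.P v.k).codim (X a) + 3 * C.g)) = 0 := by
        rw [Submodule.finrank_eq_zero, ← le_bot_iff, ← hbot]; exact hle
      omega
    have hlt : (C.P v.k).LI ((X a * ∏ i : Fin j, (θ i.castSucc).1.mbar v) * η.1.mbar v)
        ((C.P v.k).codim (X a) + 3 * C.g) < L := by
      refine lt_of_le_of_ne hle fun e => ?_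
      have hmem :
          y (a, θ') ∈ (C.P v.k).LI ((X a * ∏ i : Fin j, (θ i.castSucc).1.mbar v) * η.1.mbar v)
            ((C.P v.k).codim (X a) + 3 * C.g) := e ▸ hy (a, θ') hbot
      refine η.1.spec_ne_zero v (fun hz => ?_) (Ideal.mul_le_right hmem.1)
      refine hQbad _ (Or.inr (Set.mem_iUnion.mpr ⟨(a, θ'), hz⟩)) ?_
      rw [aeval_red v (η.1.mem v C.x), hη, red_zero]
    have := Submodule.finrank_lt_finrank_of_lt hlt
    omega

/-- The vector `(z ^ s)` attached to a number. -/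
def powVec (n : ℕ) {K : Type*} [CommMonoid K] (z : K) : C.Idx n → K := fun s => z ^ ((s.1 : ℕ))

theorem finite_powVec_mem {K : Type*} [Field K] (n : ℕ) {H : Submodule K (C.Idx n → K)}
    (hH : H ≠ ⊤) : {z : K | powVec (C := C) n z ∈ H}.Finite := by
  classical
  obtain ⟨f, hf0, hfH⟩ := Submodule.exists_le_ker_of_lt_top H hH.lt_top
  set p : K[X] := ∑ s : C.Idx n, monomial (s.1 : ℕ) (f (Pi.single s 1))
  have hp : p ≠ 0 := by
    intro hp
    refine hf0 (LinearMap.pi_ext' fun s => LinearMap.ext_ring ?_)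
    have := congrArg (fun q => coeff q (s.1 : ℕ)) hp
    simp only [p, finsetSum_coeff, coeff_monomial, coeff_zero] at this
    rw [Finset.sum_eq_single s (fun t _ hts => if_neg fun e => hts (Subtype.ext (Subtype.ext e)))
      (fun h => absurd (Finset.mem_univ s) h), if_pos rfl] at this
    simpa using this
  refine p.roots.toFinset.finite_toSet.subset fun z hz => ?_
  rw [Finset.mem_coe, Multiset.mem_toFinset, mem_roots hp, IsRoot, eval_finsetSum]
  have hz' : f (powVec (C := C) n z) = 0 := hfH hz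
  rw [← hz']
  conv_rhs => rw [pi_eq_sum_univ' (powVec (C := C) n z), map_sum]
  refine Finset.sum_congr rfl fun s _ => ?_
  rw [eval_monomial, map_smul, smul_eq_mul, mul_comm]
  rfl

/-- Moment vectors completing finitely many subspaces. -/
theorem exists_momentSets (v : Pl ℓ) (n : ℕ) {A : Type*} [Finite A]
    (H : A → Submodule v.k (C.Idx n → v.k)) {k : ℕ}
    (hH : ∀ a, Fintype.card (C.Idx n) ≤ finrank v.k (H a) + k) :
    ∃ Q : Fin k → (Zl ℓ)[X], (∀ i, IsGoodPoly ℓ (Q i)) ∧
      ∀ (a : A) (z : Fin k → Qbar), (∀ i, aeval (z i) (Q i) = 0) →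
        H a ⊔ Submodule.span v.k (Set.range fun i => powVec n (red v.A (z i))) = ⊤ := by
  classical
  induction k generalizing A with
  | zero =>
    refine ⟨fun i => i.elim0, fun i => i.elim0, fun a z _ => ?_⟩
    rw [Submodule.eq_top_of_finrank_eq (K := v.k) (S := H a)
      (le_antisymm (Submodule.finrank_le _) (by
        rw [Module.finrank_fintype_fun_eq_card]; exact hH a)), top_sup_eq]
  | succ k ih =>
    have hbad : (⋃ a : {a : A // H a ≠ ⊤}, {z | powVec (C := C) n z ∈ H a.1}).Finite :=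
      Set.finite_iUnion fun a => finite_powVec_mem n a.2
    obtain ⟨Q₀, hQ₀, hQ₀bad⟩ := exists_goodPoly v _ hbad
    have : Finite {c : Qbar // aeval c Q₀ = 0} := hQ₀.finite_roots.to_subtype
    have hdim : ∀ p : A × {c : Qbar // aeval c Q₀ = 0}, Fintype.card (C.Idx n) ≤
        finrank v.k
          (H p.1 ⊔ Submodule.span v.k {powVec n (red v.A p.2.1)} : Submodule v.k _) + k := by
      rintro ⟨a, c, hc⟩
      by_cases htop : H a = ⊤
      · rw [htop, top_sup_eq, finrank_top, Module.finrank_fintype_fun_eq_card]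
        omega
      have hlt : H a < H a ⊔ Submodule.span v.k {powVec n (red v.A c)} := by
        refine lt_of_le_of_ne le_sup_left fun e => ?_
        refine hQ₀bad (red v.A c) (Set.mem_iUnion.mpr ⟨⟨a, htop⟩, ?_⟩) ?_
        · show powVec n (red v.A c) ∈ H a
          rw [e]
          exact Submodule.mem_sup_right (Submodule.mem_span_singleton_self _)
        · rw [aeval_red v (mem_of_isIntegral v.over (hQ₀.isIntegral hc)), hc, red_zero]
      have := Submodule.finrank_lt_finrank_of_lt hlt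
      have := hH a
      show _ ≤ finrank v.k (H a ⊔ Submodule.span v.k {powVec n (red v.A c)} : Submodule v.k _) + k
      omega
    obtain ⟨Q, hQ, hspan⟩ := ih (fun p : A × {c : Qbar // aeval c Q₀ = 0} =>
      H p.1 ⊔ Submodule.span v.k {powVec n (red v.A p.2.1)}) hdim
    refine ⟨Fin.cons Q₀ Q, fun i => ?_, fun a z hz => ?_⟩
    · cases i using Fin.cases with
      | zero => simpa using hQ₀
      | succ i => simpa using hQ i
    have h0 : aeval (z 0) Q₀ = 0 := by simpa using hz 0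
    have h1 := hspan (a, ⟨z 0, h0⟩) (fun i => z i.succ) fun i => by simpa using hz i.succ
    rw [← h1, sup_assoc, ← Submodule.span_union]
    congr 2
    rw [Set.singleton_union]
    exact (Fin.range_cons _ _).symm.trans (congrArg Set.range (funext fun i => by
      cases i using Fin.cases <;> rfl)) |>.symm

end GoodModel

end Fermat.Agent.Flat
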