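import Fermat.Agent.Flat.Classes
import Fermat.Agent.Flat.PointProd

/-!
# The representative of codimension `g` of a class shifted by a tuple of points

A class shifted by a tuple of points which is good on the special fibre has a unique integral
representative of codimension `g`, compatibly with Galois. Its coordinates are the charts.
-/

noncomputable section

namespace Fermat.Agent.Flat

open scoped TensorProduct
open Module

local notation "Qbar" => AlgebraicClosure ℚ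
local notation "Gal0" => (AlgebraicClosure ℚ ≃ₐ[ℚ] AlgebraicClosure ℚ)

namespace GoodModel

variable {ℓ : ℕ} [Fact ℓ.Prime] {C : GoodModel ℓ}

theorem IPt.act_act (θ : C.IPt) (σ τ : Gal0) : (θ.act τ).act σ = θ.act (σ * τ) :=
  IPt.ext_val (AlgHom.ext fun _ => rfl)

theorem IPt.act_one (θ : C.IPt) : θ.act 1 = θ :=
  IPt.ext_val (AlgHom.ext fun _ => rfl)

namespace ClassData

variable (D : C.ClassData) {r : ℕ}

/-- The shifted inverse class is good on the special fibre. -/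
def HasGood (v : Pl ℓ) (a : D.M) (θ : Fin r → C.IPt) : Prop :=
  ∃ A : Ideal (C.R Qbar), AFF v A ∧ C.Rel (D.J a * A) ⊤ ∧
    (C.P v.k).GOOD (redI v (A * ptIdeal θ))

/-- The representative. -/
def IsRep (a : D.M) (θ : Fin r → C.IPt) (I : Ideal (C.R Qbar)) : Prop :=
  I ≠ ⊥ ∧ (C.P Qbar).codim I = C.g ∧ C.Rel (I * ptIdeal θ) (D.J a)

variable {D}

theorem HasGood.smul (hr : C.g ≤ r) {v : Pl ℓ} {a : D.M} {θ : Fin r → C.IPt}
    (h : D.HasGood v a θ) (σ : Gal0) :
    D.HasGood (Pl.smul σ v) (D.act σ a) (fun i => (θ i).act σ) := by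
  obtain ⟨A, hA, hrel, hgood⟩ := h
  refine ⟨C.galI σ A, hA.galI σ, ?_, ?_⟩
  · have h1 := ((D.J_act σ a).mul_right (C.galI σ A))
    refine h1.trans ?_
    have h2 := hrel.galI σ
    rwa [galI_mul, galI_top] at h2
  · rw [← galI_ptIdeal, ← galI_mul, redI_galI]
    obtain ⟨hE, -, hEc⟩ := aff_ptIdeal v θ
    have hAE := (aff_mul_iff hA.1 hE.1).mpr ⟨hA, hE⟩
    refine good_map_chgE _ (redI_ne_bot v hAE.1) ?_ hgood
    rw [hAE.2, (C.P Qbar).codim_mul hA.1 hE.1, hEc]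
    omega

theorem IsRep.galI {a : D.M} {θ : Fin r → C.IPt} {I : Ideal (C.R Qbar)} (h : D.IsRep a θ I)
    (σ : Gal0) : D.IsRep (D.act σ a) (fun i => (θ i).act σ) (C.galI σ I) := by
  obtain ⟨h0, hc, hrel⟩ := h
  refine ⟨GoodModel.galI_ne_bot h0, (GoodModel.codim_galI σ h0).trans hc, ?_⟩
  have h1 := Rel.galI hrel σ
  rw [galI_mul, galI_ptIdeal] at h1
  exact h1.trans (D.J_act σ a).symm

/-- Existence of the representative, affine and with good inverse. -/
theorem HasGood.exists_rep {v : Pl ℓ} {a : D.M} {θ : Fin r → C.IPt} (h : D.HasGood v a θ) :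
    ∃ I, D.IsRep a θ I ∧ AFF v I ∧ GoodInv v I ∧ ∀ I', D.IsRep a θ I' → I' = I := by
  obtain ⟨A, hA, hrel, hgood⟩ := h
  have := (C.P Qbar).noZeroDivisors
  have := (C.P Qbar).nontrivial
  have := (C.P v.k).noZeroDivisors
  obtain ⟨hE, -, hEc⟩ := aff_ptIdeal v θ
  set E := ptIdeal θ
  set Y := A * E
  have hY : AFF v Y := (aff_mul_iff hA.1 hE.1).mpr ⟨hA, hE⟩
  have hgQ : (C.P Qbar).GOOD Y := AFF.good_of_red hY hgood
  have hg : (C.P Qbar).g = C.g := rfl
  have hg' := C.P_g v.k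
  set c := (C.P Qbar).codim Y
  have hdim := hgQ.finrank_LI _ hY.1
  obtain ⟨f, hf, hf0⟩ := Submodule.exists_mem_ne_zero_of_ne_bot
    (p := (C.P Qbar).LI Y (c + (C.P Qbar).g)) (fun h0 => by
      rw [h0, finrank_bot] at hdim; exact zero_ne_one hdim)
  have honly : ∀ x ∈ (C.P Qbar).LI Y (c + (C.P Qbar).g), ∃ t : Qbar, x = t • f := by
    intro x hx
    obtain ⟨t, ht⟩ := (finrank_eq_one_iff_of_nonzero' (⟨f, hf⟩ : (C.P Qbar).LI Y (c + (C.P Qbar).g))
      (fun h0 => hf0 (congrArg Subtype.val h0))).mp hdim ⟨x, hx⟩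
    exact ⟨t, (congrArg Subtype.val ht).symm⟩
  have hfd : (C.P Qbar).deg f = c + C.g :=
    hgQ.deg_eq _ hf.1 hf0 ((C.P Qbar).deg_le_iff.mpr hf.2)
  obtain ⟨I, hI⟩ := exists_complement hf.1
  have hsf : (Ideal.span {f} : Ideal (C.R Qbar)) ≠ ⊥ := by simpa using hf0
  have hI0 : I ≠ ⊥ := fun h0 => hsf (by rw [hI, h0, Ideal.mul_bot])
  have hIc : (C.P Qbar).codim I = C.g := by
    have h1 := (C.P Qbar).codim_mul hY.1 hI0
    rw [← hI, (C.P Qbar).codim_span_singleton hf0, hfd] at h1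
    omega
  have hIrel : C.Rel (I * E) (D.J a) := by
    refine Rel.of_mul_right ?_ hA.1
    refine Rel.trans ?_ hrel.symm
    rw [mul_assoc, mul_comm E A, mul_comm I Y, ← hI]
    exact ⟨1, f, one_ne_zero, hf0, by rw [Ideal.span_singleton_one, Ideal.top_mul, Ideal.mul_top]⟩
  refine ⟨I, ⟨hI0, hIc, hIrel⟩, ?_⟩
  obtain ⟨b, hb, hbi, hbr⟩ := exists_scale v hf0
  have hspan : Ideal.span {f} = Ideal.span {b⁻¹ • f} :=
    (span_singleton_smul (inv_ne_zero hb) f).symm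
  have hfb : b⁻¹ • f ∈ Y := Submodule.smul_of_tower_mem Y b⁻¹ hf.1
  have hdb : (C.P Qbar).deg (b⁻¹ • f) = c + C.g := by
    rw [Algebra.smul_def, (C.P Qbar).deg_algebraMap_mul _ _ (inv_ne_zero hb), hfd]
  have hrd : (C.P v.k).deg (redR v (b⁻¹ • f)) = c + C.g := by
    have h1 := hgood.deg_eq _ (mem_redI hfb hbi) hbr (by
      rw [hY.2, hg']
      refine (C.P v.k).deg_le_iff.mpr (redR_mem_L ?_)
      exact (C.P Qbar).deg_le_iff.mp hdb.le)
    rwa [hY.2, hg'] at h1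
  have haff := aff_span_singleton hbi hbr (hrd.trans hdb.symm)
  rw [← hspan, hI] at haff
  have hIaff := ((aff_mul_iff hY.1 hI0).mp haff).2
  refine ⟨hIaff, GoodInv.of_one hI0 (redI_ne_bot v hY.1) hbr ?_ hgood, fun I' hI' => ?_⟩
  · rw [mul_comm, ← AFF.redI_mul hY hIaff, ← hI, hspan, redI_span_singleton hbi hbr]
  obtain ⟨hI'0, hI'c, hI'rel⟩ := hI'
  have h1 : C.Rel (I' * Y) ⊤ := by
    refine Rel.trans ?_ hrel
    rw [show I' * Y = I' * E * A by rw [mul_assoc, mul_comm E A]]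
    exact hI'rel.mul_right A
  obtain ⟨α, β, hα, hβ, e⟩ := h1
  rw [Ideal.mul_top] at e
  obtain ⟨h', hh0, e1⟩ := exists_eq_span_singleton_of_mul hα hβ e
  have hd' : (C.P Qbar).deg h' = C.g + c := by
    rw [← (C.P Qbar).codim_span_singleton hh0, ← e1, (C.P Qbar).codim_mul hI'0 hY.1, hI'c]
  have hmY : h' ∈ Y := by
    have hle : I' * Y ≤ Y := Ideal.mul_le_right
    exact hle (e1 ▸ Ideal.mem_span_singleton_self h')
  have hmL : h' ∈ (C.P Qbar).L (c + (C.P Qbar).g) :=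
    (C.P Qbar).deg_le_iff.mp (by rw [hd', hg]; omega)
  obtain ⟨t, ht⟩ := honly h' ((C.P Qbar).mem_LI.mpr ⟨hmY, hmL⟩)
  have ht0 : t ≠ 0 := fun h0 => hh0 (by rw [ht, h0, zero_smul])
  have e2 : Ideal.span {h'} = Ideal.span {f} := by rw [ht, span_singleton_smul ht0]
  refine mul_right_cancel₀ hY.1 ?_
  rw [e1, e2, hI, mul_comm]

end ClassData

end GoodModel

end Fermat.Agent.Flat
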