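import Fermat.Agent.Flat.Etale
import Fermat.Agent.Flat.RegSub
import Fermat.Agent.Flat.Rep

/-!
# Coordinates of a class on an auxiliary étale set

For `θ` a tuple of auxiliary points and moments, the class `a` has a representative `I (a, θ)` of
codimension `g`; its coordinates are the projection onto the moment subspace along `I (a, θ)`.

These are the integral, equivariant, separating coordinates used in `Fermat.Agent.Flat.Assembly`.
-/

noncomputable section

namespace Fermat.Agent.Flat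

open scoped TensorProduct
open Module Polynomial

local notation "Qbar" => AlgebraicClosure ℚ
local notation "Gal0" => (AlgebraicClosure ℚ ≃ₐ[ℚ] AlgebraicClosure ℚ)

/-- `M` is the projection onto `W` along `U`. -/
def IsProj {ι : Type*} [Fintype ι] (M : Matrix ι ι Qbar) (U W : Submodule Qbar (ι → Qbar)) : Prop :=
  ∀ x, M.mulVec x ∈ W ∧ x - M.mulVec x ∈ U

theorem IsProj.eq {ι : Type*} [Fintype ι] {M M' : Matrix ι ι Qbar}
    {U W : Submodule Qbar (ι → Qbar)} (h : IsProj M U W) (h' : IsProj M' U W) (hd : Disjoint U W) :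
    M = M' := by
  classical
  refine Matrix.ext_of_mulVec_single fun i => ?_
  set x : ι → Qbar := Pi.single i 1
  refine sub_eq_zero.mp (Submodule.disjoint_def.mp hd _ ?_ (W.sub_mem (h x).1 (h' x).1))
  have := U.sub_mem (h' x).2 (h x).2
  rwa [sub_sub_sub_cancel_left] at this

theorem IsProj.ker_eq {ι : Type*} [Fintype ι] {M : Matrix ι ι Qbar}
    {U W : Submodule Qbar (ι → Qbar)} (h : IsProj M U W) (hd : Disjoint U W) :
    LinearMap.ker M.mulVecLin = U := by
  ext x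
  rw [LinearMap.mem_ker, Matrix.mulVecLin_apply]
  refine ⟨fun h0 => ?_, fun hx => ?_⟩
  · have := (h x).2
    rwa [h0, sub_zero] at this
  · refine Submodule.disjoint_def.mp hd _ ?_ (h x).1
    have := U.sub_mem hx (h x).2
    rwa [sub_sub_cancel] at this

variable {ℓ : ℕ} [Fact ℓ.Prime]

/-- At one place: the projection exists and is integral. -/
theorem exists_isProj (v : Pl ℓ) {ι : Type} [Fintype ι] [DecidableEq ι]
    {U W : Submodule Qbar (ι → Qbar)}
    (hcard : finrank Qbar U + finrank Qbar W = Fintype.card ι)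
    (hdisj : Disjoint (redSub v.A U) (redSub v.A W)) :
    ∃ M : Matrix ι ι Qbar, IsProj M U W ∧ Disjoint U W ∧ ∀ i j, M i j ∈ v.A := by
  let K : Subalgebra (Zl ℓ) (Unit → Qbar) :=
    { carrier := {f | f () ∈ v.A}
      mul_mem' := fun hf hg => v.A.mul_mem _ _ hf hg
      add_mem' := fun hf hg => v.A.add_mem _ _ hf hg
      algebraMap_mem' := fun z => v.algebraMap_mem z }
  have hK : ∀ f ∈ K, f () ∈ v.A := fun f hf => hf
  have hreg : ∀ V : Submodule Qbar (ι → Qbar),
      IsReg K v.A () (fun _ => V) (finrank Qbar V) := fun V => by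
    obtain ⟨p, u, hV, hu, hp⟩ := exists_pivot (A := v.A) V
    exact ⟨p, fun j i _ => u j i, 1, fun j i => Loc.of_mem (hu j i), one_mem _, by simp [IsVUnit],
      fun j l _ => hp j l, fun _ _ => hV⟩
  obtain ⟨P, d, hP, -, hd1, hsplit⟩ :=
    IsReg.exists_projection hK (hreg U) (hreg W) hcard hdisj
  exact ⟨Matrix.of fun i j => P i j (), (hsplit () hd1.ne_zero).2, (hsplit () hd1.ne_zero).1.1,
    fun i j => Loc.apply_mem hK (hP i j)⟩

namespace GoodModel

variable {C : GoodModel ℓ}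

/-- The degree of the charts. -/
def chartDeg (C : GoodModel ℓ) : ℕ := 4 * C.g

theorem powVec_red {v : Pl ℓ} {n : ℕ} {z : Qbar} (hz : z ∈ v.A) :
    (fun s => red v.A (powVec (C := C) n z s)) = powVec n (red v.A z) := by
  funext s
  show red v.A (z ^ ((s.1 : ℕ))) = red v.A z ^ ((s.1 : ℕ))
  rw [red_of_mem hz, red_of_mem (pow_mem hz _), ← map_pow]
  rfl

/-- Auxiliary polynomials in general position for a finite module of classes. -/
structure Aux (D : C.ClassData) where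
  /-- for the points -/
  P : Fin (2 * C.g + 1) → (Zl ℓ)[X]
  /-- for the moments -/
  Q : Fin C.g → (Zl ℓ)[X]
  unram : ∀ i, IsUnramified (C := C) (P i)
  goodQ : ∀ i, IsGoodPoly ℓ (Q i)
  good : ∀ (v : Pl ℓ) (a : D.M) (θ : ∀ i, C.Pts (P i)), D.HasGood v a fun i => (θ i).1
  moments : ∀ (v : Pl ℓ) (a : D.M) (θ : ∀ i, C.Pts (P i)) (z : Fin C.g → AlgebraicClosure ℚ),
    (∀ i, aeval (z i) (Q i) = 0) → ∀ I, D.IsRep a (fun i => (θ i).1) I →
      C.vLI v.k (redI v I) C.chartDeg ⊔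
        Submodule.span v.k (Set.range fun i => powVec C.chartDeg (red v.A (z i))) = ⊤

theorem card_chart (C : GoodModel ℓ) : Fintype.card (C.Idx C.chartDeg) = 3 * C.g + 1 := by
  have := C.card_idx (n := C.chartDeg) (by unfold chartDeg; omega)
  unfold chartDeg at this ⊢
  omega

theorem finrank_chart_ideal {v : Pl ℓ} {I : Ideal (C.R Qbar)} (hI : AFF v I)
    (hc : (C.P Qbar).codim I = C.g) :
    finrank v.k (C.vLI v.k (redI v I) C.chartDeg) = 2 * C.g + 1 ∧
      finrank Qbar (C.vLI Qbar I C.chartDeg) = 2 * C.g + 1 := by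
  have hg : (C.P Qbar).g = C.g := rfl
  have hg' := C.P_g v.k
  have h1 := (C.P Qbar).finrank_LI hI.1 (n := C.chartDeg) (by unfold chartDeg; omega)
  have h2 := (C.P v.k).finrank_LI (redI_ne_bot v hI.1) (n := C.chartDeg)
    (by rw [hI.2, hc, hg']; unfold chartDeg; omega)
  rw [hI.2] at h2
  rw [C.finrank_vLI₀, C.finrank_vLI v.k _ (by unfold chartDeg; omega)]
  unfold chartDeg at h1 h2 ⊢
  omega

/-- Auxiliary polynomials in general position exist. -/
theorem ClassData.exists_aux (D : C.ClassData) : Nonempty (Aux D) := by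
  classical
  obtain ⟨v₀⟩ := EtaleSet.exists_place (ℓ := ℓ)
  choose A hA hArel using fun a => C.exists_aff_inverse v₀ (D.ne_bot a)
  obtain ⟨P, hP, hgood⟩ := exists_pointSets v₀ (fun a => redI v₀ (A a))
    fun a => redI_ne_bot v₀ (hA a).1
  have : ∀ i, Finite (C.Pts (P i)) := fun i => Pts.finite (hP i).1.monic
  have hgood₀ : ∀ (a : D.M) (θ : ∀ i, C.Pts (P i)), D.HasGood v₀ a fun i => (θ i).1 := by
    intro a θ
    obtain ⟨hE, hEred, -⟩ := aff_ptIdeal v₀ fun i => (θ i).1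
    refine ⟨A a, hA a, hArel a, ?_⟩
    rw [AFF.redI_mul (hA a) hE, hEred]
    exact hgood a θ
  choose I₀ hI₀ hI₀aff hI₀inv hI₀uniq using fun p : D.M × ∀ i, C.Pts (P i) =>
    (hgood₀ p.1 p.2).exists_rep
  have hcard := C.card_chart
  obtain ⟨Q, hQ, hspan⟩ := exists_momentSets v₀ C.chartDeg
    (fun p : D.M × ∀ i, C.Pts (P i) => C.vLI v₀.k (redI v₀ (I₀ p)) C.chartDeg) (k := C.g)
    fun p => by
      rw [(finrank_chart_ideal (hI₀aff p) (hI₀ p).2.1).1, hcard]
      omega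
  -- transport to the other places
  have hback : ∀ (σ : Gal0) (a : D.M) (θ : ∀ i, C.Pts (P i)),
      D.act σ (D.act σ⁻¹ a) = a ∧
        (fun i => ((Pts.act σ⁻¹ (θ i)).1).act σ) = fun i => (θ i).1 := fun σ a θ =>
    ⟨by rw [← D.act_mul, mul_inv_cancel, D.act_one], funext fun i => by
      show ((θ i).1.act σ⁻¹).act σ = _
      rw [IPt.act_act, mul_inv_cancel, IPt.act_one]⟩
  have hgood' : ∀ (v : Pl ℓ) (a : D.M) (θ : ∀ i, C.Pts (P i)),
      D.HasGood v a fun i => (θ i).1 := by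
    intro v a θ
    obtain ⟨σ, rfl⟩ := Pl.exists_smul_eq v₀ v
    have h := (hgood₀ (D.act σ⁻¹ a) fun i => Pts.act σ⁻¹ (θ i)).smul (by omega) σ
    rwa [(hback σ a θ).1, (hback σ a θ).2] at h
  refine ⟨⟨P, Q, hP, hQ, hgood', ?_⟩⟩
  intro v a θ z hz I hI
  obtain ⟨σ, rfl⟩ := Pl.exists_smul_eq v₀ v
  set θ' : ∀ i, C.Pts (P i) := fun i => Pts.act σ⁻¹ (θ i)
  set z' : Fin C.g → Qbar := fun i => σ⁻¹ (z i)
  have h0 := hspan (D.act σ⁻¹ a, θ') z' fun i => aeval_apply_eq_zero σ⁻¹ (hz i)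
  have hrep := (hI₀ (D.act σ⁻¹ a, θ')).galI σ
  rw [(hback σ a θ).1, (hback σ a θ).2] at hrep
  obtain ⟨J, -, -, -, huniq⟩ := (hgood' (Pl.smul σ v₀) a θ).exists_rep
  rw [huniq I hI, ← huniq _ hrep, eq_top_iff]
  intro w _
  set τ := Pl.galK σ v₀
  have hΦ : ∀ y ∈ Submodule.span v₀.k
      (Set.range fun i => powVec (C := C) C.chartDeg (red v₀.A (z' i))),
      (∀ i, (fun s => τ (powVec (C := C) C.chartDeg (red v₀.A (z' i)) s)) =
        powVec C.chartDeg (red (Pl.smul σ v₀).A (z i))) →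
      (fun s => τ (y s)) ∈ Submodule.span (Pl.smul σ v₀).k
        (Set.range fun i => powVec C.chartDeg (red (Pl.smul σ v₀).A (z i))) := by
    intro y hy hp
    induction hy using Submodule.span_induction with
    | mem y hy =>
      obtain ⟨i, rfl⟩ := hy
      exact Submodule.subset_span ⟨i, (hp i).symm⟩
    | zero =>
      simp only [Pi.zero_apply, map_zero]
      exact Submodule.zero_mem _
    | add y y' _ _ hy hy' =>
      simp only [Pi.add_apply, map_add]
      exact Submodule.add_mem _ hy hy'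
    | smul c y _ hy =>
      simp only [Pi.smul_apply, smul_eq_mul, map_mul]
      exact Submodule.smul_mem _ (τ c) hy
  obtain ⟨u, rfl⟩ : ∃ u : C.Idx C.chartDeg → v₀.k, (fun s => τ (u s)) = w :=
    ⟨fun s => τ.symm (w s), funext fun s => τ.apply_symm_apply _⟩
  obtain ⟨h, hh, y, hy, rfl⟩ := Submodule.mem_sup.mp (h0 ▸ Submodule.mem_top : u ∈ _)
  have e : (fun s => τ ((h + y) s)) = (fun s => τ (h s)) + fun s => τ (y s) :=
    funext fun s => map_add τ _ _
  rw [e]
  refine Submodule.add_mem_sup (C.mem_vLI_of _ ?_) ?_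
  · obtain ⟨x, ⟨hx, hxL⟩, rfl⟩ := hh
    rw [redI_galI]
    have he : C.unvec (Pl.smul σ v₀).k C.chartDeg
        (fun s => τ (C.vec v₀.k C.chartDeg x s)) = C.chgE τ x := by
      have hx' : x ∈ C.Lb v₀.k C.chartDeg :=
        C.L_eq v₀.k (show 2 * C.g ≤ C.chartDeg + 1 by unfold chartDeg; omega) ▸ hxL
      have hmem : C.chgE τ x ∈ C.Lb (Pl.smul σ v₀).k C.chartDeg := (chgE_mem_Lb τ).mpr hx'
      conv_rhs => rw [← C.unvec_vec_Lb (Pl.smul σ v₀).k hmem]
      congr 1
      funext s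
      rw [vec_apply, vec_apply, repr_chgE]
    rw [he]
    exact Ideal.mem_map_of_mem _ hx
  · have hp : ∀ i, (fun s => τ (powVec (C := C) C.chartDeg (red v₀.A (z' i)) s)) =
        powVec C.chartDeg (red (Pl.smul σ v₀).A (z i)) := by
      intro i
      funext s
      show τ (red v₀.A (z' i) ^ ((s.1 : ℕ))) = _
      rw [map_pow, Pl.galK_red, show σ (z' i) = z i from σ.apply_symm_apply (z i)]
      rfl
    exact hΦ y hy hp

namespace Aux

variable {D : C.ClassData} (X : Aux D)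

/-- The auxiliary set. -/
abbrev Θ : Type := (∀ i, C.Pts (X.P i)) × (∀ i, {c : AlgebraicClosure ℚ // aeval c (X.Q i) = 0})

/-- The Galois action on it. -/
def actΘ (σ : Gal0) (θ : X.Θ) : X.Θ :=
  (fun i => Pts.act σ (θ.1 i), fun i => ⟨σ (θ.2 i).1, aeval_apply_eq_zero σ (θ.2 i).2⟩)

/-- The point tuple. -/
def pts (θ : X.Θ) : Fin (2 * C.g + 1) → C.IPt := fun i => (θ.1 i).1

/-- The coordinates of `θ`. -/
def gens : Set (X.Θ → AlgebraicClosure ℚ) :=
  (Set.range fun p : Fin (2 * C.g + 1) × C.Alg => fun θ : X.Θ => (θ.1 p.1).1.val p.2) ∪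
    Set.range fun i : Fin C.g => fun θ : X.Θ => (θ.2 i).1

instance finite_Θ : Finite X.Θ :=
  haveI : ∀ i, Finite (C.Pts (X.P i)) := fun i => Pts.finite (X.unram i).1.monic
  haveI : ∀ i, Finite {c : AlgebraicClosure ℚ // aeval c (X.Q i) = 0} := fun i =>
    (X.goodQ i).finite_roots.to_subtype
  inferInstanceAs (Finite ((∀ i, C.Pts (X.P i)) × (∀ i, {c // aeval c (X.Q i) = 0})))

instance nonempty_Θ : Nonempty X.Θ :=
  ⟨(fun i => (Pts.nonempty (C := C) (X.unram i).1).some,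
    fun i => ⟨_, (X.goodQ i).exists_root.choose_spec⟩)⟩

/-- The étale set. -/
@[reducible] def etale : EtaleSet ℓ where
  Θ := X.Θ
  act := X.actΘ
  B := Algebra.adjoin (Zl ℓ) X.gens
  equiv f hf := by
    induction hf using Algebra.adjoin_induction with
    | mem f hf =>
      rcases hf with ⟨⟨i, a⟩, rfl⟩ | ⟨i, rfl⟩
      · exact fun σ θ => rfl
      · exact fun σ θ => rfl
    | algebraMap z => exact isEquiv_algebraMap _ z
    | add f g _ _ hf hg => exact hf.add hg
    | mul f g _ _ hf hg => exact hf.mul hg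
  integral f hf := by
    induction hf using Algebra.adjoin_induction with
    | mem f hf =>
      rcases hf with ⟨⟨i, a⟩, rfl⟩ | ⟨i, rfl⟩
      · exact fun θ => C.isIntegral_apply _ (θ.1 i).1.integral a
      · exact fun θ => (X.goodQ i).isIntegral (θ.2 i).2
    | algebraMap z => exact fun _ => isIntegral_algebraMap
    | add f g _ _ hf hg => exact fun θ => (hf θ).add (hg θ)
    | mul f g _ _ hf hg => exact fun θ => (hf θ).mul (hg θ)
  separates v θ θ' h := by
    refine Prod.ext (funext fun i => Pts.eq_of_red (X.unram i) v fun a => ?_)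
      (funext fun i => Subtype.ext ((X.goodQ i).eq_of_red_eq v (θ.2 i).2 (θ'.2 i).2 ?_))
    · exact h _ (Algebra.subset_adjoin (Or.inl ⟨(i, a), rfl⟩))
    · exact h _ (Algebra.subset_adjoin (Or.inr ⟨i, rfl⟩))

/-- The representative of `a` shifted by `θ`. -/
def rep (a : D.M) (θ : X.Θ) : Ideal (C.R (AlgebraicClosure ℚ)) :=
  Classical.epsilon fun I => D.IsRep a (X.pts θ) I

theorem rep_spec (a : D.M) (θ : X.Θ) : D.IsRep a (X.pts θ) (X.rep a θ) := by
  obtain ⟨v⟩ := EtaleSet.exists_place (ℓ := ℓ)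
  obtain ⟨I, hI, -⟩ := (X.good v a θ.1).exists_rep
  exact Classical.epsilon_spec (p := fun I => D.IsRep a (X.pts θ) I) ⟨I, hI⟩

theorem rep_aff (v : Pl ℓ) (a : D.M) (θ : X.Θ) :
    AFF v (X.rep a θ) ∧ GoodInv v (X.rep a θ) := by
  obtain ⟨I, -, h1, h2, h3⟩ := (X.good v a θ.1).exists_rep
  rw [h3 _ (X.rep_spec a θ)]
  exact ⟨h1, h2⟩

theorem rep_eq (a : D.M) (θ : X.Θ) {I : Ideal (C.R Qbar)} (hI : D.IsRep a (X.pts θ) I) :
    I = X.rep a θ := by
  obtain ⟨v⟩ := EtaleSet.exists_place (ℓ := ℓ)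
  obtain ⟨J, -, -, -, h3⟩ := (X.good v a θ.1).exists_rep
  exact (h3 _ hI).trans (h3 _ (X.rep_spec a θ)).symm

theorem pts_act (σ : Gal0) (θ : X.Θ) :
    X.pts (X.actΘ σ θ) = fun i => (X.pts θ i).act σ := rfl

theorem rep_act (σ : Gal0) (a : D.M) (θ : X.Θ) :
    X.rep (D.act σ a) (X.actΘ σ θ) = C.galI σ (X.rep a θ) := by
  have h1 : D.IsRep (D.act σ a) (X.pts (X.actΘ σ θ)) (C.galI σ (X.rep a θ)) := by
    rw [X.pts_act σ θ]
    exact ClassData.IsRep.galI (X.rep_spec a θ) σ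
  exact (X.rep_eq (D.act σ a) (X.actΘ σ θ) h1).symm

/-- The kernel of the coordinates. -/
def U (a : D.M) (θ : X.Θ) :
    Submodule (AlgebraicClosure ℚ) (C.Idx C.chartDeg → AlgebraicClosure ℚ) :=
  C.vLI (AlgebraicClosure ℚ) (X.rep a θ) C.chartDeg

/-- The image of the coordinates. -/
def W (θ : X.Θ) : Submodule (AlgebraicClosure ℚ) (C.Idx C.chartDeg → AlgebraicClosure ℚ) :=
  Submodule.span (AlgebraicClosure ℚ) (Set.range fun i => powVec C.chartDeg (θ.2 i).1)

theorem z_mem (v : Pl ℓ) (θ : X.Θ) (i : Fin C.g) : (θ.2 i).1 ∈ v.A :=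
  mem_of_isIntegral v.over ((X.goodQ i).isIntegral (θ.2 i).2)

theorem span_le_redSub_W (v : Pl ℓ) (θ : X.Θ) :
    Submodule.span v.k (Set.range fun i => powVec C.chartDeg (red v.A (θ.2 i).1)) ≤
      redSub v.A (X.W θ) := by
  refine Submodule.span_le.mpr ?_
  rintro _ ⟨i, rfl⟩
  show powVec C.chartDeg (red v.A (θ.2 i).1) ∈ redSub v.A (X.W θ)
  rw [← powVec_red (X.z_mem v θ i)]
  exact mem_redSub (Submodule.subset_span ⟨i, rfl⟩) fun s => pow_mem (X.z_mem v θ i) _

theorem general_position (v : Pl ℓ) (a : D.M) (θ : X.Θ) :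
    finrank Qbar (X.U a θ) = 2 * C.g + 1 ∧ finrank Qbar (X.W θ) = C.g ∧
      Disjoint (redSub v.A (X.U a θ)) (redSub v.A (X.W θ)) := by
  have hI := X.rep_spec a θ
  obtain ⟨haff, -⟩ := X.rep_aff v a θ
  obtain ⟨h1, h2⟩ := finrank_chart_ideal haff hI.2.1
  have hU : redSub v.A (X.U a θ) = C.vLI v.k (redI v (X.rep a θ)) C.chartDeg :=
    haff.redSub_vLI (by rw [hI.2.1]; unfold chartDeg; omega)
  have htop : redSub v.A (X.U a θ) ⊔ redSub v.A (X.W θ) = ⊤ := by
    rw [eq_top_iff, hU]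
    refine le_trans (le_of_eq (X.moments v a θ.1 (fun i => (θ.2 i).1) (fun i => (θ.2 i).2) _
      (X.rep_spec a θ)).symm) (sup_le_sup_left (X.span_le_redSub_W v θ) _)
  have hW : finrank Qbar (X.W θ) ≤ C.g :=
    (finrank_range_le_card _).trans (le_of_eq (Fintype.card_fin _))
  have hsum := Submodule.finrank_sup_add_finrank_inf_eq (redSub v.A (X.U a θ)) (redSub v.A (X.W θ))
  rw [htop, finrank_top, Module.finrank_fintype_fun_eq_card, C.card_chart, finrank_redSub,
    finrank_redSub] at hsum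
  have hU' : finrank Qbar (X.U a θ) = 2 * C.g + 1 := h2
  refine ⟨hU', by omega, ?_⟩
  rw [disjoint_iff, ← Submodule.finrank_eq_zero]
  omega

/-- The coordinates of `a` at `θ`. -/
def coord (a : D.M) (θ : X.Θ) :
    Matrix (C.Idx C.chartDeg) (C.Idx C.chartDeg) (AlgebraicClosure ℚ) :=
  Classical.epsilon fun M => IsProj M (X.U a θ) (X.W θ)

theorem exists_coord (v : Pl ℓ) (a : D.M) (θ : X.Θ) :
    ∃ M, IsProj M (X.U a θ) (X.W θ) ∧ Disjoint (X.U a θ) (X.W θ) ∧ ∀ i j, M i j ∈ v.A := by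
  obtain ⟨h1, h2, h3⟩ := X.general_position v a θ
  exact exists_isProj v (by rw [h1, h2, C.card_chart]; omega) h3

theorem coord_spec (a : D.M) (θ : X.Θ) :
    IsProj (X.coord a θ) (X.U a θ) (X.W θ) ∧ Disjoint (X.U a θ) (X.W θ) := by
  obtain ⟨v⟩ := EtaleSet.exists_place (ℓ := ℓ)
  obtain ⟨M, hM, hd, -⟩ := X.exists_coord v a θ
  exact ⟨Classical.epsilon_spec (p := fun M => IsProj M (X.U a θ) (X.W θ)) ⟨M, hM⟩, hd⟩

theorem coord_mem (v : Pl ℓ) (a : D.M) (θ : X.Θ) (i j : C.Idx C.chartDeg) :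
    X.coord a θ i j ∈ v.A := by
  obtain ⟨M, hM, hd, hmem⟩ := X.exists_coord v a θ
  rw [(X.coord_spec a θ).1.eq hM hd]
  exact hmem i j

/-- The coordinates are integral. -/
theorem coord_integral (a : D.M) (θ : X.Θ) (i j : C.Idx C.chartDeg) :
    IsIntegral (Zl ℓ) (X.coord a θ i j) :=
  isIntegral_of_forall_mem fun A hA => X.coord_mem ⟨A, hA⟩ a θ i j

/-- The coordinates are Galois-equivariant. -/
theorem coord_act (σ : Gal0) (a : D.M) (θ : X.Θ) :
    X.coord (D.act σ a) (X.actΘ σ θ) = (X.coord a θ).map σ := by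
  refine (X.coord_spec _ _).1.eq ?_ (X.coord_spec _ _).2
  intro x
  obtain ⟨y, rfl⟩ : ∃ y, (fun s => σ (y s)) = x :=
    ⟨fun s => σ.symm (x s), funext fun s => σ.apply_symm_apply _⟩
  have e : ((X.coord a θ).map σ).mulVec (fun s => σ (y s)) =
      fun s => σ ((X.coord a θ).mulVec y s) := by
    funext s
    simp [Matrix.mulVec, dotProduct, map_sum, map_mul]
  rw [e]
  obtain ⟨hW, hU⟩ := (X.coord_spec a θ).1 y
  refine ⟨?_, ?_⟩
  · obtain ⟨c, hc⟩ := (Submodule.mem_span_range_iff_exists_fun _).mp hW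
    refine (Submodule.mem_span_range_iff_exists_fun _).mpr ⟨fun i => σ (c i), funext fun s => ?_⟩
    rw [← hc]
    simp [Finset.sum_apply, map_sum, map_mul, powVec, actΘ, map_pow]
  · have h1 : (fun s => σ (y s)) - (fun s => σ ((X.coord a θ).mulVec y s)) =
        fun s => σ ((y - (X.coord a θ).mulVec y) s) := funext fun s => (map_sub σ _ _).symm
    rw [h1]
    refine C.mem_vLI.mpr ?_
    rw [X.rep_act]
    refine mem_galI.mpr ⟨_, C.mem_vLI.mp hU, ?_⟩
    refine (C.bK Qbar).repr.injective (Finsupp.ext fun s => ?_)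
    rw [galR, repr_chgE, galZl_apply]
    by_cases hs : (s : ℕ) ≤ C.chartDeg
    · have e1 := congrFun (C.vec_unvec Qbar C.chartDeg (y - (X.coord a θ).mulVec y)) ⟨s, hs⟩
      have e2 := congrFun (C.vec_unvec Qbar C.chartDeg
        fun s => σ ((y - (X.coord a θ).mulVec y) s)) ⟨s, hs⟩
      rw [vec_apply] at e1 e2
      rw [e1, e2]
    · rw [C.mem_Lb.mp (C.unvec_mem_Lb Qbar _ _) s (not_le.mp hs),
        C.mem_Lb.mp (C.unvec_mem_Lb Qbar _ _) s (not_le.mp hs), map_zero]

/-- The coordinates separate the classes. -/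
theorem coord_separates (a b : D.M) (h : ∀ θ, X.coord a θ = X.coord b θ) : a = b := by
  obtain ⟨θ⟩ := X.nonempty_Θ
  have hU : X.U a θ = X.U b θ := by
    rw [← (X.coord_spec a θ).1.ker_eq (X.coord_spec a θ).2,
      ← (X.coord_spec b θ).1.ker_eq (X.coord_spec b θ).2, h θ]
  have hgen : ∀ c : D.M, Ideal.span ((C.P Qbar).LI (X.rep c θ) C.chartDeg : Set (C.R Qbar)) =
      X.rep c θ := fun c => by
    refine (C.P Qbar).span_LI (X.rep_spec c θ).1 ?_
    rw [(X.rep_spec c θ).2.1, show (C.P Qbar).g = C.g from rfl]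
    unfold chartDeg
    omega
  have key : ∀ c c' : D.M, X.U c θ = X.U c' θ →
      (C.P Qbar).LI (X.rep c θ) C.chartDeg ≤ (C.P Qbar).LI (X.rep c' θ) C.chartDeg :=
    fun c c' h x hx => by
    have h1 : C.vec Qbar C.chartDeg x ∈ X.U c' θ := h ▸ ⟨x, hx, rfl⟩
    have h2 := C.mem_vLI.mp h1
    rw [C.unvec_vec₀ hx.2] at h2
    exact ⟨h2, hx.2⟩
  have hI : X.rep a θ = X.rep b θ := by
    rw [← hgen a, ← hgen b, le_antisymm (key a b hU) (key b a hU.symm)]
  refine D.inj a b ?_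
  have := (X.rep_spec a θ).2.2
  rw [hI] at this
  exact this.symm.trans (X.rep_spec b θ).2.2

end Aux

end GoodModel

end Fermat.Agent.Flat
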