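import Fermat.Agent.Flat.Addition
import Fermat.Agent.Flat.Charts

/-!
# A finite module of ideal classes of a good model has a finite flat model

A finite Galois module of ideal classes of a good model over `ℤ_(ℓ)` has a finite flat model:
coordinates on an auxiliary étale set separate the module, and addition is regular in them.
Applied to `J₀(N)[ℓᵏ]` in `Fermat.Agent.Flat.ModularTorsion`.
-/

noncomputable section

namespace Fermat.Agent.Flat

open scoped TensorProduct
open Module Polynomial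

local notation "Qbar" => AlgebraicClosure ℚ
local notation "Gal0" => (AlgebraicClosure ℚ ≃ₐ[ℚ] AlgebraicClosure ℚ)

variable {ℓ : ℕ} [Fact ℓ.Prime]

omit [Fact (Nat.Prime ℓ)] in
/-- A projection with integral entries has small kernel on reduction. -/
theorem finrank_red_ker_proj (v : Pl ℓ) {ι : Type} [Fintype ι]
    {M : Matrix ι ι Qbar} {U W : Submodule Qbar (ι → Qbar)} (h : IsProj M U W)
    (hd : Disjoint U W) (hM : ∀ i j, M i j ∈ v.A) :
    finrank v.k (LinearMap.ker (Matrix.of fun i j => red v.A (M i j)).mulVecLin) +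
      finrank Qbar W ≤ Fintype.card ι := by
  set Mb : Matrix ι ι v.k := Matrix.of fun i j => red v.A (M i j)
  have hle : redSub v.A W ≤ LinearMap.range Mb.mulVecLin := by
    refine Submodule.span_le.mpr ?_
    rintro _ ⟨w, ⟨hw, hwA⟩, rfl⟩
    refine ⟨fun i => red v.A (w i), ?_⟩
    have hfix : M.mulVec w = w := by
      refine (sub_eq_zero.mp (Submodule.disjoint_def.mp hd (w - M.mulVec w) (h w).2 ?_)).symm
      exact W.sub_mem hw (h w).1
    rw [Matrix.mulVecLin_apply]
    funext i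
    conv_rhs => rw [← hfix]
    simp only [Matrix.mulVec, dotProduct]
    rw [red_sum fun j _ => v.A.mul_mem _ _ (hM i j) (hwA j)]
    exact Finset.sum_congr rfl fun j _ => (red_mul (hM i j) (hwA j)).symm
  have h1 : finrank Qbar W ≤ finrank v.k (LinearMap.range Mb.mulVecLin) :=
    (finrank_redSub (A := v.A) W).symm.trans_le (Submodule.finrank_mono hle)
  have h2 : finrank v.k (LinearMap.range Mb.mulVecLin) + finrank v.k (LinearMap.ker Mb.mulVecLin) =
      Fintype.card ι :=
    (LinearMap.finrank_range_add_finrank_ker Mb.mulVecLin).trans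
      (Module.finrank_fintype_fun_eq_card _)
  change finrank v.k (LinearMap.ker Mb.mulVecLin) + _ ≤ _
  omega

namespace GoodModel

variable {C : GoodModel ℓ}

section Points

variable {S : Type} {K : Subalgebra (Zl ℓ) (S → Qbar)} {v : Pl ℓ} {s : S}

/-- A family of points with coordinates in `K` is regular. -/
theorem regI_point (hK : ∀ f ∈ K, f s ∈ v.A) (θ : S → C.IPt)
    (hθ : ∀ a, (fun t => (θ t).val a) ∈ K) : RegI K v s (fun t => (θ t).m) 1 := by
  classical
  intro n hn
  have hg : (C.P Qbar).g = C.g := rfl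
  obtain ⟨haff, hred⟩ := (θ s).aff v
  have hc : ∀ t, (θ t).m ≠ ⊥ ∧ (C.P Qbar).codim (θ t).m = 1 := fun t =>
    ⟨(IPt.codim_ker (θ t).gen).1, (IPt.codim_ker (θ t).gen).2.2⟩
  refine ⟨haff, (hc s).2, ⟨1, one_mem _, by simp [IsVUnit], fun t _ => hc t⟩, hn, ?_⟩
  have hcard := C.card_idx (n := n) (by omega)
  refine IsReg.of_ker hK (ρ := Unit) (Φ := fun _ i => fun t => (θ t).val (C.b i.1))
    (fun _ i => Loc.of_mem (hθ _)) (by omega) (e := 1) (one_mem _) (by simp [IsVUnit])
    (fun t _ => ⟨?_, ?_⟩) ?_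
  · ext x
    rw [C.mem_vLI, LinearMap.mem_ker, Matrix.mulVecLin_apply]
    have e : (θ t).gen (C.unvec Qbar n x) = ∑ i, x i * (θ t).val (C.b i.1) := by
      rw [unvec, Fintype.linearCombination_apply, map_sum]
      exact Finset.sum_congr rfl fun i _ => by
        rw [map_smul, bK_apply, IPt.gen_tmul, one_mul, smul_eq_mul]
    constructor
    · intro hx
      funext u
      simp only [Matrix.mulVec, dotProduct, Matrix.of_apply, Pi.zero_apply]
      rw [← (show (θ t).gen (C.unvec Qbar n x) = 0 from hx), e]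
      exact Finset.sum_congr rfl fun i _ => mul_comm _ _
    · intro hx
      show (θ t).gen (C.unvec Qbar n x) = 0
      rw [e]
      refine Eq.trans ?_ (congrFun hx ())
      simp only [Matrix.mulVec, dotProduct, Matrix.of_apply]
      exact Finset.sum_congr rfl fun i _ => mul_comm _ _
  · rw [C.finrank_vLI₀]
    have := (C.P Qbar).le_finrank_LI (hc t).1 n
    rw [(hc t).2, hg] at this
    omega
  · set Mb : Matrix Unit (C.Idx n) v.k :=
      Matrix.of fun _ i => red v.A ((θ s).val (C.b i.1))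
    have h2 := LinearMap.finrank_range_add_finrank_ker Mb.mulVecLin
    rw [Module.finrank_fintype_fun_eq_card] at h2
    have hne : LinearMap.range Mb.mulVecLin ≠ ⊥ := by
      intro hbot
      have hmem : Mb.mulVecLin (Pi.single ⟨⟨0, C.zero_mem⟩, Nat.zero_le n⟩ 1) ∈
          LinearMap.range Mb.mulVecLin := ⟨_, rfl⟩
      rw [hbot, Submodule.mem_bot] at hmem
      have := congrFun hmem ()
      rw [Matrix.mulVecLin_apply, Matrix.mulVec_single] at this
      simp [Mb, C.b_zero] at this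
    have h3 : 1 ≤ finrank v.k (LinearMap.range Mb.mulVecLin) :=
      Nat.one_le_iff_ne_zero.mpr fun h0 => hne (Submodule.finrank_eq_zero.mp h0)
    show finrank v.k (LinearMap.ker Mb.mulVecLin) ≤ _
    omega

/-- Products of points are regular. -/
theorem regI_ptIdeal (hK : ∀ f ∈ K, f s ∈ v.A) {r : ℕ} (θ : S → Fin r → C.IPt)
    (hθ : ∀ i a, (fun t => (θ t i).val a) ∈ K) : RegI K v s (fun t => ptIdeal (θ t)) r := by
  induction r with
  | zero =>
    have e : (fun t => ptIdeal (θ t)) = fun _ => (⊤ : Ideal (C.R Qbar)) :=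
      funext fun t => by simp [ptIdeal, Ideal.one_eq_top]
    rw [e]
    exact regI_top hK
  | succ r ih =>
    have e : (fun t => ptIdeal (θ t)) =
        fun t => ptIdeal (fun i => θ t i.castSucc) * (θ t (Fin.last r)).m :=
      funext fun t => by rw [ptIdeal, Fin.prod_univ_castSucc]; rfl
    rw [e]
    exact (ih (fun t i => θ t i.castSucc) fun i a => hθ i.castSucc a).mul hK
      (regI_point hK (fun t => θ t (Fin.last r)) (hθ (Fin.last r)))

end Points

namespace Aux

variable {D : C.ClassData} (X : Aux D) {S : Type} {K : Subalgebra (Zl ℓ) (S → Qbar)} {v : Pl ℓ}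
  {s : S}

/-- The representatives are regular where their coordinates are. -/
theorem regI_rep (hK : ∀ f ∈ K, f s ∈ v.A) (a : S → D.M) (θ : S → X.Θ)
    (hcoord : ∀ i j, (fun t => X.coord (a t) (θ t) i j) ∈ K) :
    RegI K v s (fun t => X.rep (a t) (θ t)) C.g := by
  refine RegAt.regI hK (m := C.chartDeg) ⟨(X.rep_aff v _ _).1, (X.rep_spec _ _).2.1,
    ⟨1, one_mem _, by simp [IsVUnit], fun t _ =>
      ⟨(X.rep_spec _ _).1, (X.rep_spec _ _).2.1⟩⟩, by unfold chartDeg; omega, ?_⟩
  have hcard := C.card_chart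
  refine IsReg.of_ker hK (Φ := fun i j => fun t => X.coord (a t) (θ t) i j)
    (fun i j => Loc.of_mem (hcoord i j)) (by rw [hcard]; unfold chartDeg; omega) (e := 1)
    (one_mem _) (by simp [IsVUnit]) (fun t _ => ⟨?_, ?_⟩) ?_
  · exact ((X.coord_spec (a t) (θ t)).1.ker_eq (X.coord_spec (a t) (θ t)).2).symm
  · have h1 : finrank Qbar (C.vLI Qbar (X.rep (a t) (θ t)) C.chartDeg) = 2 * C.g + 1 :=
      (X.general_position v (a t) (θ t)).1
    rw [h1]
    unfold chartDeg
    omega
  · have h1 := finrank_red_ker_proj v (X.coord_spec (a s) (θ s)).1 (X.coord_spec (a s) (θ s)).2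
      (X.coord_mem v (a s) (θ s))
    rw [(X.general_position v (a s) (θ s)).2.1, hcard] at h1
    refine le_trans (Nat.le_sub_of_add_le h1) ?_
    unfold chartDeg
    omega

/-- The moment subspaces are regular. -/
theorem isReg_W (hK : ∀ f ∈ K, f s ∈ v.A) (θ : S → X.Θ)
    (hz : ∀ i, (fun t => ((θ t).2 i).1) ∈ K) (a : D.M) :
    IsReg K v.A s (fun t => X.W (θ t)) C.g := by
  refine IsReg.of_span hK (w := fun i j => fun t => ((θ t).2 i).1 ^ ((j.1 : ℕ)))
    (fun i j => ?_) (e := 1) (one_mem _) (by simp [IsVUnit]) (fun t _ => rfl) ?_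
  · exact pow_mem (Loc.of_mem (hz i)) (j.1 : ℕ)
  · obtain ⟨-, hW, -⟩ := X.general_position v a (θ s)
    have hle := X.span_le_redSub_W v (θ s)
    obtain ⟨haff, -⟩ := X.rep_aff v a (θ s)
    have h1 := (finrank_chart_ideal haff (X.rep_spec a (θ s)).2.1).1
    have h2 := X.moments v a (θ s).1 (fun i => ((θ s).2 i).1) (fun i => ((θ s).2 i).2) _
      (X.rep_spec a (θ s))
    have h3 := Submodule.finrank_sup_add_finrank_inf_eq
      (C.vLI v.k (redI v (X.rep a (θ s))) C.chartDeg)
      (Submodule.span v.k (Set.range fun i => powVec C.chartDeg (red v.A ((θ s).2 i).1)))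
    rw [h2, finrank_top, Module.finrank_fintype_fun_eq_card, C.card_chart, h1] at h3
    have e : (fun i => fun j : C.Idx C.chartDeg => red v.A (((θ s).2 i).1 ^ ((j.1 : ℕ)))) =
        fun i => powVec C.chartDeg (red v.A ((θ s).2 i).1) :=
      funext fun i => powVec_red (X.z_mem v (θ s) i)
    show LinearIndependent v.k fun i => fun j : C.Idx C.chartDeg =>
      red v.A (((θ s).2 i).1 ^ ((j.1 : ℕ)))
    rw [e, linearIndependent_iff_card_eq_finrank_span, Fintype.card_fin, Set.finrank]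
    have h4 : finrank v.k (Submodule.span v.k (Set.range fun i : Fin C.g =>
        powVec (C := C) C.chartDeg (red v.A ((θ s).2 i).1))) = C.g := by
      refine le_antisymm ((finrank_range_le_card _).trans_eq (Fintype.card_fin _)) ?_
      exact Nat.le_of_add_le_add_left (a := 2 * C.g + 1) (h3 ▸ by omega)
    exact h4.symm

end Aux

/-- Addition is regular in the coordinates. -/
theorem Aux.coord_add_mem {D : C.ClassData} (X : Aux D)
    {K : Subalgebra (Zl ℓ) ((D.M × D.M) × X.Θ → Qbar)}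
    (hKint : ∀ f ∈ K, ∀ p, IsIntegral (Zl ℓ) (f p))
    (h1 : ∀ ij : C.Idx C.chartDeg × C.Idx C.chartDeg,
      (fun p => X.coord p.1.1 p.2 ij.1 ij.2) ∈ K)
    (h2 : ∀ ij : C.Idx C.chartDeg × C.Idx C.chartDeg,
      (fun p => X.coord p.1.2 p.2 ij.1 ij.2) ∈ K)
    (hB : ∀ f ∈ X.etale.B, (fun p => f p.2) ∈ K) (ij : C.Idx C.chartDeg × C.Idx C.chartDeg) :
    (fun p => X.coord (p.1.1 + p.1.2) p.2 ij.1 ij.2) ∈ K := by
  classical
  let : Finite ((D.M × D.M) × X.Θ) := inferInstance
  refine Loc.mem_of_forall hKint fun A hA t₀ => ?_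
  obtain ⟨v, rfl⟩ : ∃ v : Pl ℓ, v.A = A := ⟨⟨A, hA⟩, rfl⟩
  have hK : ∀ f ∈ K, f t₀ ∈ v.A := fun f hf => mem_of_isIntegral v.over (hKint f hf t₀)
  have hpt : ∀ i a, (fun t : (D.M × D.M) × X.Θ => (X.pts t.2 i).val a) ∈ K := fun i a =>
    hB _ (Algebra.subset_adjoin (Or.inl ⟨(i, a), rfl⟩))
  have hz : ∀ i, (fun t : (D.M × D.M) × X.Θ => (t.2.2 i).1) ∈ K := fun i =>
    hB _ (Algebra.subset_adjoin (Or.inr ⟨i, rfl⟩))
  have hE := regI_ptIdeal (v := v) (s := t₀) hK (fun t : (D.M × D.M) × X.Θ => X.pts t.2) hpt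
  have hI1 := X.regI_rep (v := v) (s := t₀) hK (fun t => t.1.1) (fun t => t.2)
    fun i j => h1 (i, j)
  have hI2 := X.regI_rep (v := v) (s := t₀) hK (fun t => t.1.2) (fun t => t.2)
    fun i j => h2 (i, j)
  set I₃ : (D.M × D.M) × X.Θ → Ideal (C.R Qbar) := fun t => X.rep (t.1.1 + t.1.2) t.2
  have hI3 : RegI K v t₀ I₃ C.g := by
    refine regI_addition hK hI1 hI2 hE (X.rep_aff v _ _).1 (X.rep_aff v _ _).2
      (fun t => ⟨(X.rep_spec _ _).2.1, (X.rep_spec _ _).1⟩) fun t => ?_
    have hsum : C.Rel (I₃ t * ptIdeal (X.pts t.2))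
        (X.rep t.1.1 t.2 * X.rep t.1.2 t.2 * ptIdeal (X.pts t.2) * ptIdeal (X.pts t.2)) := by
      refine (X.rep_spec _ _).2.2.trans ((D.J_add _ _).trans ?_)
      refine ((X.rep_spec t.1.1 t.2).2.2.symm.mul (X.rep_spec t.1.2 t.2).2.2.symm).trans ?_
      rw [show X.rep t.1.1 t.2 * ptIdeal (X.pts t.2) * (X.rep t.1.2 t.2 * ptIdeal (X.pts t.2)) =
        X.rep t.1.1 t.2 * X.rep t.1.2 t.2 * ptIdeal (X.pts t.2) * ptIdeal (X.pts t.2) by ac_rfl]
      exact Rel.refl _
    exact hsum.of_mul_right (aff_ptIdeal v (X.pts t.2)).1.1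
  have hU := (hI3 C.chartDeg (by unfold chartDeg; omega)).reg
  have hW := X.isReg_W (v := v) (s := t₀) hK (fun t => t.2) hz (t₀.1.1 + t₀.1.2)
  obtain ⟨-, -, hdisj⟩ := X.general_position v (t₀.1.1 + t₀.1.2) t₀.2
  obtain ⟨P, d, hP, hd, hd1, hsplit⟩ := IsReg.exists_projection hK hU hW
    (by rw [C.card_chart]; unfold chartDeg; omega) hdisj
  refine Loc.congr (hP ij.1 ij.2) hd hd1 fun t ht => ?_
  obtain ⟨hcompl, hproj⟩ := hsplit t ht
  have e := (X.coord_spec (t.1.1 + t.1.2) t.2).1.eq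
    (M' := Matrix.of fun i j => P i j t) hproj hcompl.1
  exact congrFun (congrFun e ij.1) ij.2

/-- A finite Galois module of classes of a good model has a finite flat model over `ℤ_(ℓ)`. -/
theorem ClassData.hasFlatModel (D : C.ClassData) : HasFlatModel ℓ D.M D.act := by
  classical
  obtain ⟨X⟩ := D.exists_aux
  refine EtaleSet.hasFlatModel (E := X.etale) (fun σ => D.act_zero σ)
    (n := C.Idx C.chartDeg × C.Idx C.chartDeg)
    (fun ij p => X.coord p.1 p.2 ij.1 ij.2) (fun ij σ p => ?_)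
    (fun ij p => X.coord_integral _ _ _ _)
    (fun a a' h => X.coord_separates a a' fun θ => ?_) ?_
  · show X.coord (D.act σ p.1) (X.actΘ σ p.2) ij.1 ij.2 = σ (X.coord p.1 p.2 ij.1 ij.2)
    rw [X.coord_act, Matrix.map_apply]
  · ext i j
    exact h (i, j) θ
  exact fun K hKint _ h1 h2 hB ij => X.coord_add_mem hKint h1 h2 hB ij

end GoodModel

end Fermat.Agent.Flat
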