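import Fermat.Agent.Flat.Transport

/-!
# Ideal classes on the generic fibre and their affine representatives

Equivalence of nonzero ideals on the generic fibre of a good model, its compatibility with
Galois, and `ClassData`: a finite Galois module embedded in the class group. Every class has at
each place an affine representative, the input for the charts.
-/

noncomputable section

namespace Fermat.Agent.Flat

open scoped TensorProduct
open Module

local notation "Qbar" => AlgebraicClosure ℚ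
local notation "Gal0" => (AlgebraicClosure ℚ ≃ₐ[ℚ] AlgebraicClosure ℚ)

namespace GoodModel

variable {ℓ : ℕ} [Fact ℓ.Prime] {C : GoodModel ℓ}

/-- Two ideals in the same class. -/
def Rel (I J : Ideal (C.R Qbar)) : Prop :=
  ∃ α β : C.R Qbar, α ≠ 0 ∧ β ≠ 0 ∧ Ideal.span {α} * I = Ideal.span {β} * J

namespace Rel

variable {I J L I' J' : Ideal (C.R Qbar)}

theorem refl (I : Ideal (C.R Qbar)) : C.Rel I I := by
  have := (C.P Qbar).nontrivial
  exact ⟨1, 1, one_ne_zero, one_ne_zero, rfl⟩

theorem symm (h : C.Rel I J) : C.Rel J I := by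
  obtain ⟨α, β, hα, hβ, e⟩ := h
  exact ⟨β, α, hβ, hα, e.symm⟩

theorem trans (h : C.Rel I J) (h' : C.Rel J L) : C.Rel I L := by
  obtain ⟨α, β, hα, hβ, e⟩ := h
  obtain ⟨γ, δ, hγ, hδ, e'⟩ := h'
  have := (C.P Qbar).noZeroDivisors
  refine ⟨γ * α, β * δ, mul_ne_zero hγ hα, mul_ne_zero hβ hδ, ?_⟩
  rw [← Ideal.span_singleton_mul_span_singleton, ← Ideal.span_singleton_mul_span_singleton,
    mul_assoc, e, mul_left_comm, e', ← mul_assoc]

theorem mul (h : C.Rel I J) (h' : C.Rel I' J') : C.Rel (I * I') (J * J') := by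
  obtain ⟨α, β, hα, hβ, e⟩ := h
  obtain ⟨γ, δ, hγ, hδ, e'⟩ := h'
  have := (C.P Qbar).noZeroDivisors
  refine ⟨α * γ, β * δ, mul_ne_zero hα hγ, mul_ne_zero hβ hδ, ?_⟩
  rw [← Ideal.span_singleton_mul_span_singleton, ← Ideal.span_singleton_mul_span_singleton,
    mul_mul_mul_comm, e, e', mul_mul_mul_comm]

theorem mul_right (h : C.Rel I J) (L : Ideal (C.R Qbar)) : C.Rel (I * L) (J * L) :=
  h.mul (refl L)

theorem of_mul_right (h : C.Rel (I * L) (J * L)) (hL : L ≠ ⊥) : C.Rel I J := by
  obtain ⟨α, β, hα, hβ, e⟩ := h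
  rw [← mul_assoc, ← mul_assoc] at e
  exact ⟨α, β, hα, hβ, mul_right_cancel₀ hL e⟩

theorem galI (h : C.Rel I J) (σ : Gal0) : C.Rel (C.galI σ I) (C.galI σ J) := by
  obtain ⟨α, β, hα, hβ, e⟩ := h
  refine ⟨C.galR σ α, C.galR σ β, ?_, ?_, ?_⟩
  · exact fun h0 => hα ((C.galR σ).injective (h0.trans (map_zero _).symm))
  · exact fun h0 => hβ ((C.galR σ).injective (h0.trans (map_zero _).symm))
  · rw [← galI_span, ← galI_span, ← galI_mul, ← galI_mul, e]

end Rel

theorem galI_top (σ : Gal0) : C.galI σ ⊤ = ⊤ := Ideal.map_top _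

/-- Every class has, at every place, a representative of the inverse class without point at
infinity in the reduction. -/
theorem exists_aff_inverse (v : Pl ℓ) {J : Ideal (C.R Qbar)} (hJ : J ≠ ⊥) :
    ∃ Y : Ideal (C.R Qbar), AFF v Y ∧ C.Rel (J * Y) ⊤ := by
  have := (C.P Qbar).nontrivial
  have := (C.P Qbar).noZeroDivisors
  have hg' := C.P_g v.k
  have hg : (C.P Qbar).g = C.g := rfl
  set c := (C.P Qbar).codim J with hc
  set ck := (C.P v.k).codim (redI v J) with hck
  have hckc : ck ≤ c := codim_redI_le v hJ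
  set n := c + 3 * C.g + c
  set n' := n - (c - ck) with hn'
  have hrk := redI_ne_bot v hJ
  -- an element of the reduced lattice of large degree
  obtain ⟨w, hwmem, hwint, hwdeg⟩ : ∃ w ∈ C.vLI Qbar J n, (∀ i, w i ∈ v.A) ∧
      redR v (C.unvec Qbar n w) ≠ 0 ∧ n' ≤ (C.P v.k).deg (redR v (C.unvec Qbar n w)) := by
    by_contra h
    push Not at h
    have hle : redSub v.A (C.vLI Qbar J n) ≤
        ((C.P v.k).LI (redI v J) (n' - 1)).map (C.vec v.k n) := by
      refine Submodule.span_le.mpr ?_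
      rintro _ ⟨w, ⟨hw, hwA⟩, rfl⟩
      refine ⟨redR v (C.unvec Qbar n w), ⟨mem_redI (C.mem_vLI.mp hw) (isInt_unvec hwA), ?_⟩, by
        rw [vec_redR, C.vec_unvec]⟩
      rcases eq_or_ne (redR v (C.unvec Qbar n w)) 0 with h0 | h0
      · exact h0 ▸ Submodule.zero_mem _
      · refine (C.P v.k).deg_le_iff.mp ?_
        have := h w hw hwA h0
        omega
    have h1 : finrank v.k (redSub v.A (C.vLI Qbar J n)) ≤
        finrank v.k ((C.P v.k).LI (redI v J) (n' - 1)) :=
      (Submodule.finrank_mono hle).trans (Submodule.finrank_map_le _ _)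
    have h0 : 1 ≤ n' ∨ n' = 0 := by omega
    rw [finrank_redSub, C.finrank_vLI₀] at h1
    have h2 := (C.P Qbar).finrank_LI hJ (n := n) (by omega)
    rcases h0 with h0 | h0
    · have h3 := (C.P v.k).finrank_LI hrk (n := n' - 1) (by omega)
      omega
    · -- then `n = 0` and the lattice is everything
      have hn0 : n = 0 := by omega
      have hne : C.vLI Qbar J n ≠ ⊥ := by
        intro hb
        rw [← C.finrank_vLI₀, hb, finrank_bot] at h2
        omega
      have hne' : redSub v.A (C.vLI Qbar J n) ≠ ⊥ := by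
        intro hb
        refine hne (Submodule.finrank_eq_zero.mp ?_)
        rw [← finrank_redSub (A := v.A), hb, finrank_bot]
      obtain ⟨w, hw, hwA, hw0⟩ : ∃ w ∈ C.vLI Qbar J n, (∀ i, w i ∈ v.A) ∧
          redR v (C.unvec Qbar n w) ≠ 0 := by
        by_contra hh
        push Not at hh
        refine hne' (le_bot_iff.mp (Submodule.span_le.mpr ?_))
        rintro _ ⟨w, ⟨hw, hwA⟩, rfl⟩
        have := hh w hw hwA
        have e := vec_redR v n (C.unvec Qbar n w)
        rw [C.vec_unvec, this, map_zero] at e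
        exact e.symm
      have := h w hw hwA hw0
      omega
  obtain ⟨hfr, hfdeg⟩ := hwdeg
  set f := C.unvec Qbar n w
  have hfJ : f ∈ J := C.mem_vLI.mp hwmem
  have hfi : IsInt v f := isInt_unvec hwint
  have hf0 : f ≠ 0 := fun h0 => hfr (by rw [h0, redR_zero])
  obtain ⟨Y, hY⟩ := exists_complement hfJ
  have hspan : (Ideal.span {f} : Ideal (C.R Qbar)) ≠ ⊥ := by simpa using hf0
  have hY0 : Y ≠ ⊥ := fun h0 => hspan (by rw [hY, h0, Ideal.mul_bot])
  refine ⟨Y, ⟨hY0, ?_⟩, ⟨1, f, one_ne_zero, hf0, by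
    rw [Ideal.span_singleton_one, Ideal.top_mul, Ideal.mul_top, hY]⟩⟩
  have hrY := redI_ne_bot v hY0
  have hle : redI v J * redI v Y ≤ Ideal.span {redR v f} := by
    rw [← redI_span_singleton hfi hfr, hY]
    exact redI_mul_le J Y
  have h4 := (C.P v.k).codim_antitone (mul_ne_zero hrk hrY) hle
  rw [(C.P v.k).codim_span_singleton hfr, (C.P v.k).codim_mul hrk hrY] at h4
  have h5 := (C.P Qbar).codim_mul hJ hY0
  rw [← hY, (C.P Qbar).codim_span_singleton hf0] at h5
  have h6 : (C.P Qbar).deg f ≤ n := (C.P Qbar).deg_le_iff.mpr (C.unvec_mem Qbar n w)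
  have h7 := codim_redI_le v hY0
  omega

/-- A finite Galois module of ideal classes. -/
structure ClassData (C : GoodModel ℓ) where
  /-- the group -/
  M : Type
  [instGroup : AddCommGroup M]
  [instFinite : Finite M]
  /-- the Galois action -/
  act : (AlgebraicClosure ℚ ≃ₐ[ℚ] AlgebraicClosure ℚ) → M → M
  act_add : ∀ σ a b, act σ (a + b) = act σ a + act σ b
  act_mul : ∀ σ τ a, act (σ * τ) a = act σ (act τ a)
  act_one : ∀ a, act 1 a = a
  /-- a representing ideal -/
  J : M → Ideal (C.R (AlgebraicClosure ℚ))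
  ne_bot : ∀ a, J a ≠ ⊥
  J_add : ∀ a b, C.Rel (J (a + b)) (J a * J b)
  J_act : ∀ σ a, C.Rel (J (act σ a)) (C.galI σ (J a))
  inj : ∀ a b, C.Rel (J a) (J b) → a = b

attribute [instance] ClassData.instGroup ClassData.instFinite

theorem ClassData.act_zero (D : C.ClassData) (σ : Gal0) : D.act σ 0 = 0 := by
  have := D.act_add σ 0 0
  simpa using this

end GoodModel

end Fermat.Agent.Flat
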