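import Fermat.Agent.Flat.Base
import Fermat.Agent.Flat.Reduction
import Fermat.Agent.Gal.Basic

/-!
# Places of `ℚ̄` over `ℓ` as rings over `ℤ_(ℓ)`

The valuation rings of `ℚ̄` over `ℓ`, with their residue fields, as `ℤ_(ℓ)`-algebras: the
places at which the good model is reduced.
-/

noncomputable section

namespace Fermat.Agent.Flat

local notation "Qbar" => AlgebraicClosure ℚ

/-- A place of `ℚ̄` over `ℓ`. -/
structure Pl (ℓ : ℕ) where
  /-- its valuation ring -/
  A : ValuationSubring (AlgebraicClosure ℚ)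
  over : A.LiesOverPrime ℓ

namespace Pl

variable {ℓ : ℕ}

/-- The valuation ring. -/
abbrev O (v : Pl ℓ) : Type := ↥v.A

/-- The residue field. -/
abbrev k (v : Pl ℓ) : Type := Res v.A

variable [Fact ℓ.Prime] (v : Pl ℓ)

/-- `ℤ_(ℓ)` into the valuation ring. -/
def toO : Zl ℓ →+* v.O :=
  (algebraMap (Zl ℓ) Qbar).codRestrict v.A.toSubring (algebraMap_mem_of_liesOverPrime v.over)

instance algebraO : Algebra (Zl ℓ) v.O := v.toO.toAlgebra

instance algebraK : Algebra (Zl ℓ) v.k :=
  inferInstanceAs (Algebra (Zl ℓ) (IsLocalRing.ResidueField v.O))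

@[simp] theorem coe_algebraMap (z : Zl ℓ) :
    ((algebraMap (Zl ℓ) v.O z : v.O) : Qbar) = algebraMap (Zl ℓ) Qbar z := rfl

/-- The inclusion. -/
def incl : v.O →ₐ[Zl ℓ] Qbar :=
  { v.A.subtype with commutes' := fun z => v.coe_algebraMap z }

/-- The reduction. -/
def res : v.O →ₐ[Zl ℓ] v.k :=
  { IsLocalRing.residue v.O with commutes' := fun _ => rfl }

theorem incl_apply (x : v.O) : v.incl x = (x : Qbar) := rfl

theorem res_apply (x : v.O) : v.res x = red v.A (x : Qbar) := (red_coe x).symm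

theorem res_surjective : Function.Surjective v.res := IsLocalRing.residue_surjective

theorem red_algebraMap (z : Zl ℓ) :
    red v.A (algebraMap (Zl ℓ) Qbar z) = algebraMap (Zl ℓ) v.k z :=
  red_coe (algebraMap (Zl ℓ) v.O z)

theorem algebraMap_mem (z : Zl ℓ) : algebraMap (Zl ℓ) Qbar z ∈ v.A :=
  algebraMap_mem_of_liesOverPrime v.over z

instance isAlgClosed_k : IsAlgClosed v.k := Fermat.Agent.Gal.residueField_isAlgClosed

end Pl

end Fermat.Agent.Flat
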