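import Mathlib.LinearAlgebra.Dimension.OrzechProperty
import Fermat.Agent.Flat.Closure
import Fermat.Agent.Flat.Local
import Fermat.Agent.Flat.Place
import Fermat.Agent.Flat.Reduction

/-!
# Coordinates with values in functions on an auxiliary étale set

`Θ` is a finite Galois set with a ring `B` of integral functions separating points after every
reduction.  A family of equivariant integral functions on `M × Θ` which separates `M` and on which
addition is regular gives `M` a finite flat model. This replaces the choice of rational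
auxiliary points, which need not exist.
-/

noncomputable section

namespace Fermat.Agent.Flat

open scoped TensorProduct
open Module

local notation "Qbar" => AlgebraicClosure ℚ
local notation "Gal0" => (AlgebraicClosure ℚ ≃ₐ[ℚ] AlgebraicClosure ℚ)

/-- A subalgebra of functions separating the points of a finite set spans all functions. -/
theorem span_eq_top_of_separates {R F S : Type*} [CommRing R] [Field F] [Algebra R F] [Finite S]
    (H : Subalgebra R (S → F)) (hsep : ∀ a b, (∀ f ∈ H, f a = f b) → a = b) :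
    Submodule.span F (H : Set (S → F)) = ⊤ := by
  classical
  let := Fintype.ofFinite S
  have hA : Submodule.span F (H : Set (S → F)) =
      Subalgebra.toSubmodule (Algebra.adjoin F (H : Set (S → F))) := by
    rw [Algebra.adjoin_eq_span]
    congr 1
    exact (Submonoid.closure_eq H.toSubsemiring.toSubmonoid).symm ▸ rfl
  rw [hA, eq_top_iff]
  intro f _
  set A := Algebra.adjoin F (H : Set (S → F))
  have hcst : ∀ x : F, (fun _ : S => x) ∈ A := fun x => A.algebraMap_mem x
  have hind : ∀ a : S, (Pi.single a 1 : S → F) ∈ A := by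
    intro a
    have hb : ∀ b, b ≠ a → ∃ g ∈ H, g a ≠ g b := by
      intro b hb
      by_contra h
      push Not at h
      exact hb (hsep a b h).symm
    choose! g hg hne using hb
    have e : (Pi.single a 1 : S → F) = ∏ b ∈ Finset.univ.erase a,
        (fun _ => (g b a - g b b)⁻¹) * (g b - fun _ => g b b) := by
      funext m
      simp only [Finset.prod_apply, Pi.mul_apply, Pi.sub_apply]
      by_cases hm : m = a
      · subst hm
        rw [Pi.single_eq_same, Finset.prod_eq_one]
        intro b hb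
        exact inv_mul_cancel₀ (sub_ne_zero.mpr (hne b (Finset.ne_of_mem_erase hb)))
      · rw [Pi.single_eq_of_ne hm]
        exact (Finset.prod_eq_zero (Finset.mem_erase.mpr ⟨hm, Finset.mem_univ m⟩) (by simp)).symm
    rw [e]
    exact A.prod_mem fun b hb => A.mul_mem (hcst _)
      (A.sub_mem (Algebra.subset_adjoin (hg b (Finset.ne_of_mem_erase hb))) (hcst _))
  have : f = ∑ a, (fun _ : S => f a) * (Pi.single a 1 : S → F) := by
    funext m; simp [Finset.sum_apply, Pi.single_apply]
  rw [this]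
  exact A.sum_mem fun a _ => A.mul_mem (hcst _) (hind a)

/-- An auxiliary finite étale set. -/
structure EtaleSet (ℓ : ℕ) where
  /-- the set -/
  Θ : Type
  [finite : Finite Θ]
  [nonempty : Nonempty Θ]
  /-- the Galois action -/
  act : (AlgebraicClosure ℚ ≃ₐ[ℚ] AlgebraicClosure ℚ) → Θ → Θ
  /-- the functions -/
  B : Subalgebra (Zl ℓ) (Θ → AlgebraicClosure ℚ)
  equiv : ∀ f ∈ B, IsEquiv act f
  integral : ∀ f ∈ B, ∀ θ, IsIntegral (Zl ℓ) (f θ)
  separates : ∀ v : Pl ℓ, ∀ θ θ', (∀ f ∈ B, red v.A (f θ) = red v.A (f θ')) → θ = θ'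

attribute [instance] EtaleSet.finite EtaleSet.nonempty

variable {ℓ : ℕ} [Fact ℓ.Prime]

theorem isIntegral_mem (v : Pl ℓ) {x : Qbar} (hx : IsIntegral (Zl ℓ) x) : x ∈ v.A :=
  mem_of_isIntegral v.over hx

/-- Evaluation with values in the valuation ring. -/
def evO {S : Type*} (K : Subalgebra (Zl ℓ) (S → Qbar)) (hK : ∀ f ∈ K, ∀ s, IsIntegral (Zl ℓ) (f s))
    (v : Pl ℓ) (s : S) : K →ₐ[Zl ℓ] v.O :=
  { (((Pi.evalAlgHom (Zl ℓ) (fun _ : S => Qbar) s).comp K.val).toRingHom.codRestrict
      v.A.toSubring fun f => isIntegral_mem v (hK f.1 f.2 s)) with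
    commutes' := fun _ => Subtype.ext rfl }

/-- Evaluation followed by reduction. -/
def redHom {S : Type*} (K : Subalgebra (Zl ℓ) (S → Qbar))
    (hK : ∀ f ∈ K, ∀ s, IsIntegral (Zl ℓ) (f s))
    (v : Pl ℓ) : K →ₐ[Zl ℓ] (S → v.k) :=
  AlgHom.pi fun s => v.res.comp (evO K hK v s)

theorem redHom_apply {S : Type*} (K : Subalgebra (Zl ℓ) (S → Qbar))
    (hK : ∀ f ∈ K, ∀ s, IsIntegral (Zl ℓ) (f s)) (v : Pl ℓ) (f : K) (s : S) :
    redHom K hK v f s = red v.A ((f : S → Qbar) s) := v.res_apply _

namespace EtaleSet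

variable (E : EtaleSet ℓ)

theorem exists_place : Nonempty (Pl ℓ) := by
  obtain ⟨A, hA⟩ := Gal.exists_liesOverPrime (Fact.out : ℓ.Prime)
  exact ⟨⟨A, hA⟩⟩

theorem separates_char0 (θ θ' : E.Θ) (h : ∀ f ∈ E.B, f θ = f θ') : θ = θ' := by
  obtain ⟨v⟩ := exists_place (ℓ := ℓ)
  exact E.separates v θ θ' fun f hf => by rw [h f hf]

theorem exists_basis :
    ∃ (ι : Type) (_ : Fintype ι) (_ : DecidableEq ι) (b : Module.Basis ι (Zl ℓ) E.B),
      LinearIndependent Qbar (fun i => (b i : E.Θ → Qbar)) ∧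
        ⊤ ≤ Submodule.span Qbar (Set.range fun i => (b i : E.Θ → Qbar)) := by
  classical
  obtain ⟨ι, b, hb⟩ := qindep_val E.B E.equiv E.integral
  have : Finite ι := hb.finite
  refine ⟨ι, Fintype.ofFinite ι, inferInstance, b, hb, ?_⟩
  rw [← span_eq_top_of_separates E.B E.separates_char0, Submodule.span_le]
  intro f hf
  have hmem : (⟨f, hf⟩ : E.B) ∈ Submodule.span (Zl ℓ) (Set.range b) := by
    rw [b.span_eq]; trivial
  have h2 := Submodule.apply_mem_span_image_of_mem_span E.B.val.toLinearMap hmem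
  rw [← Set.range_comp] at h2
  exact Submodule.span_le_restrictScalars (Zl ℓ) Qbar _ h2

/-- A basis of the functions of an étale set stays independent modulo a place. -/
theorem red_basis_indep (v : Pl ℓ) {ι : Type} [Fintype ι] (b : Module.Basis ι (Zl ℓ) E.B)
    (hb : LinearIndependent Qbar fun i => (b i : E.Θ → Qbar))
    (hspan : ⊤ ≤ Submodule.span Qbar (Set.range fun i => (b i : E.Θ → Qbar))) :
    LinearIndependent v.k fun j => fun θ => red v.A ((b j : E.Θ → Qbar) θ) := by
  classical
  let := Fintype.ofFinite E.Θ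
  let Bb : Module.Basis ι Qbar (E.Θ → Qbar) := Module.Basis.mk hb hspan
  have hcard := Module.finrank_eq_card_basis Bb
  rw [Module.finrank_fintype_fun_eq_card] at hcard
  refine linearIndependent_of_top_le_span_of_card_eq_finrank ?_ (by
    rw [Module.finrank_fintype_fun_eq_card]; exact hcard.symm)
  rw [← span_eq_top_of_separates (redHom E.B E.integral v).range (fun θ θ' h =>
      E.separates v θ θ' fun f hf =>
        (redHom_apply E.B E.integral v ⟨f, hf⟩ θ).symm.trans
          ((h _ ⟨⟨f, hf⟩, rfl⟩).trans (redHom_apply E.B E.integral v ⟨f, hf⟩ θ'))),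
    Submodule.span_le]
  rintro _ ⟨f, rfl⟩
  have h1 : (redHom E.B E.integral v).toLinearMap f ∈
      Submodule.span (Zl ℓ) ((redHom E.B E.integral v).toLinearMap '' Set.range b) :=
    Submodule.apply_mem_span_image_of_mem_span _ (by rw [b.span_eq]; trivial)
  rw [← Set.range_comp] at h1
  have h2 := Submodule.span_le_restrictScalars (Zl ℓ) v.k _ h1
  have he : ((redHom E.B E.integral v).toLinearMap ∘ b) =
      fun j => fun θ => red v.A ((b j : E.Θ → Qbar) θ) :=
    funext fun j => funext fun θ => redHom_apply E.B E.integral v (b j) θ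
  rw [he] at h2
  exact h2

/-- An integral equivariant function on `M × Θ` has integral equivariant coefficients. -/
theorem exists_coeff {M : Type} {act : Gal0 → M → M} {ι : Type} [Fintype ι] [DecidableEq ι]
    (b : Module.Basis ι (Zl ℓ) E.B) (hb : LinearIndependent Qbar (fun i => (b i : E.Θ → Qbar)))
    (hspan : ⊤ ≤ Submodule.span Qbar (Set.range fun i => (b i : E.Θ → Qbar)))
    {F : M × E.Θ → Qbar} (hF : IsEquiv (fun (σ : Gal0) (p : M × E.Θ) => (act σ p.1, E.act σ p.2)) F)
    (hFint : ∀ p, IsIntegral (Zl ℓ) (F p)) :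
    ∃ y : ι → M → Qbar, (∀ i, IsEquiv act (y i)) ∧ (∀ i a, IsIntegral (Zl ℓ) (y i a)) ∧
      ∀ a θ, F (a, θ) = ∑ i, y i a * (b i : E.Θ → Qbar) θ := by
  classical
  let Bb : Module.Basis ι Qbar (E.Θ → Qbar) := Module.Basis.mk hb hspan
  have hBb : ∀ i, Bb i = (b i : E.Θ → Qbar) := fun i => Module.Basis.mk_apply hb hspan i
  set y : ι → M → Qbar := fun i a => Bb.repr (fun θ => F (a, θ)) i
  have hy : ∀ a θ, F (a, θ) = ∑ i, y i a * (b i : E.Θ → Qbar) θ := by
    intro a θ
    have := congrFun (Bb.sum_repr fun θ => F (a, θ)) θ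
    rw [← this, Finset.sum_apply]
    exact Finset.sum_congr rfl fun i _ => by rw [Pi.smul_apply, hBb, smul_eq_mul]
  refine ⟨y, fun i σ a => ?_, fun i a => ?_, hy⟩
  · have h0 : ∀ θ, ∑ j, (y j (act σ a) - σ (y j a)) * (b j : E.Θ → Qbar) θ = 0 := by
      intro θ
      have hback : ∀ j, (b j : E.Θ → Qbar) (E.act σ (E.act σ⁻¹ θ)) = (b j : E.Θ → Qbar) θ := by
        intro j
        rw [E.equiv _ (b j).2 σ, E.equiv _ (b j).2 σ⁻¹]
        exact AlgEquiv.apply_symm_apply σ _
      have e := hF σ (a, E.act σ⁻¹ θ)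
      simp only [hy, map_sum, map_mul, ← E.equiv _ (b _).2 σ, hback] at e
      simp only [sub_mul, Finset.sum_sub_distrib, e, sub_self]
    exact sub_eq_zero.mp (linearIndependent_iff'.mp hb Finset.univ
      (fun j => y j (act σ a) - σ (y j a)) (funext fun θ => by simpa using h0 θ) i
      (Finset.mem_univ i))
  · refine isIntegral_of_forall_mem fun A hA => ?_
    obtain ⟨v, rfl⟩ : ∃ v : Pl ℓ, v.A = A := ⟨⟨A, hA⟩, rfl⟩
    show y i a ∈ v.A
    let := Fintype.ofFinite E.Θ
    -- the reductions of the basis span, so the coefficients are integral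
    have hbA : ∀ j θ, (b j : E.Θ → Qbar) θ ∈ v.A :=
      fun j θ => isIntegral_mem v (E.integral _ (b j).2 θ)
    let e : E.Θ ≃ ι := Fintype.equivOfCardEq (by
      have := Module.finrank_eq_card_basis Bb
      rw [Module.finrank_fintype_fun_eq_card] at this
      exact this)
    let N : Matrix ι ι Qbar := Matrix.of fun r j => (b j : E.Θ → Qbar) (e.symm r)
    obtain ⟨hdet, hred⟩ := det_mem (A := v.A) (M := N) fun r j => hbA j _
    have hcols := E.red_basis_indep v b hb hspan
    have hu : IsVUnit v.A N.det := by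
      refine (red_ne_zero_iff hdet).mp ?_
      rw [hred]
      refine IsUnit.ne_zero ((Matrix.isUnit_iff_isUnit_det _).mp
        (Matrix.linearIndependent_cols_iff_isUnit.mp ?_))
      exact hcols.map' (LinearEquiv.funCongrLeft v.k v.k e.symm).toLinearMap
        (LinearEquiv.ker _)
    have hsolve : (fun j => y j a) = N⁻¹.mulVec (fun r => F (a, e.symm r)) := by
      have h1 : N.mulVec (fun j => y j a) = fun r => F (a, e.symm r) := by
        funext r
        rw [hy, Matrix.mulVec, dotProduct]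
        exact Finset.sum_congr rfl fun j _ => mul_comm _ _
      rw [← h1, Matrix.mulVec_mulVec, Matrix.nonsing_inv_mul _ hu.ne_zero.isUnit,
        Matrix.one_mulVec]
    have := congrFun hsolve i
    rw [this, Matrix.mulVec, dotProduct]
    refine sum_mem' fun r _ => v.A.mul_mem _ _ ?_ (isIntegral_mem v (hFint _))
    rw [Matrix.inv_def, Matrix.smul_apply, Ring.inverse_eq_inv, smul_eq_mul]
    refine v.A.mul_mem _ _ hu.inv.mem ?_
    rw [Matrix.adjugate_apply]
    refine (det_mem (A := v.A) fun r' j' => ?_).1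
    by_cases hr : r' = r
    · subst hr
      rw [Matrix.updateRow_self, Pi.single_apply]
      split_ifs; exacts [v.A.one_mem, v.A.zero_mem]
    · rw [Matrix.updateRow_ne hr]
      exact hbA j' _

omit [Fact (Nat.Prime ℓ)] in
/-- A combination of the basis of `B` lies in `H ⊗ B` only if the coefficients are in `H`. -/
theorem coeff_mem {T : Type} {H : Subalgebra (Zl ℓ) (T → Qbar)} {ι : Type} [Fintype ι]
    (b : Module.Basis ι (Zl ℓ) E.B) (hb : LinearIndependent Qbar (fun i => (b i : E.Θ → Qbar)))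
    {y : ι → T → Qbar}
    (hG : (fun p : T × E.Θ => ∑ i, y i p.1 * (b i : E.Θ → Qbar) p.2) ∈ prodAlg H E.B) (i : ι) :
    y i ∈ H := by
  classical
  obtain ⟨t, ht⟩ := hG
  set c := TensorProduct.equivFinsuppOfBasisRight b t
  have ht' : ∀ p, pairHom H.val E.B.val t p =
      ∑ j, (c j : T → Qbar) p.1 * (b j : E.Θ → Qbar) p.2 := by
    intro p
    conv_lhs => rw [← (TensorProduct.equivFinsuppOfBasisRight b).symm_apply_apply t,
      TensorProduct.equivFinsuppOfBasisRight_symm_apply]
    rw [Finsupp.sum_fintype _ _ (fun j => by simp), map_sum, Finset.sum_apply]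
    exact Finset.sum_congr rfl fun j _ => pairHom_tmul H.val E.B.val _ _ p
  have : y i = (c i : T → Qbar) := by
    funext a
    refine sub_eq_zero.mp (linearIndependent_iff'.mp hb Finset.univ
      (fun j => y j a - (c j : T → Qbar) a) (funext fun θ => ?_) i (Finset.mem_univ i))
    simp only [Finset.sum_apply, Pi.smul_apply, smul_eq_mul, sub_mul, Finset.sum_sub_distrib,
      Pi.zero_apply, sub_eq_zero]
    exact (congrFun ht (a, θ)).symm.trans (ht' (a, θ))
  rw [this]
  exact (c i).2

omit [Fact (Nat.Prime ℓ)] in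
/-- The algebra generated by the coefficients of separating functions is a model. -/
theorem isModelAlg_adjoin_coeff {M : Type} [AddCommGroup M] {act : Gal0 → M → M}
    {n : Type} {F : n → M × E.Θ → Qbar} {ι : Type} [Fintype ι]
    (b : Module.Basis ι (Zl ℓ) E.B) (hb : LinearIndependent Qbar (fun i => (b i : E.Θ → Qbar)))
    {y : n → ι → M → Qbar} (hye : ∀ i j, IsEquiv act (y i j))
    (hyi : ∀ i j a, IsIntegral (Zl ℓ) (y i j a))
    (hy : ∀ i a θ, F i (a, θ) = ∑ j, y i j a * (b j : E.Θ → Qbar) θ)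
    (hsep : ∀ a a' : M, (∀ i θ, F i (a, θ) = F i (a', θ)) → a = a')
    (hreg : ∀ K : Subalgebra (Zl ℓ) ((M × M) × E.Θ → Qbar),
      (∀ f ∈ K, ∀ p, IsIntegral (Zl ℓ) (f p)) →
      (∀ f ∈ K, IsEquiv
        (fun (σ : Gal0) (p : (M × M) × E.Θ) => ((act σ p.1.1, act σ p.1.2), E.act σ p.2)) f) →
      (∀ i, (fun p => F i (p.1.1, p.2)) ∈ K) → (∀ i, (fun p => F i (p.1.2, p.2)) ∈ K) →
      (∀ f ∈ E.B, (fun p => f p.2) ∈ K) → ∀ i, (fun p => F i (p.1.1 + p.1.2, p.2)) ∈ K) :
    IsModelAlg ℓ M act (Algebra.adjoin (Zl ℓ) (Set.range fun p : n × ι => y p.1 p.2)) := by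
  classical
  set H : Subalgebra (Zl ℓ) (M → Qbar) :=
    Algebra.adjoin (Zl ℓ) (Set.range fun p : n × ι => y p.1 p.2)
  have hHy : ∀ i j, y i j ∈ H := fun i j => Algebra.subset_adjoin ⟨(i, j), rfl⟩
  have hHe : ∀ f ∈ H, IsEquiv act f := by
    intro f hf
    induction hf using Algebra.adjoin_induction with
    | mem x hx => obtain ⟨p, rfl⟩ := hx; exact hye p.1 p.2
    | algebraMap z => exact isEquiv_algebraMap act z
    | add x x' _ _ hx hx' => exact hx.add hx'
    | mul x x' _ _ hx hx' => exact hx.mul hx'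
  have hHi : ∀ f ∈ H, ∀ a, IsIntegral (Zl ℓ) (f a) := by
    intro f hf
    induction hf using Algebra.adjoin_induction with
    | mem x hx => obtain ⟨p, rfl⟩ := hx; exact hyi p.1 p.2
    | algebraMap z => exact fun a => isIntegral_algebraMap
    | add x x' _ _ hx hx' => exact fun a => (hx a).add (hx' a)
    | mul x x' _ _ hx hx' => exact fun a => (hx a).mul (hx' a)
  refine ⟨hHe, hHi, fun a a' h => hsep a a' fun i θ => ?_, ?_⟩
  · rw [hy, hy]
    exact Finset.sum_congr rfl fun j _ => by rw [h _ (hHy i j)]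
  -- `f ↦ f (a + b)`
  set K := prodAlg (prodAlg H H) E.B
  have hKi : ∀ f ∈ K, ∀ p, IsIntegral (Zl ℓ) (f p) := fun f hf =>
    prodAlg_induction (C := fun F => ∀ p, IsIntegral (Zl ℓ) (F p)) hf (fun _ => isIntegral_zero)
      (fun _ _ h h' p => (h p).add (h' p)) fun u hu w hw p =>
        (prodAlg_induction (C := fun F => ∀ p, IsIntegral (Zl ℓ) (F p)) hu
          (fun _ => isIntegral_zero)
          (fun _ _ h h' p => (h p).add (h' p))
          (fun u hu w hw p => (hHi u hu _).mul (hHi w hw _)) _).mul (E.integral w hw _)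
  have hKe : ∀ f ∈ K, IsEquiv
      (fun (σ : Gal0) (p : (M × M) × E.Θ) => ((act σ p.1.1, act σ p.1.2), E.act σ p.2)) f :=
    fun f hf =>
    prodAlg_induction (C := IsEquiv fun (σ : Gal0) (p : (M × M) × E.Θ) =>
        ((act σ p.1.1, act σ p.1.2), E.act σ p.2)) hf
      (fun σ p => by simp) (fun _ _ h h' => h.add h') fun u hu w hw σ p => by
        have h1 := prodAlg_induction
          (C := IsEquiv fun (σ : Gal0) (p : M × M) => (act σ p.1, act σ p.2)) hu
          (fun σ p => by simp) (fun _ _ h h' => h.add h')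
          (fun u hu w hw σ p => by simp [hHe u hu σ p.1, hHe w hw σ p.2])
        simp [h1 σ p.1, E.equiv w hw σ p.2]
  have hF1 : ∀ i, (fun p : (M × M) × E.Θ => F i (p.1.1, p.2)) ∈ K := fun i => by
    rw [show (fun p : (M × M) × E.Θ => F i (p.1.1, p.2)) =
      ∑ j, fun p : (M × M) × E.Θ => y i j p.1.1 * (b j : E.Θ → Qbar) p.2 from
      funext fun p => by rw [hy, Finset.sum_apply]]
    refine K.sum_mem fun j _ => mul_mem_prodAlg (f := fun p : M × M => y i j p.1) ?_ (b j).2
    simpa using mul_mem_prodAlg (hHy i j) H.one_mem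
  have hF2 : ∀ i, (fun p : (M × M) × E.Θ => F i (p.1.2, p.2)) ∈ K := fun i => by
    rw [show (fun p : (M × M) × E.Θ => F i (p.1.2, p.2)) =
      ∑ j, fun p : (M × M) × E.Θ => y i j p.1.2 * (b j : E.Θ → Qbar) p.2 from
      funext fun p => by rw [hy, Finset.sum_apply]]
    refine K.sum_mem fun j _ => mul_mem_prodAlg (f := fun p : M × M => y i j p.2) ?_ (b j).2
    simpa using mul_mem_prodAlg H.one_mem (hHy i j)
  have hFB : ∀ f ∈ E.B, (fun p : (M × M) × E.Θ => f p.2) ∈ K := fun f hf => by
    simpa using mul_mem_prodAlg (prodAlg H H).one_mem hf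
  intro f hf
  induction hf using Algebra.adjoin_induction with
  | mem x hx =>
    obtain ⟨⟨i, j⟩, rfl⟩ := hx
    refine E.coeff_mem b hb (y := fun j (p : M × M) => y i j (p.1 + p.2)) ?_ j
    have := hreg K hKi hKe hF1 hF2 hFB i
    simpa [hy] using this
  | algebraMap z =>
    exact (prodAlg H H).algebraMap_mem z
  | add x x' _ _ hx hx' => exact (prodAlg H H).add_mem hx hx'
  | mul x x' _ _ hx hx' => exact (prodAlg H H).mul_mem hx hx'

/-- A family of equivariant integral functions on `M × Θ` separating `M`, on which addition is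
regular, gives `M` a finite flat model. -/
theorem hasFlatModel {M : Type} [AddCommGroup M] [Finite M] {act : Gal0 → M → M}
    (hact0 : ∀ σ, act σ 0 = 0) {n : Type}
    (F : n → M × E.Θ → Qbar)
    (hFeq : ∀ i, IsEquiv (fun (σ : Gal0) (p : M × E.Θ) => (act σ p.1, E.act σ p.2)) (F i))
    (hFint : ∀ i p, IsIntegral (Zl ℓ) (F i p))
    (hsep : ∀ a a' : M, (∀ i θ, F i (a, θ) = F i (a', θ)) → a = a')
    (hreg : ∀ K : Subalgebra (Zl ℓ) ((M × M) × E.Θ → Qbar),
      (∀ f ∈ K, ∀ p, IsIntegral (Zl ℓ) (f p)) →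
      (∀ f ∈ K, IsEquiv
        (fun (σ : Gal0) (p : (M × M) × E.Θ) => ((act σ p.1.1, act σ p.1.2), E.act σ p.2)) f) →
      (∀ i, (fun p => F i (p.1.1, p.2)) ∈ K) → (∀ i, (fun p => F i (p.1.2, p.2)) ∈ K) →
      (∀ f ∈ E.B, (fun p => f p.2) ∈ K) → ∀ i, (fun p => F i (p.1.1 + p.1.2, p.2)) ∈ K) :
    HasFlatModel ℓ M act := by
  classical
  obtain ⟨ι, iι, dι, b, hb, hspan⟩ := E.exists_basis
  choose y hye hyi hy using fun i => E.exists_coeff (act := act) b hb hspan (hFeq i) (hFint i)
  exact IsModelAlg.hasFlatModel (E.isModelAlg_adjoin_coeff b hb hye hyi hy hsep hreg) hact0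

end EtaleSet

end Fermat.Agent.Flat
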