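import Mathlib.Algebra.CharP.Basic
import Mathlib.Algebra.Field.ZMod
import Mathlib.Algebra.Polynomial.AlgebraMap
import Mathlib.RingTheory.DedekindDomain.Factorization
import Mathlib.RingTheory.UniqueFactorizationDomain.Finite
import Fermat.Agent.Flat.PoleIdeal

/-!
# Ramified fibres of a function with a prime pole order

If `x` has as pole order a prime which is nonzero in the field, all but finitely many fibres
of `x` are reduced. This supplies unramified auxiliary points on the special fibres.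
-/

noncomputable section

namespace Fermat.Agent.Flat

namespace PoleBasis

open Module Polynomial

variable {K R : Type*} [Field K] [CommRing R] [Algebra K R] (P : PoleBasis K R)

theorem deg_algebraMap_mul (c : K) (y : R) (hc : c ≠ 0) :
    P.deg (algebraMap K R c * y) = P.deg y := by
  rw [← Algebra.smul_def]
  refine le_antisymm (P.deg_le_iff.mpr (Submodule.smul_mem _ _ (P.mem_L_deg y))) ?_
  refine P.deg_le_iff.mpr ?_
  have h := Submodule.smul_mem (P.L (P.deg (c • y))) c⁻¹ (P.mem_L_deg (c • y))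
  rwa [inv_smul_smul₀ hc] at h

theorem deg_pow {x : R} (hx : x ≠ 0) (i : ℕ) : x ^ i ≠ 0 ∧ P.deg (x ^ i) = i * P.deg x := by
  have := P.noZeroDivisors
  have := P.nontrivial
  induction i with
  | zero => exact ⟨by simp, by simp [P.deg_one]⟩
  | succ i ih =>
    refine ⟨pow_ne_zero _ hx, ?_⟩
    rw [pow_succ, P.deg_mul ih.1 hx, ih.2]
    ring

theorem deg_aeval {x : R} {n : ℕ} (hn : P.deg x = n) (hn0 : 0 < n) {p : K[X]} (hp : p ≠ 0) :
    aeval x p ≠ 0 ∧ P.deg (aeval x p) = p.natDegree * n := by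
  have hx : x ≠ 0 := fun h => by
    have : P.deg x ≤ 0 := P.deg_le_iff.mpr (h ▸ Submodule.zero_mem _)
    omega
  have hmem : ∀ q : K[X], aeval x q ∈ P.L (q.natDegree * n) := fun q => by
    rw [aeval_eq_sum_range]
    refine Submodule.sum_mem _ fun i hi => Submodule.smul_mem _ _ (P.deg_le_iff.mp ?_)
    rw [(P.deg_pow hx i).2, hn]
    exact Nat.mul_le_mul_right _ (Nat.lt_succ_iff.mp (Finset.mem_range.mp hi))
  have hco : P.coef (p.natDegree * n) (aeval x p) ≠ 0 := by
    rw [aeval_eq_sum_range, map_sum, Finset.sum_range_succ, Finset.sum_eq_zero, zero_add, map_smul,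
      smul_eq_mul]
    · refine mul_ne_zero (mt leadingCoeff_eq_zero.mp hp) ?_
      have := P.coef_deg_ne_zero (P.deg_pow hx p.natDegree).1
      rwa [(P.deg_pow hx _).2, hn] at this
    · intro i hi
      rw [map_smul, P.coef_eq_zero_of_deg_lt, smul_zero]
      rw [(P.deg_pow hx i).2, hn]
      exact Nat.mul_lt_mul_of_pos_right (Finset.mem_range.mp hi) hn0
  exact ⟨fun h => hco (by rw [h, map_zero]), P.deg_eq_of (hmem p) hco⟩

/-- Combinations `∑ c i (x) y ^ i` of `Y`-degree `< n` do not vanish. -/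
theorem sum_aeval_mul_pow_ne_zero {x y : R} {n : ℕ} (hn : P.deg x = n) (hn1 : n.Prime)
    (hy : y ≠ 0) (hny : ¬ n ∣ P.deg y) {m : ℕ} (hm : m ≤ n) (c : Fin m → K[X]) (hc : c ≠ 0) :
    ∑ i, aeval x (c i) * y ^ (i : ℕ) ≠ 0 := by
  classical
  have := P.noZeroDivisors
  let D : Fin m → ℕ := fun i => (c i).natDegree * n + i * P.deg y
  have hterm : ∀ i, c i ≠ 0 → aeval x (c i) * y ^ (i : ℕ) ≠ 0 ∧
      P.deg (aeval x (c i) * y ^ (i : ℕ)) = D i := fun i hi => by
    obtain ⟨h1, h2⟩ := P.deg_aeval hn hn1.pos hi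
    obtain ⟨h3, h4⟩ := P.deg_pow hy (i : ℕ)
    exact ⟨mul_ne_zero h1 h3, by rw [P.deg_mul h1 h3, h2, h4]⟩
  have : Fact n.Prime := ⟨hn1⟩
  obtain ⟨i₀, hi₀⟩ := Function.ne_iff.mp hc
  obtain ⟨j, hj, hmax⟩ := Finset.exists_max_image (Finset.univ.filter fun i => c i ≠ 0) D
    ⟨i₀, Finset.mem_filter.mpr ⟨Finset.mem_univ _, hi₀⟩⟩
  rw [Finset.mem_filter] at hj
  intro hsum
  have hcoef := congrArg (P.coef (D j)) hsum
  rw [map_sum, map_zero, Finset.sum_eq_single j] at hcoef
  · have := P.coef_deg_ne_zero (hterm j hj.2).1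
    rw [(hterm j hj.2).2] at this
    exact this hcoef
  · intro i _ hij
    by_cases hi : c i = 0
    · simp [hi]
    refine P.coef_eq_zero_of_deg_lt ?_
    rw [(hterm i hi).2]
    refine lt_of_le_of_ne (hmax i (Finset.mem_filter.mpr ⟨Finset.mem_univ _, hi⟩)) fun e => hij ?_
    have hi' : (i : ℕ) < n := lt_of_lt_of_le i.2 hm
    have hj' : (j : ℕ) < n := lt_of_lt_of_le j.2 hm
    have h1 : (((c i).natDegree * n + i * P.deg y : ℕ) : ZMod n) =
        (((c j).natDegree * n + j * P.deg y : ℕ) : ZMod n) := congrArg _ e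
    push_cast [ZMod.natCast_self] at h1
    simp only [mul_zero, zero_add] at h1
    have h2 : ((i : ℕ) : ZMod n) = ((j : ℕ) : ZMod n) :=
      mul_right_cancel₀ (fun h => hny ((ZMod.natCast_eq_zero_iff _ _).mp h)) h1
    exact Fin.ext (Nat.ModEq.eq_of_lt_of_lt ((ZMod.natCast_eq_natCast_iff _ _ _).mp h2) hi' hj')
  · exact fun h => absurd (Finset.mem_univ j) h

/-- An algebraic relation of `Y`-degree at most `n`. -/
theorem exists_relation {x y : R} {n : ℕ} (hn : P.deg x = n) (hn0 : 0 < n) (hy : y ≠ 0) :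
    ∃ c : Fin (n + 1) → K[X], c ≠ 0 ∧ ∑ i, aeval x (c i) * y ^ (i : ℕ) = 0 := by
  classical
  have hx : x ≠ 0 := fun h => by
    have : P.deg x ≤ 0 := P.deg_le_iff.mpr (h ▸ Submodule.zero_mem _)
    omega
  set N := n * P.deg y + 2
  set M := N * n + n * P.deg y
  let f : Fin (n + 1) × Fin N → P.L M := fun p => ⟨x ^ (p.2 : ℕ) * y ^ (p.1 : ℕ), by
    refine P.L_mono ?_ (P.mul_mem_L (P.mem_L_deg _) (P.mem_L_deg _))
    rw [(P.deg_pow hx _).2, (P.deg_pow hy _).2, hn]
    exact Nat.add_le_add (Nat.mul_le_mul_right _ p.2.2.le)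
      (Nat.mul_le_mul_right _ (Nat.lt_succ_iff.mp p.1.2))⟩
  have hdim : finrank K (P.L M) ≤ M + 1 := by
    rw [P.finrank_eq_ncard]
    refine (Set.ncard_le_ncard (t := Set.Iic M) ?_ (Set.finite_Iic M)).trans ?_
    · rintro _ ⟨z, hz, -, rfl⟩; exact P.deg_le_iff.mpr hz
    · rw [← Nat.card_coe_set_eq]; simp
  have hdep : ¬ LinearIndependent K f := fun h => by
    have h1 := h.fintype_card_le_finrank
    rw [Fintype.card_prod, Fintype.card_fin, Fintype.card_fin] at h1
    have : (n + 1) * N = N * n + N := by ring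
    omega
  obtain ⟨a, ha, ⟨i₀, j₀⟩, hne⟩ := Fintype.not_linearIndependent_iff.mp hdep
  refine ⟨fun i => ∑ j : Fin N, monomial (j : ℕ) (a (i, j)), fun h => hne ?_, ?_⟩
  · have := congrArg (fun q => coeff q (j₀ : ℕ)) (congrFun h i₀)
    simp only [finsetSum_coeff, coeff_monomial, Pi.zero_apply, coeff_zero, ← Fin.ext_iff,
      Finset.sum_ite_eq', Finset.mem_univ, if_true] at this
    exact this
  · have h := congrArg Subtype.val ha
    simp only [AddSubmonoidClass.coe_finsetSum, SetLike.val_smul, ZeroMemClass.coe_zero,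
      Fintype.sum_prod_type, f] at h
    rw [← h]
    refine Finset.sum_congr rfl fun i _ => ?_
    rw [map_sum, Finset.sum_mul]
    exact Finset.sum_congr rfl fun j _ => by
      rw [aeval_monomial, Algebra.smul_def, mul_assoc]

include P in
/-- Where `P'(y)` does not vanish, `y` is constant to first order along a ramified fibre. -/
theorem mem_add_sq [IsAlgClosed K] {x y : R} {m : ℕ} (c : Fin (m + 1) → K[X])
    (hrel : ∑ i, aeval x (c i) * y ^ (i : ℕ) = 0) {Q : Ideal R} (hQ : Q.IsMaximal) (hQ0 : Q ≠ ⊥)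
    (hD : ∑ i, aeval x (c i) * ((i : ℕ) * y ^ ((i : ℕ) - 1)) ∉ Q) {α : K}
    (hα : x - algebraMap K R α ∈ Q ^ 2) : ∃ β : K, y - algebraMap K R β ∈ Q ^ 2 := by
  obtain ⟨β, hβ⟩ := P.exists_const hQ hQ0 y
  set ε := y - algebraMap K R β
  refine ⟨β, ?_⟩
  have hx2 : ∀ p : K[X], aeval x p - algebraMap K R (p.eval α) ∈ Q ^ 2 := fun p => by
    refine Ideal.mem_of_dvd _ ?_ hα
    have := sub_dvd_eval_sub x (algebraMap K R α) (p.map (algebraMap K R))
    rwa [eval_map_algebraMap, eval_map_algebraMap, aeval_algebraMap_apply,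
      coe_aeval_eq_eval] at this
  -- Taylor expansion to first order
  have hpow : ∀ i : ℕ, y ^ i - algebraMap K R (β ^ i) - (i : R) * algebraMap K R (β ^ (i - 1)) * ε ∈
      Q ^ 2 := by
    intro i
    have he2 : ε * ε ∈ Q ^ 2 := by rw [pow_two]; exact Ideal.mul_mem_mul hβ hβ
    induction i with
    | zero => simp
    | succ i ih =>
      rcases Nat.eq_zero_or_pos i with rfl | hi
      · simp [ε]
      have e : y ^ (i + 1) - algebraMap K R (β ^ (i + 1)) -
          ((i + 1 : ℕ) : R) * algebraMap K R (β ^ (i + 1 - 1)) * ε =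
          y * (y ^ i - algebraMap K R (β ^ i) - (i : R) * algebraMap K R (β ^ (i - 1)) * ε) +
          (i : R) * algebraMap K R (β ^ (i - 1)) * (ε * ε) := by
        obtain ⟨k, rfl⟩ : ∃ k, i = k + 1 := ⟨i - 1, by omega⟩
        simp only [map_pow, ε, Nat.add_sub_cancel]
        push_cast
        ring
      rw [e]
      exact AddMemClass.add_mem (Ideal.mul_mem_left _ _ ih) (Ideal.mul_mem_left _ _ he2)
  set A := ∑ i, (c i).eval α * β ^ (i : ℕ)
  set B := ∑ i, (c i).eval α * ((i : ℕ) * β ^ ((i : ℕ) - 1))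
  have h1 : algebraMap K R A + algebraMap K R B * ε ∈ Q ^ 2 := by
    have e : algebraMap K R A + algebraMap K R B * ε = ∑ i,
        ((algebraMap K R ((c i).eval α) - aeval x (c i)) * y ^ (i : ℕ) -
          algebraMap K R ((c i).eval α) * (y ^ (i : ℕ) - algebraMap K R (β ^ (i : ℕ)) -
            ((i : ℕ) : R) * algebraMap K R (β ^ ((i : ℕ) - 1)) * ε)) +
        ∑ i, aeval x (c i) * y ^ (i : ℕ) := by
      rw [← Finset.sum_add_distrib]
      simp only [A, B, map_sum, map_mul, map_natCast, Finset.sum_mul]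
      rw [← Finset.sum_add_distrib]
      exact Finset.sum_congr rfl fun i _ => by ring
    rw [e, hrel, add_zero]
    refine Ideal.sum_mem _ fun i _ => sub_mem (Ideal.mul_mem_right _ _ ?_)
      (Ideal.mul_mem_left _ _ (hpow i))
    rw [← neg_sub]
    exact neg_mem (hx2 _)
  have hQ2 : Q ^ 2 ≤ Q := Ideal.pow_le_self (by norm_num)
  have hA : A = 0 := eq_zero_of_algebraMap_mem hQ.ne_top (by
    simpa using sub_mem (hQ2 h1) (Ideal.mul_mem_left _ (algebraMap K R B) hβ))
  have hB : B ≠ 0 := by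
    intro hB
    refine hD ?_
    have e : ∑ i, aeval x (c i) * ((i : ℕ) * y ^ ((i : ℕ) - 1)) = ∑ i,
        ((aeval x (c i) - algebraMap K R ((c i).eval α)) * ((i : ℕ) * y ^ ((i : ℕ) - 1)) +
          algebraMap K R ((c i).eval α) * (i : ℕ) *
            (y ^ ((i : ℕ) - 1) - algebraMap K R (β ^ ((i : ℕ) - 1)))) + algebraMap K R B := by
      simp only [B, map_sum, map_mul, map_natCast]
      rw [← Finset.sum_add_distrib]
      exact Finset.sum_congr rfl fun i _ => by ring
    rw [e, hB, map_zero, add_zero]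
    refine Ideal.sum_mem _ fun i _ => AddMemClass.add_mem (Ideal.mul_mem_right _ _ (hQ2 (hx2 _)))
      (Ideal.mul_mem_left _ _ (Ideal.mem_of_dvd _ ?_ hβ))
    rw [map_pow]
    exact sub_dvd_pow_sub_pow y (algebraMap K R β) _
  rw [hA, map_zero, zero_add] at h1
  have := Ideal.mul_mem_left (Q ^ 2) (algebraMap K R B⁻¹) h1
  rwa [← mul_assoc, ← map_mul, inv_mul_cancel₀ hB, map_one, one_mul] at this

/-- All but finitely many fibres of `x` are reduced. -/
theorem finite_ramified [IsAlgClosed K] [IsDedekindDomain R] {x : R} {n : ℕ} (hn : P.deg x = n)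
    (hn1 : n.Prime) (hK : (n : K) ≠ 0) :
    {α : K | ∃ Q : Ideal R, Q.IsMaximal ∧ x - algebraMap K R α ∈ Q ^ 2}.Finite := by
  classical
  have := P.noZeroDivisors
  have := P.nontrivial
  let ι : Set ℕ := {d | d < 2 * P.g + n ∧ d ∈ P.S ∧ ¬ n ∣ d}
  have hι : ι.Finite := (Set.finite_Iio (2 * P.g + n)).subset fun d hd => hd.1
  have hex : ∀ d : ι, ∃ c : Fin (n + 1) → K[X],
      ∑ i, aeval x (c i) * P.b ⟨d, d.2.2.1⟩ ^ (i : ℕ) = 0 ∧
      ∑ i, aeval x (c i) * ((i : ℕ) * P.b ⟨d, d.2.2.1⟩ ^ ((i : ℕ) - 1)) ≠ 0 := by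
    intro d
    set y := P.b ⟨d, d.2.2.1⟩
    have hy : y ≠ 0 := P.b.ne_zero _
    have hny : ¬ n ∣ P.deg y := by rw [P.deg_b]; exact d.2.2.2
    obtain ⟨c, hc, hrel⟩ := P.exists_relation hn hn1.pos hy
    refine ⟨c, hrel, ?_⟩
    have htop : c (Fin.last n) ≠ 0 := by
      intro h0
      refine P.sum_aeval_mul_pow_ne_zero hn hn1 hy hny le_rfl (fun i => c i.castSucc)
        (fun h => hc ?_) ?_
      · funext i
        induction i using Fin.lastCases with
        | last => exact h0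
        | cast i => exact congrFun h i
      · rw [Fin.sum_univ_castSucc, h0, map_zero, zero_mul, add_zero] at hrel
        exact hrel
    have e : ∑ i, aeval x (c i) * ((i : ℕ) * y ^ ((i : ℕ) - 1)) =
        ∑ i : Fin n, aeval x (((i : ℕ) + 1 : K[X]) * c i.succ) * y ^ (i : ℕ) := by
      rw [Fin.sum_univ_succ, Fin.val_zero, Nat.cast_zero, zero_mul, mul_zero, zero_add]
      exact Finset.sum_congr rfl fun i _ => by simp; ring
    rw [e]
    refine P.sum_aeval_mul_pow_ne_zero hn hn1 hy hny le_rfl _ (fun h => ?_)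
    have := congrFun h ⟨n - 1, by have := hn1.pos; omega⟩
    simp only [Pi.zero_apply, mul_eq_zero] at this
    have hsucc : (⟨n - 1, by have := hn1.pos; omega⟩ : Fin n).succ = Fin.last n :=
      Fin.ext (by simp; have := hn1.pos; omega)
    rw [hsucc] at this
    refine this.elim (fun h0 => hK ?_) htop
    have h1 : ((n : K[X])) = 0 := by
      rw [← h0]
      have : n - 1 + 1 = n := by have := hn1.pos; omega
      exact_mod_cast congrArg (Nat.cast (R := K[X])) this.symm
    rw [← C_eq_natCast, C_eq_zero] at h1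
    exact h1
  choose c hrel hD using hex
  let T : Set (Ideal R) := ⋃ d : ι, {Q | Q.IsMaximal ∧
    ∑ i, aeval x (c d i) * ((i : ℕ) * P.b ⟨d, d.2.2.1⟩ ^ ((i : ℕ) - 1)) ∈ Q}
  have := hι.to_subtype
  have hT : T.Finite := Set.finite_iUnion fun d => by
    have : Finite {I : Ideal R | I ∣ Ideal.span
        {∑ i, aeval x (c d i) * ((i : ℕ) * P.b ⟨d, d.2.2.1⟩ ^ ((i : ℕ) - 1))}} :=
      (UniqueFactorizationMonoid.fintypeSubtypeDvd _ (by simpa using hD d)).finite
    exact (Set.finite_coe_iff.mp this).subset fun Q hQ =>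
      Ideal.dvd_iff_le.mpr ((Ideal.span_singleton_le_iff_mem Q).mpr hQ.2)
  refine Set.Finite.subset (Set.Finite.biUnion
      (t := fun Q => {α : K | Q.IsMaximal ∧ x - algebraMap K R α ∈ Q}) hT
    fun Q _ => Set.Subsingleton.finite ?_) ?_
  · exact fun a ⟨hQ, ha⟩ b ⟨_, hb⟩ => eq_of_sub_algebraMap_mem hQ.ne_top ha hb
  rintro α ⟨Q, hQ, hα⟩
  refine Set.mem_biUnion (x := Q) ?_ ⟨hQ, Ideal.pow_le_self (by norm_num) hα⟩
  by_contra hnot
  have hQ0 : Q ≠ ⊥ := by
    intro h0
    rw [h0, Ideal.zero_eq_bot.symm, zero_pow (by norm_num), Ideal.zero_eq_bot,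
      Submodule.mem_bot, sub_eq_zero] at hα
    have : P.deg x ≤ 0 := by
      rw [hα, P.deg_le_iff, Algebra.algebraMap_eq_smul_one]
      exact Submodule.smul_mem _ _ (P.deg_le_iff.mp P.deg_one.le)
    have := hn1.pos
    omega
  have hb : ∀ d : ι, ∃ β : K, P.b ⟨d, d.2.2.1⟩ - algebraMap K R β ∈ Q ^ 2 := fun d =>
    P.mem_add_sq (c d) (hrel d) hQ hQ0
      (fun h => hnot (Set.mem_iUnion.mpr ⟨d, hQ, h⟩)) hα
  let T' : Subalgebra K R :=
    { carrier := {z | ∃ β : K, z - algebraMap K R β ∈ Q ^ 2}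
      mul_mem' := by
        rintro z w ⟨a, ha⟩ ⟨b, hb⟩
        refine ⟨a * b, ?_⟩
        have e : z * w - algebraMap K R (a * b) = (z - algebraMap K R a) * w +
            algebraMap K R a * (w - algebraMap K R b) := by rw [map_mul]; ring
        rw [e]; exact AddMemClass.add_mem (Ideal.mul_mem_right _ _ ha) (Ideal.mul_mem_left _ _ hb)
      add_mem' := by
        rintro z w ⟨a, ha⟩ ⟨b, hb⟩
        refine ⟨a + b, ?_⟩
        rw [map_add, add_sub_add_comm]; exact AddMemClass.add_mem ha hb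
      algebraMap_mem' := fun a => ⟨a, by rw [sub_self]; exact ZeroMemClass.zero_mem _⟩ }
  have hx : x ∈ T' := ⟨α, hα⟩
  have hx0 : x ≠ 0 := fun h => by
    have : P.deg x ≤ 0 := P.deg_le_iff.mpr (h ▸ Submodule.zero_mem _)
    have := hn1.pos
    omega
  have htop : ∀ d, ∀ z : R, z ≠ 0 → P.deg z = d → z ∈ T' := by
    intro d
    induction d using Nat.strong_induction_on with
    | _ d ih =>
      intro z hz hzd
      obtain ⟨w, hw, hw0, hwd⟩ : ∃ w ∈ T', w ≠ 0 ∧ P.deg w = d := by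
        by_cases hdvd : n ∣ d
        · obtain ⟨k, rfl⟩ := hdvd
          exact ⟨x ^ k, pow_mem hx k, (P.deg_pow hx0 k).1, by rw [(P.deg_pow hx0 k).2, hn]; ring⟩
        by_cases hd : d < 2 * P.g + n
        · exact ⟨_, hb ⟨d, hd, hzd ▸ P.deg_mem hz, hdvd⟩, P.b.ne_zero _, P.deg_b _⟩
        · have hS : d - n ∈ P.S := P.mem_of_two_g_le (by omega)
          refine ⟨x * P.b ⟨d - n, hS⟩, mul_mem hx (ih (d - n) (by have := hn1.pos; omega) _
            (P.b.ne_zero _) (P.deg_b _)), mul_ne_zero hx0 (P.b.ne_zero _), ?_⟩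
          rw [P.deg_mul hx0 (P.b.ne_zero _), hn, P.deg_b]
          show n + (d - n) = d
          omega
      obtain ⟨a, ha⟩ := P.exists_sub_deg_lt hw0 (hzd.trans hwd.symm)
      have hmem : z - a • w ∈ T' := by
        rcases eq_or_ne (z - a • w) 0 with h0 | h0
        · rw [h0]; exact ZeroMemClass.zero_mem _
        · exact ih _ (hzd ▸ ha.resolve_left h0) _ h0 rfl
      simpa using AddMemClass.add_mem hmem (Subalgebra.smul_mem T' hw a)
  have hle : Q ≤ Q ^ 2 := by
    intro z hz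
    rcases eq_or_ne z 0 with rfl | hz0
    · exact ZeroMemClass.zero_mem _
    obtain ⟨β, hβ⟩ := htop _ z hz0 rfl
    have hβ0 : β = 0 := eq_zero_of_algebraMap_mem hQ.ne_top (by
      simpa using sub_mem hz (Ideal.pow_le_self (by norm_num) hβ))
    rwa [hβ0, map_zero, sub_zero] at hβ
  have e : Q * Q = Q * ⊤ := by
    rw [Ideal.mul_top, ← pow_two]
    exact le_antisymm (Ideal.pow_le_self (by norm_num)) hle
  exact hQ.ne_top (mul_left_cancel₀ hQ0 e)

end PoleBasis

end Fermat.Agent.Flat
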