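import Mathlib.LinearAlgebra.TensorProduct.Basis
import Mathlib.RingTheory.TensorProduct.Maps
import Fermat.Agent.Flat.Place
import Fermat.Agent.Flat.PoleIdeal

/-!
# Good models: a `ℤ_(ℓ)`-algebra with a pole-order basis and normal fibres

A `GoodModel` is a `ℤ_(ℓ)`-algebra with a pole-order basis whose fibres are affine rings of
curves of the same genus, each minus one point. It is all of the integral geometry of `X₀(N)` that
the construction of finite flat models of torsion uses.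
-/

noncomputable section

namespace Fermat.Agent.Flat

open scoped TensorProduct
open Module

local notation "Qbar" => AlgebraicClosure ℚ

/-- An integral model over `ℤ_(ℓ)` of the affine ring of a curve of genus `g` minus one point,
with good reduction: the same genus on both fibres, and normal fibres.  The gaps may differ. -/
structure GoodModel (ℓ : ℕ) [Fact ℓ.Prime] where
  /-- the pole orders -/
  S : Set ℕ
  /-- the genus -/
  g : ℕ
  gaps_finite : Sᶜ.Finite
  gaps_card : Sᶜ.ncard = g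
  add_mem : ∀ s ∈ S, ∀ t ∈ S, s + t ∈ S
  zero_mem : 0 ∈ S
  /-- the affine ring -/
  Alg : Type
  [instCommRing : CommRing Alg]
  [instAlgebra : Algebra (Zl ℓ) Alg]
  /-- the pole-order basis -/
  b : Basis S (Zl ℓ) Alg
  b_zero : b ⟨0, zero_mem⟩ = 1
  mul_top : ∀ s t : S, b.repr (b s * b t) ⟨s + t, add_mem _ s.2 _ t.2⟩ ≠ 0
  mul_high : ∀ s t u : S, (s : ℕ) + t < u → b.repr (b s * b t) u = 0
  normal_generic : IsIntegrallyClosed ((AlgebraicClosure ℚ) ⊗[Zl ℓ] Alg)
  normal_special : ∀ v : Pl ℓ, IsIntegrallyClosed (v.k ⊗[Zl ℓ] Alg)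
  /-- the pole orders on the special fibres -/
  special : ∀ v : Pl ℓ, PoleBasis v.k (v.k ⊗[Zl ℓ] Alg)
  special_g : ∀ v, (special v).g = g
  special_mem : ∀ (v : Pl ℓ) (s : S), Basis.baseChange v.k b s ∈ (special v).L s

attribute [instance] GoodModel.instCommRing GoodModel.instAlgebra

namespace GoodModel

variable {ℓ : ℕ} [Fact ℓ.Prime] (C : GoodModel ℓ)

/-- The fibre over a `ℤ_(ℓ)`-algebra. -/
abbrev R (K : Type) [CommRing K] [Algebra (Zl ℓ) K] : Type := K ⊗[Zl ℓ] C.Alg

/-- The basis of a fibre. -/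
def bK (K : Type) [CommRing K] [Algebra (Zl ℓ) K] : Basis C.S K (C.R K) := C.b.baseChange K

theorem bK_apply (K : Type) [CommRing K] [Algebra (Zl ℓ) K] (s : C.S) :
    C.bK K s = 1 ⊗ₜ C.b s := Basis.baseChange_apply K C.b s

theorem repr_tmul (K : Type) [CommRing K] [Algebra (Zl ℓ) K] (c : K) (a : C.Alg) (s : C.S) :
    (C.bK K).repr (c ⊗ₜ a) s = algebraMap (Zl ℓ) K (C.b.repr a s) * c := by
  rw [bK, Basis.baseChange_repr_tmul, Algebra.smul_def]

theorem repr_mul_basis (K : Type) [CommRing K] [Algebra (Zl ℓ) K] (s t u : C.S) :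
    (C.bK K).repr (C.bK K s * C.bK K t) u = algebraMap (Zl ℓ) K (C.b.repr (C.b s * C.b t) u) := by
  rw [bK_apply, bK_apply, Algebra.TensorProduct.tmul_mul_tmul, one_mul, repr_tmul, mul_one]

/-- Pole orders on a fibre, compatible with the basis. -/
class Fib (C : GoodModel ℓ) (K : Type) [Field K] [Algebra (Zl ℓ) K] where
  /-- the pole orders -/
  pole : PoleBasis K (C.R K)
  g_eq : pole.g = C.g
  b_mem : ∀ s : C.S, C.bK K s ∈ pole.L s

/-- The pole-order basis of the generic fibre. -/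
@[reducible] def genericPole : PoleBasis Qbar (C.R Qbar) where
  S := C.S
  g := C.g
  gaps_finite := C.gaps_finite
  gaps_card := C.gaps_card
  add_mem := C.add_mem
  b := C.bK Qbar
  zero_mem := C.zero_mem
  b_zero := by rw [bK_apply, C.b_zero]; rfl
  coef_mul_top s t := by
    rw [repr_mul_basis]
    exact fun h => C.mul_top s t (((algebraMap ℚ Qbar).injective.comp Subtype.val_injective)
      (h.trans (map_zero _).symm))
  coef_mul_high s t u h := by rw [repr_mul_basis, C.mul_high s t u h, map_zero]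

instance fibGeneric : C.Fib Qbar :=
  ⟨C.genericPole, rfl, fun s => C.genericPole.deg_b s ▸ C.genericPole.mem_L_deg _⟩

instance fibSpecial (v : Pl ℓ) : C.Fib v.k := ⟨C.special v, C.special_g v, C.special_mem v⟩

/-- The pole orders of a fibre. -/
abbrev P (K : Type) [Field K] [Algebra (Zl ℓ) K] [C.Fib K] : PoleBasis K (C.R K) :=
  Fib.pole

theorem P_g (K : Type) [Field K] [Algebra (Zl ℓ) K] [C.Fib K] : (C.P K).g = C.g := Fib.g_eq

theorem mem_S {n : ℕ} (h : 2 * C.g ≤ n) : n ∈ C.S := C.genericPole.mem_of_two_g_le h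

/-- Spanned by the basis elements of degree at most `n`. -/
def Lb (K : Type) [Field K] [Algebra (Zl ℓ) K] (n : ℕ) : Submodule K (C.R K) :=
  Submodule.span K (C.bK K '' {s | (s : ℕ) ≤ n})

theorem mem_Lb {K : Type} [Field K] [Algebra (Zl ℓ) K] {n : ℕ} {x : C.R K} :
    x ∈ C.Lb K n ↔ ∀ s : C.S, n < s → (C.bK K).repr x s = 0 := by
  rw [Lb, Basis.mem_span_image]
  refine ⟨fun h s hs => ?_, fun h s hs => ?_⟩
  · by_contra hne
    exact absurd (h (Finsupp.mem_support_iff.mpr hne)) (not_le.mpr hs)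
  · by_contra hlt
    exact Finsupp.mem_support_iff.mp hs (h s (not_le.mp hlt))

theorem L_generic (n : ℕ) : (C.P Qbar).L n = C.Lb Qbar n := by
  ext x
  rw [PoleBasis.mem_L, mem_Lb]
  refine ⟨fun h s hs => ?_, fun h m hm => ?_⟩
  · rw [← h s hs, (C.P Qbar).coef_of_mem s.2]; rfl
  · by_cases hS : m ∈ C.S
    · rw [(C.P Qbar).coef_of_mem hS]; exact h ⟨m, hS⟩ hm
    · exact (C.P Qbar).coef_of_notMem hS x

theorem Lb_le (K : Type) [Field K] [Algebra (Zl ℓ) K] [C.Fib K] (n : ℕ) :
    C.Lb K n ≤ (C.P K).L n := by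
  refine Submodule.span_le.mpr ?_
  rintro _ ⟨s, hs, rfl⟩
  exact (C.P K).L_mono hs (Fib.b_mem s)

/-- In degree `n ≥ 2 g - 1` the spaces of bounded pole order of every fibre are spanned by the
basis. -/
theorem L_eq (K : Type) [Field K] [Algebra (Zl ℓ) K] [C.Fib K] {n : ℕ} (h : 2 * C.g ≤ n + 1) :
    (C.P K).L n = C.Lb K n := by
  refine (Submodule.eq_of_le_of_finrank_le (C.Lb_le K n) ?_).symm
  have h1 := (C.P K).finrank_L (n := n) (by rw [P_g]; exact h)
  have h2 := C.genericPole.ncard_inter_Iic_add (n := n) h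
  change (C.S ∩ Set.Iic n).ncard + C.g = n + 1 at h2
  rw [P_g] at h1
  have h3 : finrank K (C.Lb K n) = (C.S ∩ Set.Iic n).ncard := by
    have hfin : {s : C.S | (s : ℕ) ≤ n}.Finite :=
      (Set.finite_Iic n).preimage Subtype.val_injective.injOn
    let := hfin.fintype
    rw [Lb, Set.image_eq_range,
      finrank_span_eq_card (b := fun x : {s : C.S | (s : ℕ) ≤ n} => C.bK K x)
        ((C.bK K).linearIndependent.comp _ Subtype.val_injective),
      ← Nat.card_eq_fintype_card, Nat.card_coe_set_eq,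
      ← Set.ncard_image_of_injective _ (Subtype.val_injective (p := fun m => m ∈ C.S))]
    congr 1
    ext m
    simp [Set.mem_Iic, and_comm]
  omega

theorem repr_eq_zero {K : Type} [Field K] [Algebra (Zl ℓ) K] [C.Fib K] {n : ℕ}
    (h : 2 * C.g ≤ n + 1) {x : C.R K} (hx : x ∈ (C.P K).L n) {s : C.S} (hs : n < s) :
    (C.bK K).repr x s = 0 :=
  C.mem_Lb.mp (C.L_eq K h ▸ hx) s hs

theorem deg_eq_of_repr {K : Type} [Field K] [Algebra (Zl ℓ) K] [C.Fib K] {n : ℕ}
    (h : 2 * C.g ≤ n) {x : C.R K} (hx : x ∈ (C.P K).L n)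
    (hne : (C.bK K).repr x ⟨n, C.mem_S h⟩ ≠ 0) : x ≠ 0 ∧ (C.P K).deg x = n := by
  refine ⟨fun h0 => hne (by rw [h0, map_zero, Finsupp.zero_apply]),
    le_antisymm ((C.P K).deg_le_iff.mpr hx) ?_⟩
  by_contra hlt
  rw [not_le] at hlt
  exact hne (C.repr_eq_zero (n := n - 1) (by omega)
    ((C.P K).deg_le_iff.mp (by omega)) (show n - 1 < n by omega))

theorem repr_deg_ne_zero {K : Type} [Field K] [Algebra (Zl ℓ) K] [C.Fib K] {n : ℕ}
    (h : 2 * C.g ≤ n) {x : C.R K} (hx0 : x ≠ 0) (hd : (C.P K).deg x = n) :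
    (C.bK K).repr x ⟨n, C.mem_S h⟩ ≠ 0 := by
  intro hzero
  have hmem : ∀ s : C.S, n ≤ s → (C.bK K).repr x s = 0 := fun s hs => by
    rcases eq_or_lt_of_le hs with e | hlt
    · rw [← hzero]; congr; exact Subtype.ext e.symm
    · exact C.repr_eq_zero (by omega) (hd ▸ (C.P K).mem_L_deg x) hlt
  rcases Nat.eq_zero_or_pos n with rfl | hn
  · exact hx0 ((C.bK K).repr.injective (Finsupp.ext fun s => by
      rw [map_zero, Finsupp.zero_apply]; exact hmem s (Nat.zero_le _)))
  · have : x ∈ (C.P K).L (n - 1) :=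
      C.Lb_le K _ (C.mem_Lb.mpr fun s hs => hmem s (by omega))
    have := (C.P K).deg_le_iff.mpr this
    omega

instance isDedekind_generic : IsDedekindDomain (C.R Qbar) :=
  haveI := C.normal_generic
  (C.P Qbar).isDedekindDomain

instance isDedekind_special (v : Pl ℓ) : IsDedekindDomain (C.R v.k) :=
  haveI := C.normal_special v
  (C.P v.k).isDedekindDomain

variable {C}

/-- Base change of coefficients. -/
def chg {K K' : Type} [CommRing K] [Algebra (Zl ℓ) K] [CommRing K'] [Algebra (Zl ℓ) K']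
    (φ : K →ₐ[Zl ℓ] K') : C.R K →ₐ[Zl ℓ] C.R K' :=
  Algebra.TensorProduct.map φ (AlgHom.id (Zl ℓ) C.Alg)

theorem repr_chg {K K' : Type} [CommRing K] [Algebra (Zl ℓ) K] [CommRing K'] [Algebra (Zl ℓ) K']
    (φ : K →ₐ[Zl ℓ] K') (x : C.R K) (s : C.S) :
    (C.bK K').repr (chg φ x) s = φ ((C.bK K).repr x s) := by
  induction x using TensorProduct.induction_on with
  | zero => simp
  | tmul c a =>
    rw [chg, Algebra.TensorProduct.map_tmul, repr_tmul, repr_tmul, map_mul, AlgHom.commutes]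
    rfl
  | add x y hx hy => simp only [map_add, Finsupp.add_apply, hx, hy]

variable (v : Pl ℓ)

/-- All coefficients integral at `v`. -/
def IsInt (x : C.R Qbar) : Prop := ∀ s, (C.bK Qbar).repr x s ∈ v.A

/-- Coefficientwise reduction. -/
def redR (x : C.R Qbar) : C.R v.k :=
  (C.bK v.k).repr.symm (((C.bK Qbar).repr x).mapRange (red v.A) red_zero)

variable {v}

theorem repr_redR (x : C.R Qbar) (s : C.S) :
    (C.bK v.k).repr (redR v x) s = red v.A ((C.bK Qbar).repr x s) := by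
  rw [redR, LinearEquiv.apply_symm_apply, Finsupp.mapRange_apply]

theorem redR_chg (y : C.R v.O) : redR v (chg v.incl y) = chg v.res y :=
  (C.bK v.k).repr.injective (Finsupp.ext fun s => by
    rw [repr_redR, repr_chg, repr_chg, v.res_apply, v.incl_apply])

theorem isInt_chg (y : C.R v.O) : IsInt v (chg v.incl y) := fun s => by
  rw [repr_chg]; exact ((C.bK v.O).repr y s).2

/-- An element is integral at `v` exactly when it comes from the fibre over the valuation ring. -/
theorem isInt_iff {x : C.R Qbar} : IsInt v x ↔ ∃ y : C.R v.O, chg v.incl y = x := by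
  classical
  refine ⟨fun h => ?_, fun ⟨y, hy⟩ => hy ▸ isInt_chg y⟩
  refine ⟨(C.bK v.O).repr.symm (Finsupp.onFinset ((C.bK Qbar).repr x).support
    (fun s => (⟨(C.bK Qbar).repr x s, h s⟩ : v.O)) fun s hs => ?_),
    (C.bK Qbar).repr.injective (Finsupp.ext fun s => ?_)⟩
  · rw [Finsupp.mem_support_iff]
    exact fun h0 => hs (Subtype.ext h0)
  · rw [repr_chg, LinearEquiv.apply_symm_apply, Finsupp.onFinset_apply]
    rfl

theorem IsInt.add {x y : C.R Qbar} (hx : IsInt v x) (hy : IsInt v y) : IsInt v (x + y) :=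
  fun s => by rw [map_add, Finsupp.add_apply]; exact v.A.add_mem _ _ (hx s) (hy s)

theorem IsInt.zero : IsInt v (0 : C.R Qbar) := fun s => by
  rw [map_zero]; exact v.A.zero_mem

theorem IsInt.mul {x y : C.R Qbar} (hx : IsInt v x) (hy : IsInt v y) : IsInt v (x * y) := by
  obtain ⟨x', rfl⟩ := isInt_iff.mp hx
  obtain ⟨y', rfl⟩ := isInt_iff.mp hy
  exact map_mul (chg v.incl) x' y' ▸ isInt_chg _

theorem redR_add {x y : C.R Qbar} (hx : IsInt v x) (hy : IsInt v y) :
    redR v (x + y) = redR v x + redR v y := by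
  obtain ⟨x', rfl⟩ := isInt_iff.mp hx
  obtain ⟨y', rfl⟩ := isInt_iff.mp hy
  rw [← map_add, redR_chg, redR_chg, redR_chg, map_add]

theorem redR_mul {x y : C.R Qbar} (hx : IsInt v x) (hy : IsInt v y) :
    redR v (x * y) = redR v x * redR v y := by
  obtain ⟨x', rfl⟩ := isInt_iff.mp hx
  obtain ⟨y', rfl⟩ := isInt_iff.mp hy
  rw [← map_mul, redR_chg, redR_chg, redR_chg, map_mul]

theorem redR_zero : redR v (0 : C.R Qbar) = 0 := by
  rw [show (0 : C.R Qbar) = chg v.incl 0 from (map_zero _).symm, redR_chg, map_zero]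

theorem exists_lift (y : C.R v.k) : ∃ x : C.R Qbar, IsInt v x ∧ redR v x = y := by
  obtain ⟨y', rfl⟩ : ∃ y', chg (C := C) v.res y' = y := by
    induction y using TensorProduct.induction_on with
    | zero => exact ⟨0, map_zero _⟩
    | tmul c a =>
      obtain ⟨c', rfl⟩ := v.res_surjective c
      exact ⟨c' ⊗ₜ a, Algebra.TensorProduct.map_tmul _ _ _ _⟩
    | add x y hx hy =>
      obtain ⟨x', rfl⟩ := hx
      obtain ⟨y', rfl⟩ := hy
      exact ⟨x' + y', map_add _ _ _⟩
  exact ⟨chg v.incl y', isInt_chg y', redR_chg y'⟩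

variable (v)

/-- The reduction of an ideal. -/
def redI (I : Ideal (C.R Qbar)) : Ideal (C.R v.k) where
  carrier := {y | ∃ x ∈ I, IsInt v x ∧ redR v x = y}
  zero_mem' := ⟨0, I.zero_mem, IsInt.zero, redR_zero⟩
  add_mem' := by
    rintro _ _ ⟨x, hx, hxi, rfl⟩ ⟨y, hy, hyi, rfl⟩
    exact ⟨x + y, I.add_mem hx hy, hxi.add hyi, redR_add hxi hyi⟩
  smul_mem' := by
    rintro c _ ⟨x, hx, hxi, rfl⟩
    obtain ⟨c', hc', rfl⟩ := exists_lift c
    exact ⟨c' * x, I.mul_mem_left c' hx, hc'.mul hxi, redR_mul hc' hxi⟩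

variable {v}

theorem mem_redI {I : Ideal (C.R Qbar)} {x : C.R Qbar} (hx : x ∈ I) (hxi : IsInt v x) :
    redR v x ∈ redI v I := ⟨x, hx, hxi, rfl⟩

theorem redI_mul_le (I J : Ideal (C.R Qbar)) : redI v I * redI v J ≤ redI v (I * J) := by
  rw [Ideal.mul_le]
  rintro _ ⟨x, hx, hxi, rfl⟩ _ ⟨y, hy, hyi, rfl⟩
  exact ⟨x * y, Ideal.mul_mem_mul hx hy, hxi.mul hyi, redR_mul hxi hyi⟩

theorem redR_mem_L {x : C.R Qbar} {n : ℕ} (hx : x ∈ (C.P Qbar).L n) :
    redR v x ∈ (C.P v.k).L n := by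
  refine C.Lb_le v.k n (C.mem_Lb.mpr fun s hs => ?_)
  rw [repr_redR, C.mem_Lb.mp (C.L_generic n ▸ hx) s hs, red_zero]

end GoodModel

end Fermat.Agent.Flat
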