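import Mathlib.Algebra.Polynomial.Lifts
import Mathlib.FieldTheory.Finite.Basic
import Mathlib.FieldTheory.Perfect
import Mathlib.RingTheory.Polynomial.UniqueFactorization
import Fermat.Agent.Flat.Place

/-!
# Polynomials over `ℤ_(ℓ)` with irreducible reduction

Their roots are integral, Galois-stable and stay distinct modulo every place over `ℓ`; and they can
be chosen to avoid finitely many residues. They cut out the auxiliary étale sets.
-/

noncomputable section

namespace Fermat.Agent.Flat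

open Polynomial

local notation "Qbar" => AlgebraicClosure ℚ

variable {ℓ : ℕ} [hℓ : Fact ℓ.Prime]

local notation "Fl" => IsLocalRing.ResidueField (Zl ℓ)

instance charP_residue : CharP (IsLocalRing.ResidueField (Zl ℓ)) ℓ := by
  exact (CharP.charP_iff_prime_eq_zero hℓ.out).mpr (by
    rw [← map_natCast (IsLocalRing.residue (Zl ℓ)), IsLocalRing.residue_eq_zero_iff]
    exact natCast_mem_maximalIdeal)

instance finite_residue : Finite (IsLocalRing.ResidueField (Zl ℓ)) := by
  have : NeZero ℓ := ⟨hℓ.out.ne_zero⟩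
  refine Finite.of_surjective (ZMod.castHom (dvd_refl ℓ) (IsLocalRing.ResidueField (Zl ℓ))) ?_
  intro y
  obtain ⟨z, rfl⟩ := IsLocalRing.residue_surjective y
  have hd : ¬ (ℓ : ℤ) ∣ ((z : ℚ).den : ℤ) := fun h =>
    not_dvd_den z (Int.natCast_dvd_natCast.mp h)
  set φ := ZMod.castHom (dvd_refl ℓ) (IsLocalRing.ResidueField (Zl ℓ))
  have hnz : φ (((z : ℚ).den : ℕ) : ZMod ℓ) ≠ 0 := by
    rw [_root_.map_ne_zero, ne_eq, ZMod.natCast_eq_zero_iff]
    exact not_dvd_den z
  refine ⟨((z : ℚ).num : ZMod ℓ) * (((z : ℚ).den : ℕ) : ZMod ℓ)⁻¹, ?_⟩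
  rw [map_mul, map_inv₀, map_intCast, mul_inv_eq_iff_eq_mul₀ hnz, map_natCast,
    ← map_intCast (IsLocalRing.residue (Zl ℓ)), ← map_natCast (IsLocalRing.residue (Zl ℓ)),
    ← map_mul]
  congr 1
  exact Subtype.ext (by simp)

variable (v : Pl ℓ)

theorem red_natCast : (ℓ : v.k) = 0 := by
  rw [← map_natCast (algebraMap (Zl ℓ) v.k), ← v.red_algebraMap, map_natCast, red_eq_zero_iff
    (natCast_mem v.A ℓ)]
  exact v.over

/-- The residue field of `ℤ_(ℓ)` into that of a place. -/
def resEmb : IsLocalRing.ResidueField (Zl ℓ) →+* v.k :=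
  Ideal.Quotient.lift _ (algebraMap (Zl ℓ) v.k) fun z hz => by
    rw [maximalIdeal_eq_span, Ideal.mem_span_singleton'] at hz
    obtain ⟨w, rfl⟩ := hz
    rw [map_mul, map_natCast, red_natCast, mul_zero]

theorem resEmb_residue (z : Zl ℓ) :
    resEmb v (IsLocalRing.residue (Zl ℓ) z) = algebraMap (Zl ℓ) v.k z := rfl

theorem aeval_eq_eval₂ (P : (Zl ℓ)[X]) (α : v.k) :
    aeval α P = (P.map (IsLocalRing.residue (Zl ℓ))).eval₂ (resEmb v) α := by
  rw [eval₂_map, aeval_def]
  rfl

variable (ℓ) in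
/-- Monic with irreducible reduction. -/
structure IsGoodPoly (P : (Zl ℓ)[X]) : Prop where
  monic : P.Monic
  irred : Irreducible (P.map (IsLocalRing.residue (Zl ℓ)))

variable {P : (Zl ℓ)[X]}

theorem IsGoodPoly.natDegree_pos (hP : IsGoodPoly ℓ P) : 0 < P.natDegree := by
  have := hP.irred.natDegree_pos
  rwa [hP.monic.natDegree_map] at this

theorem IsGoodPoly.exists_root (hP : IsGoodPoly ℓ P) : ∃ c : Qbar, aeval c P = 0 := by
  refine IsAlgClosed.exists_aeval_eq_zero_of_injective Qbar ?_ P ?_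
  · exact (algebraMap ℚ Qbar).injective.comp Subtype.val_injective
  · intro h
    have := natDegree_eq_zero_iff_degree_le_zero.mpr h.le
    have := hP.natDegree_pos
    omega

theorem IsGoodPoly.finite_roots (hP : IsGoodPoly ℓ P) : {c : Qbar | aeval c P = 0}.Finite := by
  refine Set.Finite.subset (P.map (algebraMap (Zl ℓ) Qbar)).roots.toFinset.finite_toSet
    fun c hc => ?_
  rw [Finset.mem_coe, Multiset.mem_toFinset, mem_roots (hP.monic.map _).ne_zero, IsRoot,
    eval_map_algebraMap]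
  exact hc

theorem IsGoodPoly.isIntegral (hP : IsGoodPoly ℓ P) {c : Qbar} (hc : aeval c P = 0) :
    IsIntegral (Zl ℓ) c :=
  ⟨P, hP.monic, by rwa [← aeval_def]⟩

omit hℓ in
theorem aeval_apply_eq_zero {c : Qbar} (σ : AlgebraicClosure ℚ ≃ₐ[ℚ] AlgebraicClosure ℚ)
    (hc : aeval c P = 0) : aeval (σ c) P = 0 := by
  have h := aeval_algHom_apply (σ.toAlgHom.restrictScalars (Zl ℓ)) c P
  rw [hc, map_zero] at h
  exact h

theorem aeval_red {c : Qbar} (hc : c ∈ v.A) :
    aeval (red v.A c) P = red v.A (aeval c P) := by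
  have h1 : aeval c P = v.incl (aeval (⟨c, hc⟩ : v.O) P) := by
    rw [← aeval_algHom_apply, v.incl_apply]
  rw [h1, v.incl_apply, ← v.res_apply, ← aeval_algHom_apply, v.res_apply]

theorem IsGoodPoly.eq_of_red_eq (hP : IsGoodPoly ℓ P) {c c' : Qbar} (hc : aeval c P = 0)
    (hc' : aeval c' P = 0) (h : red v.A c = red v.A c') : c = c' := by
  by_contra hne
  have hm := mem_of_isIntegral v.over (hP.isIntegral hc)
  have hm' := mem_of_isIntegral v.over (hP.isIntegral hc')
  set γ : v.O := ⟨c, hm⟩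
  set γ' : v.O := ⟨c', hm'⟩
  set PO := P.map (algebraMap (Zl ℓ) v.O)
  have hev : ∀ δ : v.O, aeval (δ : Qbar) P = 0 → PO.eval δ = 0 := fun δ hδ => by
    refine Subtype.ext ?_
    rw [eval_map_algebraMap, ← v.incl_apply, ← aeval_algHom_apply, v.incl_apply, hδ]
    rfl
  obtain ⟨Q, hQ⟩ := dvd_iff_isRoot.mpr (hev γ hc)
  have hQ' : Q.eval γ' = 0 := by
    have := hev γ' hc'
    rw [hQ, eval_mul, eval_sub, eval_X, eval_C, mul_eq_zero, sub_eq_zero] at this
    exact this.resolve_left fun e => hne (congrArg Subtype.val e).symm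
  set f := IsLocalRing.residue v.O
  have hres : f γ = f γ' := by rw [← red_coe γ, ← red_coe γ']; exact h
  have hroot : (Q.map f).eval (f γ') = 0 := by rw [eval_map, eval₂_hom, hQ', map_zero]
  have hPf : PO.map f = (P.map (IsLocalRing.residue (Zl ℓ))).map (resEmb v) := by
    rw [map_map, map_map]
    congr 1
  have hsep : (PO.map f).Separable := hPf ▸ (PerfectField.separable_of_irreducible hP.irred).map
  have hd : X - C (f γ') ∣ Q.map f := dvd_iff_isRoot.mpr hroot
  rw [hQ, Polynomial.map_mul, Polynomial.map_sub, map_X, map_C, hres] at hsep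
  exact not_isUnit_X_sub_C (f γ')
    (hsep.squarefree _ (mul_dvd_mul_left _ hd))

/-- A good polynomial avoiding finitely many residues. -/
theorem exists_goodPoly (bad : Set v.k) (hbad : bad.Finite) :
    ∃ P : (Zl ℓ)[X], IsGoodPoly ℓ P ∧ ∀ α ∈ bad, aeval α P ≠ 0 := by
  classical
  -- each residue is a root of at most one monic irreducible polynomial
  have hone : ∀ α : v.k,
      {f : Fl[X] | f.Monic ∧ Irreducible f ∧ f.eval₂ (resEmb v) α = 0}.Subsingleton := by
    rintro α f ⟨hf, hfi, hfα⟩ g ⟨hg, hgi, hgα⟩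
    by_contra hne
    have hcop : IsCoprime f g := hfi.coprime_iff_not_dvd.mpr fun hdvd =>
      hne (eq_of_monic_of_associated hf hg (hfi.associated_of_dvd hgi hdvd))
    obtain ⟨a, b, hab⟩ := hcop
    have := congrArg (fun q => q.eval₂ (resEmb v) α) hab
    simp only [eval₂_add, eval₂_mul, hfα, hgα, mul_zero, add_zero, eval₂_one] at this
    exact zero_ne_one this
  have hfin : (⋃ α ∈ bad,
      {f : Fl[X] | f.Monic ∧ Irreducible f ∧ f.eval₂ (resEmb v) α = 0}).Finite :=
    hbad.biUnion fun α _ => (hone α).finite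
  -- infinitely many monic irreducible polynomials
  obtain ⟨f, hfm, hfi, hfnot⟩ : ∃ f : Fl[X], f.Monic ∧ Irreducible f ∧ f ∉ hfin.toFinset := by
    set T := hfin.toFinset.filter fun f => f ≠ 0
    set N := X * ∏ f ∈ T, f + 1
    have hprod : (∏ f ∈ T, f) ≠ 0 :=
      Finset.prod_ne_zero_iff.mpr fun f hf => (Finset.mem_filter.mp hf).2
    have hdeg : 0 < N.natDegree := by
      rw [show N = X * ∏ f ∈ T, f + C (1 : Fl) from by rw [map_one], natDegree_add_C,
        natDegree_X_mul hprod]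
      omega
    have hN : ¬ IsUnit N := fun h => by
      have := natDegree_eq_zero_of_isUnit h
      omega
    obtain ⟨f, hfm, hfi, hfd⟩ := exists_monic_irreducible_factor N hN
    refine ⟨f, hfm, hfi, fun hmem => ?_⟩
    have hfT : f ∈ T := Finset.mem_filter.mpr ⟨hmem, hfm.ne_zero⟩
    have : f ∣ 1 := by
      have h1 : f ∣ X * ∏ f ∈ T, f := dvd_mul_of_dvd_right (Finset.dvd_prod_of_mem _ hfT) _
      exact (dvd_add_right h1).mp hfd
    exact hfi.not_isUnit (isUnit_of_dvd_one this)
  have hlift : f ∈ lifts (IsLocalRing.residue (Zl ℓ)) :=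
    (lifts_iff_coeff_lifts f).mpr fun n => IsLocalRing.residue_surjective _
  obtain ⟨P, hPf, -, hPm⟩ := lifts_and_degree_eq_and_monic hlift hfm
  refine ⟨P, ⟨hPm, hPf ▸ hfi⟩, fun α hα h0 => hfnot ?_⟩
  rw [Set.Finite.mem_toFinset]
  refine Set.mem_biUnion hα ⟨hfm, hfi, ?_⟩
  rwa [aeval_eq_eval₂, hPf] at h0

end Fermat.Agent.Flat
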