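import Mathlib.GroupTheory.OrderOfElement
import Mathlib.LinearAlgebra.FreeModule.PID
import Mathlib.LinearAlgebra.TensorProduct.Basis
import Mathlib.RingTheory.Bialgebra.Convolution
import Mathlib.RingTheory.Flat.Basic
import Mathlib.RingTheory.HopfAlgebra.Basic
import Mathlib.RingTheory.IntegralClosure.IsIntegralClosure.Basic
import Fermat.Agent.Flat.EquivFun

/-!
# Finite flat models of finite Galois modules as rings of functions

`HasFlatModel ℓ M act` is the shape used by `GaloisRepAdic.IsFlatAt` and by the finite flat model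
of `J₀(N)[ℓᵏ]`.  It follows from the existence of a subalgebra of functions `M → ℚ̄` which is
equivariant, integral-valued, separating, and on which `f ↦ f (a + b)` lands in the tensor square.
All the models in this directory are produced by this criterion.
-/

noncomputable section

namespace Fermat.Agent.Flat

open scoped TensorProduct

local notation "Qbar" => AlgebraicClosure ℚ
local notation "Gal0" => (AlgebraicClosure ℚ ≃ₐ[ℚ] AlgebraicClosure ℚ)

/-- `M` with the Galois action `act` has a finite flat model over `ℤ_(ℓ)`. -/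
def HasFlatModel (ℓ : ℕ) (M : Type) [AddCommGroup M] (act : Gal0 → M → M) : Prop :=
  ∃ (H : Type) (_ : CommRing H) (_ : HopfAlgebra (Zl ℓ) H),
    Module.Finite (Zl ℓ) H ∧ Module.Flat (Zl ℓ) H ∧ Coalgebra.IsCocomm (Zl ℓ) H ∧
    ∃ e : WithConv (H →ₐ[Zl ℓ] Qbar) ≃ M,
      (∀ f g, e (f * g) = e f + e g) ∧
      ∀ (σ : Gal0) (f g : WithConv (H →ₐ[Zl ℓ] Qbar)),
        (∀ h : H, g h = σ (f h)) → e g = act σ (e f)

variable {ℓ : ℕ} {S T U : Type*}

instance faithfulSMul_Zl : FaithfulSMul (Zl ℓ) Qbar :=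
  (faithfulSMul_iff_algebraMap_injective _ _).mpr
    ((algebraMap ℚ Qbar).injective.comp Subtype.val_injective)

/-- Pull back functions along a map. -/
def pullback (g : T → S) : (S → Qbar) →ₐ[Zl ℓ] (T → Qbar) :=
  AlgHom.pi fun t => Pi.evalAlgHom (Zl ℓ) (fun _ : S => Qbar) (g t)

@[simp] theorem pullback_apply (g : T → S) (f : S → Qbar) (t : T) :
    pullback (ℓ := ℓ) g f t = f (g t) := rfl

variable {A B : Type*} [CommRing A] [Algebra (Zl ℓ) A] [CommRing B] [Algebra (Zl ℓ) B]

/-- `a ⊗ b ↦ ((s, t) ↦ φ a s * ψ b t)`. -/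
def pairHom (φ : A →ₐ[Zl ℓ] (S → Qbar)) (ψ : B →ₐ[Zl ℓ] (T → Qbar)) :
    A ⊗[Zl ℓ] B →ₐ[Zl ℓ] (S × T → Qbar) :=
  Algebra.TensorProduct.lift ((pullback Prod.fst).comp φ) ((pullback Prod.snd).comp ψ)
    fun _ _ => Commute.all _ _

@[simp] theorem pairHom_tmul (φ : A →ₐ[Zl ℓ] (S → Qbar)) (ψ : B →ₐ[Zl ℓ] (T → Qbar)) (a : A)
    (b : B) (p : S × T) : pairHom φ ψ (a ⊗ₜ b) p = φ a p.1 * ψ b p.2 := by
  simp [pairHom]

/-- `φ` maps some basis to a family independent over `ℚ̄`. -/
def QIndep {A : Type*} [CommRing A] [Algebra (Zl ℓ) A] (φ : A →ₐ[Zl ℓ] (S → Qbar)) : Prop :=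
  ∃ (ι : Type) (b : Module.Basis ι (Zl ℓ) A), LinearIndependent Qbar (fun i => φ (b i))

theorem QIndep.injective {φ : A →ₐ[Zl ℓ] (S → Qbar)} (hφ : QIndep φ) : Function.Injective φ := by
  obtain ⟨ι, b, hb⟩ := hφ
  rw [injective_iff_map_eq_zero]
  intro x hx
  suffices b.repr x = 0 by simpa using congrArg b.repr.symm this
  refine Finsupp.ext fun i => ?_
  rw [Finsupp.zero_apply]
  by_contra hi
  have h := linearIndependent_iff'.mp hb (b.repr x).support
    (fun i => algebraMap (Zl ℓ) Qbar (b.repr x i)) (funext fun s => ?_) i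
    (Finsupp.mem_support_iff.mpr hi)
  · exact hi (FaithfulSMul.algebraMap_injective (Zl ℓ) Qbar (h.trans (map_zero _).symm))
  conv_rhs => rw [← hx, ← b.linearCombination_repr x]
  simp only [Finsupp.linearCombination_apply, Finsupp.sum, map_sum, Finset.sum_apply,
    Algebra.smul_def, map_mul, AlgHom.commutes, Pi.mul_apply, Pi.algebraMap_apply,
    Algebra.algebraMap_self, RingHom.id_apply]

theorem QIndep.pair {φ : A →ₐ[Zl ℓ] (S → Qbar)} {ψ : B →ₐ[Zl ℓ] (T → Qbar)} (hφ : QIndep φ)
    (hψ : QIndep ψ) : QIndep (pairHom φ ψ) := by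
  obtain ⟨ι, b, hb⟩ := hφ
  obtain ⟨κ, c, hc⟩ := hψ
  refine ⟨ι × κ, b.tensorProduct c, ?_⟩
  convert linearIndependent_prod hb hc using 1
  funext p x
  rw [Module.Basis.tensorProduct_apply']
  exact pairHom_tmul φ ψ _ _ x

/-- The functions on `S × T` coming from `H ⊗ H'`. -/
def prodAlg (H : Subalgebra (Zl ℓ) (S → Qbar)) (H' : Subalgebra (Zl ℓ) (T → Qbar)) :
    Subalgebra (Zl ℓ) (S × T → Qbar) :=
  (pairHom H.val H'.val).range

theorem mul_mem_prodAlg {H : Subalgebra (Zl ℓ) (S → Qbar)} {H' : Subalgebra (Zl ℓ) (T → Qbar)}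
    {f : S → Qbar} {g : T → Qbar} (hf : f ∈ H) (hg : g ∈ H') :
    (fun p : S × T => f p.1 * g p.2) ∈ prodAlg H H' :=
  ⟨(⟨f, hf⟩ : H) ⊗ₜ (⟨g, hg⟩ : H'), funext fun p => pairHom_tmul H.val H'.val _ _ p⟩

variable [hℓ : Fact ℓ.Prime]

theorem qindep_val [Finite S] {act : Gal0 → S → S} (H : Subalgebra (Zl ℓ) (S → Qbar))
    (heq : ∀ f ∈ H, IsEquiv act f) (hint : ∀ f ∈ H, ∀ s, IsIntegral (Zl ℓ) (f s)) :
    QIndep H.val := by
  have : Module.Finite (Zl ℓ) H :=
    module_finite (act := act) (Subalgebra.toSubmodule H) heq hint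
  have : Module.Free (Zl ℓ) H := Module.free_of_finite_type_torsion_free' (R := Zl ℓ)
  let b : Module.Basis _ (Zl ℓ) H := Module.finBasis (Zl ℓ) H
  refine ⟨_, b, linearIndependent_of_Zl (ℓ := ℓ) (act := act) (fun i => heq _ (b i).2) ?_⟩
  exact b.linearIndependent.map' H.val.toLinearMap
    (LinearMap.ker_eq_bot.mpr Subtype.val_injective)

variable (ℓ) in
/-- The conditions on a ring of functions to give a finite flat model. -/
structure IsModelAlg (M : Type) [AddCommGroup M] (act : Gal0 → M → M)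
    (H : Subalgebra (Zl ℓ) (M → Qbar)) : Prop where
  equiv : ∀ f ∈ H, IsEquiv act f
  integral : ∀ f ∈ H, ∀ m, IsIntegral (Zl ℓ) (f m)
  separates : ∀ a b : M, (∀ f ∈ H, f a = f b) → a = b
  add_mem : ∀ f ∈ H, (fun p : M × M => f (p.1 + p.2)) ∈ prodAlg H H

namespace IsModelAlg

variable {M : Type} [AddCommGroup M] [Finite M] {act : Gal0 → M → M}
  {H : Subalgebra (Zl ℓ) (M → Qbar)}

theorem qindep (hH : IsModelAlg ℓ M act H) : QIndep H.val :=
  qindep_val H hH.equiv hH.integral

omit [Finite M] in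
theorem act_zero_fixed (hH : IsModelAlg ℓ M act H) (hact : ∀ σ, act σ 0 = 0) {f : M → Qbar}
    (hf : f ∈ H) : ∃ z : Zl ℓ, algebraMap (Zl ℓ) Qbar z = f 0 := by
  obtain ⟨q, hq⟩ := exists_rat_of_fixed (a := f 0) fun σ => by
    rw [← hH.equiv f hf σ 0, hact]
  obtain ⟨z, hz⟩ := exists_eq_of_isIntegral (ℓ := ℓ) (q := q) (hq ▸ hH.integral f hf 0)
  exact ⟨z, by rw [IsScalarTower.algebraMap_apply (Zl ℓ) ℚ Qbar, ← hq, ← hz]; rfl⟩

/-- Comultiplication. -/
def comul (hH : IsModelAlg ℓ M act H) : H →ₐ[Zl ℓ] H ⊗[Zl ℓ] H :=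
  (AlgEquiv.ofInjective (pairHom H.val H.val)
      (hH.qindep.pair hH.qindep).injective).symm.toAlgHom.comp
    (((pullback fun p : M × M => p.1 + p.2).comp H.val).codRestrict (prodAlg H H)
      fun f => hH.add_mem f.1 f.2)

theorem pairHom_comul (hH : IsModelAlg ℓ M act H) (f : H) (p : M × M) :
    pairHom H.val H.val (hH.comul f) p = (f : M → Qbar) (p.1 + p.2) := by
  have := AlgEquiv.apply_symm_apply (AlgEquiv.ofInjective (pairHom H.val H.val)
      (hH.qindep.pair hH.qindep).injective)
    (((pullback fun p : M × M => p.1 + p.2).comp H.val).codRestrict (prodAlg H H)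
      (fun f => hH.add_mem f.1 f.2) f)
  exact congrFun (congrArg Subtype.val this) p

/-- Counit: evaluation at `0`. -/
def counit (hH : IsModelAlg ℓ M act H) (hact : ∀ σ, act σ 0 = 0) : H →ₐ[Zl ℓ] Zl ℓ :=
  (AlgEquiv.ofInjective (Algebra.ofId (Zl ℓ) Qbar)
      (show Function.Injective (algebraMap (Zl ℓ) Qbar) from
        FaithfulSMul.algebraMap_injective _ _)).symm.toAlgHom.comp
    (((Pi.evalAlgHom (Zl ℓ) (fun _ : M => Qbar) 0).comp H.val).codRestrict
      (Algebra.ofId (Zl ℓ) Qbar).range fun f => hH.act_zero_fixed hact f.2)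

omit [Finite M] in
theorem algebraMap_counit (hH : IsModelAlg ℓ M act H) (hact : ∀ σ, act σ 0 = 0) (f : H) :
    algebraMap (Zl ℓ) Qbar (hH.counit hact f) = (f : M → Qbar) 0 := by
  have := AlgEquiv.apply_symm_apply (AlgEquiv.ofInjective (Algebra.ofId (Zl ℓ) Qbar)
      (show Function.Injective (algebraMap (Zl ℓ) Qbar) from
        FaithfulSMul.algebraMap_injective _ _))
    (((Pi.evalAlgHom (Zl ℓ) (fun _ : M => Qbar) 0).comp H.val).codRestrict
      (Algebra.ofId (Zl ℓ) Qbar).range (fun f => hH.act_zero_fixed hact f.2) f)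
  exact congrArg Subtype.val this

omit [Finite M] in
theorem mulNat_mem (hH : IsModelAlg ℓ M act H) (hact : ∀ σ, act σ 0 = 0) (n : ℕ) {f : M → Qbar}
    (hf : f ∈ H) : (fun a => f (n • a)) ∈ H := by
  induction n generalizing f with
  | zero =>
    obtain ⟨z, hz⟩ := hH.act_zero_fixed hact hf
    have : (fun a => f ((0 : ℕ) • a)) = algebraMap (Zl ℓ) (M → Qbar) z := by
      funext a; simp [hz]
    rw [this]
    exact H.algebraMap_mem z
  | succ n ih =>
    obtain ⟨t, ht⟩ := hH.add_mem f hf
    have key : ∀ t : H ⊗[Zl ℓ] H, (fun a => pairHom H.val H.val t (n • a, a)) ∈ H := by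
      intro t
      induction t using TensorProduct.induction_on with
      | zero => simp only [map_zero, Pi.zero_apply]; exact H.zero_mem
      | tmul x y =>
        simp only [pairHom_tmul]
        exact H.mul_mem (ih x.2) y.2
      | add x y hx hy => simp only [map_add, Pi.add_apply]; exact H.add_mem hx hy
    have h := key t
    rw [show pairHom H.val H.val t = fun p : M × M => f (p.1 + p.2) from ht] at h
    simpa [succ_nsmul] using h

theorem neg_mem (hH : IsModelAlg ℓ M act H) (hact : ∀ σ, act σ 0 = 0) {f : M → Qbar}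
    (hf : f ∈ H) : (fun a => f (-a)) ∈ H := by
  have hpos : 0 < Nat.card M := Nat.card_pos
  have : ∀ a : M, -a = (Nat.card M - 1) • a := by
    intro a
    rw [neg_eq_iff_add_eq_zero, ← succ_nsmul', Nat.sub_add_cancel hpos]
    exact card_nsmul_eq_zero'
  simp only [this]
  exact hH.mulNat_mem hact _ hf

/-- The antipode. -/
def antipode (hH : IsModelAlg ℓ M act H) (hact : ∀ σ, act σ 0 = 0) : H →ₐ[Zl ℓ] H :=
  ((pullback fun a : M => -a).comp H.val).codRestrict H fun f => hH.neg_mem hact f.2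

theorem coassoc (hH : IsModelAlg ℓ M act H) :
    (Algebra.TensorProduct.assoc (Zl ℓ) (Zl ℓ) (Zl ℓ) H H H).toAlgHom.comp
      ((Algebra.TensorProduct.map hH.comul (.id (Zl ℓ) H)).comp hH.comul)
    = (Algebra.TensorProduct.map (.id (Zl ℓ) H) hH.comul).comp hH.comul := by
  set P₂ := pairHom H.val H.val
  set P₃ := pairHom H.val P₂
  have hinj : Function.Injective P₃ := (hH.qindep.pair (hH.qindep.pair hH.qindep)).injective
  have hassoc : ∀ (t : H ⊗[Zl ℓ] H) (y : H) (p : M × M × M),
      P₃ (Algebra.TensorProduct.assoc (Zl ℓ) (Zl ℓ) (Zl ℓ) H H H (t ⊗ₜ y)) p =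
        P₂ t (p.1, p.2.1) * (y : M → Qbar) p.2.2 := by
    intro t y p
    induction t using TensorProduct.induction_on with
    | zero => simp
    | tmul a b => simp [P₃, P₂, mul_assoc]
    | add a b ha hb => simp only [TensorProduct.add_tmul, map_add, Pi.add_apply, ha, hb, add_mul]
  have h1 : ∀ (t : H ⊗[Zl ℓ] H) (p : M × M × M),
      P₃ (Algebra.TensorProduct.assoc (Zl ℓ) (Zl ℓ) (Zl ℓ) H H H
        (Algebra.TensorProduct.map hH.comul (.id (Zl ℓ) H) t)) p =
        P₂ t (p.1 + p.2.1, p.2.2) := by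
    intro t p
    induction t using TensorProduct.induction_on with
    | zero => simp
    | tmul a b =>
      rw [Algebra.TensorProduct.map_tmul, hassoc, hH.pairHom_comul]
      simp [P₂]
    | add a b ha hb => simp only [map_add, Pi.add_apply, ha, hb]
  have h2 : ∀ (t : H ⊗[Zl ℓ] H) (p : M × M × M),
      P₃ (Algebra.TensorProduct.map (.id (Zl ℓ) H) hH.comul t) p =
        P₂ t (p.1, p.2.1 + p.2.2) := by
    intro t p
    induction t using TensorProduct.induction_on with
    | zero => simp
    | tmul a b => simp [P₃, P₂, hH.pairHom_comul]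
    | add a b ha hb => simp only [map_add, Pi.add_apply, ha, hb]
  refine AlgHom.ext fun f => hinj (funext fun p => ?_)
  simp only [AlgHom.comp_apply, AlgEquiv.coe_toAlgHom]
  rw [h1, h2, hH.pairHom_comul, hH.pairHom_comul, add_assoc]

theorem rTensor_counit (hH : IsModelAlg ℓ M act H) (hact : ∀ σ, act σ 0 = 0) :
    (Algebra.TensorProduct.map (hH.counit hact) (.id (Zl ℓ) H)).comp hH.comul
      = (Algebra.TensorProduct.lid (Zl ℓ) H).symm := by
  have h1 : ∀ (t : H ⊗[Zl ℓ] H) (a : M),
      (Algebra.TensorProduct.lid (Zl ℓ) H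
        (Algebra.TensorProduct.map (hH.counit hact) (.id (Zl ℓ) H) t) : M → Qbar) a =
      pairHom H.val H.val t (0, a) := by
    intro t a
    induction t using TensorProduct.induction_on with
    | zero => simp
    | tmul x y => simp [Algebra.smul_def, hH.algebraMap_counit hact]
    | add x y hx hy => simp only [map_add, Subalgebra.coe_add, Pi.add_apply, hx, hy]
  refine AlgHom.ext fun f => (Algebra.TensorProduct.lid (Zl ℓ) H).injective
    (Subtype.ext (funext fun a => ?_))
  simp only [AlgHom.comp_apply, AlgEquiv.coe_toAlgHom]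
  rw [h1, hH.pairHom_comul, AlgEquiv.apply_symm_apply, zero_add]

theorem lTensor_counit (hH : IsModelAlg ℓ M act H) (hact : ∀ σ, act σ 0 = 0) :
    (Algebra.TensorProduct.map (.id (Zl ℓ) H) (hH.counit hact)).comp hH.comul
      = (Algebra.TensorProduct.rid (Zl ℓ) (Zl ℓ) H).symm := by
  have h1 : ∀ (t : H ⊗[Zl ℓ] H) (a : M),
      (Algebra.TensorProduct.rid (Zl ℓ) (Zl ℓ) H
        (Algebra.TensorProduct.map (.id (Zl ℓ) H) (hH.counit hact) t) : M → Qbar) a =
      pairHom H.val H.val t (a, 0) := by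
    intro t a
    induction t using TensorProduct.induction_on with
    | zero => simp
    | tmul x y => simp [Algebra.smul_def, hH.algebraMap_counit hact, mul_comm]
    | add x y hx hy => simp only [map_add, Subalgebra.coe_add, Pi.add_apply, hx, hy]
  refine AlgHom.ext fun f => (Algebra.TensorProduct.rid (Zl ℓ) (Zl ℓ) H).injective
    (Subtype.ext (funext fun a => ?_))
  simp only [AlgHom.comp_apply, AlgEquiv.coe_toAlgHom]
  rw [h1, hH.pairHom_comul, AlgEquiv.apply_symm_apply, add_zero]

/-- The bialgebra structure. -/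
@[reducible] def bialgebra (hH : IsModelAlg ℓ M act H) (hact : ∀ σ, act σ 0 = 0) :
    Bialgebra (Zl ℓ) H :=
  Bialgebra.ofAlgHom hH.comul (hH.counit hact) hH.coassoc (hH.rTensor_counit hact)
    (hH.lTensor_counit hact)

theorem antipode_mul (hH : IsModelAlg ℓ M act H) (hact : ∀ σ, act σ 0 = 0) :
    ((Algebra.TensorProduct.lift (hH.antipode hact) (.id (Zl ℓ) H)
        fun _ _ => Commute.all _ _).comp hH.comul
      = (Algebra.ofId (Zl ℓ) H).comp (hH.counit hact)) ∧
    ((Algebra.TensorProduct.lift (.id (Zl ℓ) H) (hH.antipode hact)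
        fun _ _ => Commute.all _ _).comp hH.comul
      = (Algebra.ofId (Zl ℓ) H).comp (hH.counit hact)) := by
  have h1 : ∀ (t : H ⊗[Zl ℓ] H) (a : M),
      (Algebra.TensorProduct.lift (hH.antipode hact) (.id (Zl ℓ) H)
          (fun _ _ => Commute.all _ _) t : M → Qbar) a = pairHom H.val H.val t (-a, a) ∧
      (Algebra.TensorProduct.lift (.id (Zl ℓ) H) (hH.antipode hact)
          (fun _ _ => Commute.all _ _) t : M → Qbar) a = pairHom H.val H.val t (a, -a) := by
    intro t a
    induction t using TensorProduct.induction_on with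
    | zero => simp
    | tmul x y => constructor <;> simp [antipode]
    | add x y hx hy =>
      simp only [map_add, Subalgebra.coe_add, Pi.add_apply, hx.1, hx.2, hy.1, hy.2, and_self]
  constructor <;>
    refine AlgHom.ext fun f => Subtype.ext (funext fun a => ?_) <;>
    simp only [AlgHom.comp_apply]
  · rw [(h1 _ a).1, hH.pairHom_comul, neg_add_cancel, ← hH.algebraMap_counit hact]
    rfl
  · rw [(h1 _ a).2, hH.pairHom_comul, add_neg_cancel, ← hH.algebraMap_counit hact]
    rfl

/-- The Hopf algebra structure. -/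
@[reducible] def hopfAlgebra (hH : IsModelAlg ℓ M act H) (hact : ∀ σ, act σ 0 = 0) :
    HopfAlgebra (Zl ℓ) H :=
  letI := hH.bialgebra hact
  HopfAlgebra.ofAlgHom (hH.antipode hact) (hH.antipode_mul hact).1 (hH.antipode_mul hact).2

omit hℓ in
theorem span_eq_top (hH : IsModelAlg ℓ M act H) :
    Submodule.span Qbar (H : Set (M → Qbar)) = ⊤ := by
  classical
  let := Fintype.ofFinite M
  have hA : Submodule.span Qbar (H : Set (M → Qbar)) =
      Subalgebra.toSubmodule (Algebra.adjoin Qbar (H : Set (M → Qbar))) := by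
    rw [Algebra.adjoin_eq_span]
    congr 1
    exact (Submonoid.closure_eq H.toSubsemiring.toSubmonoid).symm ▸ rfl
  rw [hA, eq_top_iff]
  intro f _
  set A := Algebra.adjoin Qbar (H : Set (M → Qbar))
  have hcst : ∀ x : Qbar, (fun _ : M => x) ∈ A := fun x => A.algebraMap_mem x
  have hind : ∀ a : M, (Pi.single a 1 : M → Qbar) ∈ A := by
    intro a
    have hb : ∀ b, b ≠ a → ∃ g ∈ H, g a ≠ g b := by
      intro b hb
      by_contra h
      push Not at h
      exact hb (hH.separates a b h).symm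
    choose! g hg hne using hb
    have e : (Pi.single a 1 : M → Qbar) = ∏ b ∈ Finset.univ.erase a,
        (fun m => (g b a - g b b)⁻¹) * (g b - fun _ => g b b) := by
      funext m
      simp only [Finset.prod_apply, Pi.mul_apply, Pi.sub_apply]
      by_cases hm : m = a
      · subst hm
        rw [Pi.single_eq_same, Finset.prod_eq_one]
        intro b hb
        exact inv_mul_cancel₀ (sub_ne_zero.mpr (hne b (Finset.ne_of_mem_erase hb)))
      · rw [Pi.single_eq_of_ne hm]
        exact (Finset.prod_eq_zero (Finset.mem_erase.mpr ⟨hm, Finset.mem_univ m⟩) (by simp)).symm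
    rw [e]
    exact A.prod_mem fun b hb => A.mul_mem (hcst _)
      (A.sub_mem (Algebra.subset_adjoin (hg b (Finset.ne_of_mem_erase hb))) (hcst _))
  have : f = ∑ a, (fun _ : M => f a) * (Pi.single a 1 : M → Qbar) := by
    funext m; simp [Finset.sum_apply, Pi.single_apply]
  rw [this]
  exact A.sum_mem fun a _ => A.mul_mem (hcst _) (hind a)

omit hℓ in
/-- A `ℤ_(ℓ)`-basis of the model ring spans all functions over `ℚ̄`. -/
theorem top_le_span_basis (hH : IsModelAlg ℓ M act H) {ι : Type*}
    (b : Module.Basis ι (Zl ℓ) H) :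
    ⊤ ≤ Submodule.span Qbar (Set.range fun i => (b i : M → Qbar)) := by
  rw [← hH.span_eq_top, Submodule.span_le]
  intro f hf
  have hmem : (⟨f, hf⟩ : H) ∈ Submodule.span (Zl ℓ) (Set.range b) := by
    rw [b.span_eq]; trivial
  have h2 := Submodule.apply_mem_span_image_of_mem_span H.val.toLinearMap hmem
  rw [← Set.range_comp] at h2
  exact Submodule.span_le_restrictScalars (Zl ℓ) Qbar _ h2

/-- The points of the model ring with values in `ℚ̄` are exactly the elements of `M`. -/
theorem eval_bijective (hH : IsModelAlg ℓ M act H) :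
    Function.Bijective fun a : M => (Pi.evalAlgHom (Zl ℓ) (fun _ : M => Qbar) a).comp H.val := by
  refine ⟨fun a b h => hH.separates a b fun f hf => ?_, fun φ => ?_⟩
  · exact congrFun (congrArg DFunLike.coe h) ⟨f, hf⟩
  classical
  let := Fintype.ofFinite M
  obtain ⟨ι, b, hb⟩ := hH.qindep
  have hspan := hH.top_le_span_basis b
  let E : Module.Basis ι Qbar (M → Qbar) := Module.Basis.mk hb hspan
  let Φ : (M → Qbar) →ₗ[Qbar] Qbar := E.constr Qbar fun i => φ (b i)
  have hΦ : ∀ f : H, Φ f = φ f := by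
    intro f
    refine LinearMap.congr_fun (f := (Φ.restrictScalars (Zl ℓ)).comp H.val.toLinearMap)
      (g := φ.toLinearMap) (b.ext fun i => ?_) f
    have : (b i : M → Qbar) = E i := (Module.Basis.mk_apply hb hspan i).symm
    simp [this, Φ, Module.Basis.constr_basis]
  have hmul : ∀ x y, Φ (x * y) = Φ x * Φ y := by
    intro x y
    refine LinearMap.congr_fun₂ (f := (LinearMap.mul Qbar (M → Qbar)).compr₂ Φ)
      (g := (LinearMap.mul Qbar Qbar).compl₁₂ Φ Φ) (E.ext fun i => E.ext fun j => ?_) x y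
    have hi : E i = (b i : M → Qbar) := Module.Basis.mk_apply hb hspan i
    have hj : E j = (b j : M → Qbar) := Module.Basis.mk_apply hb hspan j
    simp only [LinearMap.compr₂_apply, LinearMap.compl₁₂_apply, LinearMap.mul_apply_apply, hi, hj]
    rw [← Subalgebra.coe_mul, hΦ, hΦ, hΦ, map_mul]
  have hone : Φ 1 = 1 := by
    rw [← H.coe_one, hΦ, map_one]
  obtain ⟨c, hc⟩ : ∃ c : M, Φ (Pi.single c 1) ≠ 0 := by
    by_contra h
    push Not at h
    have : (1 : M → Qbar) = ∑ a, Pi.single a 1 := by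
      funext m; simp [Finset.sum_apply, Pi.single_apply]
    rw [this, map_sum, Finset.sum_eq_zero (fun a _ => h a)] at hone
    exact zero_ne_one hone
  refine ⟨c, AlgHom.ext fun f => mul_left_cancel₀ hc ?_⟩
  show Φ (Pi.single c 1) * (f : M → Qbar) c = Φ (Pi.single c 1) * φ f
  rw [← hΦ f, ← hmul, mul_comm (Φ _), ← smul_eq_mul, ← map_smul]
  congr 1
  funext m
  by_cases hm : m = c <;> simp [hm]

variable (hH : IsModelAlg ℓ M act H)
include hH in
/-- A model ring of functions yields a finite flat model: it is a finite flat cocommutative Hopf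
algebra whose `ℚ̄`-points are `M`, compatibly with Galois. -/
theorem hasFlatModel (hact : ∀ σ, act σ 0 = 0) : HasFlatModel ℓ M act := by
  let := hH.hopfAlgebra hact
  have hfin : Module.Finite (Zl ℓ) H :=
    module_finite (act := act) (Subalgebra.toSubmodule H) hH.equiv hH.integral
  have hfree : Module.Free (Zl ℓ) H := Module.free_of_finite_type_torsion_free' (R := Zl ℓ)
  let ev : M ≃ (H →ₐ[Zl ℓ] Qbar) := Equiv.ofBijective _ hH.eval_bijective
  let e : WithConv (H →ₐ[Zl ℓ] Qbar) ≃ M := (WithConv.equiv _).trans ev.symm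
  have he : ∀ (f : WithConv (H →ₐ[Zl ℓ] Qbar)) (x : H), f x = (x : M → Qbar) (e f) := by
    intro f x
    have h : ev (e f) = f.ofConv := ev.apply_symm_apply _
    exact (congrFun (congrArg DFunLike.coe h) x).symm
  refine ⟨H, inferInstance, hH.hopfAlgebra hact, hfin, Module.Flat.of_free, ⟨?_⟩, e, ?_, ?_⟩
  · refine LinearMap.ext fun f => (hH.qindep.pair hH.qindep).injective (funext fun p => ?_)
    have h1 : ∀ t : H ⊗[Zl ℓ] H, pairHom H.val H.val (TensorProduct.comm (Zl ℓ) H H t) p =
        pairHom H.val H.val t (p.2, p.1) := by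
      intro t
      induction t using TensorProduct.induction_on with
      | zero => simp
      | tmul x y => simp [mul_comm]
      | add x y hx hy => simp only [map_add, Pi.add_apply, hx, hy]
    show pairHom H.val H.val (TensorProduct.comm (Zl ℓ) H H (hH.comul f)) p =
      pairHom H.val H.val (hH.comul f) p
    rw [h1, hH.pairHom_comul, hH.pairHom_comul, add_comm]
  · intro f g
    refine hH.separates _ _ fun x hx => ?_
    have h1 : ∀ t : H ⊗[Zl ℓ] H, Algebra.TensorProduct.lift f.ofConv g.ofConv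
        (fun _ _ => Commute.all _ _) t = pairHom H.val H.val t (e f, e g) := by
      intro t
      induction t using TensorProduct.induction_on with
      | zero => simp
      | tmul x y => simp [← he]
      | add x y hx hy => simp only [map_add, Pi.add_apply, hx, hy]
    rw [show x (e (f * g)) = (f * g) ⟨x, hx⟩ from (he _ ⟨x, hx⟩).symm, AlgHom.convMul_apply]
    exact (h1 _).trans (hH.pairHom_comul ⟨x, hx⟩ (e f, e g))
  · intro σ f g hfg
    refine hH.separates _ _ fun x hx => ?_
    rw [hH.equiv x hx, show x (e g) = g.ofConv ⟨x, hx⟩ from (he g ⟨x, hx⟩).symm,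
      show x (e f) = f.ofConv ⟨x, hx⟩ from (he f ⟨x, hx⟩).symm]
    exact hfg _

end IsModelAlg

end Fermat.Agent.Flat
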