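import Fermat.Agent.Flat.ModularLat
import Fermat.Agent.Red.Existence
import Fermat.Agent.Red.GaussTorsion

/-!
# Reduction of the lattice: the special fibres are affine curves of the same genus

At each place over `ℓ ∤ N` the reduction of the lattice lies in the functions on `X₀(N)` mod `ℓ`
regular away from `∞`, with pole orders at most the given ones; these give the special fibres of
the good model.
-/

noncomputable section

namespace Fermat.Agent.Flat.Mdl

open ModularCurve AlgebraicCurve Module
open scoped TensorProduct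

local notation "Qbar" => AlgebraicClosure ℚ

variable (N : ℕ) [NeZero N] {ℓ : ℕ} [Fact ℓ.Prime]

/-- The genus does not drop modulo `ℓ`. -/
def GenusLe (v : Pl ℓ) : Prop :=
  genusFF Qbar (modularFunctionFieldBar N) ≤ genusFF v.k (modularFunctionFieldFullC v.k N)

variable {N} (hℓN : ¬ ℓ ∣ N) (v : Pl ℓ)
include hℓN

/-- The Gauss reduction at `v`. -/
def gauss : Red.GaussData v.A (IsLocalRing.residue v.O) (modularFunctionFieldBar N)
    (modularFunctionFieldFullC v.k N) :=
  Red.gaussData IsLocalRing.residue_surjective (Red.sameDegree hℓN v.over)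

theorem exists_series (y : (gauss hℓN v).B) :
    ∃ Y : LaurentSeries v.O,
      coeffMap v.A.subtype Y = ((y : modularFunctionFieldBar N) : LaurentSeries Qbar) ∧
        ((gauss hℓN v).ρ y : LaurentSeries v.k) = coeffMap (IsLocalRing.residue v.O) Y := by
  let y' : Red.integralFunctions v.A (IsLocalRing.residue v.O) N := y
  obtain ⟨Y, hY, -⟩ := y'.2
  exact ⟨Y, hY, Red.coe_integralReduction v.A (IsLocalRing.residue v.O) N (f := y') hY⟩

/-- An integral series which is a function has, as reduction, its coefficientwise reduction. -/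
theorem exists_integral {ys : LaurentSeries v.O} {f : modularFunctionFieldBar N}
    (hys : coeffMap v.A.subtype ys = (f : LaurentSeries Qbar)) :
    ∃ u : (gauss hℓN v).toRedBase.O, (u : modularFunctionFieldBar N) = f ∧
      ((gauss hℓN v).toRedBase.red u : LaurentSeries v.k) =
        coeffMap (IsLocalRing.residue v.O) ys := by
  set π := IsLocalRing.residue v.O
  rcases eq_or_ne f 0 with rfl | hf
  · have h0 : ys = 0 := Red.coeffMap_subtype_injective v.A (hys.trans (map_zero _).symm)
    exact ⟨0, rfl, by rw [map_zero, h0, map_zero]; rfl⟩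
  obtain ⟨c, u, hu, hfu⟩ := (gauss hℓN v).toRedBase.scale f hf
  obtain ⟨y, z, hz, huz⟩ := (gauss hℓN v).mem_O.mp u.2
  change (gauss hℓN v).red u ≠ 0 at hu
  have hy : (gauss hℓN v).ρ y ≠ 0 := by
    rw [(gauss hℓN v).red_eq hz huz] at hu
    exact (div_ne_zero_iff.mp hu).1
  obtain ⟨Y, hY, hρy⟩ := exists_series hℓN v y
  obtain ⟨Z, hZ, hρz⟩ := exists_series hℓN v z
  have hrel : (f : LaurentSeries Qbar) * coeffMap v.A.subtype Z =
      algebraMap Qbar (LaurentSeries Qbar) c * coeffMap v.A.subtype Y := by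
    rw [hY, hZ, hfu, MulMemClass.coe_mul, mul_assoc, ← MulMemClass.coe_mul, huz]
    rfl
  have hc : c ∈ v.A := by
    by_contra hc
    have hci : c⁻¹ ∈ v.A := (v.A.mem_or_inv_mem c).resolve_left hc
    have hc0 : c ≠ 0 := fun h0 => hc (h0 ▸ v.A.zero_mem)
    have e : HahnSeries.C (⟨c⁻¹, hci⟩ : v.O) * (ys * Z) = Y := by
      refine Red.coeffMap_subtype_injective v.A ?_
      rw [map_mul, map_mul, hys, hrel, ← mul_assoc, HahnSeries.C_apply, coeffMap_single]
      show HahnSeries.single 0 c⁻¹ * algebraMap Qbar (LaurentSeries Qbar) c * _ = _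
      rw [algebraMap_laurentSeries_eq_single, HahnSeries.single_mul_single, zero_add,
        inv_mul_cancel₀ hc0, ← HahnSeries.C_apply, map_one, one_mul]
    have h0 : π (⟨c⁻¹, hci⟩ : v.O) = 0 := by
      by_contra hne
      exact hc (inv_inv c ▸ Red.inv_mem_of_pi_ne_zero IsLocalRing.residue_surjective hne)
    refine hy (Subtype.ext ?_)
    rw [hρy, ← e, map_mul, HahnSeries.C_apply, coeffMap_single, h0, HahnSeries.single_eq_zero,
      zero_mul]
    rfl
  refine ⟨(gauss hℓN v).toRedBase.ι ⟨c, hc⟩ * u, hfu.symm, ?_⟩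
  have e : ys * Z = HahnSeries.C (⟨c, hc⟩ : v.O) * Y := by
    refine Red.coeffMap_subtype_injective v.A ?_
    rw [map_mul, map_mul, hys, hrel, HahnSeries.C_apply, coeffMap_single,
      algebraMap_laurentSeries_eq_single]
    rfl
  have hz' : coeffMap π Z ≠ 0 := fun h => hz (Subtype.ext (hρz.trans h))
  rw [map_mul, Red.RedBase.red_ι]
  show ((algebraMap v.k (modularFunctionFieldFullC v.k N) (π ⟨c, hc⟩) * (gauss hℓN v).red u :
    modularFunctionFieldFullC v.k N) : LaurentSeries v.k) = _
  rw [(gauss hℓN v).red_eq hz huz, MulMemClass.coe_mul, IntermediateField.coe_div, hρy, hρz,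
    ← mul_div_assoc, div_eq_iff hz', ← map_mul, e, map_mul, HahnSeries.C_apply, coeffMap_single]
  congr 1
  exact algebraMap_laurentSeries_eq_single v.k _

variable (hg : GenusLe N v)
include hg

theorem genus_eq :
    genusFF Qbar (modularFunctionFieldBar N) =
      genusFF v.k (modularFunctionFieldFullC v.k N) :=
  ((gauss hℓN v).genus_eq_and_latticeSurj rfl hg).1

/-- The reduction of the lattice lies in `L(n Q)` for one place `Q`. -/
theorem exists_special :
    ∃ Q : Place v.k (modularFunctionFieldFullC v.k N), ∀ s : (lat N ℓ).S,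
      ∃ w ∈ riemannRochSpace (AC.nP Q s), (w : LaurentSeries v.k) =
        Ser.embA v.k ((lat N ℓ).vec s : LaurentSeries (Zl ℓ)) := by
  obtain ⟨r, hr⟩ := (gauss hℓN v).exists_placeMap rfl hg
  have hF : Red.RR Qbar (modularFunctionFieldBar N)
      (genusFF Qbar (modularFunctionFieldBar N)) := Red.RR.ofFF
  let R := (gauss hℓN v).redData hF r hr
  refine ⟨r (Pinf N), fun s => ?_⟩
  set y : LaurentSeries (Zl ℓ) := ((lat N ℓ).vec s : LaurentSeries (Zl ℓ))
  obtain ⟨f, hf, hfy⟩ : Ser.embA Qbar y ∈ RS N := ((lat N ℓ).vec s).2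
  change (f : LaurentSeries Qbar) = _ at hfy
  have hf0 : f ≠ 0 := fun h => by
    apply (lat N ℓ).vec_lead_ne s
    have h0 : y = 0 := MF.coeffMap_injective (zl_injective ℓ)
      ((hfy.symm.trans (by rw [h]; rfl)).trans (map_zero _).symm)
    show y.coeff _ = 0
    rw [h0]; rfl
  have hmem : f ∈ riemannRochSpace (AC.nP (Pinf N) s) := by
    refine AC.mem_rr_nP.mpr ⟨hf, Or.inr (le_of_eq ?_)⟩
    rw [QP.ord_qPlace hf0, hfy]
    exact ((lat N ℓ).vec_order s).symm.trans (MF.order_coeffMap (zl_injective ℓ) y).symm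
  have hys : coeffMap v.A.subtype (coeffMap v.toO y) = (f : LaurentSeries Qbar) := by
    rw [hfy, coeffMap_coeffMap]; rfl
  obtain ⟨u, hu, hred⟩ := exists_integral hℓN v hys
  have hsp := R.red_mem_space hF (E := AC.nP (Pinf N) s) (u := u)
    (by show (u : modularFunctionFieldBar N) ∈ _; rw [hu]; exact hmem)
  rw [show Finsupp.mapDomain R.r (AC.nP (Pinf N) (s : ℕ)) = AC.nP (r (Pinf N)) (s : ℕ) from
    Finsupp.mapDomain_single] at hsp
  exact ⟨R.red u, hsp, hred.trans (coeffMap_coeffMap _ _ y)⟩

end Fermat.Agent.Flat.Mdl
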