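import Fermat.Agent.Flat.GoodModel
import Fermat.Agent.Flat.ModularRed

/-!
# The good model of `X₀(N)` minus the cusp `∞`

If `ℓ ∤ N` and the genus does not drop modulo `ℓ`, the lattice of integral functions with
poles only at `∞` is a good model over `ℤ_(ℓ)`.
-/

noncomputable section

namespace Fermat.Agent.Flat

open Module

/-- Transport of pole orders along an isomorphism. -/
def PoleBasis.comap {K R R' : Type*} [Field K] [CommRing R] [Algebra K R] [CommRing R']
    [Algebra K R'] (P : PoleBasis K R') (e : R ≃ₐ[K] R') : PoleBasis K R where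
  S := P.S
  g := P.g
  gaps_finite := P.gaps_finite
  gaps_card := P.gaps_card
  add_mem := P.add_mem
  b := P.b.map e.symm.toLinearEquiv
  zero_mem := P.zero_mem
  b_zero := by
    rw [Basis.map_apply, P.b_zero]
    exact map_one e.symm
  coef_mul_top s t := by
    rw [Basis.map_apply, Basis.map_apply, Basis.map_repr, LinearEquiv.trans_apply]
    show P.b.repr (e (e.symm (P.b s) * e.symm (P.b t))) _ ≠ 0
    rw [map_mul, e.apply_symm_apply, e.apply_symm_apply]
    exact P.coef_mul_top s t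
  coef_mul_high s t u h := by
    rw [Basis.map_apply, Basis.map_apply, Basis.map_repr, LinearEquiv.trans_apply]
    show P.b.repr (e (e.symm (P.b s) * e.symm (P.b t))) u = 0
    rw [map_mul, e.apply_symm_apply, e.apply_symm_apply]
    exact P.coef_mul_high s t u h

theorem PoleBasis.mem_L_comap {K R R' : Type*} [Field K] [CommRing R] [Algebra K R] [CommRing R']
    [Algebra K R'] (P : PoleBasis K R') (e : R ≃ₐ[K] R') {n : ℕ} {x : R} :
    x ∈ (P.comap e).L n ↔ e x ∈ P.L n := by
  classical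
  rw [PoleBasis.mem_L, PoleBasis.mem_L]
  refine forall₂_congr fun m _ => ?_
  by_cases h : m ∈ P.S
  · rw [(P.comap e).coef_of_mem (show m ∈ (P.comap e).S from h), P.coef_of_mem h]
    rfl
  · rw [(P.comap e).coef_of_notMem (show m ∉ (P.comap e).S from h), P.coef_of_notMem h]

namespace Mdl

open ModularCurve AlgebraicCurve
open scoped TensorProduct

local notation "Qbar" => AlgebraicClosure ℚ

variable (N : ℕ) [NeZero N] (ℓ : ℕ) [Fact ℓ.Prime]

section Fibre

variable {N ℓ} {K : Type} [Field K] [Algebra (Zl ℓ) K] [IsAlgClosed K]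
  {B : IntermediateField K (LaurentSeries K)} [FF.IsFunctionField K B]

/-- The data of an identification of a fibre with a ring of regular functions. -/
structure FibreData (Λ : Ser.Lat ℓ) (Q : Place K B) : Prop where
  indep : LinearIndependent K fun s => Ser.embA K (Λ.vec s : LaurentSeries (Zl ℓ))
  mem : ∀ s : Λ.S, ∃ w ∈ riemannRochSpace (AC.nP Q s),
    (w : LaurentSeries K) = Ser.embA K (Λ.vec s : LaurentSeries (Zl ℓ))
  card : ∀ n, 2 * genusFF K B ≤ n → FF.ell (AC.nP Q n) = (Λ.S ∩ Set.Iic n).ncard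

variable {Λ : Ser.Lat ℓ} {Q : Place K B} (D : FibreData Λ Q)
include D

omit [IsAlgClosed K] [FF.IsFunctionField K ↥B] in
theorem phi_mem (x : K ⊗[Zl ℓ] Λ.A) : Λ.phi K x ∈ (AC.Reg Q).map B.val := by
  have hsum := (Λ.basis.baseChange K).linearCombination_repr x
  rw [← hsum, Finsupp.linearCombination_apply, Finsupp.sum, map_sum]
  refine sum_mem fun s _ => ?_
  rw [Basis.baseChange_apply, TensorProduct.smul_tmul', smul_eq_mul, mul_one, Ser.Lat.phi_tmul,
    Ser.smul_eq_algebraMap_mul, Ser.Lat.basis_apply]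
  refine mul_mem (Subalgebra.algebraMap_mem _ _) ?_
  obtain ⟨w, hw, hws⟩ := D.mem s
  exact ⟨w, (AC.mem_rr_nP.mp hw).1, hws⟩

theorem phi_surj {f : B} (hf : f ∈ AC.Reg Q) :
    ∃ x : K ⊗[Zl ℓ] Λ.A, Λ.phi K x = (f : LaurentSeries K) := by
  classical
  choose w hw hws using D.mem
  set m := max (2 * genusFF K B) (-Q.ord f).toNat with hm
  have hfm : f ∈ riemannRochSpace (AC.nP Q m) := AC.mem_rr_nP.mpr ⟨hf, Or.inr (by omega)⟩
  have hfin : {s : Λ.S | (s : ℕ) ≤ m}.Finite :=
    (Set.finite_Iic m).preimage Subtype.val_injective.injOn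
  let := hfin.fintype
  have hliw : LinearIndependent K w := by
    rw [linearIndependent_iff']
    intro T c hsum
    refine linearIndependent_iff'.mp D.indep T c ?_
    have := congrArg (fun b : B => (b : LaurentSeries K)) hsum
    simp only [AddSubmonoidClass.coe_finsetSum, ZeroMemClass.coe_zero] at this
    rw [← this]
    refine Finset.sum_congr rfl fun s _ => ?_
    rw [Algebra.smul_def, MulMemClass.coe_mul, hws, Ser.smul_eq_algebraMap_mul]
    rfl
  have hle : Submodule.span K (w '' {s | (s : ℕ) ≤ m}) ≤ riemannRochSpace (AC.nP Q m) := by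
    refine Submodule.span_le.mpr ?_
    rintro _ ⟨s, hs, rfl⟩
    refine FF.rrSpace_mono (fun v => ?_) (hw s)
    change (s : ℕ) ≤ m at hs
    rw [AC.nP, AC.nP, Finsupp.single_apply, Finsupp.single_apply]
    split_ifs <;> omega
  have heq : Submodule.span K (w '' {s | (s : ℕ) ≤ m}) = riemannRochSpace (AC.nP Q m) := by
    refine Submodule.eq_of_le_of_finrank_le hle ?_
    show FF.ell (AC.nP Q m) ≤ _
    rw [D.card m (le_max_left _ _), Set.image_eq_range,
      finrank_span_eq_card (b := fun x : {s : Λ.S | (s : ℕ) ≤ m} => w x)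
        (hliw.comp _ Subtype.val_injective),
      ← Nat.card_eq_fintype_card, Nat.card_coe_set_eq,
      ← Set.ncard_image_of_injective _ (Subtype.val_injective (p := fun i => i ∈ Λ.S))]
    refine le_of_eq ?_
    congr 1
    ext i
    simp [Set.mem_Iic, and_comm]
  rw [← heq] at hfm
  clear hm hf
  induction hfm using Submodule.span_induction with
  | mem x hx =>
    obtain ⟨s, -, rfl⟩ := hx
    exact ⟨1 ⊗ₜ Λ.vec s, by rw [Ser.Lat.phi_tmul, one_smul, hws]⟩
  | zero => exact ⟨0, map_zero _⟩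
  | add x y _ _ hx hy =>
    obtain ⟨a, ha⟩ := hx
    obtain ⟨b, hb⟩ := hy
    exact ⟨a + b, by rw [map_add, ha, hb]; rfl⟩
  | smul c x _ hx =>
    obtain ⟨a, ha⟩ := hx
    exact ⟨algebraMap K _ c * a, by
      rw [map_mul, AlgHom.commutes, ha, Algebra.smul_def, MulMemClass.coe_mul]; rfl⟩

/-- The identification. -/
def fibreEquiv : (K ⊗[Zl ℓ] Λ.A) ≃ₐ[K] AC.Reg Q :=
  AlgEquiv.trans
    (AlgEquiv.ofBijective ((Λ.phi K).codRestrict _ (phi_mem D))
      ⟨fun _ _ h => Λ.phi_injective_of K D.indep (congrArg Subtype.val h), fun y => by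
        obtain ⟨f, hf, hfy⟩ := y.2
        obtain ⟨x, hx⟩ := phi_surj D hf
        exact ⟨x, Subtype.ext (hx.trans hfy)⟩⟩)
    ((AC.Reg Q).equivMapOfInjective B.val Subtype.val_injective).symm

theorem coe_fibreEquiv (x : K ⊗[Zl ℓ] Λ.A) :
    (((fibreEquiv D x : AC.Reg Q) : B) : LaurentSeries K) = Λ.phi K x := by
  rw [fibreEquiv, AlgEquiv.trans_apply]
  set y := AlgEquiv.ofBijective ((Λ.phi K).codRestrict _ (phi_mem D)) _ x with hy
  have h := congrArg Subtype.val
    (((AC.Reg Q).equivMapOfInjective B.val Subtype.val_injective).apply_symm_apply y)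
  exact h

/-- The fibres are normal: they are rings of functions regular outside one place. -/
theorem isIntegrallyClosed_fibre : IsIntegrallyClosed (K ⊗[Zl ℓ] Λ.A) :=
  IsIntegrallyClosed.of_equiv (R := AC.Reg Q) (fibreEquiv D).symm.toRingEquiv

/-- The pole orders of the fibre. -/
def fibrePole : PoleBasis K (K ⊗[Zl ℓ] Λ.A) := (AC.poleBasis Q).comap (fibreEquiv D)

/-- The basis of the lattice respects pole orders on a fibre. -/
theorem mem_fibrePole (s : Λ.S) : Λ.basis.baseChange K s ∈ (fibrePole D).L s := by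
  rw [fibrePole, PoleBasis.mem_L_comap, AC.mem_L_poleBasis]
  obtain ⟨w, hw, hws⟩ := D.mem s
  have : ((fibreEquiv D (Λ.basis.baseChange K s) : AC.Reg Q) : B) = w := by
    refine Subtype.ext ?_
    rw [coe_fibreEquiv, Ser.Lat.phi_basis, hws]
  rw [this]
  exact hw

end Fibre

variable {ℓ}

theorem algebraMap_k_eq_zero_iff (v : Pl ℓ) (z : Zl ℓ) :
    algebraMap (Zl ℓ) v.k z = 0 ↔ z ∈ IsLocalRing.maximalIdeal (Zl ℓ) := by
  refine ⟨fun h => ?_, fun h => ?_⟩
  · by_contra hz
    rw [IsLocalRing.mem_maximalIdeal, mem_nonunits_iff, not_not] at hz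
    exact (hz.map (algebraMap (Zl ℓ) v.k)).ne_zero h
  · rw [maximalIdeal_eq_span, Ideal.mem_span_singleton] at h
    obtain ⟨w, rfl⟩ := h
    have : algebraMap (Zl ℓ) v.k (ℓ : Zl ℓ) = 0 := by
      show IsLocalRing.residue v.O (v.toO (ℓ : Zl ℓ)) = 0
      obtain ⟨h1, h2⟩ := v.A.mem_nonunits_iff_exists_mem_maximalIdeal.mp v.over
      rw [IsLocalRing.residue_eq_zero_iff, show v.toO (ℓ : Zl ℓ) = ⟨(ℓ : Qbar), h1⟩ from
        Subtype.ext (map_natCast (algebraMap (Zl ℓ) Qbar) ℓ)]
      exact h2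
    rw [map_mul, this, zero_mul]

variable (ℓ)

theorem fibreGeneric : FibreData (K := Qbar) (lat N ℓ) (Pinf N) where
  indep := (lat N ℓ).linearIndependent_embA_of_injective Qbar (zl_injective ℓ)
  mem s := by
    obtain ⟨f, hf, hfy⟩ : Ser.embA Qbar ((lat N ℓ).vec s : LaurentSeries (Zl ℓ)) ∈ RS N :=
      ((lat N ℓ).vec s).2
    refine ⟨f, AC.mem_rr_nP.mpr ⟨hf, ?_⟩, hfy⟩
    rcases eq_or_ne f 0 with h | h
    · exact Or.inl h
    · refine Or.inr (le_of_eq ?_)
      rw [QP.ord_qPlace h]
      change (f : LaurentSeries Qbar) = _ at hfy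
      rw [hfy]
      exact ((lat N ℓ).vec_order s).symm.trans (MF.order_coeffMap (zl_injective ℓ) _).symm
  card n _ := (AC.ncard_poleSet_inter (Pinf N) n).symm

variable {N ℓ} (hℓN : ¬ ℓ ∣ N) (hg : ∀ v : Pl ℓ, GenusLe N v)
include hℓN hg

/-- The reduction of the cusp `∞`. -/
def redPlace (v : Pl ℓ) : Place v.k (modularFunctionFieldFullC v.k N) :=
  (exists_special hℓN v (hg v)).choose

theorem fibreSpecial (v : Pl ℓ) : FibreData (K := v.k) (lat N ℓ) (redPlace hℓN hg v) where
  indep := (lat N ℓ).linearIndependent_embA_of_ker v.k (algebraMap_k_eq_zero_iff v)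
  mem := (exists_special hℓN v (hg v)).choose_spec
  card n hn := by
    have h1 := FF.ell_eq_of_large_degree (D := AC.nP (redPlace hℓN hg v) n)
      (by rw [AC.degree_nP]; omega)
    have h2 := FF.ell_eq_of_large_degree (D := AC.nP (Pinf N) n)
      (by rw [AC.degree_nP, genus_eq hℓN v (hg v)]; omega)
    rw [AC.degree_nP] at h1 h2
    rw [genus_eq hℓN v (hg v), ← AC.ncard_poleSet_inter] at h2
    show _ = (AC.poleSet (Pinf N) ∩ Set.Iic n).ncard
    omega

/-- The good model of `X₀(N)` at a prime `ℓ ∤ N`. -/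
def model : GoodModel ℓ where
  S := (lat N ℓ).S
  g := genusFF Qbar (modularFunctionFieldBar N)
  gaps_finite := (AC.poleBasis (Pinf N)).gaps_finite
  gaps_card := AC.gaps_card (Pinf N)
  add_mem := (lat N ℓ).add_mem
  zero_mem := (lat N ℓ).zero_mem
  Alg := (lat N ℓ).A
  instCommRing := (lat N ℓ).A.toCommRing
  instAlgebra := (lat N ℓ).A.algebra
  b := (lat N ℓ).basis
  b_zero := (lat N ℓ).basis_zero
  mul_top := (lat N ℓ).repr_mul_top
  mul_high := (lat N ℓ).repr_mul_high
  normal_generic := isIntegrallyClosed_fibre (fibreGeneric N ℓ)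
  normal_special v := isIntegrallyClosed_fibre (fibreSpecial hℓN hg v)
  special v := fibrePole (fibreSpecial hℓN hg v)
  special_g v := (genus_eq hℓN v (hg v)).symm
  special_mem v s := mem_fibrePole (fibreSpecial hℓN hg v) s

end Mdl

end Fermat.Agent.Flat
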