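import Fermat.Agent.Flat.Assembly
import Fermat.Agent.Flat.ModularModel
import Fermat.Agent.Mono.Torsion

/-!
# The torsion of `J₀(N)` as a module of ideal classes of the good model

For `ℓ ∤ N` the group `J₀(N)[ℓᵏ]` is embedded, Galois-equivariantly, in the classes of nonzero
ideals of the generic fibre of the good model of `X₀(N)` minus `∞`.
-/

noncomputable section

namespace Fermat.Agent.Flat.Mdl

open ModularCurve AlgebraicCurve Module
open scoped TensorProduct

local notation "Qbar" => AlgebraicClosure ℚ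

theorem phi_galois {ℓ : ℕ} [Fact ℓ.Prime] (Λ : Ser.Lat ℓ) (σ : Qbar ≃ₐ[ℚ] Qbar)
    (x : Qbar ⊗[Zl ℓ] Λ.A) :
    Λ.phi Qbar (Algebra.TensorProduct.congr (galZl (ℓ := ℓ) σ) (AlgEquiv.refl (A₁ := Λ.A)) x) =
      coeffMap (σ : Qbar →+* Qbar) (Λ.phi Qbar x) := by
  induction x using TensorProduct.induction_on with
  | zero => rw [map_zero, map_zero, map_zero]
  | tmul c a =>
    rw [show Algebra.TensorProduct.congr (galZl (ℓ := ℓ) σ) (AlgEquiv.refl (A₁ := Λ.A))
        (c ⊗ₜ[Zl ℓ] a) =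
      σ c ⊗ₜ[Zl ℓ] a from rfl, Ser.Lat.phi_tmul, Ser.Lat.phi_tmul]
    ext m
    rw [coeffMap_coeff, Ser.coeff_field_smul, Ser.coeff_field_smul, Ser.embA_coeff]
    exact ((map_mul σ c _).trans (congrArg (σ c * ·) ((galZl (ℓ := ℓ) σ).commutes _))).symm
  | add x y hx hy => rw [map_add, map_add, hx, hy, map_add, map_add]

variable {N : ℕ} [NeZero N] {ℓ : ℕ} [Fact ℓ.Prime] (hℓN : ¬ ℓ ∣ N) (hg : ∀ v : Pl ℓ, GenusLe N v)

/-- The generic fibre of the model. -/
def genEquiv : (model hℓN hg).R Qbar ≃ₐ[Qbar] AC.Reg (Pinf N) :=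
  fibreEquiv (fibreGeneric N ℓ)

theorem coe_genEquiv_galR (σ : Qbar ≃ₐ[ℚ] Qbar) (x : (model hℓN hg).R Qbar) :
    ((genEquiv hℓN hg ((model hℓN hg).galR σ x) : AC.Reg (Pinf N)) : modularFunctionFieldBar N) =
      arithmeticGalois (L := Qbar) (modularFunctionFieldFull N) σ •
        ((genEquiv hℓN hg x : AC.Reg (Pinf N)) : modularFunctionFieldBar N) := by
  refine Subtype.ext ?_
  have h : ∀ y : (model hℓN hg).R Qbar,
      (((genEquiv hℓN hg y : AC.Reg (Pinf N)) : modularFunctionFieldBar N) : LaurentSeries Qbar) =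
        (lat N ℓ).phi Qbar y := coe_fibreEquiv (fibreGeneric N ℓ)
  rw [coe_arithmeticGalois_smul, h, h]
  exact phi_galois (lat N ℓ) σ x

/-- The ideal of the model attached to a divisor. -/
def idealOf (E : Divisor Qbar (modularFunctionFieldBar N)) : Ideal ((model hℓN hg).R Qbar) :=
  (AC.divIdeal (Pinf N) E).map (genEquiv hℓN hg).symm.toRingEquiv.toRingHom

theorem mem_idealOf {E : Divisor Qbar (modularFunctionFieldBar N)}
    {x : (model hℓN hg).R Qbar} :
    x ∈ idealOf hℓN hg E ↔ genEquiv hℓN hg x ∈ AC.divIdeal (Pinf N) E := by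
  rw [idealOf, Ideal.mem_map_iff_of_surjective (genEquiv hℓN hg).symm.toRingEquiv.toRingHom
    (genEquiv hℓN hg).symm.surjective]
  refine ⟨?_, fun h => ⟨_, h, (genEquiv hℓN hg).symm_apply_apply x⟩⟩
  rintro ⟨y, hy, rfl⟩
  exact ((genEquiv hℓN hg).apply_symm_apply y).symm ▸ hy

theorem galI_idealOf (σ : Qbar ≃ₐ[ℚ] Qbar) (E : Divisor Qbar (modularFunctionFieldBar N)) :
    (model hℓN hg).galI σ (idealOf hℓN hg E) =
      idealOf hℓN hg (arithmeticGalois (L := Qbar) (modularFunctionFieldFull N) σ • E) := by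
  ext x
  rw [GoodModel.mem_galI, mem_idealOf]
  have key : ∀ y, genEquiv hℓN hg ((model hℓN hg).galR σ y) ∈
      AC.divIdeal (Pinf N) (arithmeticGalois (L := Qbar) (modularFunctionFieldFull N) σ • E) ↔
        y ∈ idealOf hℓN hg E := fun y => by
    rw [mem_idealOf]
    exact AC.smul_mem_divIdeal (smul_Pinf N σ) (coe_genEquiv_galR hℓN hg σ y)
  constructor
  · rintro ⟨y, hy, rfl⟩
    exact (key y).mpr hy
  · intro hx
    refine ⟨((model hℓN hg).galR σ).symm x, (key _).mp ?_, AlgEquiv.apply_symm_apply _ _⟩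
    rwa [AlgEquiv.apply_symm_apply]

theorem idealOf_ne_bot {E : Divisor Qbar (modularFunctionFieldBar N)} (hE : AC.Off (Pinf N) E) :
    idealOf hℓN hg E ≠ ⊥ := fun h =>
  AC.divIdeal_ne_bot hE ((Ideal.map_eq_bot_iff_of_injective
    (genEquiv hℓN hg).symm.injective).mp h)

theorem idealOf_add {E E' : Divisor Qbar (modularFunctionFieldBar N)} (hE : AC.Off (Pinf N) E)
    (hE' : AC.Off (Pinf N) E') :
    idealOf hℓN hg (E + E') = idealOf hℓN hg E * idealOf hℓN hg E' := by
  rw [idealOf, idealOf, idealOf, ← Ideal.map_mul, AC.divIdeal_mul hE hE']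

theorem rel_of_lin {E E' : Divisor Qbar (modularFunctionFieldBar N)}
    (h : AC.Lin (P := Pinf N) E E') :
    (model hℓN hg).Rel (idealOf hℓN hg E) (idealOf hℓN hg E') := by
  obtain ⟨α, β, hα, hβ, e⟩ := h
  refine ⟨(genEquiv hℓN hg).symm α, (genEquiv hℓN hg).symm β,
    (map_ne_zero_iff _ (genEquiv hℓN hg).symm.injective).mpr hα,
    (map_ne_zero_iff _ (genEquiv hℓN hg).symm.injective).mpr hβ, ?_⟩
  have := congrArg (Ideal.map (genEquiv hℓN hg).symm.toRingEquiv.toRingHom) e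
  rw [Ideal.map_mul, Ideal.map_mul, Ideal.map_span, Ideal.map_span, Set.image_singleton,
    Set.image_singleton] at this
  exact this

theorem lin_of_rel {E E' : Divisor Qbar (modularFunctionFieldBar N)}
    (h : (model hℓN hg).Rel (idealOf hℓN hg E) (idealOf hℓN hg E')) :
    AC.Lin (P := Pinf N) E E' := by
  obtain ⟨α, β, hα, hβ, e⟩ := h
  refine ⟨genEquiv hℓN hg α, genEquiv hℓN hg β,
    (map_ne_zero_iff _ (genEquiv hℓN hg).injective).mpr hα,
    (map_ne_zero_iff _ (genEquiv hℓN hg).injective).mpr hβ, ?_⟩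
  have hback : ∀ F : Divisor Qbar (modularFunctionFieldBar N),
      (idealOf hℓN hg F).map (genEquiv hℓN hg).toRingEquiv.toRingHom = AC.divIdeal (Pinf N) F := by
    intro F
    ext y
    rw [Ideal.mem_map_iff_of_surjective (genEquiv hℓN hg).toRingEquiv.toRingHom
      (genEquiv hℓN hg).surjective]
    refine ⟨?_, fun hy => ⟨(genEquiv hℓN hg).symm y, ?_, (genEquiv hℓN hg).apply_symm_apply y⟩⟩
    · rintro ⟨x, hx, rfl⟩
      exact (mem_idealOf hℓN hg).mp hx
    · rw [mem_idealOf, AlgEquiv.apply_symm_apply]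
      exact hy
  have := congrArg (Ideal.map (genEquiv hℓN hg).toRingEquiv.toRingHom) e
  rw [Ideal.map_mul, Ideal.map_mul, Ideal.map_span, Ideal.map_span, Set.image_singleton,
    Set.image_singleton, hback, hback] at this
  exact this

section Classes

omit [Fact ℓ.Prime]

variable (N) in
/-- The class of degree zero attached to a divisor. -/
def cls (E : Divisor Qbar (modularFunctionFieldBar N)) : JZero N :=
  Pic0.mk ⟨AC.norm0 (Pinf N) E, Divisor.mem_degZero.mpr (AC.degree_norm0 E)⟩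

theorem cls_eq_iff {E E' : Divisor Qbar (modularFunctionFieldBar N)} :
    cls N E = cls N E' ↔ AC.norm0 (Pinf N) E - AC.norm0 (Pinf N) E' ∈
      Divisor.principal (K := Qbar) (F := modularFunctionFieldBar N) := by
  exact QuotientAddGroup.eq_iff_sub_mem.trans AddSubgroup.mem_addSubgroupOf

theorem cls_smul (σ : Qbar ≃ₐ[ℚ] Qbar) (E : Divisor Qbar (modularFunctionFieldBar N)) :
    σ • cls N E = cls N (arithmeticGalois (L := Qbar) (modularFunctionFieldFull N) σ • E) := by
  rw [galois_smul_pic0_def, cls, cls, SemilinearAut.pic0_smul_mk]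
  exact congrArg Pic0.mk (Subtype.ext (AC.norm0_smul (smul_Pinf N σ) E))

theorem cls_add (E E' : Divisor Qbar (modularFunctionFieldBar N)) :
    cls N (E + E') = cls N E + cls N E' := by
  rw [cls, cls, cls, ← Pic0.mk_add]
  refine congrArg Pic0.mk (Subtype.ext ?_)
  show AC.norm0 (Pinf N) (E + E') = AC.norm0 (Pinf N) E + AC.norm0 (Pinf N) E'
  rw [AC.norm0, AC.norm0, AC.norm0, map_add, Finsupp.single_add]
  abel

/-- Every point of `J₀(N)` is the class of an effective divisor avoiding `∞`. -/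
theorem exists_cls (a : JZero N) : ∃ E, AC.Off (Pinf N) E ∧ cls N E = a := by
  obtain ⟨⟨D, hD⟩, rfl⟩ := Pic0.mk_surjective a
  obtain ⟨E, hE, hp⟩ := AC.exists_off (Pinf N) D hD
  refine ⟨E, hE, Eq.symm ?_⟩
  exact QuotientAddGroup.eq_iff_sub_mem.mpr (AddSubgroup.mem_addSubgroupOf.mpr hp)

omit [NeZero N] in
theorem smul_mem_torsionBy {n : ℤ} {x : JZero N} (σ : Qbar ≃ₐ[ℚ] Qbar)
    (hx : x ∈ Submodule.torsionBy ℤ (JZero N) n) : σ • x ∈ Submodule.torsionBy ℤ (JZero N) n := by
  rw [Submodule.mem_torsionBy_iff] at hx ⊢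
  rw [show n • σ • x = σ • (n • x) from
    (map_zsmul (DistribSMul.toAddMonoidHom (JZero N) σ) n x).symm]
  rw [hx, smul_zero]

theorem finite_torsionBy_pow (q : ℕ) [NeZero q] (k : ℕ) :
    Finite ↥(Submodule.torsionBy ℤ (JZero N) ((q : ℤ) ^ k)) := by
  have : NeZero (q ^ k) := ⟨pow_ne_zero k (NeZero.ne q)⟩
  have := Mono.finite_torsion_JZero N (q ^ k)
  refine Finite.of_injective
    (fun x => (⟨(x : JZero N), ?_⟩ :
      Pic0.torsion Qbar (modularFunctionFieldBar N) (q ^ k))) fun x y h => ?_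
  · rw [Pic0.mem_torsion, Nat.cast_pow]
    exact (Submodule.mem_torsionBy_iff _ _).mp x.2
  · exact Subtype.ext (congrArg (fun z : Pic0.torsion Qbar (modularFunctionFieldBar N) (q ^ k) =>
      (z : JZero N)) h)

end Classes

/-- The torsion, as a module of ideal classes. -/
def classData (k : ℕ) : (model hℓN hg).ClassData where
  M := ↥(Submodule.torsionBy ℤ (JZero N) ((ℓ : ℤ) ^ k))
  instFinite :=
    haveI : NeZero ℓ := ⟨(Fact.out : ℓ.Prime).ne_zero⟩
    finite_torsionBy_pow ℓ k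
  act σ x := ⟨σ • (x : JZero N), smul_mem_torsionBy σ x.2⟩
  act_add σ a b := Subtype.ext (smul_add σ (a : JZero N) b)
  act_mul σ τ a := Subtype.ext (mul_smul σ τ (a : JZero N))
  act_one a := Subtype.ext (one_smul _ (a : JZero N))
  J a := idealOf hℓN hg (exists_cls (a : JZero N)).choose
  ne_bot a := idealOf_ne_bot hℓN hg (exists_cls (a : JZero N)).choose_spec.1
  J_add a b := by
    obtain ⟨ha, ha'⟩ := (exists_cls (a : JZero N)).choose_spec
    obtain ⟨hb, hb'⟩ := (exists_cls (b : JZero N)).choose_spec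
    obtain ⟨hab, hab'⟩ := (exists_cls ((a + b : ↥(Submodule.torsionBy ℤ (JZero N) ((ℓ : ℤ) ^ k))) :
      JZero N)).choose_spec
    rw [← idealOf_add hℓN hg ha hb]
    refine rel_of_lin hℓN hg (AC.lin_of_principal hab (ha.add hb) (cls_eq_iff.mp ?_))
    rw [hab', cls_add, ha', hb', Submodule.coe_add]
  J_act σ a := by
    obtain ⟨ha, ha'⟩ := (exists_cls (a : JZero N)).choose_spec
    obtain ⟨hs, hs'⟩ := (exists_cls (σ • (a : JZero N))).choose_spec
    rw [galI_idealOf]
    refine rel_of_lin hℓN hg (AC.lin_of_principal hs (AC.off_smul (smul_Pinf N σ) ha)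
      (cls_eq_iff.mp ?_))
    rw [hs', ← cls_smul, ha']
  inj a b h := by
    obtain ⟨ha, ha'⟩ := (exists_cls (a : JZero N)).choose_spec
    obtain ⟨hb, hb'⟩ := (exists_cls (b : JZero N)).choose_spec
    exact Subtype.ext (ha'.symm.trans
      ((cls_eq_iff.mpr (AC.principal_of_lin ha hb (lin_of_rel hℓN hg h))).trans hb'))

include hℓN hg in
/-- `J₀(N)[ℓ^k]` has a finite flat model at `ℓ ∤ N`. -/
theorem hasFlatModel_torsion (k : ℕ) :
    HasFlatModel ℓ ↥(Submodule.torsionBy ℤ (JZero N) ((ℓ : ℤ) ^ k))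
      fun σ x => ⟨σ • (x : JZero N), smul_mem_torsionBy σ x.2⟩ :=
  (classData hℓN hg k).hasFlatModel

end Fermat.Agent.Flat.Mdl
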