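import Mathlib.FieldTheory.IntermediateField.Basic
import Mathlib.RingTheory.LaurentSeries
import Fermat.Agent.FF.Places

/-!
# The place at `q = 0` of a field of Laurent series

In a field of Laurent series containing a series with a simple pole, the order of a series is
the valuation of a place. Used as the cusp `∞` of `X₀(N)` on the generic and special fibres.
-/

noncomputable section

namespace Fermat.Agent.Flat.QP

open AlgebraicCurve

variable {K : Type*} [Field K] (B : IntermediateField K (LaurentSeries K))

/-- The series without polar part. -/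
def qRing : ValuationSubring B where
  carrier := {f | f = 0 ∨ 0 ≤ (f : LaurentSeries K).order}
  mul_mem' {f g} hf hg := by
    rcases hf with rfl | hf
    · exact Or.inl (zero_mul g)
    rcases hg with rfl | hg
    · exact Or.inl (mul_zero f)
    by_cases h : f * g = 0
    · exact Or.inl h
    refine Or.inr ?_
    rw [MulMemClass.coe_mul, HahnSeries.order_mul
      (fun e => h (by rw [show f = 0 from Subtype.ext e, zero_mul]))
      (fun e => h (by rw [show g = 0 from Subtype.ext e, mul_zero]))]
    exact add_nonneg hf hg
  one_mem' := Or.inr (by rw [OneMemClass.coe_one, HahnSeries.order_one])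
  add_mem' {f g} hf hg := by
    by_cases h : f + g = 0
    · exact Or.inl h
    rcases hf with rfl | hf
    · simpa using hg
    rcases hg with rfl | hg
    · simpa using (Or.inr hf : f = 0 ∨ _)
    refine Or.inr ?_
    rw [AddMemClass.coe_add]
    exact (le_min hf hg).trans (HahnSeries.min_order_le_order_add (fun e => h (Subtype.ext e)))
  zero_mem' := Or.inl rfl
  neg_mem' {f} hf := by
    rcases hf with rfl | hf
    · exact Or.inl neg_zero
    · exact Or.inr (by rw [NegMemClass.coe_neg, HahnSeries.order_neg]; exact hf)
  mem_or_inv_mem' f := by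
    by_cases h : f = 0
    · exact Or.inl (Or.inl h)
    have h' : (f : LaurentSeries K) ≠ 0 := fun e => h (Subtype.ext e)
    have hinv : (f : LaurentSeries K).order + (f : LaurentSeries K)⁻¹.order = 0 := by
      rw [← HahnSeries.order_mul h' (inv_ne_zero h'), mul_inv_cancel₀ h', HahnSeries.order_one]
    rcases le_total 0 (f : LaurentSeries K).order with hn | hn
    · exact Or.inl (Or.inr hn)
    · refine Or.inr (Or.inr ?_)
      rw [IntermediateField.coe_inv]
      omega

variable {B}

theorem mem_qRing {f : B} : f ∈ qRing B ↔ f = 0 ∨ 0 ≤ (f : LaurentSeries K).order := Iff.rfl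

theorem order_coe_algebraMap (c : K) :
    ((algebraMap K B c : B) : LaurentSeries K).order = 0 := by
  show (algebraMap K (LaurentSeries K) c).order = 0
  rw [HahnSeries.algebraMap_apply']
  by_cases hc : c = 0
  · simp [hc]
  · rw [show algebraMap K (PowerSeries K) c = PowerSeries.C c by simp, HahnSeries.ofPowerSeries_C]
    exact HahnSeries.order_single hc

theorem algebraMap_mem_qRing (c : K) : algebraMap K B c ∈ qRing B :=
  mem_qRing.mpr (Or.inr (order_coe_algebraMap c).ge)

variable (B) in
/-- `B` contains a series with a simple pole. -/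
class HasSimplePole : Prop where
  exists_order_neg_one : ∃ x : B, (x : LaurentSeries K).order = -1

variable [HasSimplePole B]

theorem qRing_ne_top : qRing B ≠ ⊤ := fun h => by
  obtain ⟨x, hx⟩ := HasSimplePole.exists_order_neg_one (B := B)
  rcases mem_qRing.mp (h ▸ ValuationSubring.mem_top x : x ∈ qRing B) with rfl | h0
  · simp at hx
  · omega

variable (B) [IsAlgClosed K] [FF.IsFunctionField K B]

/-- The place `q = 0`. -/
def qPlace : Place K B :=
  FF.placeOfValuationSubring (qRing B) algebraMap_mem_qRing qRing_ne_top

variable {B}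

/-- The valuation of the place `q = 0` is the order of a series. -/
theorem ord_qPlace {f : B} (hf : f ≠ 0) : (qPlace B).ord f = (f : LaurentSeries K).order := by
  set O := qPlace B
  have coe_ne : ∀ f : B, f ≠ 0 → (f : LaurentSeries K) ≠ 0 := fun f hf e => hf (Subtype.ext e)
  have hmul : ∀ f g : B, f ≠ 0 → g ≠ 0 →
      ((f * g : B) : LaurentSeries K).order =
        (f : LaurentSeries K).order + (g : LaurentSeries K).order := fun f g hf hg => by
    rw [MulMemClass.coe_mul, HahnSeries.order_mul (coe_ne f hf) (coe_ne g hg)]
  have hinv : ∀ f : B, f ≠ 0 →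
      ((f⁻¹ : B) : LaurentSeries K).order = -(f : LaurentSeries K).order := fun f hf => by
    have := hmul f f⁻¹ hf (inv_ne_zero hf)
    rw [mul_inv_cancel₀ hf, OneMemClass.coe_one, HahnSeries.order_one] at this
    omega
  have hmem : ∀ f : B, f ≠ 0 → (0 ≤ O.ord f ↔ 0 ≤ (f : LaurentSeries K).order) := fun f hf => by
    rw [← FF.mem_iff_ord_nonneg, show f ∈ O.toValuationSubring ↔ f ∈ qRing B from Iff.rfl,
      mem_qRing]
    simp [hf]
  have hzero : ∀ f : B, f ≠ 0 → (f : LaurentSeries K).order = 0 → O.ord f = 0 := fun f hf h0 => by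
    have h1 := (hmem f hf).mpr h0.ge
    have h2 := (hmem f⁻¹ (inv_ne_zero hf)).mpr (by rw [hinv f hf]; omega)
    rw [O.ord_inv] at h2
    omega
  obtain ⟨x, hx⟩ := HasSimplePole.exists_order_neg_one (B := B)
  have hx0 : x ≠ 0 := by rintro rfl; simp at hx
  have hzpow : ∀ n : ℤ, ((x ^ n : B) : LaurentSeries K).order = -n := by
    intro n
    cases n with
    | ofNat k =>
      rw [Int.ofNat_eq_natCast, zpow_natCast, SubmonoidClass.coe_pow, HahnSeries.order_pow, hx]
      simp
    | negSucc k =>
      rw [zpow_negSucc, hinv _ (pow_ne_zero _ hx0), SubmonoidClass.coe_pow,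
        HahnSeries.order_pow, hx]
      simp
  have key : ∀ f : B, f ≠ 0 → O.ord f = -(f : LaurentSeries K).order * O.ord x := by
    intro f hf
    have hz := zpow_ne_zero (f : LaurentSeries K).order hx0
    have := hzero _ (mul_ne_zero hf hz) (by rw [hmul _ _ hf hz, hzpow]; omega)
    rw [O.ord_mul hf hz, O.ord_zpow] at this
    linarith
  obtain ⟨t, ht0, ht⟩ := FF.exists_ord_eq_one O
  have hlt : O.ord x < 0 := by
    by_contra h
    have := (hmem x hx0).mp (not_lt.mp h)
    omega
  have hj : O.ord x = -1 := by
    have h1 : -(t : LaurentSeries K).order * O.ord x = 1 := (key t ht0).symm.trans ht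
    rcases Int.eq_one_or_neg_one_of_mul_eq_one (by rw [mul_comm]; exact h1) with h | h
    · omega
    · exact h
  rw [key f hf, hj]
  ring

end Fermat.Agent.Flat.QP
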