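import Mathlib.LinearAlgebra.TensorProduct.Basis
import Mathlib.RingTheory.LocalRing.ResidueField.Basic
import Mathlib.RingTheory.TensorProduct.Maps
import Fermat.Prelude.Def_ModularCurve_LaurentCoeff
import Fermat.Agent.FF.SeriesInst
import Fermat.Agent.Flat.Place

/-!
# Algebras of integral `q`-series, with a basis of strictly increasing pole order

A saturated algebra of integral `q`-series has a basis indexed by pole orders, multiplicative
up to lower terms, and maps to series over each fibre. Used for the lattice of the good model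
of `X₀(N)`.
-/

noncomputable section

namespace Fermat.Agent.Flat.Ser

open ModularCurve Module
open scoped TensorProduct

variable {ℓ : ℕ} [Fact ℓ.Prime]

omit [Fact (Nat.Prime ℓ)] in
theorem algebraMap_eq_C (K : Type) [CommRing K] [Algebra (Zl ℓ) K] (z : Zl ℓ) :
    algebraMap (Zl ℓ) (LaurentSeries K) z = HahnSeries.C (algebraMap (Zl ℓ) K z) := by
  rw [HahnSeries.algebraMap_apply', PowerSeries.algebraMap_apply, HahnSeries.ofPowerSeries_C]

omit [Fact (Nat.Prime ℓ)] in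
theorem coeff_algebraMap_mul (z : Zl ℓ) (y : LaurentSeries (Zl ℓ)) (m : ℤ) :
    (algebraMap (Zl ℓ) (LaurentSeries (Zl ℓ)) z * y).coeff m = z * y.coeff m := by
  rw [algebraMap_eq_C, HahnSeries.C_apply, HahnSeries.coeff_single_zero_mul]
  rfl

omit [Fact (Nat.Prime ℓ)] in
theorem coeff_val_smul {A : Subalgebra (Zl ℓ) (LaurentSeries (Zl ℓ))} (z : Zl ℓ) (y : A) (m : ℤ) :
    ((z • y : A) : LaurentSeries (Zl ℓ)).coeff m = z * (y : LaurentSeries (Zl ℓ)).coeff m := by
  rw [Algebra.smul_def, MulMemClass.coe_mul]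
  exact coeff_algebraMap_mul z _ m

theorem coeff_field_smul {K : Type} [Field K] (c : K) (y : LaurentSeries K) (m : ℤ) :
    (c • y).coeff m = c * y.coeff m := by
  rw [HahnSeries.coeff_smul, smul_eq_mul]

theorem smul_eq_algebraMap_mul {K : Type} [Field K] (c : K) (y : LaurentSeries K) :
    c • y = algebraMap K (LaurentSeries K) c * y := by
  ext m
  rw [coeff_field_smul, algebraMap_laurentSeries_eq_single, HahnSeries.coeff_single_zero_mul]

/-- Coefficientwise base change. -/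
def embA (K : Type) [CommRing K] [Algebra (Zl ℓ) K] :
    LaurentSeries (Zl ℓ) →ₐ[Zl ℓ] LaurentSeries K :=
  { coeffMap (algebraMap (Zl ℓ) K) with
    commutes' := fun z => by
      show coeffMap (algebraMap (Zl ℓ) K) (algebraMap (Zl ℓ) (LaurentSeries (Zl ℓ)) z) = _
      rw [algebraMap_eq_C, algebraMap_eq_C, HahnSeries.C_apply, HahnSeries.C_apply, coeffMap_single]
      rfl }

omit [Fact (Nat.Prime ℓ)] in
theorem embA_coeff (K : Type) [CommRing K] [Algebra (Zl ℓ) K] (y : LaurentSeries (Zl ℓ)) (m : ℤ) :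
    (embA K y).coeff m = algebraMap (Zl ℓ) K (y.coeff m) := rfl

instance isScalarTower_laurent (K : Type) [Field K] [Algebra (Zl ℓ) K] :
    @IsScalarTower (Zl ℓ) K (LaurentSeries K) Algebra.toSMul Algebra.toSMul Algebra.toSMul :=
  @IsScalarTower.of_algebraMap_eq (Zl ℓ) K (LaurentSeries K) _ _ _ _ _ _ fun z => by
    rw [algebraMap_eq_C K z, algebraMap_laurentSeries_eq_single, HahnSeries.C_apply]

/-- A saturated algebra of integral series whose pole orders form the set `S`. -/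
structure Lat (ℓ : ℕ) [Fact ℓ.Prime] where
  /-- the pole orders -/
  S : Set ℕ
  zero_mem : 0 ∈ S
  add_mem : ∀ s ∈ S, ∀ t ∈ S, s + t ∈ S
  /-- the series -/
  A : Subalgebra (Zl ℓ) (LaurentSeries (Zl ℓ))
  order_mem : ∀ y ∈ A, y ≠ 0 → ∃ s ∈ S, y.order = -(s : ℤ)
  exists_order : ∀ s ∈ S, ∃ y ∈ A, y ≠ 0 ∧ y.order = -(s : ℤ)
  saturated : ∀ (z : Zl ℓ) (y : LaurentSeries (Zl ℓ)), z ≠ 0 →
    algebraMap (Zl ℓ) (LaurentSeries (Zl ℓ)) z * y ∈ A → y ∈ A

variable (Λ : Lat ℓ)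

namespace Lat

/-- The elements of pole order at most `n`. -/
def L0 (n : ℕ) : Submodule (Zl ℓ) Λ.A where
  carrier := {y | ∀ m : ℤ, m < -(n : ℤ) → (y : LaurentSeries (Zl ℓ)).coeff m = 0}
  zero_mem' _ _ := rfl
  add_mem' ha hb m hm := by
    rw [AddMemClass.coe_add, HahnSeries.coeff_add, ha m hm, hb m hm, add_zero]
  smul_mem' z y hy m hm := by
    rw [coeff_val_smul, hy m hm, mul_zero]

theorem exists_mem_L0 (y : Λ.A) : ∃ n, y ∈ Λ.L0 n :=
  ⟨(-(y : LaurentSeries (Zl ℓ)).order).toNat, fun _ hm =>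
    HahnSeries.coeff_eq_zero_of_lt_order (by omega)⟩

theorem exists_lead (s : Λ.S) :
    ∃ y : Λ.A, y ∈ Λ.L0 s ∧ (y : LaurentSeries (Zl ℓ)).coeff (-((s : ℕ) : ℤ)) ≠ 0 ∧
      (∀ x ∈ Λ.L0 s, ∃ z : Zl ℓ, (x : LaurentSeries (Zl ℓ)).coeff (-((s : ℕ) : ℤ)) =
        z * (y : LaurentSeries (Zl ℓ)).coeff (-((s : ℕ) : ℤ))) ∧
      ((s : ℕ) = 0 → y = 1) := by
  by_cases h : (s : ℕ) = 0
  · refine ⟨1, fun m hm => ?_, ?_, fun x _ => ⟨(x : LaurentSeries (Zl ℓ)).coeff 0, ?_⟩,
      fun _ => rfl⟩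
    · rw [OneMemClass.coe_one, HahnSeries.coeff_one, if_neg (by omega)]
    · rw [h, OneMemClass.coe_one]; simp
    · rw [h, OneMemClass.coe_one]; simp
  let lead : Λ.A →ₗ[Zl ℓ] Zl ℓ :=
    { toFun := fun y => (y : LaurentSeries (Zl ℓ)).coeff (-((s : ℕ) : ℤ))
      map_add' := fun a b => by rw [AddMemClass.coe_add, HahnSeries.coeff_add]
      map_smul' := fun z a => by rw [coeff_val_smul]; rfl }
  obtain ⟨g, hg⟩ := (IsPrincipalIdealRing.principal ((Λ.L0 s).map lead)).principal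
  obtain ⟨y, hy, hyg⟩ : g ∈ (Λ.L0 s).map lead := hg ▸ Submodule.mem_span_singleton_self g
  refine ⟨y, hy, fun h0 => ?_, fun x hx => ?_, fun e => absurd e h⟩
  · obtain ⟨w, hw, hw0, hord⟩ := Λ.exists_order s s.2
    have hmem : lead ⟨w, hw⟩ ∈ (Λ.L0 s).map lead := by
      refine ⟨⟨w, hw⟩, fun m hm => HahnSeries.coeff_eq_zero_of_lt_order ?_, rfl⟩
      show m < w.order
      rw [hord]; exact hm
    rw [hg, show g = 0 from hyg.symm.trans h0, Submodule.span_zero_singleton,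
      Submodule.mem_bot] at hmem
    apply HahnSeries.coeff_order_eq_zero.not.mpr hw0
    rw [hord]; exact hmem
  · have hmem : lead x ∈ (Λ.L0 s).map lead := ⟨x, hx, rfl⟩
    rw [hg] at hmem
    obtain ⟨z, hz⟩ := Submodule.mem_span_singleton.mp hmem
    exact ⟨z, by rw [show (y : LaurentSeries (Zl ℓ)).coeff _ = g from hyg]; exact hz.symm⟩

/-- A series of each pole order, with the smallest leading coefficient. -/
def vec (s : Λ.S) : Λ.A := (Λ.exists_lead s).choose

theorem vec_mem (s : Λ.S) : Λ.vec s ∈ Λ.L0 s := (Λ.exists_lead s).choose_spec.1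

theorem vec_lead_ne (s : Λ.S) :
    (Λ.vec s : LaurentSeries (Zl ℓ)).coeff (-((s : ℕ) : ℤ)) ≠ 0 :=
  (Λ.exists_lead s).choose_spec.2.1

theorem vec_zero : Λ.vec ⟨0, Λ.zero_mem⟩ = 1 := (Λ.exists_lead _).choose_spec.2.2.2 rfl

theorem vec_order (s : Λ.S) :
    (Λ.vec s : LaurentSeries (Zl ℓ)).order = -((s : ℕ) : ℤ) := by
  have hne : (Λ.vec s : LaurentSeries (Zl ℓ)) ≠ 0 := fun h => Λ.vec_lead_ne s (by rw [h]; rfl)
  refine le_antisymm (HahnSeries.order_le_of_coeff_ne_zero (Λ.vec_lead_ne s)) ?_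
  by_contra h
  exact HahnSeries.coeff_order_eq_zero.not.mpr hne (Λ.vec_mem s _ (not_le.mp h))

theorem sum_coeff (c : Λ.S →₀ Zl ℓ) (m : ℤ) :
    ((Finsupp.linearCombination (Zl ℓ) Λ.vec c : Λ.A) : LaurentSeries (Zl ℓ)).coeff m =
      ∑ s ∈ c.support, c s * (Λ.vec s : LaurentSeries (Zl ℓ)).coeff m := by
  rw [Finsupp.linearCombination_apply, Finsupp.sum, AddSubmonoidClass.coe_finsetSum,
    HahnSeries.coeff_sum]
  exact Finset.sum_congr rfl fun s _ => by rw [coeff_val_smul]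

/-- The coefficient in the top degree of a combination. -/
theorem coeff_top {R : Type} [CommRing R] (f : Zl ℓ →+* R) (T : Finset Λ.S) (c : Λ.S → R)
    {j : Λ.S} (hj : j ∈ T) (hmax : ∀ s ∈ T, c s ≠ 0 → (s : ℕ) ≤ j) :
    ∑ s ∈ T, c s * f ((Λ.vec s : LaurentSeries (Zl ℓ)).coeff (-((j : ℕ) : ℤ))) =
      c j * f ((Λ.vec j : LaurentSeries (Zl ℓ)).coeff (-((j : ℕ) : ℤ))) := by
  refine Finset.sum_eq_single j (fun s hs hsj => ?_) (fun h => absurd hj h)
  by_cases h0 : c s = 0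
  · rw [h0, zero_mul]
  · have hne : (s : ℕ) ≠ j := fun e => hsj (Subtype.ext e)
    have := hmax s hs h0
    rw [Λ.vec_mem s _ (by omega), map_zero, mul_zero]

theorem linearIndependent_vec : LinearIndependent (Zl ℓ) Λ.vec := by
  classical
  refine (linearIndependent_iff' (R := Zl ℓ) (M := Λ.A)).mpr ?_
  intro T c hsum i hi
  by_contra hne
  obtain ⟨j, hj, hmax⟩ := Finset.exists_max_image (T.filter fun j => c j ≠ 0)
    (fun j => (j : ℕ)) ⟨i, Finset.mem_filter.mpr ⟨hi, hne⟩⟩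
  rw [Finset.mem_filter] at hj
  have := congrArg (fun y : Λ.A => (y : LaurentSeries (Zl ℓ)).coeff (-((j : ℕ) : ℤ))) hsum
  simp only [AddSubmonoidClass.coe_finsetSum, HahnSeries.coeff_sum, coeff_val_smul,
    ZeroMemClass.coe_zero, HahnSeries.coeff_zero] at this
  rw [show (∑ x ∈ T, c x * (Λ.vec x : LaurentSeries (Zl ℓ)).coeff (-((j : ℕ) : ℤ))) =
    _ from Λ.coeff_top (RingHom.id _) T c hj.1 fun s hs h0 =>
      hmax s (Finset.mem_filter.mpr ⟨hs, h0⟩), RingHom.id_apply] at this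
  exact mul_ne_zero hj.2 (Λ.vec_lead_ne j) this

theorem mem_span_vec (n : ℕ) : ∀ y : Λ.A, y ∈ Λ.L0 n →
    y ∈ Submodule.span (Zl ℓ) (Λ.vec '' {s | (s : ℕ) ≤ n}) := by
  induction n with
  | zero =>
    intro y hy
    have hy' : y = (y : LaurentSeries (Zl ℓ)).coeff 0 • Λ.vec ⟨0, Λ.zero_mem⟩ := by
      by_contra hne
      set w := y - (y : LaurentSeries (Zl ℓ)).coeff 0 • Λ.vec ⟨0, Λ.zero_mem⟩ with hw
      have hw0 : (w : LaurentSeries (Zl ℓ)) ≠ 0 := fun e => hne (sub_eq_zero.mp (Subtype.ext e))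
      obtain ⟨s, -, hs⟩ := Λ.order_mem _ w.2 hw0
      apply HahnSeries.coeff_order_eq_zero.not.mpr hw0
      rw [hs, hw, AddSubgroupClass.coe_sub, HahnSeries.coeff_sub, coeff_val_smul,
        vec_zero, OneMemClass.coe_one, HahnSeries.coeff_one]
      rcases Nat.eq_zero_or_pos s with rfl | hpos
      · simp
      · rw [hy _ (by omega), if_neg (by omega), mul_zero, sub_zero]
    rw [hy']
    exact Submodule.smul_mem _ _ (Submodule.subset_span ⟨_, le_refl 0, rfl⟩)
  | succ n ih =>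
    intro y hy
    have hmono : Submodule.span (Zl ℓ) (Λ.vec '' {s | (s : ℕ) ≤ n}) ≤
        Submodule.span (Zl ℓ) (Λ.vec '' {s | (s : ℕ) ≤ n + 1}) :=
      Submodule.span_mono (Set.image_mono fun s (hs : (s : ℕ) ≤ n) => Nat.le_succ_of_le hs)
    by_cases h0 : (y : LaurentSeries (Zl ℓ)).coeff (-((n + 1 : ℕ) : ℤ)) = 0
    · refine hmono (ih y fun m hm => ?_)
      rcases eq_or_ne m (-((n + 1 : ℕ) : ℤ)) with rfl | hm'
      · exact h0
      · exact hy m (by push_cast at hm' ⊢; omega)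
    have hy0 : (y : LaurentSeries (Zl ℓ)) ≠ 0 := fun e => h0 (by rw [e]; rfl)
    obtain ⟨s, hsS, hord⟩ := Λ.order_mem _ y.2 hy0
    have hs : s = n + 1 := by
      have h1 := HahnSeries.order_le_of_coeff_ne_zero h0
      have h2 : ¬ (y : LaurentSeries (Zl ℓ)).order < -((n + 1 : ℕ) : ℤ) := fun h =>
        HahnSeries.coeff_order_eq_zero.not.mpr hy0 (hy _ h)
      push_cast at h1 h2
      omega
    subst hs
    obtain ⟨z, hz⟩ := (Λ.exists_lead ⟨n + 1, hsS⟩).choose_spec.2.2.1 y hy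
    have hw : y - z • Λ.vec ⟨n + 1, hsS⟩ ∈ Λ.L0 n := fun m hm => by
      rw [AddSubgroupClass.coe_sub, HahnSeries.coeff_sub, coeff_val_smul]
      rcases eq_or_ne m (-((n + 1 : ℕ) : ℤ)) with rfl | hm'
      · exact sub_eq_zero.mpr hz
      · rw [hy m (by push_cast at hm' ⊢; omega),
          Λ.vec_mem ⟨n + 1, hsS⟩ m (by push_cast at hm' ⊢; omega), mul_zero, sub_zero]
    have := Submodule.add_mem _ (hmono (ih _ hw)) (Submodule.smul_mem _ z
      (Submodule.subset_span (R := Zl ℓ) (s := Λ.vec '' {s | (s : ℕ) ≤ n + 1})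
        ⟨⟨n + 1, hsS⟩, le_refl (n + 1), rfl⟩))
    convert this using 1
    exact Subtype.ext (by push_cast; ring)

/-- The basis. -/
def basis : Basis Λ.S (Zl ℓ) Λ.A :=
  Basis.mk Λ.linearIndependent_vec fun y _ => by
    obtain ⟨n, hn⟩ := Λ.exists_mem_L0 y
    exact Submodule.span_mono (Set.image_subset_range _ _) (Λ.mem_span_vec n y hn)

theorem basis_apply (s : Λ.S) : Λ.basis s = Λ.vec s := Basis.mk_apply _ _ _

theorem basis_zero : Λ.basis ⟨0, Λ.zero_mem⟩ = 1 := by rw [basis_apply, vec_zero]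

theorem repr_eq_zero {y : Λ.A} {n : ℕ} (hy : y ∈ Λ.L0 n) {u : Λ.S} (hu : n < u) :
    Λ.basis.repr y u = 0 := by
  have h := Λ.mem_span_vec n y hy
  rw [show Λ.vec '' {s : Λ.S | (s : ℕ) ≤ n} = Λ.basis '' {s | (s : ℕ) ≤ n} from
    Set.image_congr fun s _ => (Λ.basis_apply s).symm] at h
  by_contra hne
  exact absurd (Λ.basis.repr_support_subset_of_mem_span _ h (Finsupp.mem_support_iff.mpr hne))
    (not_le.mpr hu)

theorem repr_order_ne_zero {y : Λ.A} (hy : y ≠ 0) {u : Λ.S}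
    (hu : (y : LaurentSeries (Zl ℓ)).order = -((u : ℕ) : ℤ)) : Λ.basis.repr y u ≠ 0 := by
  classical
  intro h0
  have hy' : (y : LaurentSeries (Zl ℓ)) ≠ 0 := fun e => hy (Subtype.ext e)
  apply HahnSeries.coeff_order_eq_zero.not.mpr hy'
  have hL : y ∈ Λ.L0 u := fun m hm => HahnSeries.coeff_eq_zero_of_lt_order (hu ▸ hm)
  have hsum := Λ.basis.linearCombination_repr y
  rw [show (⇑Λ.basis : Λ.S → Λ.A) = Λ.vec from funext Λ.basis_apply] at hsum
  rw [hu]
  rw [show (y : LaurentSeries (Zl ℓ)) = ((Finsupp.linearCombination (Zl ℓ) Λ.vec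
    (Λ.basis.repr y) : Λ.A) : LaurentSeries (Zl ℓ)) by rw [hsum]]
  rw [sum_coeff]
  refine Finset.sum_eq_zero fun s hs => ?_
  rcases lt_trichotomy (s : ℕ) u with h1 | h1 | h1
  · rw [Λ.vec_mem s _ (by omega), mul_zero]
  · rw [show s = u from Subtype.ext h1, h0, zero_mul]
  · rw [Λ.repr_eq_zero hL h1, zero_mul]

theorem repr_mul_top (s t : Λ.S) :
    Λ.basis.repr (Λ.basis s * Λ.basis t) ⟨s + t, Λ.add_mem _ s.2 _ t.2⟩ ≠ 0 := by
  have hs : (Λ.vec s : LaurentSeries (Zl ℓ)) ≠ 0 := fun h => Λ.vec_lead_ne s (by rw [h]; rfl)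
  have ht : (Λ.vec t : LaurentSeries (Zl ℓ)) ≠ 0 := fun h => Λ.vec_lead_ne t (by rw [h]; rfl)
  refine Λ.repr_order_ne_zero (fun e => mul_ne_zero hs ht ?_) ?_
  · rw [← MulMemClass.coe_mul, ← basis_apply, ← basis_apply, e, ZeroMemClass.coe_zero]
  · rw [MulMemClass.coe_mul, basis_apply, basis_apply, HahnSeries.order_mul hs ht, vec_order,
      vec_order]
    push_cast
    ring

theorem repr_mul_high (s t u : Λ.S) (h : (s : ℕ) + t < u) :
    Λ.basis.repr (Λ.basis s * Λ.basis t) u = 0 := by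
  have hs : (Λ.vec s : LaurentSeries (Zl ℓ)) ≠ 0 := fun h => Λ.vec_lead_ne s (by rw [h]; rfl)
  have ht : (Λ.vec t : LaurentSeries (Zl ℓ)) ≠ 0 := fun h => Λ.vec_lead_ne t (by rw [h]; rfl)
  refine Λ.repr_eq_zero (n := (s : ℕ) + t) (fun m hm => HahnSeries.coeff_eq_zero_of_lt_order ?_) h
  rw [MulMemClass.coe_mul, basis_apply, basis_apply, HahnSeries.order_mul hs ht, vec_order,
    vec_order]
  push_cast at hm ⊢
  omega

/-- The map of a fibre to series. -/
def phi (K : Type) [Field K] [Algebra (Zl ℓ) K] : K ⊗[Zl ℓ] Λ.A →ₐ[K] LaurentSeries K :=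
  Algebra.TensorProduct.lift (Algebra.ofId K (LaurentSeries K)) ((embA K).comp Λ.A.val)
    fun _ _ => Commute.all _ _

theorem phi_tmul (K : Type) [Field K] [Algebra (Zl ℓ) K] (c : K) (y : Λ.A) :
    Λ.phi K (c ⊗ₜ y) = c • embA K (y : LaurentSeries (Zl ℓ)) := by
  rw [phi, Algebra.TensorProduct.lift_tmul, smul_eq_algebraMap_mul]
  rfl

theorem phi_basis (K : Type) [Field K] [Algebra (Zl ℓ) K] (s : Λ.S) :
    Λ.phi K (Λ.basis.baseChange K s) = embA K (Λ.vec s : LaurentSeries (Zl ℓ)) := by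
  rw [Basis.baseChange_apply, phi_tmul, one_smul, basis_apply]

theorem phi_injective_of (K : Type) [Field K] [Algebra (Zl ℓ) K]
    (h : LinearIndependent K fun s => embA K (Λ.vec s : LaurentSeries (Zl ℓ))) :
    Function.Injective (Λ.phi K) := by
  refine (injective_iff_map_eq_zero _).mpr fun x hx => ?_
  have hsum := (Λ.basis.baseChange K).linearCombination_repr x
  rw [← hsum, Finsupp.linearCombination_apply, Finsupp.sum, map_sum] at hx
  have hx' : ∑ s ∈ ((Λ.basis.baseChange K).repr x).support,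
      (Λ.basis.baseChange K).repr x s • embA K (Λ.vec s : LaurentSeries (Zl ℓ)) = 0 := by
    refine (Finset.sum_congr rfl fun s _ => ?_).trans hx
    rw [Basis.baseChange_apply, TensorProduct.smul_tmul', smul_eq_mul, mul_one, phi_tmul,
      basis_apply]
  have := linearIndependent_iff.mp h ((Λ.basis.baseChange K).repr x) (by
    rw [Finsupp.linearCombination_apply, Finsupp.sum]; exact hx')
  rwa [map_eq_zero_iff _ (Λ.basis.baseChange K).repr.injective] at this

theorem linearIndependent_embA_of_injective (K : Type) [Field K] [Algebra (Zl ℓ) K]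
    (hK : Function.Injective (algebraMap (Zl ℓ) K)) :
    LinearIndependent K fun s => embA K (Λ.vec s : LaurentSeries (Zl ℓ)) := by
  classical
  rw [linearIndependent_iff']
  intro T c hsum i hi
  by_contra hne
  obtain ⟨j, hj, hmax⟩ := Finset.exists_max_image (T.filter fun j => c j ≠ 0)
    (fun j => (j : ℕ)) ⟨i, Finset.mem_filter.mpr ⟨hi, hne⟩⟩
  rw [Finset.mem_filter] at hj
  have := congrArg (fun y : LaurentSeries K => y.coeff (-((j : ℕ) : ℤ))) hsum
  simp only [HahnSeries.coeff_sum, coeff_field_smul, embA_coeff, HahnSeries.coeff_zero] at this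
  rw [Λ.coeff_top (algebraMap (Zl ℓ) K) T c hj.1 fun s hs h0 =>
    hmax s (Finset.mem_filter.mpr ⟨hs, h0⟩)] at this
  exact mul_ne_zero hj.2
    (fun h => Λ.vec_lead_ne j (hK (h.trans (map_zero _).symm))) this

theorem linearIndependent_embA_of_ker (K : Type) [Field K] [Algebra (Zl ℓ) K]
    (hK : ∀ z, algebraMap (Zl ℓ) K z = 0 ↔ z ∈ IsLocalRing.maximalIdeal (Zl ℓ)) :
    LinearIndependent K fun s => embA K (Λ.vec s : LaurentSeries (Zl ℓ)) := by
  classical
  rw [linearIndependent_iff']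
  intro T c hsum i hi
  by_contra hne
  let ι : IsLocalRing.ResidueField (Zl ℓ) →+* K :=
    Ideal.Quotient.lift _ (algebraMap (Zl ℓ) K) fun z hz => (hK z).mpr hz
  have hι : ∀ z, ι (IsLocalRing.residue (Zl ℓ) z) = algebraMap (Zl ℓ) K z := fun z => rfl
  let := ι.toAlgebra
  obtain ⟨π, hπ⟩ := Module.Projective.exists_dual_ne_zero (IsLocalRing.ResidueField (Zl ℓ)) hne
  choose d hd using fun s => IsLocalRing.residue_surjective (π (c s))
  set y : Λ.A := ∑ s ∈ T, d s • Λ.vec s with hy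
  have hdiv : ∀ m, (y : LaurentSeries (Zl ℓ)).coeff m ∈ IsLocalRing.maximalIdeal (Zl ℓ) := by
    intro m
    rw [← IsLocalRing.residue_eq_zero_iff, hy, AddSubmonoidClass.coe_finsetSum,
      HahnSeries.coeff_sum, map_sum]
    have h := congrArg (fun w : LaurentSeries K => π (w.coeff m)) hsum
    simp only [HahnSeries.coeff_sum, coeff_field_smul, embA_coeff, HahnSeries.coeff_zero, map_sum,
      map_zero] at h
    rw [← h]
    refine Finset.sum_congr rfl fun s _ => ?_
    rw [coeff_val_smul, map_mul, hd, mul_comm (c s), ← hι,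
      show ι (IsLocalRing.residue (Zl ℓ) ((Λ.vec s : LaurentSeries (Zl ℓ)).coeff m)) * c s =
        (IsLocalRing.residue (Zl ℓ) ((Λ.vec s : LaurentSeries (Zl ℓ)).coeff m)) • c s from
        (Algebra.smul_def _ _).symm, map_smul, smul_eq_mul, mul_comm]
  obtain ⟨π₀, hπ₀⟩ := IsDiscreteValuationRing.exists_irreducible (Zl ℓ)
  have hdvd : ∀ m, ∃ w, π₀ * w = (y : LaurentSeries (Zl ℓ)).coeff m := fun m => by
    have := hdiv m
    rw [hπ₀.maximalIdeal_eq, Ideal.mem_span_singleton] at this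
    obtain ⟨w, hw⟩ := this
    exact ⟨w, hw.symm⟩
  choose w hw using hdvd
  let y' : LaurentSeries (Zl ℓ) := HahnSeries.mk w
    ((y : LaurentSeries (Zl ℓ)).isPWO_support.mono fun m hm => by
      simp only [HahnSeries.mem_support, Function.mem_support] at hm ⊢
      rw [← hw]
      exact mul_ne_zero hπ₀.ne_zero hm)
  have hyy : algebraMap (Zl ℓ) (LaurentSeries (Zl ℓ)) π₀ * y' = (y : LaurentSeries (Zl ℓ)) :=
    HahnSeries.ext (funext fun m => (coeff_algebraMap_mul π₀ y' m).trans (hw m))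
  have hy'A : y' ∈ Λ.A := Λ.saturated π₀ y' hπ₀.ne_zero (hyy ▸ y.2)
  have hy2 : y = π₀ • (⟨y', hy'A⟩ : Λ.A) :=
    Subtype.ext (by rw [Algebra.smul_def, MulMemClass.coe_mul]; exact hyy.symm)
  have hrepr : Λ.basis.repr y i = d i := by
    rw [hy, show (∑ s ∈ T, d s • Λ.vec s) = ∑ s ∈ T, d s • Λ.basis s by
      simp only [basis_apply], map_sum, Finsupp.finsetSum_apply,
      Finset.sum_eq_single i (fun s _ hs => by
        rw [map_smul, Finsupp.smul_apply, Basis.repr_self, Finsupp.single_eq_of_ne hs.symm,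
          smul_zero]) (fun h => absurd hi h),
      map_smul, Finsupp.smul_apply, Basis.repr_self, Finsupp.single_eq_same, smul_eq_mul, mul_one]
  rw [hy2, map_smul, Finsupp.smul_apply, smul_eq_mul] at hrepr
  refine hπ (by
    rw [← hd, IsLocalRing.residue_eq_zero_iff, ← hrepr]
    exact Ideal.mul_mem_right _ _ (hπ₀.maximalIdeal_eq ▸ Ideal.mem_span_singleton_self π₀))

end Lat

end Fermat.Agent.Flat.Ser
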