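import Mathlib.FieldTheory.Galois.Infinite
import Fermat.Prelude.Def_ModularCurve_ArithmeticGalois
import Fermat.Agent.Flat.AffineIdeals
import Fermat.Agent.Flat.Descent
import Fermat.Agent.Flat.QPlace
import Fermat.Agent.Flat.Series
import Fermat.Agent.Red.ChartFinite

/-!
# The rational lattice of functions on `X₀(N)` with poles only at the cusp `∞`

The series with `ℤ_(ℓ)`-integral `q`-expansion among the rational functions on `X₀(N)` with
poles only at `∞` form a saturated lattice, which spans those functions over `ℚ̄`. It is the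
affine ring of the good model.
-/

noncomputable section

namespace Fermat.Agent.Flat.Mdl

open ModularCurve AlgebraicCurve Module
open scoped Pointwise

local notation "Qbar" => AlgebraicClosure ℚ

theorem order_jqModC (K : Type*) [Field K] : (jqModC K).order = -1 := by
  have hne : (jqModC K).coeff (-1) ≠ 0 := by rw [coeff_jqModC_neg_one]; exact one_ne_zero
  refine le_antisymm (HahnSeries.order_le_of_coeff_ne_zero hne) (not_lt.mp fun hlt => ?_)
  exact HahnSeries.coeff_order_eq_zero.not.mpr (fun h => hne (by rw [h]; rfl))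
    (coeff_jqModC_of_lt K hlt)

variable (N : ℕ) [NeZero N]

omit [NeZero N] in
theorem jqModC_mem_bar : jqModC Qbar ∈ modularFunctionFieldBar N := by
  rw [show modularFunctionFieldBar N = modularFunctionFieldFullC Qbar N from
    MF.laurentBaseChange_full_eq Qbar N]
  exact jqModC_mem_full Qbar N

instance hasSimplePole_bar : QP.HasSimplePole (modularFunctionFieldBar N) :=
  ⟨⟨⟨jqModC Qbar, jqModC_mem_bar N⟩, order_jqModC Qbar⟩⟩

/-- The cusp `∞`. -/
abbrev Pinf : Place Qbar (modularFunctionFieldBar N) := QP.qPlace (modularFunctionFieldBar N)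

theorem smul_Pinf (σ : Qbar ≃ₐ[ℚ] Qbar) :
    arithmeticGalois (L := Qbar) (modularFunctionFieldFull N) σ • Pinf N = Pinf N := by
  refine Place.ext (SetLike.ext fun f => ?_)
  rw [SemilinearAut.smul_toValuationSubring,
    ValuationSubring.mem_pointwise_smul_iff_inv_smul_mem, ← map_inv]
  show arithmeticGalois (L := Qbar) _ σ⁻¹ • f ∈ QP.qRing _ ↔ f ∈ QP.qRing _
  rw [QP.mem_qRing, QP.mem_qRing, smul_eq_zero_iff_eq, coe_arithmeticGalois_smul,
    MF.order_coeffMap (σ⁻¹ : Qbar ≃ₐ[ℚ] Qbar).injective]

/-- The series of the functions regular outside `∞`. -/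
def RS : Subalgebra Qbar (LaurentSeries Qbar) :=
  (AC.Reg (Pinf N)).map (modularFunctionFieldBar N).val

variable {N}

theorem exists_coeff {x : LaurentSeries Qbar} (hx : x ∈ RS N) (hx0 : x ≠ 0) :
    ∃ t ∈ AC.poleSet (Pinf N), x.order = -(t : ℤ) := by
  obtain ⟨f, hf, rfl⟩ := hx
  have hf0 : f ≠ 0 := fun h => hx0 (by rw [h, map_zero])
  have := AC.ord_nonpos hf
  refine ⟨(-(Pinf N).ord f).toNat, ⟨f, hf, hf0, by omega⟩, ?_⟩
  rw [QP.ord_qPlace hf0] at this ⊢
  show (f : LaurentSeries Qbar).order = _
  omega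

omit [NeZero N] in
theorem coe_smul_coeff (c : Qbar) (f : modularFunctionFieldBar N) (m : ℤ) :
    ((c • f : modularFunctionFieldBar N) : LaurentSeries Qbar).coeff m =
      c * (f : LaurentSeries Qbar).coeff m := by
  rw [Algebra.smul_def, MulMemClass.coe_mul]
  show (algebraMap Qbar (LaurentSeries Qbar) c * _).coeff m = _
  rw [algebraMap_laurentSeries_eq_single, HahnSeries.coeff_single_zero_mul]

variable (N)

/-- A rational function of each pole order. -/
theorem exists_rational {s : ℕ} (hs : s ∈ AC.poleSet (Pinf N)) :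
    ∃ Y : LaurentSeries ℚ, coeffMap (algebraMap ℚ Qbar) Y ∈ RS N ∧
      (coeffMap (algebraMap ℚ Qbar) Y).order = -(s : ℤ) ∧ Y ≠ 0 := by
  classical
  set T : Set ℕ := AC.poleSet (Pinf N) ∩ Set.Iic s
  have hT : T.Finite := (Set.finite_Iic s).subset Set.inter_subset_right
  let := hT.fintype
  set V := riemannRochSpace (AC.nP (Pinf N) s)
  let ev : V →ₗ[Qbar] (T → Qbar) :=
    { toFun := fun x t =>
        ((x : modularFunctionFieldBar N) : LaurentSeries Qbar).coeff (-((t : ℕ) : ℤ))
      map_add' := fun a b => funext fun t => by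
        rw [Submodule.coe_add, AddMemClass.coe_add, HahnSeries.coeff_add]; rfl
      map_smul' := fun c a => funext fun t => by
        rw [Submodule.coe_smul]; exact coe_smul_coeff c _ _ }
  have hkey : ∀ x : V, x ≠ 0 → ∃ t : T,
      ((x : modularFunctionFieldBar N) : LaurentSeries Qbar).order = -((t : ℕ) : ℤ) ∧
        ev x t ≠ 0 := by
    intro x hx
    have hx1 : (x : modularFunctionFieldBar N) ≠ 0 := fun h => hx (Subtype.ext h)
    have hx' : ((x : modularFunctionFieldBar N) : LaurentSeries Qbar) ≠ 0 :=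
      fun h => hx1 (Subtype.ext h)
    obtain ⟨h1, h2⟩ := AC.mem_rr_nP.mp x.2
    have h2' := h2.resolve_left hx1
    rw [QP.ord_qPlace hx1] at h2'
    obtain ⟨t, ht, hord⟩ := exists_coeff (N := N) ⟨(x : modularFunctionFieldBar N), h1, rfl⟩ hx'
    change ((x : modularFunctionFieldBar N) : LaurentSeries Qbar).order = _ at hord
    refine ⟨⟨t, ht, show t ≤ s by omega⟩, hord, ?_⟩
    show ((x : modularFunctionFieldBar N) : LaurentSeries Qbar).coeff (-(t : ℤ)) ≠ 0
    rw [← hord]
    exact HahnSeries.coeff_order_eq_zero.not.mpr hx'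
  have hinj : Function.Injective ev := (injective_iff_map_eq_zero ev).mpr fun x hx => by
    by_contra h
    obtain ⟨t, -, ht⟩ := hkey x h
    exact ht (by rw [hx]; rfl)
  have hdim : finrank Qbar V = finrank Qbar (T → Qbar) := by
    rw [Module.finrank_fintype_fun_eq_card, ← Nat.card_eq_fintype_card, Nat.card_coe_set_eq,
      AC.ncard_poleSet_inter]
    rfl
  obtain ⟨x, hx⟩ := (LinearMap.injective_iff_surjective_of_finrank_eq_finrank hdim).mp hinj
    (Pi.single ⟨s, hs, le_refl s⟩ 1)
  have hx0 : x ≠ 0 := fun h => by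
    rw [h, map_zero] at hx
    have := congrFun hx ⟨s, hs, le_refl s⟩
    rw [Pi.zero_apply, Pi.single_eq_same] at this
    exact zero_ne_one this
  obtain ⟨t, hord, ht⟩ := hkey x hx0
  have hts : t = ⟨s, hs, le_refl s⟩ := by
    by_contra h
    exact ht (by rw [hx, Pi.single_eq_of_ne h])
  subst hts
  set f : modularFunctionFieldBar N := (x : modularFunctionFieldBar N)
  have hfix : ∀ σ : Qbar ≃ₐ[ℚ] Qbar, coeffMap (σ : Qbar →+* Qbar) (f : LaurentSeries Qbar) =
      (f : LaurentSeries Qbar) := by
    intro σ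
    have hmem : arithmeticGalois (L := Qbar) (modularFunctionFieldFull N) σ • f ∈ V := by
      obtain ⟨h1, h2⟩ := AC.mem_rr_nP.mp x.2
      refine AC.mem_rr_nP.mpr ⟨(AC.smul_mem_Reg (smul_Pinf N σ)).mpr h1, ?_⟩
      rcases h2 with h2 | h2
      · exact Or.inl (by rw [show f = 0 from h2]; exact smul_zero _)
      · refine Or.inr ?_
        conv_rhs => rw [← smul_Pinf N σ]
        rwa [SemilinearAut.ord_smul]
    have e : (⟨_, hmem⟩ : V) = x := by
      refine hinj (funext fun u => ?_)
      show ((arithmeticGalois (L := Qbar) (modularFunctionFieldFull N) σ • f :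
          modularFunctionFieldBar N) :
        LaurentSeries Qbar).coeff (-((u : ℕ) : ℤ)) = ev x u
      rw [coe_arithmeticGalois_smul, coeffMap_coeff,
        show (f : LaurentSeries Qbar).coeff (-((u : ℕ) : ℤ)) = ev x u from rfl, hx, Pi.single_apply]
      split_ifs <;> simp
    rw [← coe_arithmeticGalois_smul]
    exact congrArg (fun w : V => ((w : modularFunctionFieldBar N) : LaurentSeries Qbar)) e
  have hcoef : ∀ m, (f : LaurentSeries Qbar).coeff m ∈ Set.range (algebraMap ℚ Qbar) := fun m =>
    (InfiniteGalois.mem_range_algebraMap_iff_fixed _).mpr fun σ => by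
      have := congrArg (fun w : LaurentSeries Qbar => w.coeff m) (hfix σ)
      simpa using this
  choose q hq using hcoef
  let Y : LaurentSeries ℚ := HahnSeries.mk q
    ((f : LaurentSeries Qbar).isPWO_support.mono fun m hm => by
      simp only [HahnSeries.mem_support, Function.mem_support] at hm ⊢
      rw [← hq]
      exact (map_ne_zero _).mpr hm)
  have hY : coeffMap (algebraMap ℚ Qbar) Y = (f : LaurentSeries Qbar) :=
    HahnSeries.ext (funext hq)
  exact ⟨Y, hY ▸ ⟨f, (AC.mem_rr_nP.mp x.2).1, rfl⟩, hY ▸ hord,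
    fun h => hx0 (Subtype.ext (Subtype.ext (by
      show (f : LaurentSeries Qbar) = 0
      rw [← hY, h, map_zero])))⟩

/-- A function with poles only at `∞` is integral over the polynomials in `j`. -/
theorem isIntegral_of_mem_RS {x : LaurentSeries Qbar} (hx : x ∈ RS N) :
    IsIntegral (Algebra.adjoin Qbar {jqModC Qbar}) x := by
  obtain ⟨f, hf, rfl⟩ := hx
  set j : modularFunctionFieldBar N := ⟨jqModC Qbar, jqModC_mem_bar N⟩
  have hj0 : j ≠ 0 := fun h => by
    have := order_jqModC Qbar
    rw [show jqModC Qbar = 0 from congrArg Subtype.val h] at this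
    simp at this
  have hint : IsIntegral (Algebra.adjoin Qbar {j}) f :=
    Red.isIntegral_adjoin_of_ord_nonneg fun v hv => AC.mem_Reg_iff.mp hf v (by
      rintro rfl
      rw [QP.ord_qPlace hj0] at hv
      change 0 ≤ (jqModC Qbar).order at hv
      rw [order_jqModC] at hv
      omega)
  have hmap : ∀ a : Algebra.adjoin Qbar {j},
      ((a : modularFunctionFieldBar N) : LaurentSeries Qbar) ∈
        Algebra.adjoin Qbar {jqModC Qbar} := by
    intro a
    have : (modularFunctionFieldBar N).val (a : modularFunctionFieldBar N) ∈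
        (Algebra.adjoin Qbar {j}).map (modularFunctionFieldBar N).val := ⟨_, a.2, rfl⟩
    rwa [AlgHom.map_adjoin, Set.image_singleton] at this
  exact hint.map_of_comp_eq
    (((modularFunctionFieldBar N).val.toRingHom.comp
        (Algebra.adjoin Qbar {j}).val.toRingHom).codRestrict
      (Algebra.adjoin Qbar {jqModC Qbar}).toSubring hmap)
    (modularFunctionFieldBar N).val.toRingHom (by ext; rfl)

variable (ℓ : ℕ) [Fact ℓ.Prime]

omit [Fact (Nat.Prime ℓ)] in
theorem embA_smul (z : Zl ℓ) (y : LaurentSeries (Zl ℓ)) :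
    Ser.embA Qbar (algebraMap (Zl ℓ) (LaurentSeries (Zl ℓ)) z * y) =
      algebraMap Qbar (LaurentSeries Qbar) (algebraMap (Zl ℓ) Qbar z) * Ser.embA Qbar y := by
  rw [map_mul, AlgHom.commutes, Ser.algebraMap_eq_C, algebraMap_laurentSeries_eq_single,
    HahnSeries.C_apply]

omit [Fact (Nat.Prime ℓ)] in
theorem zl_injective : Function.Injective (algebraMap (Zl ℓ) Qbar) :=
  (algebraMap ℚ Qbar).injective.comp Subtype.val_injective

/-- The integral series of functions regular outside `∞`. -/
def intAlg : Subalgebra (Zl ℓ) (LaurentSeries (Zl ℓ)) where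
  carrier := {y | Ser.embA Qbar y ∈ RS N}
  mul_mem' {a b} ha hb := by
    show Ser.embA Qbar (a * b) ∈ RS N
    rw [map_mul]; exact (RS N).mul_mem ha hb
  one_mem' := by
    show Ser.embA Qbar 1 ∈ RS N
    rw [map_one]; exact (RS N).one_mem
  add_mem' {a b} ha hb := by
    show Ser.embA Qbar (a + b) ∈ RS N
    rw [map_add]; exact (RS N).add_mem ha hb
  zero_mem' := by
    show Ser.embA Qbar 0 ∈ RS N
    rw [map_zero]; exact (RS N).zero_mem
  algebraMap_mem' z := by
    have := embA_smul ℓ z 1
    rw [mul_one, map_one, mul_one] at this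
    show Ser.embA Qbar _ ∈ RS N
    rw [this]
    exact (RS N).algebraMap_mem _

omit [Fact (Nat.Prime ℓ)] in
theorem mem_intAlg {y : LaurentSeries (Zl ℓ)} :
    y ∈ intAlg N ℓ ↔ Ser.embA Qbar y ∈ RS N := Iff.rfl

/-- The lattice. -/
def lat : Ser.Lat ℓ where
  S := AC.poleSet (Pinf N)
  zero_mem := AC.zero_mem_poleSet
  add_mem _ hs _ ht := AC.add_mem_poleSet hs ht
  A := intAlg N ℓ
  order_mem y hy hy0 := by
    obtain ⟨t, ht, hord⟩ := exists_coeff hy
      fun h => hy0 (MF.coeffMap_injective (zl_injective ℓ) (h.trans (map_zero _).symm))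
    exact ⟨t, ht, (MF.order_coeffMap (zl_injective ℓ) y).symm.trans hord⟩
  exists_order s hs := by
    obtain ⟨Y, hRS, hord, hY0⟩ := exists_rational N hs
    have hbar : coeffMap (algebraMap ℚ Qbar) Y ∈ modularFunctionFieldFullC Qbar N := by
      obtain ⟨f, -, hf⟩ := hRS
      rw [← MF.laurentBaseChange_full_eq Qbar N, ← hf]
      exact f.2
    obtain ⟨c, hc, x, hx⟩ := Desc.mem_bdd_of_isIntegral (ℓ := ℓ)
      (Desc.mem_full_of_coeffMap_mem hbar) (isIntegral_of_mem_RS N hRS)
    have e : Ser.embA Qbar x = algebraMap Qbar (LaurentSeries Qbar) (algebraMap (Zl ℓ) Qbar c) *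
        coeffMap (algebraMap ℚ Qbar) Y := by
      rw [show Ser.embA Qbar x = coeffMap (algebraMap ℚ Qbar) (Desc.toQ ℓ x) by
        rw [coeffMap_coeffMap]; rfl, hx, map_mul, HahnSeries.C_apply, coeffMap_single,
        coeffMap_single, algebraMap_laurentSeries_eq_single]
      rfl
    have hc' : algebraMap Qbar (LaurentSeries Qbar) (algebraMap (Zl ℓ) Qbar c) ≠ 0 :=
      (map_ne_zero _).mpr fun h => hc (zl_injective ℓ (h.trans (map_zero _).symm))
    have hYne : coeffMap (algebraMap ℚ Qbar) Y ≠ 0 := fun h =>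
      hY0 (MF.coeffMap_injective (algebraMap ℚ Qbar).injective (h.trans (map_zero _).symm))
    refine ⟨x, ?_, fun h => mul_ne_zero hc' hYne (by rw [← e, h, map_zero]), ?_⟩
    · rw [mem_intAlg, e]
      exact (RS N).mul_mem ((RS N).algebraMap_mem _) hRS
    · rw [← MF.order_coeffMap (zl_injective ℓ) x]
      show (Ser.embA Qbar x).order = _
      rw [e, HahnSeries.order_mul hc' hYne, hord, algebraMap_laurentSeries_eq_single,
        HahnSeries.order_single, zero_add]
      exact fun h => hc (zl_injective ℓ (h.trans (map_zero _).symm))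
  saturated z y hz hy := by
    rw [mem_intAlg, embA_smul] at hy
    have hz' : algebraMap (Zl ℓ) Qbar z ≠ 0 := fun h =>
      hz (zl_injective ℓ (h.trans (map_zero _).symm))
    have := (RS N).mul_mem ((RS N).algebraMap_mem (algebraMap (Zl ℓ) Qbar z)⁻¹) hy
    rwa [← mul_assoc, ← map_mul, inv_mul_cancel₀ hz', map_one, one_mul] at this

end Fermat.Agent.Flat.Mdl
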