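import Mathlib.Data.Nat.Prime.Infinite
import Mathlib.RingTheory.Ideal.Quotient.Operations
import Fermat.Agent.Flat.Etale
import Fermat.Agent.Flat.Fibre
import Fermat.Agent.Flat.GoodPoly
import Fermat.Agent.Flat.Transport

/-!
# Integral points of a good model over the roots of good polynomials

The roots of a good polynomial `P` in the coordinate `x` are integral points of the model; for
suitable `P` they stay distinct modulo every place over `ℓ`. They are the auxiliary points of the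
charts.
-/

noncomputable section

namespace Fermat.Agent.Flat

open scoped TensorProduct
open Module Polynomial

local notation "Qbar" => AlgebraicClosure ℚ
local notation "Gal0" => (AlgebraicClosure ℚ ≃ₐ[ℚ] AlgebraicClosure ℚ)

namespace GoodModel

variable {ℓ : ℕ} [Fact ℓ.Prime] (C : GoodModel ℓ)

/-- A prime pole order, large and prime to `ℓ`. -/
def n0 : ℕ := (Nat.exists_infinite_primes (max ℓ (2 * C.g) + 1)).choose

theorem n0_spec : max ℓ (2 * C.g) + 1 ≤ C.n0 ∧ C.n0.Prime :=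
  (Nat.exists_infinite_primes (max ℓ (2 * C.g) + 1)).choose_spec

theorem two_g_lt_n0 : 2 * C.g < C.n0 := by have := C.n0_spec.1; omega

theorem not_dvd_n0 : ¬ ℓ ∣ C.n0 := fun h => by
  have := (Nat.prime_dvd_prime_iff_eq (Fact.out : ℓ.Prime) C.n0_spec.2).mp h
  have := C.n0_spec.1
  omega

/-- The coordinate: the basis element of pole order `n0`. -/
def x : C.Alg := C.b ⟨C.n0, C.mem_S C.two_g_lt_n0.le⟩

theorem bK_eq (K : Type) [Field K] [Algebra (Zl ℓ) K] :
    C.bK K ⟨C.n0, C.mem_S C.two_g_lt_n0.le⟩ = (1 : K) ⊗ₜ[Zl ℓ] C.x := C.bK_apply K _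

theorem deg_bK {K : Type} [Field K] [Algebra (Zl ℓ) K] [C.Fib K] {s : C.S} (h : 2 * C.g ≤ s) :
    C.bK K s ≠ 0 ∧ (C.P K).deg (C.bK K s) = s :=
  C.deg_eq_of_repr h (Fib.b_mem s) (by simp)

theorem deg_x (K : Type) [Field K] [Algebra (Zl ℓ) K] [C.Fib K] :
    (C.P K).deg ((1 : K) ⊗ₜ[Zl ℓ] C.x) = C.n0 :=
  C.bK_eq K ▸ (C.deg_bK C.two_g_lt_n0.le).2

theorem natCast_n0_ne_zero (v : Pl ℓ) : (C.n0 : v.k) ≠ 0 := by
  intro h
  obtain ⟨a, b, hab⟩ : ∃ a b : ℤ, a * ℓ + b * C.n0 = 1 :=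
    (((Fact.out : ℓ.Prime).coprime_iff_not_dvd.mpr C.not_dvd_n0)).isCoprime
  have := congrArg (Int.cast (R := v.k)) hab
  simp [red_natCast v, h] at this

/-- The branch residues of `x`: those over which its fibre is not reduced. -/
def Ram (v : Pl ℓ) : Set v.k :=
  {α | ∃ Q : Ideal (C.R v.k), Q.IsMaximal ∧
    (1 : v.k) ⊗ₜ[Zl ℓ] C.x - algebraMap v.k (C.R v.k) α ∈ Q ^ 2}

theorem finite_Ram (v : Pl ℓ) : (C.Ram v).Finite :=
  (C.P v.k).finite_ramified (C.deg_x v.k) C.n0_spec.2 (C.natCast_n0_ne_zero v)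

theorem galK_mem_Ram (σ : Gal0) (v : Pl ℓ) {α : v.k} (h : α ∈ C.Ram v) :
    Pl.galK σ v α ∈ C.Ram (Pl.smul σ v) := by
  obtain ⟨Q, hQ, hmem⟩ := h
  set e := C.chgE (Pl.galK σ v)
  refine ⟨Q.map e.toRingEquiv.toRingHom,
    Ideal.map_isMaximal_of_equiv e.toRingEquiv (p := Q) (hp := hQ), ?_⟩
  rw [← Ideal.map_pow]
  have h1 := Ideal.mem_map_of_mem e.toRingEquiv.toRingHom hmem
  have e1 : e.toRingEquiv.toRingHom ((1 : v.k) ⊗ₜ[Zl ℓ] C.x - algebraMap v.k (C.R v.k) α) =
      (1 : (Pl.smul σ v).k) ⊗ₜ[Zl ℓ] C.x -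
        algebraMap (Pl.smul σ v).k (C.R (Pl.smul σ v).k) (Pl.galK σ v α) := by
    show C.chgE (Pl.galK σ v) _ = _
    rw [map_sub, Algebra.TensorProduct.algebraMap_apply, Algebra.TensorProduct.algebraMap_apply]
    simp [chgE, Algebra.TensorProduct.congr]
  rwa [e1] at h1

/-! ### finiteness over `ℤ_(ℓ)[x]` -/

theorem isUnit_of_algebraMap_ne_zero {v : Pl ℓ} {z : Zl ℓ} (h : algebraMap (Zl ℓ) v.k z ≠ 0) :
    IsUnit z := by
  by_contra hz
  refine h ?_
  rw [← resEmb_residue v, (IsLocalRing.residue_eq_zero_iff z).mpr hz, map_zero]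

/-- `Alg` is generated by the basis elements of small degree as a module over `ℤ_(ℓ)[x]`. -/
theorem mem_span_small (a : C.Alg) :
    a ∈ Submodule.span (Algebra.adjoin (Zl ℓ) {C.x})
      (C.b '' {s | (s : ℕ) < 2 * C.g + C.n0}) := by
  set M := Submodule.span (Algebra.adjoin (Zl ℓ) {C.x}) (C.b '' {s | (s : ℕ) < 2 * C.g + C.n0})
  have hsm : ∀ (z : Zl ℓ) {w : C.Alg}, w ∈ M → z • w ∈ M := fun z w hw => by
    rw [← IsScalarTower.algebraMap_smul (Algebra.adjoin (Zl ℓ) {C.x}) z w]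
    exact M.smul_mem _ hw
  suffices h : ∀ n, ∀ s : C.S, (s : ℕ) = n → C.b s ∈ M by
    rw [← C.b.linearCombination_repr a, Finsupp.linearCombination_apply]
    exact M.sum_mem fun s _ => hsm _ (h _ s rfl)
  intro n
  induction n using Nat.strong_induction_on with
  | _ n ih =>
    intro s hs
    by_cases hlt : (s : ℕ) < 2 * C.g + C.n0
    · exact Submodule.subset_span ⟨s, hlt, rfl⟩
    obtain ⟨v⟩ := EtaleSet.exists_place (ℓ := ℓ)
    set t : C.S := ⟨s - C.n0, C.mem_S (by omega)⟩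
    set w := C.x * C.b t
    set s' : C.S := ⟨C.n0 + (s - C.n0), C.add_mem _ (C.mem_S C.two_g_lt_n0.le) _ t.2⟩
    have hss : s' = s := Subtype.ext (by show C.n0 + (s - C.n0) = s; omega)
    have hu : IsUnit (C.b.repr w s) := by
      refine isUnit_of_algebraMap_ne_zero (v := v) ?_
      have h1 := C.deg_bK (K := v.k) (s := ⟨C.n0, C.mem_S C.two_g_lt_n0.le⟩) C.two_g_lt_n0.le
      have h2 := C.deg_bK (K := v.k) (s := t) (show 2 * C.g ≤ s - C.n0 by omega)
      have := (C.P v.k).noZeroDivisors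
      have h3 := C.repr_deg_ne_zero (n := (s : ℕ)) (by omega) (mul_ne_zero h1.1 h2.1) (by
        rw [(C.P v.k).deg_mul h1.1 h2.1, h1.2, h2.2]
        show C.n0 + (s - C.n0) = s
        omega)
      rw [repr_mul_basis] at h3
      exact h3
    obtain ⟨u, hu⟩ := hu
    have hw : w ∈ M := by
      have := ih (t : ℕ) (by show (s : ℕ) - C.n0 < n; have := C.n0_spec.2.pos; omega) t rfl
      exact M.smul_mem
        (⟨C.x, Algebra.self_mem_adjoin_singleton _ _⟩ : Algebra.adjoin (Zl ℓ) {C.x}) this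
    have hrest : w - (u : Zl ℓ) • C.b s ∈ M := by
      rw [← C.b.linearCombination_repr (w - (u : Zl ℓ) • C.b s), Finsupp.linearCombination_apply]
      refine M.sum_mem fun r hr => hsm _ (ih r ?_ r rfl)
      rw [Finsupp.mem_support_iff, map_sub, map_smul, Basis.repr_self, Finsupp.sub_apply,
        Finsupp.smul_apply] at hr
      by_contra hrn
      rw [not_lt] at hrn
      rcases eq_or_lt_of_le hrn with e | hlt'
      · obtain rfl : r = s := Subtype.ext (by omega)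
        simp [← hu] at hr
      · have h0 : C.b.repr w r = 0 :=
          C.mul_high _ t r (show C.n0 + (s - C.n0) < (r : ℕ) by omega)
        rw [h0, Finsupp.single_apply,
          if_neg (fun e => absurd (congrArg Subtype.val e) (by omega))] at hr
        simp at hr
    have := hsm (↑u⁻¹ : Zl ℓ) (M.sub_mem hw hrest)
    rwa [sub_sub_cancel, ← smul_assoc, smul_eq_mul, Units.inv_mul, one_smul] at this

/-- A homomorphism integral on `x` is integral everywhere. -/
theorem isIntegral_apply {B : Type*} [CommRing B] [Algebra (Zl ℓ) B] (φ : C.Alg →ₐ[Zl ℓ] B)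
    (hx : IsIntegral (Zl ℓ) (φ C.x)) (a : C.Alg) : IsIntegral (Zl ℓ) (φ a) := by
  set A0 := Algebra.adjoin (Zl ℓ) {C.x}
  have : Module.Finite A0 C.Alg := by
    have hfin : {s : C.S | (s : ℕ) < 2 * C.g + C.n0}.Finite :=
      (Set.finite_Iio _).preimage Subtype.val_injective.injOn
    exact ⟨Submodule.fg_def.mpr ⟨_, hfin.image C.b,
      eq_top_iff.mpr fun z _ => C.mem_span_small z⟩⟩
  obtain ⟨p, hp, hpa⟩ := IsIntegral.of_finite A0 a
  set ψ : A0 →ₐ[Zl ℓ] B := φ.comp A0.val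
  have hψ : ∀ z : A0, IsIntegral (Zl ℓ) (ψ z) := by
    rintro ⟨z, hz⟩
    show IsIntegral (Zl ℓ) (φ z)
    induction hz using Algebra.adjoin_induction with
    | mem z hz => rw [Set.mem_singleton_iff.mp hz]; exact hx
    | algebraMap r => rw [φ.commutes]; exact isIntegral_algebraMap
    | add z w _ _ hz hw => rw [map_add]; exact hz.add hw
    | mul z w _ _ hz hw => rw [map_mul]; exact hz.mul hw
  let Bi := integralClosure (Zl ℓ) B
  let ψ' : A0 →+* Bi := ψ.toRingHom.codRestrict Bi.toSubring hψ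
  have h1 : IsIntegral Bi (φ a) := by
    refine ⟨p.map ψ', hp.map ψ', ?_⟩
    rw [Polynomial.eval₂_map]
    have h2 := Polynomial.hom_eval₂ p A0.val.toRingHom φ.toRingHom a
    have h3 : Polynomial.eval₂ A0.val.toRingHom a p = 0 := hpa
    rw [h3, map_zero] at h2
    exact h2.symm
  exact isIntegral_trans (A := Bi) (φ a) h1

/-! ### points -/

/-- A point with integral coordinates. -/
structure IPt where
  /-- evaluation -/
  val : C.Alg →ₐ[Zl ℓ] AlgebraicClosure ℚ
  integral : IsIntegral (Zl ℓ) (val C.x)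

variable {C}

namespace IPt

variable (θ : C.IPt)

theorem mem (v : Pl ℓ) (a : C.Alg) : θ.val a ∈ v.A :=
  mem_of_isIntegral v.over (C.isIntegral_apply θ.val θ.integral a)

/-- Evaluation on the generic fibre. -/
def gen : C.R Qbar →ₐ[Qbar] Qbar :=
  Algebra.TensorProduct.lift (Algebra.ofId Qbar Qbar) θ.val fun _ _ => Commute.all _ _

theorem gen_tmul (c : Qbar) (a : C.Alg) : θ.gen (c ⊗ₜ a) = c * θ.val a := by
  simp [gen]

/-- Evaluation with values in a valuation ring. -/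
def toO (v : Pl ℓ) : C.Alg →ₐ[Zl ℓ] v.O :=
  { θ.val.toRingHom.codRestrict v.A.toSubring (θ.mem v) with
    commutes' := fun z => Subtype.ext (θ.val.commutes z) }

/-- Evaluation on a special fibre. -/
def spec (v : Pl ℓ) : C.R v.k →ₐ[v.k] v.k :=
  Algebra.TensorProduct.lift (Algebra.ofId v.k v.k) (v.res.comp (θ.toO v))
    fun _ _ => Commute.all _ _

theorem spec_tmul (v : Pl ℓ) (c : v.k) (a : C.Alg) :
    θ.spec v (c ⊗ₜ a) = c * red v.A (θ.val a) := by
  rw [spec, Algebra.TensorProduct.lift_tmul, AlgHom.comp_apply, v.res_apply]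
  rfl

/-- The maximal ideal. -/
def m : Ideal (C.R Qbar) := RingHom.ker θ.gen

/-- The maximal ideal of the reduced point. -/
def mbar (v : Pl ℓ) : Ideal (C.R v.k) := RingHom.ker (θ.spec v)

theorem gen_redR (v : Pl ℓ) {z : C.R Qbar} (hz : IsInt v z) :
    θ.gen z ∈ v.A ∧ θ.spec v (redR v z) = red v.A (θ.gen z) := by
  obtain ⟨y, rfl⟩ := isInt_iff.mp hz
  rw [redR_chg]
  let ψ : C.R v.O →ₐ[Zl ℓ] v.O :=
    Algebra.TensorProduct.lift (AlgHom.id (Zl ℓ) v.O) (θ.toO v) fun _ _ => Commute.all _ _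
  have h : θ.gen (chg v.incl y) = v.incl (ψ y) ∧ θ.spec v (chg v.res y) = v.res (ψ y) := by
    induction y using TensorProduct.induction_on with
    | zero => simp
    | tmul c a =>
      simp only [chg, Algebra.TensorProduct.map_tmul, AlgHom.id_apply, gen_tmul, spec_tmul, ψ,
        Algebra.TensorProduct.lift_tmul, v.res_apply, v.incl_apply]
      exact ⟨rfl, (red_mul c.2 (θ.mem v a)).symm⟩
    | add y y' hy hy' =>
      simp only [map_add, hy (isInt_chg y), hy' (isInt_chg y'), and_self]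
  exact ⟨h.1 ▸ (ψ y).2, by rw [h.1, h.2, v.res_apply]; rfl⟩

theorem codim_ker {K : Type} [Field K] [Algebra (Zl ℓ) K] [C.Fib K] [IsAlgClosed K]
    [IsDedekindDomain (C.R K)] (φ : C.R K →ₐ[K] K) :
    RingHom.ker φ ≠ ⊥ ∧ (RingHom.ker φ).IsMaximal ∧ (C.P K).codim (RingHom.ker φ) = 1 := by
  have hsurj : Function.Surjective φ := fun c => ⟨algebraMap K _ c, φ.commutes c⟩
  have hmax : (RingHom.ker φ).IsMaximal := RingHom.ker_isMaximal_of_surjective φ hsurj
  have hne : RingHom.ker φ ≠ ⊥ := by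
    intro h
    have hinj : Function.Injective φ := (RingHom.injective_iff_ker_eq_bot φ).mpr h
    have e : (1 : K) ⊗ₜ[Zl ℓ] C.x = algebraMap K (C.R K) (φ ((1 : K) ⊗ₜ C.x)) :=
      hinj (φ.commutes _).symm
    have h1 := C.deg_x K
    have h2 : (C.P K).deg (algebraMap K (C.R K) (φ ((1 : K) ⊗ₜ C.x))) ≤ 0 := by
      rw [(C.P K).deg_le_iff, Algebra.algebraMap_eq_smul_one]
      exact Submodule.smul_mem _ _ ((C.P K).deg_le_iff.mp (C.P K).deg_one.le)
    rw [← e, h1] at h2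
    have := C.n0_spec.2.pos
    omega
  refine ⟨hne, hmax, ?_⟩
  have h1 := (C.P K).codim_mul_maximal (I := ⊤) (fun h => hne (le_bot_iff.mp (h ▸ le_top)))
    hmax hne
  rwa [Ideal.top_mul, (C.P K).codim_top] at h1

theorem aff (v : Pl ℓ) : AFF v θ.m ∧ redI v θ.m = θ.mbar v := by
  obtain ⟨hne, -, hc⟩ := codim_ker θ.gen
  obtain ⟨hne', -, hc'⟩ := codim_ker (θ.spec v)
  have hle : redI v θ.m ≤ θ.mbar v := by
    rintro _ ⟨z, hz, hzi, rfl⟩
    show θ.spec v (redR v z) = 0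
    rw [(θ.gen_redR v hzi).2, show θ.gen z = 0 from hz, red_zero]
  have h1 : (C.P v.k).codim (redI v θ.m) ≤ 1 := (codim_redI_le v hne).trans hc.le
  have e := (C.P v.k).eq_of_le_of_codim_le (redI_ne_bot v hne) hle (by
    show _ ≤ (C.P v.k).codim (θ.mbar v)
    rw [mbar, hc']; exact h1)
  exact ⟨⟨hne, (congrArg _ e).trans (hc'.trans hc.symm)⟩, e⟩

theorem ext_val {θ θ' : C.IPt} (h : θ.val = θ'.val) : θ = θ' := by
  cases θ; cases θ'; cases h; rfl

theorem eq_of_m_eq {θ θ' : C.IPt} (h : θ.m = θ'.m) : θ = θ' := by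
  refine ext_val (AlgHom.ext fun a => ?_)
  have h1 : (1 : Qbar) ⊗ₜ[Zl ℓ] a - algebraMap Qbar (C.R Qbar) (θ.val a) ∈ θ.m := by
    simp [m, gen_tmul, map_sub]
  rw [h] at h1
  have h2 : θ'.gen ((1 : Qbar) ⊗ₜ[Zl ℓ] a - algebraMap Qbar (C.R Qbar) (θ.val a)) = 0 := h1
  rw [map_sub, gen_tmul, one_mul, AlgHom.commutes] at h2
  exact (sub_eq_zero.mp h2).symm

/-- Galois acts on integral points. -/
def act (σ : Gal0) : C.IPt :=
  ⟨(galZl σ).toAlgHom.comp θ.val, by exact θ.integral.map (galZl (ℓ := ℓ) σ).toAlgHom⟩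

theorem act_apply (σ : Gal0) (a : C.Alg) : (θ.act σ).val a = σ (θ.val a) := rfl

theorem galI_m (σ : Gal0) : C.galI σ θ.m = (θ.act σ).m := by
  have h : ∀ z, (θ.act σ).gen (C.galR σ z) = σ (θ.gen z) := by
    intro z
    induction z using TensorProduct.induction_on with
    | zero => simp
    | tmul c a => simp [galR, chgE, gen_tmul, act_apply]
    | add z z' hz hz' => simp [hz, hz']
  ext z
  rw [mem_galI]
  constructor
  · rintro ⟨y, hy, rfl⟩
    show (θ.act σ).gen _ = 0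
    rw [h, show θ.gen y = 0 from hy, map_zero]
  · intro hz
    obtain ⟨y, rfl⟩ := (C.galR σ).surjective z
    refine ⟨y, ?_, rfl⟩
    have h1 : (θ.act σ).gen (C.galR σ y) = 0 := hz
    rw [h, map_eq_zero_iff _ σ.injective] at h1
    exact h1

end IPt

/-- A good polynomial none of whose roots reduces to a branch residue of `x` at any place. -/
def IsUnramified (P : (Zl ℓ)[X]) : Prop :=
  IsGoodPoly ℓ P ∧ ∀ v : Pl ℓ, ∀ α ∈ C.Ram v, aeval α P ≠ 0

theorem isUnramified_of {P : (Zl ℓ)[X]} (hP : IsGoodPoly ℓ P) {v₀ : Pl ℓ}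
    (h : ∀ α ∈ C.Ram v₀, aeval α P ≠ 0) : IsUnramified (C := C) P := by
  refine ⟨hP, fun v α hα h0 => ?_⟩
  obtain ⟨σ, rfl⟩ := Pl.exists_smul_eq v v₀
  refine h _ (C.galK_mem_Ram σ v hα) ?_
  rw [show Pl.galK σ v α = (Pl.galK σ v).toAlgHom α from rfl, aeval_algHom_apply, h0, map_zero]

variable (C) in
/-- The integral points whose coordinate `x` is a root of `P`. -/
def Pts (P : (Zl ℓ)[X]) : Type := {θ : C.IPt // aeval (θ.val C.x) P = 0}

namespace Pts

variable {P : (Zl ℓ)[X]}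

/-- Galois on points. -/
def act (σ : Gal0) (θ : C.Pts P) : C.Pts P :=
  ⟨θ.1.act σ, by rw [IPt.act_apply]; exact aeval_apply_eq_zero σ θ.2⟩

theorem finite (hP : P.Monic) : Finite (C.Pts P) := by
  classical
  set J : Ideal C.Alg := Ideal.span {aeval C.x P}
  set q := Ideal.Quotient.mkₐ (Zl ℓ) J
  have hx : IsIntegral (Zl ℓ) (q C.x) := ⟨P, hP, by
    rw [← aeval_def, aeval_algHom_apply]
    exact (Ideal.Quotient.eq_zero_iff_mem).mpr (Ideal.mem_span_singleton_self _)⟩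
  choose r hr hr0 using fun a => C.isIntegral_apply q hx a
  have hroot : ∀ (θ : C.Pts P) (a : C.Alg), aeval (θ.1.val a) (r a) = 0 := by
    intro θ a
    have h1 : aeval a (r a) ∈ J := by
      refine (Ideal.Quotient.eq_zero_iff_mem).mp ?_
      show q _ = 0
      rw [← aeval_algHom_apply]; exact hr0 a
    obtain ⟨b, hb⟩ := Ideal.mem_span_singleton'.mp h1
    rw [aeval_algHom_apply, ← hb, map_mul, ← aeval_algHom_apply, θ.2, mul_zero]
  have hfin : {s : C.S | (s : ℕ) < 2 * C.g + C.n0}.Finite :=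
    (Set.finite_Iio _).preimage Subtype.val_injective.injOn
  have := hfin.to_subtype
  let G : Option {s : C.S | (s : ℕ) < 2 * C.g + C.n0} → C.Alg := fun o => o.elim C.x fun s => C.b s
  have hR : ∀ o, {y : Qbar | aeval y (r (G o)) = 0}.Finite := fun o =>
    ((r (G o)).map (algebraMap (Zl ℓ) Qbar)).roots.toFinset.finite_toSet.subset fun y hy => by
      rw [Finset.mem_coe, Multiset.mem_toFinset, mem_roots ((hr _).map _).ne_zero, IsRoot,
        eval_map_algebraMap]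
      exact hy
  have := fun o => (hR o).to_subtype
  refine Finite.of_injective (β := ∀ o, {y : Qbar | aeval y (r (G o)) = 0})
    (fun θ o => ⟨θ.1.val (G o), hroot θ (G o)⟩) fun θ θ' h => ?_
  have hG : ∀ o, θ.1.val (G o) = θ'.1.val (G o) := fun o => congrArg Subtype.val (congrFun h o)
  refine Subtype.ext (IPt.ext_val (AlgHom.ext fun a => ?_))
  have key : ∀ z ∈ Submodule.span (Algebra.adjoin (Zl ℓ) {C.x})
      (C.b '' {s | (s : ℕ) < 2 * C.g + C.n0}), θ.1.val z = θ'.1.val z := by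
    intro z hz
    induction hz using Submodule.span_induction with
    | mem z hz => obtain ⟨s, hs, rfl⟩ := hz; exact hG (some ⟨s, hs⟩)
    | zero => simp
    | add z w _ _ hz hw => simp [hz, hw]
    | smul c z _ hz =>
      show θ.1.val ((c : C.Alg) * z) = θ'.1.val ((c : C.Alg) * z)
      rw [map_mul, map_mul, hz]
      congr 1
      exact Algebra.adjoin_le (S := AlgHom.equalizer θ.1.val θ'.1.val)
        (Set.singleton_subset_iff.mpr (hG none)) c.2
  exact key a (C.mem_span_small a)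

/-- Points in an unramified set are separated by every reduction. -/
theorem eq_of_red (hP : IsUnramified (C := C) P) (v : Pl ℓ) {θ θ' : C.Pts P}
    (h : ∀ a, red v.A (θ.1.val a) = red v.A (θ'.1.val a)) : θ = θ' := by
  by_contra hne
  have hm : θ.1.m ≠ θ'.1.m := fun e => hne (Subtype.ext (IPt.eq_of_m_eq e))
  have hc : θ.1.val C.x = θ'.1.val C.x := hP.1.eq_of_red_eq v θ.2 θ'.2 (h C.x)
  set c := θ.1.val C.x
  have hcA : c ∈ v.A := θ.1.mem v C.x
  set f : C.R Qbar := (1 : Qbar) ⊗ₜ[Zl ℓ] C.x - algebraMap Qbar (C.R Qbar) c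
  have hf : ∀ η : C.Pts P, η.1.val C.x = c → f ∈ η.1.m := fun η hη => by
    show η.1.gen f = 0
    rw [map_sub, IPt.gen_tmul, one_mul, AlgHom.commutes, hη]
    exact sub_self c
  set y : C.R v.O := (1 : v.O) ⊗ₜ[Zl ℓ] C.x - (⟨c, hcA⟩ : v.O) ⊗ₜ 1
  have hy : chg v.incl y = f := by
    simp [y, f, chg, v.incl_apply, Algebra.TensorProduct.algebraMap_apply]
  have hfr : redR v f = (1 : v.k) ⊗ₜ[Zl ℓ] C.x - algebraMap v.k (C.R v.k) (red v.A c) := by
    rw [← hy, redR_chg]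
    simp [y, chg, v.res_apply, Algebra.TensorProduct.algebraMap_apply]
  obtain ⟨-, hmax, -⟩ := IPt.codim_ker θ.1.gen
  obtain ⟨-, hmax', -⟩ := IPt.codim_ker θ'.1.gen
  have hmul : θ.1.m * θ'.1.m = θ.1.m ⊓ θ'.1.m :=
    Ideal.mul_eq_inf_of_coprime (Ideal.IsMaximal.coprime_of_ne hmax hmax' hm)
  have hmem : f ∈ θ.1.m * θ'.1.m := hmul ▸ ⟨hf θ rfl, hf θ' hc.symm⟩
  have hr := mem_redI (v := v) hmem (hy ▸ isInt_chg y)
  obtain ⟨ha, e⟩ := θ.1.aff v
  obtain ⟨ha', e'⟩ := θ'.1.aff v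
  rw [hfr, AFF.redI_mul ha ha', e, e'] at hr
  have hk : θ'.1.mbar v = θ.1.mbar v := by
    have : θ'.1.spec v = θ.1.spec v := by
      refine Algebra.TensorProduct.ext' fun c' a => ?_
      rw [IPt.spec_tmul, IPt.spec_tmul, h]
    rw [IPt.mbar, IPt.mbar, this]
  rw [hk, ← pow_two] at hr
  refine hP.2 v (red v.A c) ⟨_, (IPt.codim_ker (θ.1.spec v)).2.1, hr⟩ ?_
  rw [aeval_red v hcA, θ.2, red_zero]

theorem nonempty (hP : IsGoodPoly ℓ P) : Nonempty (C.Pts P) := by
  obtain ⟨c, hc⟩ := hP.exists_root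
  have := (C.P Qbar).nontrivial
  have := (C.P Qbar).noZeroDivisors
  set f : C.R Qbar := (1 : Qbar) ⊗ₜ[Zl ℓ] C.x - algebraMap Qbar (C.R Qbar) c
  have hmemL : algebraMap Qbar (C.R Qbar) c ∈ (C.P Qbar).L 0 := by
    rw [Algebra.algebraMap_eq_smul_one]
    exact Submodule.smul_mem _ _ ((C.P Qbar).deg_le_iff.mp (C.P Qbar).deg_one.le)
  have hf0 : f ≠ 0 := fun h0 => by
    have := C.deg_x Qbar
    rw [sub_eq_zero.mp h0] at this
    have := (C.P Qbar).deg_le_iff.mpr hmemL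
    have := C.n0_spec.2.pos
    omega
  have hfu : Ideal.span {f} ≠ ⊤ := by
    intro h
    have hfL : f ∈ (C.P Qbar).L C.n0 := Submodule.sub_mem _
      ((C.P Qbar).deg_le_iff.mp (C.deg_x Qbar).le)
      ((C.P Qbar).L_mono (Nat.zero_le _) hmemL)
    have h1 := (C.P Qbar).codim_span_singleton hf0
    rw [h, (C.P Qbar).codim_top] at h1
    have hxL : (1 : Qbar) ⊗ₜ[Zl ℓ] C.x ∈ (C.P Qbar).L 0 := by
      rw [show (1 : Qbar) ⊗ₜ[Zl ℓ] C.x = f + algebraMap Qbar (C.R Qbar) c from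
        (sub_add_cancel _ _).symm]
      exact Submodule.add_mem _ ((C.P Qbar).deg_le_iff.mp h1.ge) hmemL
    have := (C.P Qbar).deg_le_iff.mpr hxL
    rw [C.deg_x] at this
    have := C.n0_spec.2.pos
    omega
  obtain ⟨Q, hQ, hfQ⟩ := Ideal.exists_le_maximal _ hfu
  have hQ0 : Q ≠ ⊥ := fun h0 => hf0 (by
    have := hfQ (Ideal.mem_span_singleton_self f); rwa [h0, Submodule.mem_bot] at this)
  choose φ hφ using (C.P Qbar).exists_const hQ hQ0
  have huniq : ∀ z a, z - algebraMap Qbar (C.R Qbar) a ∈ Q → φ z = a := fun z a hz =>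
    eq_of_sub_algebraMap_mem hQ.ne_top (hφ z) hz
  let ψ : C.Alg →ₐ[Zl ℓ] Qbar :=
    { toFun := fun a => φ (1 ⊗ₜ a)
      map_one' := huniq _ _ (by simp)
      map_mul' := fun a b => huniq _ _ (by
        have e : (1 : Qbar) ⊗ₜ[Zl ℓ] (a * b) -
            algebraMap Qbar (C.R Qbar) (φ (1 ⊗ₜ a) * φ (1 ⊗ₜ b)) =
            ((1 : Qbar) ⊗ₜ[Zl ℓ] a - algebraMap Qbar _ (φ (1 ⊗ₜ a))) * ((1 : Qbar) ⊗ₜ[Zl ℓ] b) +
            algebraMap Qbar (C.R Qbar) (φ (1 ⊗ₜ a)) *
              ((1 : Qbar) ⊗ₜ[Zl ℓ] b - algebraMap Qbar _ (φ (1 ⊗ₜ b))) := by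
          rw [map_mul, sub_mul, mul_sub, Algebra.TensorProduct.tmul_mul_tmul, one_mul]
          abel
        rw [e]
        exact Q.add_mem (Q.mul_mem_right _ (hφ _)) (Q.mul_mem_left _ (hφ _)))
      map_zero' := huniq _ _ (by simp)
      map_add' := fun a b => huniq _ _ (by
        rw [TensorProduct.tmul_add, map_add, add_sub_add_comm]; exact Q.add_mem (hφ _) (hφ _))
      commutes' := fun z => huniq _ _ (by
        rw [← IsScalarTower.algebraMap_apply (Zl ℓ) Qbar (C.R Qbar)]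
        simp [Algebra.TensorProduct.one_def, Algebra.algebraMap_eq_smul_one,
          TensorProduct.smul_tmul']) }
  have hψ : ψ C.x = c := huniq _ _ (hfQ (Ideal.mem_span_singleton_self f))
  exact ⟨⟨⟨ψ, hψ ▸ hP.isIntegral hc⟩, hψ.symm ▸ hc⟩⟩

end Pts

end GoodModel

end Fermat.Agent.Flat
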