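import Fermat.Agent.Flat.RegIdeal

/-!
# Calculus of regular families of ideals: elements, complements, products

Regularity is preserved by complements with respect to an element and by products, and a
regular family has regular elements. These operations express the group law on classes.
-/

noncomputable section

namespace Fermat.Agent.Flat

open scoped TensorProduct
open Module Matrix

local notation "Qbar" => AlgebraicClosure ℚ

namespace GoodModel

variable {ℓ : ℕ} [Fact ℓ.Prime] {C : GoodModel ℓ} {S : Type*}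
  {K : Subalgebra (Zl ℓ) (S → Qbar)} {v : Pl ℓ} {s : S}

/-- The unit family. -/
theorem regI_top (hK : ∀ g ∈ K, g s ∈ v.A) :
    RegI K v s (fun _ => (⊤ : Ideal (C.R Qbar))) 0 := by
  classical
  have := (C.P Qbar).nontrivial
  intro n hn
  refine ⟨(aff_top v).1, (C.P Qbar).codim_top, ⟨1, one_mem _, by simp [IsVUnit], fun t _ =>
    ⟨top_ne_bot, (C.P Qbar).codim_top⟩⟩, hn, ?_⟩
  have hcard := C.card_idx (n := n) (by omega)
  have htop : C.vLI Qbar ⊤ n = ⊤ := eq_top_iff.mpr fun a _ => C.mem_vLI.mpr trivial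
  refine IsReg.of_ker hK (ρ := Fin 0) (Φ := fun r => r.elim0) (fun r => r.elim0) (by omega)
    (e := 1) (one_mem _) (by simp [IsVUnit]) (fun t _ => ⟨?_, ?_⟩) ?_
  · rw [htop]
    refine (eq_top_iff.mpr fun x _ => ?_).symm
    rw [LinearMap.mem_ker, Matrix.mulVecLin_apply]
    exact Subsingleton.elim _ _
  · rw [htop, finrank_top, Module.finrank_fintype_fun_eq_card]; omega
  · refine le_trans (Submodule.finrank_le _) ?_
    rw [Module.finrank_fintype_fun_eq_card]; omega

/-- A regular family contains a regular element of its degree. -/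
theorem RegAt.exists_elt (hK : ∀ g ∈ K, g s ∈ v.A) {I : S → Ideal (C.R Qbar)} {c m : ℕ}
    (h : RegAt K v s I c m) :
    ∃ f : S → C.R Qbar, RegElt K v s f m ∧ ∃ e ∈ Loc K v.A s, IsVUnit v.A (e s) ∧
      ∀ t, e t ≠ 0 → f t ∈ I t := by
  obtain ⟨p, u, d, hu, hd, hd1, hp, hU⟩ := h.reg
  have hg' : (C.P v.k).g = C.g := C.P_g v.k
  obtain ⟨y, hy, hy0, hyd⟩ := (C.P v.k).mem_idegs.mp
    ((C.P v.k).mem_idegs_of_le (redI_ne_bot v h.aff.1) (n := m)
      (by have := h.large; have := h.aff.2; have := h.codim_eq; omega))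
  have hm2 : 2 * C.g ≤ m := by have := h.large; omega
  have hmS : m ∈ C.S := C.mem_S hm2
  set top : C.Idx m := ⟨⟨m, hmS⟩, le_rfl⟩
  have huA : ∀ j i, u j i s ∈ v.A := fun j i => Loc.apply_mem hK (hu j i)
  obtain ⟨j, hj⟩ : ∃ j, red v.A (u j top s) ≠ 0 := by
    by_contra hne
    push Not at hne
    apply C.repr_deg_ne_zero hm2 hy0 hyd
    show C.vec v.k m y top = 0
    have hmem : C.vec v.k m y ∈ redSub v.A (C.vLI Qbar (I s) m) := by
      rw [h.aff.redSub_vLI (by have := h.large; have := h.codim_eq; omega)]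
      exact ⟨y, ⟨hy, (C.P v.k).deg_le_iff.mp hyd.le⟩, rfl⟩
    rw [redSub_eq_span (hU s hd1.ne_zero) huA (fun j l => hp j l s)] at hmem
    obtain ⟨b, hb⟩ := (Submodule.mem_span_range_iff_exists_fun _).mp hmem
    rw [← hb, Finset.sum_apply]
    exact Finset.sum_eq_zero fun i _ => by simp [hne]
  refine ⟨fun t => C.unvec Qbar m fun i => u j i t,
    ⟨hm2, u j, hu j, (red_ne_zero_iff (huA j top)).mp hj, fun t => rfl⟩, d, hd, hd1,
    fun t ht => ?_⟩
  refine C.mem_vLI.mp ?_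
  rw [show C.vLI Qbar (I t) m = _ from hU t ht]
  exact Submodule.subset_span ⟨j, rfl⟩

/-- The complementary ideal family: `I * compl = (f)` where `f ∈ I`. -/
def compl (I : S → Ideal (C.R Qbar)) (f : S → C.R Qbar) (t : S) : Ideal (C.R Qbar) :=
  Classical.epsilon fun Y => Ideal.span {f t} = I t * Y

theorem mul_compl {I : S → Ideal (C.R Qbar)} {f : S → C.R Qbar} {t : S} (hf : f t ∈ I t) :
    I t * compl I f t = Ideal.span {f t} :=
  (Classical.epsilon_spec (exists_complement hf)).symm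

theorem regI_compl (hK : ∀ g ∈ K, g s ∈ v.A) {I : S → Ideal (C.R Qbar)} {f : S → C.R Qbar}
    {c m d : ℕ} (hI : RegAt K v s I c m) (hf : RegElt K v s f d) (hcd : c ≤ d) {e : S → Qbar}
    (he : e ∈ Loc K v.A s) (he1 : IsVUnit v.A (e s)) (hfI : ∀ t, e t ≠ 0 → f t ∈ I t) :
    RegI K v s (compl I f) (d - c) := by
  refine regI_div (J := fun _ => ⊤) hK hf hI (regI_top hK) (by omega) he he1 fun t ht => ?_
  rw [mul_compl (hfI t ht), Ideal.mul_top]

/-- Regularity in one degree gives regularity in all. -/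
theorem RegAt.regI (hK : ∀ g ∈ K, g s ∈ v.A) {I : S → Ideal (C.R Qbar)} {c m : ℕ}
    (h : RegAt K v s I c m) : RegI K v s I c := by
  have hlarge := h.large
  obtain ⟨f, hf, e, he, he1, hfI⟩ := h.exists_elt hK
  have hY := regI_compl hK h hf (by omega) he he1 hfI
  refine regI_div (J := fun _ => ⊤) hK hf (hY (m - c + 3 * C.g) le_rfl) (regI_top hK)
    (by omega) he he1 fun t ht => ?_
  rw [mul_comm, mul_compl (hfI t ht), Ideal.mul_top]

/-- A regular element of a regular family, in any large degree. -/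
theorem RegI.exists_elt (hK : ∀ g ∈ K, g s ∈ v.A) {I : S → Ideal (C.R Qbar)} {c m : ℕ}
    (h : RegI K v s I c) (hm : c + 3 * C.g ≤ m) :
    ∃ f : S → C.R Qbar, RegElt K v s f m ∧ ∃ e ∈ Loc K v.A s, IsVUnit v.A (e s) ∧
      ∀ t, e t ≠ 0 → f t ∈ I t :=
  (h m hm).exists_elt hK

/-- Products of regular families are regular. -/
theorem RegI.mul (hK : ∀ g ∈ K, g s ∈ v.A) {I J : S → Ideal (C.R Qbar)} {cI cJ : ℕ}
    (hI : RegI K v s I cI) (hJ : RegI K v s J cJ) :
    RegI K v s (fun t => I t * J t) (cI + cJ) := by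
  obtain ⟨f, hf, e, he, he1, hfI⟩ := hI.exists_elt hK (m := cI + 3 * C.g) le_rfl
  have hY := regI_compl hK (hI _ le_rfl) hf (by omega) he he1 hfI
  refine regI_div hK hf (hY (cI + 3 * C.g - cI + 3 * C.g) le_rfl) hJ (by omega) he he1
    fun t ht => ?_
  rw [← mul_assoc, mul_comm _ (I t), mul_compl (hfI t ht)]

/-- The unique small element: a good family has a regular element of degree `c + g`. -/
theorem exists_small_elt (hK : ∀ g ∈ K, g s ∈ v.A) {I J Z : S → Ideal (C.R Qbar)}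
    {cI cJ d m c : ℕ} {f : S → C.R Qbar} (hf : RegElt K v s f d) (hI : RegAt K v s I cI m)
    (hJ : RegI K v s J cJ) (hc : c + cI = d + cJ) (hm : d + cJ + 3 * C.g ≤ c + C.g + m)
    {e : S → Qbar} (he : e ∈ Loc K v.A s) (he1 : IsVUnit v.A (e s))
    (hrel : ∀ t, e t ≠ 0 → I t * Z t = Ideal.span {f t} * J t)
    (hgood : (C.P v.k).GOOD (redI v (Z s))) (hcg : C.g ≤ c) :
    ∃ h : S → C.R Qbar, RegElt K v s h (c + C.g) ∧ ∃ e' ∈ Loc K v.A s, IsVUnit v.A (e' s) ∧
      ∀ t, e' t ≠ 0 → h t ∈ Z t ∧ ∀ x ∈ Z t, x ∈ (C.P Qbar).L (c + C.g) →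
        ∃ a : Qbar, x = a • h t := by
  have hg : (C.P Qbar).g = C.g := rfl
  have hg' : (C.P v.k).g = C.g := C.P_g v.k
  have hZs := regI_div hK hf hI hJ hc he he1 hrel (c + 3 * C.g) le_rfl
  have hcZ : (C.P v.k).codim (redI v (Z s)) = c := hZs.aff.2.trans hZs.codim_eq
  have hd0 := hgood.finrank_LI _ (redI_ne_bot v hZs.aff.1)
  rw [hcZ, hg'] at hd0
  have hreg : IsReg K v.A s (fun t => C.vLI Qbar (Z t) (c + C.g)) 1 := by
    refine reg_div_core hK hf hI hJ he he1 hrel hm ?_ (fun t ht hZ0 hcZt => ?_) hd0.le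
    · have h1 : finrank v.k (C.vLI v.k (redI v (Z s)) (c + C.g)) ≤
          Fintype.card (C.Idx (c + C.g)) := by
        refine le_trans (Submodule.finrank_le _) ?_
        rw [Module.finrank_fintype_fun_eq_card]
      rw [C.finrank_vLI v.k _ (by omega)] at h1
      omega
    · have := (C.P Qbar).le_finrank_LI hZ0 (c + C.g)
      omega
  obtain ⟨p, u, du, hu, hdu, hdu1, hp, hU⟩ := hreg
  have huA : ∀ j i, u j i s ∈ v.A := fun j i => Loc.apply_mem hK (hu j i)
  have hx0 : C.unvec Qbar (c + C.g) (fun i => u 0 i s) ∈ Z s := by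
    refine C.mem_vLI.mp ?_
    rw [show C.vLI Qbar (Z s) (c + C.g) = _ from hU s hdu1.ne_zero]
    exact Submodule.subset_span ⟨0, rfl⟩
  set x := C.unvec Qbar (c + C.g) (fun i => u 0 i s)
  have hvec : C.vec v.k (c + C.g) (redR v x) = fun i => red v.A (u 0 i s) := by
    rw [vec_redR, C.vec_unvec]
  have hxr : redR v x ≠ 0 := fun h0 => by
    have := congrFun hvec (p 0)
    rw [h0, map_zero, hp, if_pos rfl, Pi.zero_apply, red_one] at this
    exact zero_ne_one this
  have hxd : (C.P v.k).deg (redR v x) = c + C.g := by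
    have := hgood.deg_eq _ (mem_redI hx0 (isInt_unvec (huA 0))) hxr (by
      rw [hcZ, hg']
      exact (C.P v.k).deg_le_iff.mpr (redR_mem_L (C.unvec_mem Qbar _ _)))
    rwa [hcZ, hg'] at this
  have hS0 : 2 * C.g ≤ c + C.g := by omega
  have hS : c + C.g ∈ C.S := C.mem_S hS0
  have htop : red v.A (u 0 ⟨⟨c + C.g, hS⟩, le_rfl⟩ s) ≠ 0 := by
    have h1 := C.repr_deg_ne_zero hS0 hxr hxd
    have := congrFun hvec ⟨⟨c + C.g, hS⟩, le_rfl⟩
    rw [vec_apply] at this
    rwa [← this]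
  refine ⟨fun t => C.unvec Qbar _ fun i => u 0 i t,
    ⟨hS0, u 0, hu 0, (red_ne_zero_iff (huA 0 _)).mp htop, fun t => rfl⟩, du, hdu, hdu1,
    fun t ht => ⟨C.mem_vLI.mp ?_, fun x' hx' hxL => ?_⟩⟩
  · rw [show C.vLI Qbar (Z t) (c + C.g) = _ from hU t ht]
    exact Submodule.subset_span ⟨0, rfl⟩
  · have hmem : C.vec Qbar (c + C.g) x' ∈ C.vLI Qbar (Z t) (c + C.g) := ⟨x', ⟨hx', hxL⟩, rfl⟩
    rw [show C.vLI Qbar (Z t) (c + C.g) = _ from hU t ht] at hmem
    obtain ⟨b, hb⟩ := (Submodule.mem_span_range_iff_exists_fun _).mp hmem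
    refine ⟨b 0, ?_⟩
    rw [← C.unvec_vec₀ hxL, ← hb, Fin.sum_univ_one, map_smul]

end GoodModel

end Fermat.Agent.Flat
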