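import Fermat.Agent.Flat.Coords
import Fermat.Agent.Flat.RegSub

/-!
# Regular families of ideals, and their calculus

Quotients of regular families of ideals are regular: this is all the algebraic geometry that the
group law needs.
-/

noncomputable section

namespace Fermat.Agent.Flat

open scoped TensorProduct
open Module Matrix

local notation "Qbar" => AlgebraicClosure ℚ

variable {ℓ : ℕ} {S : Type*} {ι : Type*} [Fintype ι]

/-- The span of vectors over the local ring with independent reductions is regular. -/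
theorem IsReg.of_span [DecidableEq ι] {K : Subalgebra (Zl ℓ) (S → Qbar)}
    {A : ValuationSubring Qbar} {s : S} (hK : ∀ f ∈ K, f s ∈ A) {U : S → Submodule Qbar (ι → Qbar)}
    {k : ℕ} {w : Fin k → ι → S → Qbar} (hw : ∀ j i, w j i ∈ Loc K A s) {e : S → Qbar}
    (he : e ∈ Loc K A s) (he1 : IsVUnit A (e s))
    (hU : ∀ t, e t ≠ 0 → U t = Submodule.span Qbar (Set.range fun j => fun i => w j i t))
    (hli : LinearIndependent (Res A) fun j => fun i => red A (w j i s)) : IsReg K A s U k := by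
  classical
  set M : Matrix ι (Fin k) (Res A) := Matrix.of fun i j => red A (w j i s)
  have hker : finrank (Res A) (LinearMap.ker M.mulVecLin) ≤ 0 := by
    rw [Nat.le_zero, Submodule.finrank_eq_zero, Matrix.ker_mulVecLin_eq_bot_iff]
    intro x hx
    funext j
    refine linearIndependent_iff'.mp hli Finset.univ x ?_ j (Finset.mem_univ j)
    rw [← hx]
    funext i
    simp [M, Matrix.mulVec, dotProduct, mul_comm]
  obtain ⟨I₀, J₀, hJ₀, hdet⟩ := exists_minor M hker
  have hk : Fintype.card (Fin k) - 0 = k := by simp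
  set p : Fin k → ι := fun j => I₀ (Fin.cast hk.symm j)
  set σ : Fin k → Fin k := fun j => J₀ (Fin.cast hk.symm j)
  have hσ : Function.Bijective σ :=
    Finite.injective_iff_bijective.mp fun a b h => Fin.cast_injective _ (hJ₀ h)
  let L := Loc K A s
  let MI : Matrix (Fin k) (Fin k) L := fun r j => ⟨w j (p r), hw j (p r)⟩
  set D : S → Qbar := ((MI.det : L) : S → Qbar)
  let ev : S → (L →ₐ[Zl ℓ] Qbar) :=
    fun t => (Pi.evalAlgHom (Zl ℓ) (fun _ : S => Qbar) t).comp L.val
  let Mt : S → Matrix (Fin k) (Fin k) Qbar := fun t => Matrix.of fun r j => w j (p r) t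
  have hDt : ∀ t, D t = (Mt t).det := fun t => by
    show ev t MI.det = _
    rw [AlgHom.map_det]
    rfl
  have hD1 : IsVUnit A (D s) := by
    obtain ⟨hmem, hred⟩ := det_mem (A := A) (M := Mt s) fun r j => Loc.apply_mem hK (hw j (p r))
    rw [hDt]
    refine (red_ne_zero_iff hmem).mp ?_
    rw [hred]
    have e1 : (Mt s).map (red A) = (M.submatrix I₀ J₀).submatrix (finCongr hk.symm)
        ((Equiv.ofBijective σ hσ).symm.trans (finCongr hk.symm)) := by
      ext r j
      have h2 : J₀ (Fin.cast hk.symm ((Equiv.ofBijective σ hσ).symm j)) = j :=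
        (Equiv.ofBijective σ hσ).apply_symm_apply j
      simp only [Mt, M, p, Matrix.map_apply, Matrix.of_apply, Matrix.submatrix_apply,
        Equiv.trans_apply, finCongr_apply, h2]
    rw [e1]
    exact IsUnit.ne_zero ((Matrix.isUnit_iff_isUnit_det _).mp
      ((Matrix.isUnit_submatrix_equiv _ _).mpr ((Matrix.isUnit_iff_isUnit_det _).mpr hdet.isUnit)))
  have hDinv : D⁻¹ ∈ L := Loc.inv_mem (MI.det).2 hD1
  let u : Fin k → ι → S → Qbar :=
    fun j i => D⁻¹ * ∑ m, ((MI.adjugate m j : L) : S → Qbar) * w m i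
  have hu : ∀ j i, u j i ∈ L := fun j i =>
    mul_mem hDinv (sum_mem fun m _ => mul_mem (MI.adjugate m j).2 (hw m i))
  let d : S → Qbar := e * D
  let u' : Fin k → ι → S → Qbar := fun j i =>
    if h : ∃ l, p l = i then (if p j = i then 1 else 0) else u j i
  have hpinj : Function.Injective p := by
    intro a b hab
    by_contra hne
    apply hD1.ne_zero
    rw [hDt]
    exact Matrix.det_zero_of_row_eq hne (funext fun j => by simp [Mt, hab])
  refine ⟨p, u', d, fun j i => ?_, mul_mem he (MI.det).2, he1.mul hD1, fun j l t => ?_,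
    fun t ht => ?_⟩
  · simp only [u']
    split_ifs; exacts [one_mem _, zero_mem _, hu j i]
  · simp only [u', dif_pos (show ∃ l', p l' = p l from ⟨l, rfl⟩), hpinj.eq_iff]
    split_ifs <;> rfl
  obtain ⟨het, hDt0⟩ := mul_ne_zero_iff.mp (show e t * D t ≠ 0 from ht)
  have hM0 : (Mt t).det ≠ 0 := hDt t ▸ hDt0
  set C := (Mt t)⁻¹
  have hC : ∀ m j, (D t)⁻¹ * ((MI.adjugate m j : L) : S → Qbar) t = C m j := by
    intro m j
    simp only [C, Matrix.inv_def, Ring.inverse_eq_inv, Matrix.smul_apply, smul_eq_mul, hDt]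
    congr 1
    show ev t (MI.adjugate m j) = _
    exact congrFun (congrFun (RingHom.map_adjugate (ev t).toRingHom MI) m) j
  have hu' : ∀ j, (fun i => u' j i t) = ∑ m, C m j • fun i => w m i t := by
    intro j
    funext i
    simp only [Finset.sum_apply, Pi.smul_apply, smul_eq_mul]
    by_cases h : ∃ l, p l = i
    · obtain ⟨l, rfl⟩ := h
      simp only [u', dif_pos (show ∃ l', p l' = p l from ⟨l, rfl⟩), hpinj.eq_iff, ite_apply,
        Pi.one_apply, Pi.zero_apply]
      have := congrFun (congrFun (Matrix.mul_nonsing_inv (Mt t) hM0.isUnit) l) j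
      rw [Matrix.mul_apply, Matrix.one_apply] at this
      rw [show (if j = l then (1 : Qbar) else 0) = if l = j then 1 else 0 by simp [eq_comm],
        ← this]
      exact Finset.sum_congr rfl fun m _ => mul_comm _ _
    · simp only [u', dif_neg h, u, Pi.mul_apply, Pi.inv_apply, Finset.sum_apply, Finset.mul_sum]
      exact Finset.sum_congr rfl fun m _ => by rw [← hC]; ring
  rw [hU t het]
  refine le_antisymm (Submodule.span_le.mpr ?_) (Submodule.span_le.mpr ?_)
  · rintro _ ⟨m, rfl⟩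
    refine (Submodule.mem_span_range_iff_exists_fun _).mpr ⟨fun j => Mt t j m, ?_⟩
    simp only [hu', Finset.smul_sum, smul_smul]
    rw [Finset.sum_comm]
    simp only [← Finset.sum_smul]
    rw [Finset.sum_eq_single m]
    · rw [show ∑ j, Mt t j m * C m j = (C * Mt t) m m by
          rw [Matrix.mul_apply]; exact Finset.sum_congr rfl fun j _ => mul_comm _ _,
        Matrix.nonsing_inv_mul _ hM0.isUnit, Matrix.one_apply_eq, one_smul]
    · intro m' _ hne
      rw [show ∑ j, Mt t j m * C m' j = (C * Mt t) m' m by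
          rw [Matrix.mul_apply]; exact Finset.sum_congr rfl fun j _ => mul_comm _ _,
        Matrix.nonsing_inv_mul _ hM0.isUnit, Matrix.one_apply_ne hne, zero_smul]
    · exact fun h => absurd (Finset.mem_univ m) h
  · rintro _ ⟨j, rfl⟩
    show (fun i => u' j i t) ∈ _
    rw [hu']
    exact Submodule.sum_mem _ fun m _ => Submodule.smul_mem _ _ (Submodule.subset_span ⟨m, rfl⟩)

namespace GoodModel

variable [Fact ℓ.Prime] (C : GoodModel ℓ)

/-- The matrix of multiplication by a vector, as a function of that vector. -/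
def mulMat {B : Type*} [CommRing B] [Algebra (Zl ℓ) B] (n m N : ℕ) (y : C.Idx m → B) :
    Matrix (C.Idx N) (C.Idx n) B :=
  Matrix.of fun a i => ∑ j, y j * algebraMap (Zl ℓ) B (C.b.repr (C.b i.1 * C.b j.1) a.1)

theorem mulMat_mulVec (K : Type) [Field K] [Algebra (Zl ℓ) K] (n m N : ℕ) (y : C.Idx m → K)
    (x : C.Idx n → K) :
    C.mulMat n m N y *ᵥ x = C.vec K N (C.unvec K n x * C.unvec K m y) := by
  funext a
  rw [vec_apply, unvec, unvec, Fintype.linearCombination_apply, Fintype.linearCombination_apply,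
    Finset.sum_mul_sum, map_sum, Finsupp.finsetSum_apply, Matrix.mulVec, dotProduct]
  refine Finset.sum_congr rfl fun i _ => ?_
  rw [map_sum, Finsupp.finsetSum_apply, mulMat, Matrix.of_apply, Finset.sum_mul]
  refine Finset.sum_congr rfl fun j _ => ?_
  rw [smul_mul_smul_comm, map_smul, Finsupp.smul_apply, smul_eq_mul, repr_mul_basis]
  ring

variable {C}

variable {K : Subalgebra (Zl ℓ) (S → Qbar)} {v : Pl ℓ} {s : S}

theorem mulMat_mem {n m N : ℕ} {y : C.Idx m → S → Qbar} (hy : ∀ j, y j ∈ Loc K v.A s)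
    (a : C.Idx N) (i : C.Idx n) : C.mulMat n m N y a i ∈ Loc K v.A s :=
  sum_mem fun j _ => mul_mem (hy j) ((Loc K v.A s).algebraMap_mem _)

theorem mulMat_apply {n m N : ℕ} (y : C.Idx m → S → Qbar) (t : S) :
    (Matrix.of fun a i => C.mulMat n m N y a i t) = C.mulMat n m N (fun j => y j t) := by
  ext a i
  simp [mulMat, Finset.sum_apply]

theorem red_mulMat {n m N : ℕ} {y : C.Idx m → S → Qbar} (hy : ∀ j, y j s ∈ v.A) :
    (Matrix.of fun a i => red v.A (C.mulMat n m N y a i s)) =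
      C.mulMat n m N (fun j => red v.A (y j s)) := by
  ext a i
  simp only [mulMat, Matrix.of_apply, Finset.sum_apply, Pi.mul_apply, Pi.algebraMap_apply]
  rw [red_sum fun j _ => v.A.mul_mem _ _ (hy j) (v.algebraMap_mem _)]
  exact Finset.sum_congr rfl fun j _ => by
    rw [red_mul (hy j) (v.algebraMap_mem _), v.red_algebraMap]

/-- Spanning coordinates give spanning elements. -/
theorem LI_eq_span {I : Ideal (C.R Qbar)} {n : ℕ} {α : Type*} {u : α → C.Idx n → Qbar}
    (h : C.vLI Qbar I n = Submodule.span Qbar (Set.range u)) :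
    (C.P Qbar).LI I n = Submodule.span Qbar (Set.range fun j => C.unvec Qbar n (u j)) := by
  have h2 : (C.P Qbar).LI I n = (C.vLI Qbar I n).map (C.unvec Qbar n) := by
    ext x
    constructor
    · exact fun hx => ⟨_, ⟨x, hx, rfl⟩, C.unvec_vec₀ hx.2⟩
    · rintro ⟨_, ⟨y, hy, rfl⟩, rfl⟩
      rw [C.unvec_vec₀ hy.2]; exact hy
  rw [h2, h, Submodule.map_span, ← Set.range_comp]
  rfl

/-- An element family of degree `d`, regular with unit top coefficient. -/
def RegElt (K : Subalgebra (Zl ℓ) (S → Qbar)) (v : Pl ℓ) (s : S) (f : S → C.R Qbar) (d : ℕ) :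
    Prop :=
  ∃ (hd : 2 * C.g ≤ d) (a : C.Idx d → S → Qbar), (∀ i, a i ∈ Loc K v.A s) ∧
    IsVUnit v.A (a ⟨⟨d, C.mem_S hd⟩, le_rfl⟩ s) ∧ ∀ t, f t = C.unvec Qbar d fun i => a i t

theorem RegElt.at_point {f : S → C.R Qbar} {d : ℕ} (h : RegElt K v s f d)
    (hK : ∀ g ∈ K, g s ∈ v.A) :
    IsInt v (f s) ∧ redR v (f s) ≠ 0 ∧ (C.P v.k).deg (redR v (f s)) = d ∧
      ∃ e ∈ Loc K v.A s, IsVUnit v.A (e s) ∧
        ∀ t, e t ≠ 0 → f t ≠ 0 ∧ (C.P Qbar).deg (f t) = d := by
  obtain ⟨hd, a, ha, ha1, hf⟩ := h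
  have hA : ∀ i, a i s ∈ v.A := fun i => Loc.apply_mem hK (ha i)
  set top : C.Idx d := ⟨⟨d, C.mem_S hd⟩, le_rfl⟩
  have hcoef : ∀ t, (C.bK Qbar).repr (f t) top.1 = a top t := fun t => by
    rw [hf]
    exact congrFun (C.vec_unvec Qbar d fun i => a i t) top
  have hint : IsInt v (f s) := hf s ▸ isInt_unvec hA
  have hr : (C.bK v.k).repr (redR v (f s)) top.1 ≠ 0 := by
    rw [repr_redR, hcoef]
    exact (red_ne_zero_iff (hA top)).mpr ha1
  refine ⟨hint, fun h0 => hr (by rw [h0, map_zero, Finsupp.zero_apply]), ?_, a top, ha _, ha1,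
    fun t ht => ⟨fun h0 => ht (by rw [← hcoef t, h0, map_zero, Finsupp.zero_apply]), ?_⟩⟩
  · exact (C.deg_eq_of_repr hd (redR_mem_L (hf s ▸ C.unvec_mem Qbar d _)) hr).2
  · exact (C.deg_eq_of_repr hd (hf t ▸ C.unvec_mem Qbar d _)
      fun h0 => ht ((hcoef t).symm.trans h0)).2

theorem RegElt.aff {f : S → C.R Qbar} {d : ℕ} (h : RegElt K v s f d)
    (hK : ∀ g ∈ K, g s ∈ v.A) :
    AFF v (Ideal.span {f s}) ∧ redI v (Ideal.span {f s}) = Ideal.span {redR v (f s)} ∧
      (C.P Qbar).codim (Ideal.span {f s}) = d := by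
  obtain ⟨hi, hr, hd, e, -, he1, hdeg⟩ := h.at_point hK
  obtain ⟨hne, hde⟩ := hdeg s he1.ne_zero
  exact ⟨aff_span_singleton hi hr (hd.trans hde.symm), redI_span_singleton hi hr,
    by rw [(C.P Qbar).codim_span_singleton hne, hde]⟩

/-- `I` is a regular family of codimension `c`, with coordinates known in degree `m`. -/
structure RegAt (K : Subalgebra (Zl ℓ) (S → Qbar)) (v : Pl ℓ) (s : S)
    (I : S → Ideal (C.R Qbar)) (c m : ℕ) : Prop where
  aff : AFF v (I s)
  codim_eq : (C.P Qbar).codim (I s) = c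
  support : ∃ e ∈ Loc K v.A s, IsVUnit v.A (e s) ∧
    ∀ t, e t ≠ 0 → I t ≠ ⊥ ∧ (C.P Qbar).codim (I t) = c
  large : c + 3 * C.g ≤ m
  reg : IsReg K v.A s (fun t => C.vLI Qbar (I t) m) (m + 1 - (C.g + c))

/-- `I` is a regular family in every large degree. -/
def RegI (K : Subalgebra (Zl ℓ) (S → Qbar)) (v : Pl ℓ) (s : S) (I : S → Ideal (C.R Qbar))
    (c : ℕ) : Prop :=
  ∀ n, c + 3 * C.g ≤ n → RegAt K v s I c n

/-- The quotient `Z` of `f J` by `I` is nonzero, and its codimension is the expected one. -/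
theorem codim_of_mul_eq {I J Z : Ideal (C.R Qbar)} {f : C.R Qbar} (hI : I ≠ ⊥) (hJ : J ≠ ⊥)
    (hf : f ≠ 0) (h : I * Z = Ideal.span {f} * J) :
    Z ≠ ⊥ ∧ (C.P Qbar).codim Z + (C.P Qbar).codim I =
      (C.P Qbar).deg f + (C.P Qbar).codim J := by
  have := (C.P Qbar).noZeroDivisors
  have hf' : Ideal.span {f} ≠ ⊥ := by simpa using hf
  have hZ : Z ≠ ⊥ := fun h0 => mul_ne_zero hf' hJ (by rw [← h, h0, Ideal.mul_bot]; rfl)
  refine ⟨hZ, ?_⟩
  rw [add_comm, ← (C.P Qbar).codim_mul hI hZ, h, (C.P Qbar).codim_mul hf' hJ,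
    (C.P Qbar).codim_span_singleton hf]

/-- Reducing `f * (J ∩ L j)` gives elements of `redR f * (redI J ∩ L j)`. -/
theorem redSub_map_mul_le {f : C.R Qbar} {J : Ideal (C.R Qbar)} {d j k : ℕ}
    (haff : AFF v (Ideal.span {f})) (hJ : AFF v J)
    (hredf : redI v (Ideal.span {f}) = Ideal.span {redR v f}) (hfr : redR v f ≠ 0)
    (hfd : (C.P v.k).deg (redR v f) = d) (hfdeg : (C.P Qbar).deg f = d) (hjk : j + d = k) :
    redSub v.A (((C.P Qbar).LI J j).map ((C.vec Qbar k).comp (LinearMap.mulRight Qbar f))) ≤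
      ((redI v J).restrictScalars v.k ⊓ (C.P v.k).L j).map
        ((C.vec v.k k).comp (LinearMap.mulRight v.k (redR v f))) := by
  have := (C.P v.k).noZeroDivisors
  refine Submodule.span_le.mpr ?_
  rintro _ ⟨z, ⟨⟨q, ⟨hqJ, hqL⟩, rfl⟩, hzA⟩, rfl⟩
  have hint : IsInt v (q * f) := by
    have hqfL : q * f ∈ (C.P Qbar).L k :=
      (C.P Qbar).L_mono hjk.le
        ((C.P Qbar).mul_mem_L hqL ((C.P Qbar).deg_le_iff.mp hfdeg.le))
    have := isInt_unvec (v := v) (C := C) hzA
    rwa [LinearMap.comp_apply, LinearMap.mulRight_apply, C.unvec_vec₀ hqfL] at this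
  have hqfmem : q * f ∈ Ideal.span {f} * J := by
    rw [mul_comm q]; exact Ideal.mul_mem_mul (Ideal.mem_span_singleton_self _) hqJ
  have hmem := mem_redI hqfmem hint
  rw [AFF.redI_mul haff hJ, hredf] at hmem
  obtain ⟨q', hq', hqe⟩ := Ideal.mem_span_singleton_mul.mp hmem
  refine ⟨q', ⟨hq', ?_⟩, ?_⟩
  · by_cases hq0 : q' = 0
    · exact hq0 ▸ Submodule.zero_mem _
    refine (C.P v.k).deg_le_iff.mp ?_
    have h1 : (C.P v.k).deg (redR v f * q') ≤ k := by
      rw [hqe]
      refine (C.P v.k).deg_le_iff.mpr (redR_mem_L ?_)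
      exact (C.P Qbar).L_mono hjk.le
        ((C.P Qbar).mul_mem_L hqL ((C.P Qbar).deg_le_iff.mp hfdeg.le))
    rw [(C.P v.k).deg_mul hfr hq0, hfd] at h1
    omega
  · rw [LinearMap.comp_apply, LinearMap.mulRight_apply, mul_comm q', hqe, vec_redR]
    rfl

/-- If, on coordinates, `x` times a spanning family of `I ∩ L m` lies in `f * J`, then
`x I ⊆ f J`. -/
theorem span_singleton_mul_le {F : Type} [Field F] [Algebra (Zl ℓ) F] [C.Fib F]
    {I J : Ideal (C.R F)} {f x : C.R F} {n m j d k : ℕ} {α : Type*} [Fintype α]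
    {u : α → C.Idx m → F} (hm : 2 * C.g ≤ m + 1) (hk : n + m ≤ k) (hjk : j + d ≤ k)
    (hgen : Ideal.span ((C.P F).LI I m : Set (C.R F)) = I)
    (hu : C.vLI F I m ≤ Submodule.span F (Set.range u)) (hx : x ∈ (C.P F).L n)
    (hf : f ∈ (C.P F).L d)
    (hq : ∀ l, ∃ q, (q ∈ J ∧ q ∈ (C.P F).L j) ∧
      C.vec F k (q * f) = C.vec F k (x * C.unvec F m (u l))) :
    Ideal.span {x} * I ≤ Ideal.span {f} * J := by
  rw [← hgen, Ideal.span_mul_span', Ideal.span_le]
  rintro _ ⟨x', hx', y, hy, rfl⟩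
  rw [Set.mem_singleton_iff] at hx'
  subst hx'
  obtain ⟨b, hb⟩ := (Submodule.mem_span_range_iff_exists_fun _).mp (hu ⟨y, hy, rfl⟩)
  rw [SetLike.mem_coe, ← C.unvec_vec F hm hy.2, ← hb, map_sum]
  simp only [map_smul, Finset.mul_sum, mul_smul_comm]
  refine Ideal.sum_mem _ fun l _ => Submodule.smul_of_tower_mem _ _ ?_
  obtain ⟨q, ⟨hq, hqL⟩, hqe⟩ := hq l
  have hL : x' * C.unvec F m (u l) - q * f ∈ (C.P F).L k := Submodule.sub_mem _
    ((C.P F).L_mono hk ((C.P F).mul_mem_L hx (C.unvec_mem F m _)))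
    ((C.P F).L_mono hjk ((C.P F).mul_mem_L hqL hf))
  rw [sub_eq_zero.mp (C.vec_injOn F (by omega) hL (by rw [map_sub, hqe, sub_self])), mul_comm q]
  exact Ideal.mul_mem_mul (Ideal.mem_span_singleton_self _) hq

/-- The core computation: `{x : x I ⊆ f J}` in degree `n`. -/
theorem reg_div_core (hK : ∀ g ∈ K, g s ∈ v.A) {I J Z : S → Ideal (C.R Qbar)} {cI cJ d m : ℕ}
    {f : S → C.R Qbar} (hf : RegElt K v s f d) (hI : RegAt K v s I cI m) (hJ : RegI K v s J cJ)
    {e : S → Qbar} (he : e ∈ Loc K v.A s) (he1 : IsVUnit v.A (e s))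
    (hrel : ∀ t, e t ≠ 0 → I t * Z t = Ideal.span {f t} * J t)
    {n k : ℕ} (hn : d + cJ + 3 * C.g ≤ n + m) (hk : k ≤ Fintype.card (C.Idx n))
    (hlow : ∀ t, e t ≠ 0 → Z t ≠ ⊥ → (C.P Qbar).codim (Z t) + cI = d + cJ →
      k ≤ finrank Qbar ((C.P Qbar).LI (Z t) n))
    (hup : finrank v.k ((C.P v.k).LI (redI v (Z s)) n) ≤ k) :
    IsReg K v.A s (fun t => C.vLI Qbar (Z t) n) k := by
  classical
  have := (C.P Qbar).noZeroDivisors
  have := (C.P v.k).noZeroDivisors
  obtain ⟨eI, heI, heI1, hIt⟩ := hI.support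
  set NJ := n + m - d
  obtain ⟨eJ, heJ, heJ1, hJt⟩ := (hJ NJ (by omega)).support
  obtain ⟨hfi, hfr, hfd, ef, hef, hef1, hft⟩ := hf.at_point hK
  obtain ⟨haff, hredf, hcf⟩ := hf.aff hK
  obtain ⟨hd, a, ha, -, hfa⟩ := hf
  obtain ⟨pI, uI, dI, huI, hdI, hdI1, hpI, hUI⟩ := hI.reg
  -- `f * (J ∩ L NJ)` is regular
  obtain ⟨pJ, uJ, dJ, huJ, hdJ, hdJ1, hpJ, hUJ⟩ := (hJ NJ (by omega)).reg
  let w : Fin (NJ + 1 - (C.g + cJ)) → C.Idx (n + m) → S → Qbar :=
    fun j r => ∑ i, C.mulMat NJ d (n + m) a r i * uJ j i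
  have hwt : ∀ j t, (fun r => w j r t) =
      C.vec Qbar (n + m) (C.unvec Qbar NJ (fun i => uJ j i t) * f t) := by
    intro j t
    rw [hfa, ← C.mulMat_mulVec, ← mulMat_apply]
    funext r
    simp [w, Matrix.mulVec, dotProduct, Finset.sum_apply]
  set V : S → Submodule Qbar (C.Idx (n + m) → Qbar) :=
    fun t => ((C.P Qbar).LI (J t) NJ).map
      ((C.vec Qbar (n + m)).comp (LinearMap.mulRight Qbar (f t)))
  have huIA : ∀ j i, uI j i s ∈ v.A := fun j i => Loc.apply_mem hK (huI j i)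
  have huJA : ∀ j i, uJ j i s ∈ v.A := fun j i => Loc.apply_mem hK (huJ j i)
  have haA : ∀ i, a i s ∈ v.A := fun i => Loc.apply_mem hK (ha i)
  have hspanJ : ∀ t, dJ t ≠ 0 → (C.P Qbar).LI (J t) NJ =
      Submodule.span Qbar (Set.range fun j => C.unvec Qbar NJ fun i => uJ j i t) := fun t ht =>
    LI_eq_span (hUJ t ht)
  have hredu : ∀ j, redR v (C.unvec Qbar NJ fun i => uJ j i s) =
      C.unvec v.k NJ fun i => red v.A (uJ j i s) := by
    intro j
    have h := vec_redR v NJ (C.unvec Qbar NJ fun i => uJ j i s)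
    rw [C.vec_unvec] at h
    rw [← h, C.unvec_vec v.k (by omega) (redR_mem_L (C.unvec_mem Qbar NJ _))]
  have hw_red : ∀ j, (fun r => red v.A (w j r s)) = C.vec v.k (n + m)
      (C.unvec v.k NJ (fun i => red v.A (uJ j i s)) * redR v (f s)) := by
    intro j
    rw [← hredu, ← redR_mul (isInt_unvec (huJA j)) hfi, vec_redR, ← hwt]
  have hLJ : ∀ x : C.R v.k, x ∈ (C.P v.k).L NJ →
      x * redR v (f s) ∈ (C.P v.k).L (n + m) := fun x hx =>
    (C.P v.k).L_mono (show NJ + d ≤ n + m by omega)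
      ((C.P v.k).mul_mem_L hx ((C.P v.k).deg_le_iff.mp hfd.le))
  have hV : IsReg K v.A s V (NJ + 1 - (C.g + cJ)) := by
    refine IsReg.of_span hK (w := w)
      (fun j r => sum_mem fun i _ => mul_mem (mulMat_mem ha r i) (huJ j i)) hdJ hdJ1 ?_ ?_
    · intro t ht
      simp only [V, hspanJ t ht, Submodule.map_span, ← Set.range_comp]
      congr 2
      funext j
      exact (hwt j t).symm
    · rw [show (fun j => fun i => red v.A (w j i s)) = fun j => C.vec v.k (n + m)
        (C.unvec v.k NJ (fun i => red v.A (uJ j i s)) * redR v (f s)) from funext hw_red]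
      rw [linearIndependent_iff']
      intro σ b hb j hj
      have hli := linearIndependent_pivot (R := v.k) (p := pJ)
        (u := fun j i => red v.A (uJ j i s)) fun j l => by rw [hpJ]; split_ifs <;> simp
      refine linearIndependent_iff'.mp hli σ b ?_ j hj
      simp only [← map_smul, ← map_sum, ← smul_mul_assoc, ← Finset.sum_mul] at hb
      have := C.vec_injOn v.k (by omega) (hLJ _ (C.unvec_mem v.k NJ _)) hb
      have h0 := (mul_eq_zero.mp this).resolve_right hfr
      rw [← C.vec_unvec v.k NJ (∑ i ∈ σ, b i • fun r => red v.A (uJ i r s)), h0, map_zero]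
  refine IsReg.preimage hK (T := fun l a' i => C.mulMat n m (n + m) (uI l) a' i)
    (fun l a' i => mulMat_mem (huI l) a' i) hV hk
    (e := e * eI * eJ * ef * dI * dJ)
    (mul_mem (mul_mem (mul_mem (mul_mem (mul_mem he heI) heJ) hef) hdI) hdJ)
    ((((he1.mul heI1).mul heJ1).mul hef1).mul hdI1 |>.mul hdJ1) (fun t ht => ?_) ?_
  · simp only [Pi.mul_apply, mul_ne_zero_iff] at ht
    obtain ⟨⟨⟨⟨⟨het, heIt⟩, heJt⟩, heft⟩, hdIt⟩, hdJt⟩ := ht
    obtain ⟨hI0, hIc⟩ := hIt t heIt
    obtain ⟨hJ0, hJc⟩ := hJt t heJt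
    obtain ⟨hf0, hfdeg⟩ := hft t heft
    have hrelt := hrel t het
    obtain ⟨hZ0, hcZ⟩ := codim_of_mul_eq hI0 hJ0 hf0 hrelt
    rw [hfdeg, hJc, hIc] at hcZ
    refine ⟨fun x => ?_, by rw [C.finrank_vLI₀]; exact hlow t het hZ0 hcZ⟩
    simp only [mulMat_apply, C.mulMat_mulVec, C.mem_vLI]
    constructor
    · intro hx l
      have huIt : C.unvec Qbar m (fun i => uI l i t) ∈ I t :=
        C.mem_vLI.mp (show (fun i => uI l i t) ∈ C.vLI Qbar (I t) m by
          rw [show C.vLI Qbar (I t) m = _ from hUI t hdIt]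
          exact Submodule.subset_span ⟨l, rfl⟩)
      have hmem : C.unvec Qbar n x * C.unvec Qbar m (fun i => uI l i t) ∈
          Ideal.span {f t} * J t := by
        rw [← hrelt, mul_comm (I t)]; exact Ideal.mul_mem_mul hx huIt
      obtain ⟨q, hq, hqe⟩ := Ideal.mem_span_singleton_mul.mp hmem
      refine ⟨q, ⟨hq, ?_⟩, ?_⟩
      · by_cases hq0 : q = 0
        · exact hq0 ▸ Submodule.zero_mem _
        refine (C.P Qbar).deg_le_iff.mp ?_
        have h1 : (C.P Qbar).deg (f t * q) ≤ n + m := (C.P Qbar).deg_le_iff.mpr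
          (hqe ▸ (C.P Qbar).mul_mem_L (C.unvec_mem Qbar n x) (C.unvec_mem Qbar m _))
        rw [(C.P Qbar).deg_mul hf0 hq0, hfdeg] at h1
        omega
      · rw [LinearMap.comp_apply, LinearMap.mulRight_apply, mul_comm q, hqe]
    · intro hx
      have hle : Ideal.span {C.unvec Qbar n x} * I t ≤ Ideal.span {f t} * J t := by
        have := hI.large
        have : (C.P Qbar).g = C.g := rfl
        exact span_singleton_mul_le (j := NJ) (u := fun l i => uI l i t) (by omega) le_rfl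
          (by omega) ((C.P Qbar).span_LI hI0 (by omega)) (hUI t hdIt).le (C.unvec_mem Qbar n x)
          ((C.P Qbar).deg_le_iff.mp hfdeg.le) hx
      rw [← hrelt, mul_comm (I t), ← Ideal.dvd_iff_le, mul_dvd_mul_iff_right hI0,
        Ideal.dvd_iff_le, Ideal.span_singleton_le_iff_mem] at hle
      exact hle
  · refine le_trans (Submodule.finrank_mono ?_) ((C.finrank_vLI_le v.k _ n).trans hup)
    intro x hx
    simp only [Submodule.mem_iInf, Submodule.mem_comap, Matrix.mulVecLin_apply,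
      red_mulMat (huIA _)] at hx
    have hI0 : I s ≠ ⊥ := hI.aff.1
    have hJn := hJ NJ (by omega)
    have hrels := hrel s he1.ne_zero
    have hcZ : AFF v (Z s) := by
      have h1 : AFF v (Ideal.span {f s} * J s) :=
        (aff_mul_iff haff.1 hJn.aff.1).mpr ⟨haff, hJn.aff⟩
      rw [← hrels] at h1
      have hZ0 : Z s ≠ ⊥ := fun h0 => h1.1 (by rw [h0, Ideal.mul_bot])
      exact ((aff_mul_iff hI0 hZ0).mp h1).2
    have hle : Ideal.span {C.unvec v.k n x} * redI v (I s) ≤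
        Ideal.span {redR v (f s)} * redI v (J s) := by
      have := hI.large
      have := hI.aff.2
      have := hI.codim_eq
      have : (C.P v.k).g = C.g := C.P_g v.k
      have hu : C.vLI v.k (redI v (I s)) m ≤
          Submodule.span v.k (Set.range fun l => fun i => red v.A (uI l i s)) := by
        rw [← redSub_eq_span (hUI s hdI1.ne_zero) huIA (fun j l => hpI j l s),
          hI.aff.redSub_vLI (by omega)]
      refine span_singleton_mul_le (j := NJ) (by omega) le_rfl (by omega)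
        ((C.P v.k).span_LI (redI_ne_bot v hI0) (by omega)) hu (C.unvec_mem v.k n x)
        ((C.P v.k).deg_le_iff.mp hfd.le) fun l => ?_
      have hxl := hx l
      rw [C.mulMat_mulVec] at hxl
      exact redSub_map_mul_le haff hJn.aff hredf hfr hfd (hft s hef1.ne_zero).2 (by omega) hxl
    rw [← hredf, ← AFF.redI_mul haff hJn.aff, ← hrels, AFF.redI_mul hI.aff hcZ,
      mul_comm (redI v (I s)), ← Ideal.dvd_iff_le,
      mul_dvd_mul_iff_right (redI_ne_bot v hI0), Ideal.dvd_iff_le,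
      Ideal.span_singleton_le_iff_mem] at hle
    exact C.mem_vLI_of v.k hle

/-- Quotients of regular families of ideals are regular. -/
theorem regI_div (hK : ∀ g ∈ K, g s ∈ v.A) {I J Z : S → Ideal (C.R Qbar)} {cI cJ d m c : ℕ}
    {f : S → C.R Qbar} (hf : RegElt K v s f d) (hI : RegAt K v s I cI m) (hJ : RegI K v s J cJ)
    (hc : c + cI = d + cJ) {e : S → Qbar} (he : e ∈ Loc K v.A s) (he1 : IsVUnit v.A (e s))
    (hrel : ∀ t, e t ≠ 0 → I t * Z t = Ideal.span {f t} * J t) : RegI K v s Z c := by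
  intro n hn
  obtain ⟨hfi, hfr, hfd, ef, hef, hef1, hft⟩ := hf.at_point hK
  obtain ⟨haff, -, hcf⟩ := hf.aff hK
  obtain ⟨eI, heI, heI1, hIt⟩ := hI.support
  obtain ⟨eJ, heJ, heJ1, hJt⟩ := (hJ (cJ + 3 * C.g) le_rfl).support
  have hJn := hJ (cJ + 3 * C.g) le_rfl
  have hrels := hrel s he1.ne_zero
  have hall : ∀ t, (e * eI * eJ * ef) t ≠ 0 → Z t ≠ ⊥ ∧ (C.P Qbar).codim (Z t) = c := by
    intro t ht
    simp only [Pi.mul_apply, mul_ne_zero_iff] at ht
    obtain ⟨⟨⟨het, heIt⟩, heJt⟩, heft⟩ := ht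
    obtain ⟨hI0, hIc⟩ := hIt t heIt
    obtain ⟨hJ0, hJc⟩ := hJt t heJt
    obtain ⟨hf0, hfdeg⟩ := hft t heft
    obtain ⟨hZ0, hcZ⟩ := codim_of_mul_eq hI0 hJ0 hf0 (hrel t het)
    exact ⟨hZ0, by omega⟩
  have hmem : e * eI * eJ * ef ∈ Loc K v.A s :=
    mul_mem (mul_mem (mul_mem he heI) heJ) hef
  have hunit : IsVUnit v.A ((e * eI * eJ * ef) s) := ((he1.mul heI1).mul heJ1).mul hef1
  have haffZ : AFF v (Z s) := by
    have h1 : AFF v (Ideal.span {f s} * J s) :=
      (aff_mul_iff haff.1 hJn.aff.1).mpr ⟨haff, hJn.aff⟩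
    rw [← hrels] at h1
    exact ((aff_mul_iff hI.aff.1 (hall s hunit.ne_zero).1).mp h1).2
  have hg : (C.P Qbar).g = C.g := rfl
  have hg' : (C.P v.k).g = C.g := C.P_g v.k
  refine ⟨haffZ, (hall s hunit.ne_zero).2, ⟨_, hmem, hunit, hall⟩, hn, ?_⟩
  have hcard := C.card_idx (n := n) (by omega)
  refine reg_div_core hK hf hI hJ hmem hunit
    (fun t ht => hrel t (by simp only [Pi.mul_apply, mul_ne_zero_iff] at ht; exact ht.1.1.1))
    (by have := hI.large; omega) (by omega) (fun t ht hZ0 hcZ => ?_) ?_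
  · have := (C.P Qbar).finrank_LI hZ0 (n := n) (by omega)
    omega
  · have := haffZ.2
    have := (hall s hunit.ne_zero).2
    have := (C.P v.k).finrank_LI (redI_ne_bot v haffZ.1) (n := n) (by omega)
    omega

end GoodModel

end Fermat.Agent.Flat
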